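/-
S41 [A], module A4d: the residue field of a valuation subring `A` of an algebraically closed field
is algebraically closed; if a prime number `ℓ` is a non-unit of `A` then the residue field has
characteristic `ℓ`, and every integer prime to `ℓ` is a unit of `A`.
-/
import Mathlib

set_option autoImplicit false
set_option linter.unusedSectionVars false

namespace Fermat.Agent.Lib.S41

open IsLocalRing Polynomial

variable {K : Type*} [Field K] (A : ValuationSubring K)

/-- **The residue field of a valuation subring of an algebraically closed field is algebraically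
closed.** -/
theorem s41a_isAlgClosed_residueField [IsAlgClosed K] : IsAlgClosed (ResidueField A) := by
  apply IsAlgClosed.of_exists_root
  intro q hq hirr
  obtain ⟨Q, hQmap, hQdeg, hQmon⟩ := lifts_and_natDegree_eq_and_monic
    ((mem_lifts q).mpr (map_surjective (residue A) residue_surjective q)) hq
  have hdeg : (Q.map A.subtype).degree ≠ 0 := by
    rw [degree_map_eq_of_injective (f := A.subtype) Subtype.val_injective]
    intro h0
    have h1 : Q.natDegree = 0 := natDegree_eq_of_degree_eq_some h0
    rw [hQdeg] at h1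
    exact hirr.natDegree_pos.ne' h1
  obtain ⟨z, hz⟩ := IsAlgClosed.exists_root (Q.map A.subtype) hdeg
  have hzint : IsIntegral A z := by
    refine ⟨Q, hQmon, ?_⟩
    rw [IsRoot.def, eval_map] at hz
    exact hz
  obtain ⟨a, ha⟩ := IsIntegrallyClosed.isIntegral_iff.mp hzint
  refine ⟨residue A a, ?_⟩
  have hQa : Q.eval a = 0 := by
    apply Subtype.val_injective
    have : (Q.map A.subtype).eval (A.subtype a) = A.subtype (Q.eval a) := by
      rw [eval_map, eval₂_hom]
    rw [IsRoot.def] at hz
    have ha' : A.subtype a = z := ha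
    rw [ha', hz] at this
    exact this.symm
  rw [← hQmap, eval_map, eval₂_hom, hQa, map_zero]

/-- If the prime number `ℓ` is a non-unit of `A`, the residue field has characteristic `ℓ`. -/
theorem s41a_charP_residueField {ℓ : ℕ} (hℓ : ℓ.Prime) (h : (ℓ : K) ∈ A.nonunits) :
    CharP (ResidueField A) ℓ := by
  rw [CharP.charP_iff_prime_eq_zero hℓ]
  have h1 : ((ℓ : A) : K) ∈ A.nonunits := by
    have : ((ℓ : A) : K) = (ℓ : K) := map_natCast A.subtype ℓ
    rw [this]; exact h
  have h2 : (ℓ : A) ∈ maximalIdeal A := ValuationSubring.coe_mem_nonunits_iff.mp h1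
  have h3 : residue A (ℓ : A) = 0 := (residue_eq_zero_iff _).mpr h2
  rw [← h3, map_natCast]

/-- An integer prime to `ℓ` is a unit of `A`. -/
theorem s41a_valuation_intCast_eq_one {ℓ : ℕ} (hℓ : ℓ.Prime) (h : (ℓ : K) ∈ A.nonunits) {n : ℤ}
    (hn : ¬ (ℓ : ℤ) ∣ n) : A.valuation (n : K) = 1 := by
  have hnA : A.valuation (n : K) ≤ 1 := by
    have : (n : K) = ((n : A) : K) := (map_intCast A.subtype n).symm
    rw [this]; exact A.valuation_le_one _
  rcases lt_or_eq_of_le hnA with hlt | heq
  · exfalso
    have hcop : IsCoprime (ℓ : ℤ) n :=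
      (Nat.prime_iff_prime_int.mp hℓ).irreducible.coprime_iff_not_dvd.mpr hn
    obtain ⟨a, b, hab⟩ := hcop
    have hℓv : A.valuation (ℓ : K) < 1 := A.mem_nonunits_iff.mp h
    have haA : A.valuation (a : K) ≤ 1 := by
      have : (a : K) = ((a : A) : K) := (map_intCast A.subtype a).symm
      rw [this]; exact A.valuation_le_one _
    have hbA : A.valuation (b : K) ≤ 1 := by
      have : (b : K) = ((b : A) : K) := (map_intCast A.subtype b).symm
      rw [this]; exact A.valuation_le_one _
    have h1 : A.valuation ((a : K) * (ℓ : K)) < 1 := by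
      rw [map_mul]; exact mul_lt_one_of_nonneg_of_lt_one_right haA zero_le hℓv
    have h2 : A.valuation ((b : K) * (n : K)) < 1 := by
      rw [map_mul]; exact mul_lt_one_of_nonneg_of_lt_one_right hbA zero_le hlt
    have h3 : A.valuation ((a : K) * (ℓ : K) + (b : K) * (n : K)) < 1 :=
      lt_of_le_of_lt (A.valuation.map_add _ _) (max_lt h1 h2)
    have h4 : (a : K) * (ℓ : K) + (b : K) * (n : K) = 1 := by
      have := congrArg (Int.cast : ℤ → K) hab
      push_cast at this
      exact this
    rw [h4, map_one] at h3
    exact lt_irrefl _ h3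
  · exact heq

theorem s41a_valuation_natCast_eq_one {ℓ : ℕ} (hℓ : ℓ.Prime) (h : (ℓ : K) ∈ A.nonunits) {n : ℕ}
    (hn : ¬ ℓ ∣ n) : A.valuation (n : K) = 1 := by
  have := s41a_valuation_intCast_eq_one A hℓ h (n := (n : ℤ)) (by exact_mod_cast hn)
  simpa using this

end Fermat.Agent.Lib.S41
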