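/-
S41 [A], module A4a: the kernel of reduction `E₁ = {O} ∪ {v X > 1}` of a Weierstrass curve with
integral coefficients (GENERAL form, `a₁`, `a₃` allowed) over a valued field with `v 2 = 1` is
closed under subtraction and has no `p`-torsion for odd primes `p` with `v p = 1`.
Transport of `Lib/Frey/E1.lean` (short models) along the completion of the square.
-/
import Mathlib
import Fermat.Agent.Lib.Frey.Diff
import Fermat.Agent.Lib.Frey.E1
import Fermat.Agent.Lib.Frey.VarChange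

set_option autoImplicit false
set_option linter.unusedSectionVars false

namespace Fermat.Agent.Lib.S41

open WeierstrassCurve WeierstrassCurve.Affine
open Fermat.Agent.Lib.Frey

variable {K : Type*} [Field K] {Γ₀ : Type*} [LinearOrderedCommGroupWithZero Γ₀]
  (v : Valuation K Γ₀)

/-- Completing the square: `(x, y') ↦ (x, y' - (a₁ x + a₃)/2)`. -/
def s41a_sqC (W : WeierstrassCurve K) : VariableChange K := ⟨1, 0, -(W.a₁ / 2), -(W.a₃ / 2)⟩

section coeffs

variable (W : WeierstrassCurve K) (h2 : (2 : K) ≠ 0)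

include h2 in
theorem s41a_sq_a₁ : (s41a_sqC W • W).a₁ = 0 := by
  simp only [variableChange_a₁, s41a_sqC, inv_one, Units.val_one]; field_simp; ring

include h2 in
theorem s41a_sq_a₃ : (s41a_sqC W • W).a₃ = 0 := by
  simp only [variableChange_a₃, s41a_sqC, inv_one, Units.val_one]; field_simp; ring

include h2 in
theorem s41a_sq_a₂ : (s41a_sqC W • W).a₂ = W.a₂ + W.a₁ ^ 2 * (2 : K)⁻¹ ^ 2 := by
  simp only [variableChange_a₂, s41a_sqC, inv_one, Units.val_one, div_eq_mul_inv]
  field_simp; ring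

include h2 in
theorem s41a_sq_a₄ : (s41a_sqC W • W).a₄ = W.a₄ + W.a₁ * W.a₃ * (2 : K)⁻¹ := by
  simp only [variableChange_a₄, s41a_sqC, inv_one, Units.val_one, div_eq_mul_inv]
  field_simp; ring

include h2 in
theorem s41a_sq_a₆ : (s41a_sqC W • W).a₆ = W.a₆ + W.a₃ ^ 2 * (2 : K)⁻¹ ^ 2 := by
  simp only [variableChange_a₆, s41a_sqC, inv_one, Units.val_one, div_eq_mul_inv]
  field_simp; ring

end coeffs

theorem s41a_v_two_inv (h2 : v (2 : K) = 1) : v ((2 : K)⁻¹) = 1 := by
  rw [map_inv₀, h2, inv_one]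

theorem s41a_two_ne_zero (h2 : v (2 : K) = 1) : (2 : K) ≠ 0 := by
  intro h; rw [h, map_zero] at h2; exact zero_ne_one h2

section integral

variable {v} {W : Affine K} (hW : frd_Integral v W) (h2 : v (2 : K) = 1)

include hW h2

theorem s41a_sq_a₂_le : v (s41a_sqC W • W).a₂ ≤ 1 := by
  rw [s41a_sq_a₂ W (s41a_two_ne_zero v h2)]
  refine (v.map_add_le hW.a2 ?_)
  rw [map_mul, map_pow, map_pow, s41a_v_two_inv v h2, one_pow, mul_one]
  exact pow_le_one₀ zero_le hW.a1

theorem s41a_sq_a₄_le : v (s41a_sqC W • W).a₄ ≤ 1 := by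
  rw [s41a_sq_a₄ W (s41a_two_ne_zero v h2)]
  refine (v.map_add_le hW.a4 ?_)
  rw [map_mul, map_mul, s41a_v_two_inv v h2, mul_one]
  exact mul_le_one₀ hW.a1 zero_le hW.a3

theorem s41a_sq_a₆_le : v (s41a_sqC W • W).a₆ ≤ 1 := by
  rw [s41a_sq_a₆ W (s41a_two_ne_zero v h2)]
  refine (v.map_add_le hW.a6 ?_)
  rw [map_mul, map_pow, map_pow, s41a_v_two_inv v h2, one_pow, mul_one]
  exact pow_le_one₀ zero_le hW.a3

end integral

section points

variable [DecidableEq K] {v} {W : Affine K}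

theorem s41a_frd_E1_iff (P : W.Point) : frd_E1 v W P ↔ fe1_E1 v P := by
  rcases P with _ | ⟨x, y, h⟩
  · exact ⟨fun _ => Or.inl rfl, fun _ => Or.inl rfl⟩
  · constructor
    · rintro (h0 | ⟨x', y', h', hP, hx⟩)
      · exact absurd h0 (Point.some_ne_zero _)
      · right
        have hxx : x = x' := by injection hP
        subst hxx
        exact hx
    · rintro (h0 | hx)
      · exact absurd h0 (Point.some_ne_zero _)
      · exact Or.inr ⟨x, y, h, rfl, hx⟩

/-- The completion of the square preserves the `X`-coordinate. -/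
theorem s41a_sq_X (P : (s41a_sqC W • W).toAffine.Point) :
    fe1_X (fvc_pointEquiv W (s41a_sqC W) P) = fe1_X P := by
  rcases P with _ | ⟨x, y, h⟩
  · rfl
  · show fvc_X (s41a_sqC W) x = x
    simp [fvc_X, s41a_sqC]

theorem s41a_sq_E1_iff (P : (s41a_sqC W • W).toAffine.Point) :
    fe1_E1 v (fvc_pointEquiv W (s41a_sqC W) P) ↔ fe1_E1 v P := by
  unfold fe1_E1
  rw [s41a_sq_X, AddEquiv.map_eq_zero_iff]

/-- **`E₁` is closed under subtraction** (general integral Weierstrass model, `v 2 = 1`). -/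
theorem s41a_E1_sub (hW : frd_Integral v W) (h2 : v (2 : K) = 1) {P Q : W.Point}
    (hP : frd_E1 v W P) (hQ : frd_E1 v W Q) : frd_E1 v W (P - Q) := by
  set φ := fvc_pointEquiv W (s41a_sqC W) with hφ
  have h2' := s41a_two_ne_zero v h2
  rw [s41a_frd_E1_iff] at hP hQ ⊢
  have hP' : fe1_E1 v (φ.symm P) := by
    rw [← s41a_sq_E1_iff, ← hφ, AddEquiv.apply_symm_apply]; exact hP
  have hQ' : fe1_E1 v (φ.symm Q) := by
    rw [← s41a_sq_E1_iff, ← hφ, AddEquiv.apply_symm_apply]; exact hQ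
  have := fe1_E1_sub v (W := (s41a_sqC W • W).toAffine) (s41a_sq_a₁ W h2') (s41a_sq_a₃ W h2')
    (s41a_sq_a₂_le hW h2) (s41a_sq_a₄_le hW h2) (s41a_sq_a₆_le hW h2) h2 hP' hQ'
  rw [← s41a_sq_E1_iff, ← hφ, map_sub, AddEquiv.apply_symm_apply, AddEquiv.apply_symm_apply] at this
  exact this

/-- **`E₁` has no `p`-torsion** for an odd prime `p` with `v p = 1` (general integral Weierstrass
model, `v 2 = 1`). -/
theorem s41a_E1_torsion_free (hW : frd_Integral v W) (h2 : v (2 : K) = 1) {p : ℕ} (hp : p.Prime)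
    (hp2 : p ≠ 2) (hvp : v (p : K) = 1) {P : W.Point} (hP : frd_E1 v W P) (hpP : p • P = 0) :
    P = 0 := by
  set φ := fvc_pointEquiv W (s41a_sqC W) with hφ
  have h2' := s41a_two_ne_zero v h2
  rw [s41a_frd_E1_iff] at hP
  have hP' : fe1_E1 v (φ.symm P) := by
    rw [← s41a_sq_E1_iff, ← hφ, AddEquiv.apply_symm_apply]; exact hP
  have hpP' : p • φ.symm P = 0 := by rw [← map_nsmul, hpP, map_zero]
  have := fe1_E1_torsion_free v (W := (s41a_sqC W • W).toAffine) (s41a_sq_a₁ W h2')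
    (s41a_sq_a₃ W h2') (s41a_sq_a₂_le hW h2) (s41a_sq_a₄_le hW h2) (s41a_sq_a₆_le hW h2) h2 hp hp2
    hvp hP' hpP'
  exact (AddEquiv.map_eq_zero_iff φ.symm).mp this

end points

end Fermat.Agent.Lib.S41
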