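/-
S41 [A], module A4b: the REDUCTION MAP.  `A` a valuation subring of a field `K`, `W` a Weierstrass
curve over `A` whose special fibre `Wk = W.map (residue A)` is elliptic (good reduction),
`WK = W.map A.subtype` the generic fibre.  `s41a_red : WK.Point → Wk.Point` sends an affine point
with integral `X` (hence integral `Y`) to the point with reduced coordinates, everything else to
`0`.  If `v 2 = 1` and `p` is an odd prime with `v p = 1`, then on the `p`-torsion of `WK`:
all non-zero points are integral, `red` is injective and additive, hence lands in the `p`-torsion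
of `Wk`.
-/
import Mathlib
import Fermat.Agent.Lib.S41.ARedL2

set_option autoImplicit false
set_option linter.unusedSectionVars false

namespace Fermat.Agent.Lib.S41

open WeierstrassCurve WeierstrassCurve.Affine IsLocalRing
open Fermat.Agent.Lib.Frey

variable {K : Type*} [Field K] (A : ValuationSubring K) (W : WeierstrassCurve A)

/-- The generic fibre. -/
abbrev s41a_WK : WeierstrassCurve K := W.map A.subtype

/-- The special fibre. -/
abbrev s41a_Wk : WeierstrassCurve (ResidueField A) := W.map (residue A)

/-! ### Residues and the valuation -/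

theorem s41a_res_eq_iff (a b : A) :
    residue A a = residue A b ↔ A.valuation ((a : K) - (b : K)) < 1 := by
  rw [← sub_eq_zero, ← map_sub, residue_eq_zero_iff, A.valuation_lt_one_iff]
  rfl

theorem s41a_isUnit_of_res_ne_zero {a : A} (h : residue A a ≠ 0) : IsUnit a := by
  by_contra hu
  exact h ((residue_eq_zero_iff a).mpr ((mem_maximalIdeal a).mpr hu))

theorem s41a_frd_integral : frd_Integral A.valuation (s41a_WK A W).toAffine :=
  ⟨A.valuation_le_one _, A.valuation_le_one _, A.valuation_le_one _, A.valuation_le_one _,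
    A.valuation_le_one _⟩

theorem s41a_v_Δ [(s41a_Wk A W).IsElliptic] : A.valuation (s41a_WK A W).Δ = 1 := by
  have h1 : (s41a_WK A W).Δ = ((W.Δ : A) : K) := by
    rw [s41a_WK, map_Δ]; rfl
  rw [h1, ← A.valuation_eq_one_iff]
  apply s41a_isUnit_of_res_ne_zero
  have h2 : residue A W.Δ = (s41a_Wk A W).Δ := by rw [s41a_Wk, map_Δ]
  rw [h2]
  exact (s41a_Wk A W).isUnit_Δ.ne_zero

/-! ### Integrality of `Y` -/

theorem s41a_y_mem {x y : K} (hx : x ∈ A) (h : (s41a_WK A W).toAffine.Equation x y) : y ∈ A := by
  by_contra hy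
  have hyi : y⁻¹ ∈ A := (A.mem_or_inv_mem y).resolve_left hy
  have hy0 : y ≠ 0 := by rintro rfl; exact hy A.zero_mem
  rw [Affine.equation_iff] at h
  simp only [map_a₁, map_a₂, map_a₃, map_a₄, map_a₆, ValuationSubring.subtype_apply] at h
  have key : y = (x ^ 3 + (W.a₂ : K) * x ^ 2 + (W.a₄ : K) * x + (W.a₆ : K)) * y⁻¹
      - (W.a₁ : K) * x - (W.a₃ : K) := by
    rw [← h]; field_simp; ring
  apply hy
  rw [key]
  have m1 := (W.a₁).2
  have m2 := (W.a₂).2
  have m3 := (W.a₃).2
  have m4 := (W.a₄).2
  have m6 := (W.a₆).2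
  exact sub_mem (sub_mem (mul_mem (add_mem (add_mem (add_mem (pow_mem hx 3)
    (mul_mem m2 (pow_mem hx 2))) (mul_mem m4 hx)) m6) hyi) (mul_mem m1 hx)) m3

/-! ### The reduction map -/

variable [hk : (s41a_Wk A W).IsElliptic]

theorem s41a_red_nonsingular {a b : A}
    (h : (s41a_WK A W).toAffine.Equation (a : K) (b : K)) :
    (s41a_Wk A W).toAffine.Nonsingular (residue A a) (residue A b) := by
  have h1 : W.toAffine.Equation a b :=
    (Affine.map_equation (W := W.toAffine) (f := A.subtype) Subtype.val_injective a b).mp h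
  exact (Affine.equation_iff_nonsingular (W := (s41a_Wk A W).toAffine)).mp (h1.map (residue A))

open Classical in
/-- The reduction map. -/
noncomputable def s41a_red : (s41a_WK A W).toAffine.Point → (s41a_Wk A W).toAffine.Point
  | .zero => 0
  | .some x y h =>
    if hx : x ∈ A then
      .some (residue A ⟨x, hx⟩) (residue A ⟨y, s41a_y_mem A W hx h.1⟩)
        (s41a_red_nonsingular A W (a := ⟨x, hx⟩) (b := ⟨y, s41a_y_mem A W hx h.1⟩) h.1)
    else 0

@[simp] theorem s41a_red_zero : s41a_red A W 0 = 0 := rfl

theorem s41a_red_some {a b : A} (h : (s41a_WK A W).toAffine.Nonsingular (a : K) (b : K)) :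
    s41a_red A W (.some (a : K) (b : K) h) =
      .some (residue A a) (residue A b) (s41a_red_nonsingular A W h.1) := by
  simp only [s41a_red, dif_pos a.2]

theorem s41a_red_some' {x y : K} (h : (s41a_WK A W).toAffine.Nonsingular x y) (hx : x ∈ A) :
    s41a_red A W (.some x y h) =
      .some (residue A ⟨x, hx⟩) (residue A ⟨y, s41a_y_mem A W hx h.1⟩)
        (s41a_red_nonsingular A W (a := ⟨x, hx⟩) (b := ⟨y, s41a_y_mem A W hx h.1⟩) h.1) := by
  simp only [s41a_red, dif_pos hx]

theorem s41a_red_some_not_mem {x y : K} (h : (s41a_WK A W).toAffine.Nonsingular x y)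
    (hx : x ∉ A) : s41a_red A W (.some x y h) = 0 := by
  simp only [s41a_red, dif_neg hx]

theorem s41a_some_congr {F : Type*} [Field F] {W' : WeierstrassCurve F} {x x' y y' : F}
    (hx : x = x') (hy : y = y') (h : W'.toAffine.Nonsingular x y)
    (h' : W'.toAffine.Nonsingular x' y') :
    (Affine.Point.some x y h : W'.toAffine.Point) = Affine.Point.some x' y' h' := by
  subst hx; subst hy; rfl

/-- Every affine point with integral `X` is of the form `(↑a, ↑b)`. -/
theorem s41a_exists_coords {x y : K} (h : (s41a_WK A W).toAffine.Nonsingular x y) (hx : x ∈ A) :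
    ∃ a b : A, (a : K) = x ∧ (b : K) = y :=
  ⟨⟨x, hx⟩, ⟨y, s41a_y_mem A W hx h.1⟩, rfl, rfl⟩

end Fermat.Agent.Lib.S41
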