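/-
S41 [A], module A3: for an elliptic curve over an algebraically closed field of ANY characteristic,
the `n`-torsion is finite with at most `n²` elements.  (The characteristic-zero count `= n²` is
`Lib/EN/Torsion.lean`; here only the upper bound, without separability.)
-/
import Fermat.Agent.Lib.EN.Count

set_option autoImplicit false
set_option linter.unusedSectionVars false

namespace Fermat.Agent.Lib.S41

open Polynomial WeierstrassCurve WeierstrassCurve.Affine
open Fermat.Agent.Lib.EN

variable {K : Type*} [Field K] [DecidableEq K] (W : WeierstrassCurve K)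

/-- If `a, b` are coprime with `max (deg a) (deg b) ≥ 1` then `a - c b ≠ 0`. -/
theorem s41a_sub_C_mul_ne_zero {a b : K[X]} (hab : IsCoprime a b)
    (hd : 1 ≤ max a.natDegree b.natDegree) (c : K) : a - C c * b ≠ 0 := by
  intro h0
  have hac : a = C c * b := sub_eq_zero.mp h0
  have hbu : IsUnit b := by
    have : b ∣ a := ⟨C c, by rw [hac]; ring⟩
    exact hab.symm.isUnit_of_dvd' dvd_rfl this
  have hb : b.natDegree = 0 := natDegree_eq_zero_of_isUnit hbu
  have ha : a.natDegree = 0 := by
    have : a.natDegree ≤ 0 := by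
      rw [hac]
      calc (C c * b).natDegree ≤ (C c).natDegree + b.natDegree := natDegree_mul_le
        _ = 0 := by rw [natDegree_C, hb]
    omega
  rw [ha, hb] at hd
  simp at hd

/-- There is a point `P₀` such that the fibre of `[n]` through `P₀` is finite with at most `n²`
elements. -/
theorem s41a_exists_small_fibre [IsAlgClosed K] [W.IsElliptic] (n : ℕ) (hn : 2 ≤ n) :
    ∃ P₀ : W.toAffine.Point, {P : W.toAffine.Point | n • P = n • P₀}.Finite ∧
      {P : W.toAffine.Point | n • P = n • P₀}.ncard ≤ n ^ 2 := by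
  classical
  set ρ := ent_r W n with hρ
  set a := ρ.num with ha
  set b := ρ.denom with hb
  have hab : IsCoprime a b := RatFunc.isCoprime_num_denom ρ
  have hht : max a.natDegree b.natDegree = n ^ 2 := ent_ht_r W n (by omega)
  have hn2 : 1 ≤ n ^ 2 := Nat.one_le_pow _ _ (by omega)
  have hd : 1 ≤ max a.natDegree b.natDegree := by rw [hht]; exact hn2
  obtain ⟨B, hB⟩ := ent_spec W n hn
  -- the 2-torsion x-coordinates
  set T2 : Set K := {z | ent_V W z z = 0} with hT2
  have hT2fin : T2.Finite := by
    have : T2 = ↑((ent_Vh W X 1).roots.toFinset) := by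
      ext z
      simp only [hT2, Finset.mem_coe, Multiset.mem_toFinset, mem_roots (ent_dup_denom_ne_zero W),
        IsRoot.def, ent_eval_Vh_X_one]
      rfl
    rw [this]; exact Finset.finite_toSet _
  -- the bad points
  set BP : Set W.toAffine.Point := {0} ∪ ⋃ z ∈ (↑B : Set K), {P | ent_HasX W P z} with hBP
  have hBPfin : BP.Finite :=
    (Set.finite_singleton _).union ((Finset.finite_toSet B).biUnion fun z _ => ent_fibre_finite z)
  set C5 : Set K := (fun P => ent_xc W (n • P)) '' BP with hC5
  have hC5fin : C5.Finite := hBPfin.image _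
  set F : Set K := C5 ∪ T2 with hF
  have hFfin : F.Finite := hC5fin.union hT2fin
  -- bad `x₀`
  set R : Set K := ⋃ c ∈ F, {z | (a - C c * b).eval z = 0} with hR
  have hRfin : R.Finite := by
    apply hFfin.biUnion
    intro c _
    have h0 := s41a_sub_C_mul_ne_zero hab hd c
    have : {z | (a - C c * b).eval z = 0} = ↑((a - C c * b).roots.toFinset) := by
      ext z; simp [mem_roots h0]
    rw [this]; exact Finset.finite_toSet _
  obtain ⟨x₀, hx₀⟩ := ((Finset.finite_toSet B).union hRfin).exists_notMem
  have hx₀B : x₀ ∉ B := fun h => hx₀ (Or.inl h)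
  have hx₀R : ∀ c ∈ F, (a - C c * b).eval x₀ ≠ 0 := by
    intro c hc h0
    apply hx₀
    refine Or.inr ?_
    simp only [hR, Set.mem_iUnion]
    exact ⟨c, hc, h0⟩
  obtain ⟨P₀, hP₀⟩ := ent_exists_point (W := W) x₀
  obtain ⟨c, hQ, hval⟩ := hB P₀ x₀ hP₀ hx₀B n (by omega) le_rfl
  obtain ⟨hbx, hax⟩ := hval.num_denom
  have hcF : c ∉ F := by
    intro hc
    apply hx₀R c hc
    simp only [eval_sub, eval_mul, eval_C]
    rw [← hax]; ring
  have hc5 : c ∉ C5 := fun h => hcF (Or.inl h)
  have hcT : ent_V W c c ≠ 0 := fun h => hcF (Or.inr h)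
  set Q := n • P₀ with hQdef
  have hQ0 : Q ≠ 0 := hQ.ne_zero
  have hQneg : Q ≠ -Q := fun h => hcT (hQ.two_torsion h)
  set g := a - C c * b with hg
  have hg0 : g ≠ 0 := s41a_sub_C_mul_ne_zero hab hd c
  have hmaps : Set.MapsTo (ent_xc W) {P : W.toAffine.Point | n • P = Q}
      (↑(g.roots.toFinset) : Set K) := by
    intro P hP
    have hPQ : n • P = Q := hP
    have hP0 : P ≠ 0 := by
      rintro rfl
      rw [smul_zero] at hPQ
      exact hQ0 hPQ.symm
    have hPx := ent_hasX_xc hP0
    have hzB : ent_xc W P ∉ B := by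
      intro hmem
      apply hc5
      refine ⟨P, Or.inr ?_, ?_⟩
      · simp only [Set.mem_iUnion]
        exact ⟨ent_xc W P, hmem, hPx⟩
      · show ent_xc W (n • P) = c
        rw [hPQ]; exact hQ.xc
    obtain ⟨ξ, hξ, hval⟩ := hB P _ hPx hzB n (by omega) le_rfl
    rw [hPQ] at hξ
    have hξc : ξ = c := hξ.unique hQ
    rw [hξc] at hval
    obtain ⟨h1, h2⟩ := hval.num_denom
    rw [Finset.mem_coe, Multiset.mem_toFinset, mem_roots hg0, IsRoot.def]
    simp only [hg, eval_sub, eval_mul, eval_C]
    rw [← h2]; ring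
  have hinj : Set.InjOn (ent_xc W) {P : W.toAffine.Point | n • P = Q} := by
    intro P hP P' hP' hxx
    have hPQ : n • P = Q := hP
    have hPQ' : n • P' = Q := hP'
    have hP0 : P ≠ 0 := by
      rintro rfl
      rw [smul_zero] at hPQ
      exact hQ0 hPQ.symm
    have hP0' : P' ≠ 0 := by
      rintro rfl
      rw [smul_zero] at hPQ'
      exact hQ0 hPQ'.symm
    have h1 := ent_hasX_xc hP0
    have h2 := ent_hasX_xc hP0'
    rw [← hxx] at h2
    rcases ent_HasX.eq_or_eq_neg h1 h2 with h | h
    · exact h
    · exfalso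
      apply hQneg
      calc Q = n • P := hPQ.symm
        _ = n • (-P') := by rw [h]
        _ = -(n • P') := smul_neg _ _
        _ = -Q := by rw [hPQ']
  have hfin : {P : W.toAffine.Point | n • P = Q}.Finite :=
    Set.Finite.of_finite_image ((Finset.finite_toSet _).subset hmaps.image_subset) hinj
  refine ⟨P₀, hfin, ?_⟩
  calc {P : W.toAffine.Point | n • P = Q}.ncard
      ≤ (↑(g.roots.toFinset) : Set K).ncard :=
        Set.ncard_le_ncard_of_injOn (ent_xc W) hmaps hinj (Finset.finite_toSet _)
    _ = g.roots.toFinset.card := Set.ncard_coe_finset _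
    _ ≤ Multiset.card g.roots := Multiset.toFinset_card_le _
    _ ≤ g.natDegree := card_roots' g
    _ ≤ n ^ 2 := by
        rw [← hht, hg]
        refine (natDegree_sub_le _ _).trans (max_le_max le_rfl ?_)
        calc (C c * b).natDegree ≤ (C c).natDegree + b.natDegree := natDegree_mul_le
          _ = b.natDegree := by rw [natDegree_C, zero_add]

/-- **The `n`-torsion of an elliptic curve over an algebraically closed field (any characteristic)
is finite.** -/
theorem s41a_torsion_finite [IsAlgClosed K] [W.IsElliptic] (n : ℕ) (hn : 1 ≤ n) :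
    {P : W.toAffine.Point | n • P = 0}.Finite := by
  rcases Nat.lt_or_ge n 2 with h | h
  · have : n = 1 := by omega
    subst this
    have : {P : W.toAffine.Point | 1 • P = 0} = {0} := by
      ext P; simp
    rw [this]; exact Set.finite_singleton _
  · obtain ⟨P₀, hfin, -⟩ := s41a_exists_small_fibre W n h
    refine Set.Finite.of_finite_image (f := fun P => P + P₀) (hfin.subset ?_)
      (fun P _ P' _ h => add_right_cancel h)
    rintro _ ⟨P, hP, rfl⟩
    have hP' : n • P = 0 := hP
    show n • (P + P₀) = n • P₀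
    rw [smul_add, hP', zero_add]

/-- **The `n`-torsion of an elliptic curve over an algebraically closed field (any characteristic)
has at most `n²` elements.** -/
theorem s41a_ncard_torsion_le [IsAlgClosed K] [W.IsElliptic] (n : ℕ) (hn : 1 ≤ n) :
    {P : W.toAffine.Point | n • P = 0}.ncard ≤ n ^ 2 := by
  rcases Nat.lt_or_ge n 2 with h | h
  · have : n = 1 := by omega
    subst this
    have : {P : W.toAffine.Point | 1 • P = 0} = {0} := by
      ext P; simp
    rw [this, Set.ncard_singleton]; norm_num
  · obtain ⟨P₀, hfin, hle⟩ := s41a_exists_small_fibre W n h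
    refine le_trans ?_ hle
    refine Set.ncard_le_ncard_of_injOn (fun P => P + P₀) ?_ (fun P _ P' _ h => add_right_cancel h)
      hfin
    intro P hP
    have hP' : n • P = 0 := hP
    show n • (P + P₀) = n • P₀
    rw [smul_add, hP', zero_add]

theorem s41a_natCard_torsion_le [IsAlgClosed K] [W.IsElliptic] (n : ℕ) (hn : 1 ≤ n) :
    Nat.card {P : W.toAffine.Point // n • P = 0} ≤ n ^ 2 := by
  have := s41a_ncard_torsion_le W n hn
  rwa [← Nat.card_coe_set_eq] at this

theorem s41a_finite_torsion [IsAlgClosed K] [W.IsElliptic] (n : ℕ) (hn : 1 ≤ n) :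
    Finite {P : W.toAffine.Point // n • P = 0} :=
  (s41a_torsion_finite W n hn).to_subtype

end Fermat.Agent.Lib.S41
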