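/-
S41 [A], module A4c: the reduction map `s41a_red` on `p`-torsion (see `ARedMap.lean`):
integrality, injectivity, additivity, image in the `p`-torsion of the special fibre.
-/
import Mathlib
import Fermat.Agent.Lib.S41.ARedMap

set_option autoImplicit false
set_option linter.unusedSectionVars false

namespace Fermat.Agent.Lib.S41

open WeierstrassCurve WeierstrassCurve.Affine IsLocalRing
open Fermat.Agent.Lib.Frey

variable {K : Type*} [Field K] [DecidableEq K] (A : ValuationSubring K) (W : WeierstrassCurve A)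
  [hk : (s41a_Wk A W).IsElliptic] [DecidableEq (ResidueField A)]

theorem s41a_res_mk_eq {x : K} (hx : x ∈ A) {c : A} (h : x = (c : K)) :
    residue A ⟨x, hx⟩ = residue A c := by
  subst h; rfl

/-! ### Negation -/

theorem s41a_red_neg (P : (s41a_WK A W).toAffine.Point) :
    s41a_red A W (-P) = -s41a_red A W P := by
  rcases P with _ | ⟨x, y, h⟩
  · rfl
  · by_cases hx : x ∈ A
    · rw [Point.neg_some, s41a_red_some' A W _ hx, s41a_red_some' A W h hx, Point.neg_some]
      refine s41a_some_congr rfl ?_ _ _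
      exact (s41a_res_mk_eq A _ (map_negY (W' := W.toAffine) A.subtype ⟨x, hx⟩
        ⟨y, s41a_y_mem A W hx h.1⟩)).trans
        (map_negY (W' := W.toAffine) (residue A) ⟨x, hx⟩ ⟨y, s41a_y_mem A W hx h.1⟩).symm
    · rw [Point.neg_some, s41a_red_some_not_mem A W _ hx, s41a_red_some_not_mem A W h hx]
      rfl

/-! ### Addition, given an integral slope with the right reduction -/

theorem s41a_red_add_of_slope {a₁ b₁ a₂ b₂ l : A}
    (h₁ : (s41a_WK A W).toAffine.Nonsingular (a₁ : K) (b₁ : K))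
    (h₂ : (s41a_WK A W).toAffine.Nonsingular (a₂ : K) (b₂ : K))
    (hxy : ¬((a₁ : K) = a₂ ∧ (b₁ : K) = (s41a_WK A W).toAffine.negY (a₂ : K) (b₂ : K)))
    (hxy' : ¬(residue A a₁ = residue A a₂ ∧
      residue A b₁ = (s41a_Wk A W).toAffine.negY (residue A a₂) (residue A b₂)))
    (hl : (l : K) = (s41a_WK A W).toAffine.slope (a₁ : K) a₂ b₁ b₂)
    (hl' : residue A l = (s41a_Wk A W).toAffine.slope (residue A a₁) (residue A a₂)
      (residue A b₁) (residue A b₂)) :
    s41a_red A W (Point.some _ _ h₁ + Point.some _ _ h₂) =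
      s41a_red A W (Point.some _ _ h₁) + s41a_red A W (Point.some _ _ h₂) := by
  have hX : (s41a_WK A W).toAffine.addX (a₁ : K) a₂
      ((s41a_WK A W).toAffine.slope (a₁ : K) a₂ b₁ b₂) = ((W.toAffine.addX a₁ a₂ l : A) : K) := by
    rw [← hl]; exact map_addX (W' := W.toAffine) A.subtype a₁ a₂ l
  have hY : (s41a_WK A W).toAffine.addY (a₁ : K) a₂ b₁
      ((s41a_WK A W).toAffine.slope (a₁ : K) a₂ b₁ b₂) = ((W.toAffine.addY a₁ a₂ b₁ l : A) : K) := by
    rw [← hl]; exact map_addY (W' := W.toAffine) A.subtype a₁ b₁ a₂ l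
  have hXmem : (s41a_WK A W).toAffine.addX (a₁ : K) a₂
      ((s41a_WK A W).toAffine.slope (a₁ : K) a₂ b₁ b₂) ∈ A := by rw [hX]; exact Subtype.mem _
  rw [Point.add_some hxy, s41a_red_some A W h₁, s41a_red_some A W h₂, Point.add_some hxy',
    s41a_red_some' A W _ hXmem]
  refine s41a_some_congr ?_ ?_ _ _
  · rw [← hl']
    exact (s41a_res_mk_eq A _ hX).trans (map_addX (W' := W.toAffine) (residue A) a₁ a₂ l).symm
  · rw [← hl']
    exact (s41a_res_mk_eq A _ hY).trans (map_addY (W' := W.toAffine) (residue A) a₁ b₁ a₂ l).symm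

/-- Chord case. -/
theorem s41a_red_add_of_X_ne {a₁ b₁ a₂ b₂ : A}
    (h₁ : (s41a_WK A W).toAffine.Nonsingular (a₁ : K) (b₁ : K))
    (h₂ : (s41a_WK A W).toAffine.Nonsingular (a₂ : K) (b₂ : K))
    (hne : residue A a₁ ≠ residue A a₂) :
    s41a_red A W (Point.some _ _ h₁ + Point.some _ _ h₂) =
      s41a_red A W (Point.some _ _ h₁) + s41a_red A W (Point.some _ _ h₂) := by
  have hu : IsUnit (a₁ - a₂) :=
    s41a_isUnit_of_res_ne_zero A (by rw [map_sub]; exact sub_ne_zero.mpr hne)
  obtain ⟨c, hc⟩ := hu.exists_right_inv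
  have hne' : (a₁ : K) ≠ a₂ := fun h => hne (by rw [Subtype.ext h])
  have hcK : ((a₁ : K) - a₂) * (c : K) = 1 := by
    have := congrArg Subtype.val hc
    simpa using this
  refine s41a_red_add_of_slope A W h₁ h₂ (fun h => hne' h.1) (fun h => hne h.1)
    (l := (b₁ - b₂) * c) ?_ ?_
  · rw [slope_of_X_ne hne', eq_div_iff (sub_ne_zero.mpr hne')]
    push_cast
    linear_combination ((b₁ : K) - b₂) * hcK
  · rw [slope_of_X_ne hne, eq_div_iff (sub_ne_zero.mpr hne), ← map_sub, ← map_sub, ← map_mul]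
    congr 1
    linear_combination (b₁ - b₂) * hc

/-- Tangent case. -/
theorem s41a_red_add_self {a b : A}
    (h : (s41a_WK A W).toAffine.Nonsingular (a : K) (b : K))
    (hne : residue A b ≠ (s41a_Wk A W).toAffine.negY (residue A a) (residue A b)) :
    s41a_red A W (Point.some _ _ h + Point.some _ _ h) =
      s41a_red A W (Point.some _ _ h) + s41a_red A W (Point.some _ _ h) := by
  have hnegk : (s41a_Wk A W).toAffine.negY (residue A a) (residue A b) =
      residue A (W.toAffine.negY a b) := map_negY (W' := W.toAffine) (residue A) a b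
  have hnegK : (s41a_WK A W).toAffine.negY (a : K) (b : K) = ((W.toAffine.negY a b : A) : K) :=
    map_negY (W' := W.toAffine) A.subtype a b
  have hu : IsUnit (b - W.toAffine.negY a b) :=
    s41a_isUnit_of_res_ne_zero A (by rw [map_sub, ← hnegk]; exact sub_ne_zero.mpr hne)
  obtain ⟨c, hc⟩ := hu.exists_right_inv
  have hne' : (b : K) ≠ (s41a_WK A W).toAffine.negY (a : K) (b : K) := by
    intro hb
    apply hne
    rw [hnegk]
    congr 1
    exact Subtype.ext (hb.trans hnegK)
  have hcK : ((b : K) - (s41a_WK A W).toAffine.negY (a : K) (b : K)) * (c : K) = 1 := by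
    have := congrArg Subtype.val hc
    rw [hnegK]
    simpa using this
  refine s41a_red_add_of_slope A W h h (fun h => hne' h.2) (fun h => hne h.2)
    (l := (3 * a ^ 2 + 2 * W.a₂ * a + W.a₄ - W.a₁ * b) * c) ?_ ?_
  · rw [slope_of_Y_ne rfl hne', eq_div_iff (sub_ne_zero.mpr hne')]
    simp only [map_a₁, map_a₂, map_a₄, ValuationSubring.subtype_apply]
    have e3 : ((3 : A) : K) = 3 := map_ofNat A.subtype 3
    have e2 : ((2 : A) : K) = 2 := map_ofNat A.subtype 2
    push_cast
    rw [e3, e2]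
    linear_combination (3 * (a : K) ^ 2 + 2 * (W.a₂ : K) * a + W.a₄ - W.a₁ * b) * hcK
  · rw [slope_of_Y_ne rfl hne, eq_div_iff (sub_ne_zero.mpr hne), hnegk]
    simp only [map_a₁, map_a₂, map_a₄]
    rw [← map_sub, ← map_mul]
    simp only [← map_ofNat (residue A), ← map_mul, ← map_pow, ← map_add, ← map_sub]
    congr 1
    linear_combination (3 * a ^ 2 + 2 * W.a₂ * a + W.a₄ - W.a₁ * b) * hc

/-! ### `p`-torsion -/

section torsion

variable (h2 : A.valuation (2 : K) = 1) {p : ℕ} (hp : p.Prime) (hp2 : p ≠ 2)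
  (hvp : A.valuation (p : K) = 1)

include h2 hp hp2 hvp

/-- Non-zero `p`-torsion points are integral. -/
theorem s41a_tors_mem {x y : K} (h : (s41a_WK A W).toAffine.Nonsingular x y)
    (hP : p • (Point.some x y h : (s41a_WK A W).toAffine.Point) = 0) : x ∈ A := by
  by_contra hx
  have hv : 1 < A.valuation x := by
    rw [← not_le, A.valuation_le_one_iff]; exact hx
  have hE1 : frd_E1 A.valuation (s41a_WK A W).toAffine (Point.some x y h) :=
    Or.inr ⟨x, y, h, rfl, hv⟩
  exact Point.some_ne_zero h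
    (s41a_E1_torsion_free (s41a_frd_integral A W) h2 hp hp2 hvp hE1 hP)

/-- The reduction of a non-zero `p`-torsion point is non-zero. -/
theorem s41a_red_ne_zero {P : (s41a_WK A W).toAffine.Point} (hP : p • P = 0) (h0 : P ≠ 0) :
    s41a_red A W P ≠ 0 := by
  rcases P with _ | ⟨x, y, h⟩
  · exact absurd rfl h0
  · rw [s41a_red_some' A W h (s41a_tors_mem A W h2 hp hp2 hvp h hP)]
    exact Point.some_ne_zero _

/-- **The reduction map is injective on `p`-torsion.** -/
theorem s41a_red_inj {P Q : (s41a_WK A W).toAffine.Point} (hP : p • P = 0) (hQ : p • Q = 0)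
    (h : s41a_red A W P = s41a_red A W Q) : P = Q := by
  by_cases hP0 : P = 0
  · by_contra hne
    have hQ0 : Q ≠ 0 := fun h' => hne (by rw [hP0, h'])
    apply s41a_red_ne_zero A W h2 hp hp2 hvp hQ hQ0
    rw [← h, hP0]; rfl
  by_cases hQ0 : Q = 0
  · exfalso
    apply s41a_red_ne_zero A W h2 hp hp2 hvp hP hP0
    rw [h, hQ0]; rfl
  rcases P with _ | ⟨x₁, y₁, h₁⟩
  · exact absurd rfl hP0
  rcases Q with _ | ⟨x₂, y₂, h₂⟩
  · exact absurd rfl hQ0
  have hx₁ := s41a_tors_mem A W h2 hp hp2 hvp h₁ hP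
  have hx₂ := s41a_tors_mem A W h2 hp hp2 hvp h₂ hQ
  rw [s41a_red_some' A W h₁ hx₁, s41a_red_some' A W h₂ hx₂, Point.some.injEq] at h
  obtain ⟨hx, hy⟩ := h
  rw [s41a_res_eq_iff] at hx hy
  have hE1 := frd_sub_mem_E1_of_disc (s41a_frd_integral A W) (s41a_v_Δ A W) h₁ h₂
    ((A.valuation_le_one_iff _).mpr hx₁)
    ((A.valuation_le_one_iff _).mpr (s41a_y_mem A W hx₁ h₁.1)) hx hy
  have h0 := s41a_E1_torsion_free (s41a_frd_integral A W) h2 hp hp2 hvp hE1
    (by rw [smul_sub, hP, hQ, sub_zero])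
  exact sub_eq_zero.mp h0

/-- **The reduction map is additive on `p`-torsion.** -/
theorem s41a_red_add {P Q : (s41a_WK A W).toAffine.Point} (hP : p • P = 0) (hQ : p • Q = 0) :
    s41a_red A W (P + Q) = s41a_red A W P + s41a_red A W Q := by
  by_cases hP0 : P = 0
  · rw [hP0, zero_add, s41a_red_zero, zero_add]
  by_cases hQ0 : Q = 0
  · rw [hQ0, add_zero, s41a_red_zero, add_zero]
  by_cases hPQ : P = -Q
  · rw [hPQ, neg_add_cancel, s41a_red_neg, neg_add_cancel, s41a_red_zero]
  have hnQ : p • (-Q) = 0 := by rw [smul_neg, hQ, neg_zero]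
  have hnP : p • (-P) = 0 := by rw [smul_neg, hP, neg_zero]
  rcases P with _ | ⟨x₁, y₁, h₁⟩
  · exact absurd rfl hP0
  rcases Q with _ | ⟨x₂, y₂, h₂⟩
  · exact absurd rfl hQ0
  have hx₁ := s41a_tors_mem A W h2 hp hp2 hvp h₁ hP
  have hx₂ := s41a_tors_mem A W h2 hp hp2 hvp h₂ hQ
  obtain ⟨a₁, b₁, rfl, rfl⟩ := s41a_exists_coords A W h₁ hx₁
  obtain ⟨a₂, b₂, rfl, rfl⟩ := s41a_exists_coords A W h₂ hx₂
  by_cases hne : residue A a₁ = residue A a₂
  · -- same reduced `X`: `red P = ± red Q`, so `P = ± Q`, so `P = Q`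
    have hred : s41a_red A W (Point.some _ _ h₁) = s41a_red A W (Point.some _ _ h₂) ∨
        s41a_red A W (Point.some _ _ h₁) = -s41a_red A W (Point.some _ _ h₂) := by
      rw [s41a_red_some A W h₁, s41a_red_some A W h₂]
      exact Point.X_eq_iff.mp hne
    have hPQ' : (Point.some _ _ h₁ : (s41a_WK A W).toAffine.Point) = Point.some _ _ h₂ := by
      rcases hred with hr | hr
      · exact s41a_red_inj A W h2 hp hp2 hvp hP hQ hr
      · rw [← s41a_red_neg] at hr
        exact absurd (s41a_red_inj A W h2 hp hp2 hvp hP hnQ hr) hPQ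
    rw [Point.some.injEq] at hPQ'
    obtain ⟨ha, hb⟩ := hPQ'
    have ha' : a₁ = a₂ := Subtype.ext ha
    have hb' : b₁ = b₂ := Subtype.ext hb
    subst ha' hb'
    apply s41a_red_add_self A W h₁
    intro hb
    -- `red P = - red P = red (-P)`, so `P = -P`
    apply hPQ
    apply s41a_red_inj A W h2 hp hp2 hvp hP hnP
    rw [s41a_red_neg, s41a_red_some A W h₁, Point.neg_some]
    exact s41a_some_congr rfl hb _ _
  · exact s41a_red_add_of_X_ne A W h₁ h₂ hne

/-- The reduction of a `p`-torsion point is `p`-torsion. -/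
theorem s41a_red_nsmul {P : (s41a_WK A W).toAffine.Point} (hP : p • P = 0) (k : ℕ) :
    s41a_red A W (k • P) = k • s41a_red A W P := by
  induction k with
  | zero => rw [zero_nsmul, zero_nsmul, s41a_red_zero]
  | succ k ih =>
    have hk : p • (k • P) = 0 := by rw [smul_comm, hP, smul_zero]
    rw [succ_nsmul, succ_nsmul, s41a_red_add A W h2 hp hp2 hvp hk hP, ih]

theorem s41a_red_torsion {P : (s41a_WK A W).toAffine.Point} (hP : p • P = 0) :
    p • s41a_red A W P = 0 := by
  rw [← s41a_red_nsmul A W h2 hp hp2 hvp hP, hP, s41a_red_zero]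

end torsion

end Fermat.Agent.Lib.S41
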