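/-
S41 [A], module A4e: `K` algebraically closed of characteristic zero, `A` a valuation subring,
`W` over `A` with good reduction, `v 2 = 1`, `p` an odd prime with `v p = 1`.  Then the reduction
map is a bijection from the `p`-torsion of the generic fibre onto the `p`-torsion of the special
fibre (`p²` points upstairs, at most `p²` downstairs), and a point of the special fibre which is an
eigenvector of the `ℓ`-power Frobenius with eigenvalue `±1` lifts to an eigenvector of any
"Frobenius" automorphism `σ` of `K` with the same eigenvalue.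
-/
import Mathlib
import Fermat.Agent.Lib.S41.ARedTors
import Fermat.Agent.Lib.S41.ARedRes
import Fermat.Agent.Lib.S41.ABound
import Fermat.Agent.Lib.EN.Torsion
import Fermat.Agent.Lib.Frey.Abstract

set_option autoImplicit false
set_option linter.unusedSectionVars false

namespace Fermat.Agent.Lib.S41

open WeierstrassCurve WeierstrassCurve.Affine IsLocalRing
open Fermat.Agent.Lib.Frey Fermat.Agent.Lib.EN

variable {K : Type*} [Field K] [DecidableEq K] (A : ValuationSubring K) (W : WeierstrassCurve A)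
  [hk : (s41a_Wk A W).IsElliptic] [DecidableEq (ResidueField A)]

/-- The generic fibre of a model with good reduction is elliptic. -/
theorem s41a_WK_isElliptic : (s41a_WK A W).IsElliptic := by
  refine ⟨isUnit_iff_ne_zero.mpr ?_⟩
  intro h0
  have := s41a_v_Δ A W
  rw [h0, map_zero] at this
  exact zero_ne_one this

section torsion

variable [IsAlgClosed K] [CharZero K]
variable (h2 : A.valuation (2 : K) = 1) {p : ℕ} (hp : p.Prime) (hp2 : p ≠ 2)
  (hvp : A.valuation (p : K) = 1)

include h2 hp hp2 hvp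

/-- **The reduction map is surjective onto the `p`-torsion of the special fibre.** -/
theorem s41a_red_surj {Q : (s41a_Wk A W).toAffine.Point} (hQ : p • Q = 0) :
    ∃ P : (s41a_WK A W).toAffine.Point, p • P = 0 ∧ s41a_red A W P = Q := by
  have : (s41a_WK A W).IsElliptic := s41a_WK_isElliptic A W
  have : IsAlgClosed (ResidueField A) := s41a_isAlgClosed_residueField A
  set S : Set (s41a_WK A W).toAffine.Point := {P | p • P = 0} with hS
  set T : Set (s41a_Wk A W).toAffine.Point := {Q | p • Q = 0} with hT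
  have hScard : S.ncard = p ^ 2 := ent_ncard_torsion (s41a_WK A W) p hp.one_le
  have hTcard : T.ncard ≤ p ^ 2 := s41a_ncard_torsion_le (s41a_Wk A W) p hp.one_le
  have hTfin : T.Finite := s41a_torsion_finite (s41a_Wk A W) p hp.one_le
  have hsub : s41a_red A W '' S ⊆ T := by
    rintro _ ⟨P, hP, rfl⟩
    exact s41a_red_torsion A W h2 hp hp2 hvp hP
  have hinj : Set.InjOn (s41a_red A W) S := fun P hP P' hP' h =>
    s41a_red_inj A W h2 hp hp2 hvp hP hP' h
  have himg : (s41a_red A W '' S).ncard = p ^ 2 := by rw [hinj.ncard_image, hScard]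
  have heq : s41a_red A W '' S = T :=
    Set.eq_of_subset_of_ncard_le hsub (by rw [himg]; exact hTcard) hTfin
  have hQT : Q ∈ T := hQ
  rw [← heq] at hQT
  obtain ⟨P, hP, rfl⟩ := hQT
  exact ⟨P, hP, rfl⟩

/-- **Lifting Frobenius eigenvectors with eigenvalue `±1`.** -/
theorem s41a_frob_eigen (σ : K →+* K) (hσA : ∀ a : K, a ∈ A → σ a ∈ A) {ℓ : ℕ}
    (hσres : ∀ (a : A) (h : σ (a : K) ∈ A), residue A ⟨σ (a : K), h⟩ = residue A a ^ ℓ)
    (hσW : (s41a_WK A W).map σ = s41a_WK A W)
    {x y : ResidueField A} (h : (s41a_Wk A W).toAffine.Nonsingular x y)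
    (hQ : p • (Point.some x y h : (s41a_Wk A W).toAffine.Point) = 0) (hx : x ^ ℓ = x)
    (hy : y ^ ℓ = y ∨ y ^ ℓ = (s41a_Wk A W).toAffine.negY x y) :
    ∃ P : (s41a_WK A W).toAffine.Point, P ≠ 0 ∧ p • P = 0 ∧
      (fab_sigma σ (s41a_WK A W) hσW P = P ∨ fab_sigma σ (s41a_WK A W) hσW P = -P) := by
  obtain ⟨P, hP, hred⟩ := s41a_red_surj A W h2 hp hp2 hvp hQ
  have hP0 : P ≠ 0 := by
    rintro rfl
    rw [s41a_red_zero] at hred
    exact Point.some_ne_zero h hred.symm
  refine ⟨P, hP0, hP, ?_⟩
  rcases P with _ | ⟨X, Y, hXY⟩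
  · exact absurd rfl hP0
  have hX := s41a_tors_mem A W h2 hp hp2 hvp hXY hP
  obtain ⟨a, b, rfl, rfl⟩ := s41a_exists_coords A W hXY hX
  rw [s41a_red_some A W hXY, Point.some.injEq] at hred
  obtain ⟨hax, hby⟩ := hred
  have hsP : p • fab_sigma σ (s41a_WK A W) hσW (Point.some _ _ hXY) = 0 := by
    rw [← map_nsmul, hP, map_zero]
  have hnP : p • (-(Point.some _ _ hXY : (s41a_WK A W).toAffine.Point)) = 0 := by
    rw [smul_neg, hP, neg_zero]
  have hredσ : s41a_red A W (fab_sigma σ (s41a_WK A W) hσW (Point.some _ _ hXY)) =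
      Point.some (x ^ ℓ) (y ^ ℓ) (by
        rw [← hax, ← hby, ← hσres a (hσA _ a.2), ← hσres b (hσA _ b.2)]
        exact s41a_red_nonsingular A W (a := ⟨σ a, hσA _ a.2⟩) (b := ⟨σ b, hσA _ b.2⟩)
          (hσW ▸ fab_map_nonsingular σ (s41a_WK A W) hXY).1) := by
    rw [fab_sigma_some, s41a_red_some' A W _ (hσA _ a.2)]
    refine s41a_some_congr ?_ ?_ _ _
    · rw [hσres a (hσA _ a.2), hax]
    · rw [hσres b _, hby]
  rcases hy with hy | hy
  · left
    apply s41a_red_inj A W h2 hp hp2 hvp hsP hP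
    rw [hredσ, s41a_red_some A W hXY]
    exact s41a_some_congr (by rw [hx, hax]) (by rw [hy, hby]) _ _
  · right
    apply s41a_red_inj A W h2 hp hp2 hvp hsP hnP
    rw [hredσ, s41a_red_neg, s41a_red_some A W hXY, Point.neg_some]
    exact s41a_some_congr (by rw [hx, hax]) (by rw [hy, hax, hby]) _ _

end torsion

end Fermat.Agent.Lib.S41
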