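/-
S41 [A], module A6a (local step at a good prime `ℓ`): `W / ℤ`, `ℓ` an odd prime not dividing
`Δ(W)`, `p` an odd prime `≠ ℓ`, `A` a valuation subring of `ℚ̄` over `ℓ`, `σ` a Frobenius element
at `A`.  If the special fibre has a `p`-torsion point which is a `±1`-eigenvector of the `ℓ`-power
Frobenius (`s41a_HasFrobEigen`, the output of the finite-field module A2), then `σ` has a
`±1`-eigenvector in the `p`-torsion of `W(ℚ̄)`.
-/
import Mathlib
import Fermat.Prelude.Def_FLTPrelim_Modularity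
import Fermat.Prelude.Def_EllipticCurve_FrobeniusTrace
import Fermat.Agent.Lib.S41.ARedSurj

set_option autoImplicit false
set_option linter.unusedSectionVars false

namespace Fermat.Agent.Lib.S41

open WeierstrassCurve WeierstrassCurve.Affine IsLocalRing
open Fermat.Agent.Lib.Frey

/-- The output shape of the finite-field module: a `p`-torsion point (automatically `≠ 0`) whose
coordinates satisfy `x^ℓ = x` and `y^ℓ = y` (Frobenius-fixed) or `y^ℓ = negY x y` (Frobenius acts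
as `-1`). -/
def s41a_HasFrobEigen {κ : Type*} [Field κ] [DecidableEq κ] (Wk : WeierstrassCurve κ)
    (p ℓ : ℕ) : Prop :=
  ∃ (x y : κ) (h : Wk.toAffine.Nonsingular x y),
    p • (Point.some x y h : Wk.toAffine.Point) = 0 ∧ x ^ ℓ = x ∧
      (y ^ ℓ = y ∨ y ^ ℓ = Wk.toAffine.negY x y)

local notation "Kb" => AlgebraicClosure ℚ
local notation "Gal" => (AlgebraicClosure ℚ ≃ₐ[ℚ] AlgebraicClosure ℚ)

variable (W : WeierstrassCurve ℤ) (A : ValuationSubring Kb)

/-- The model over `A`. -/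
noncomputable abbrev s41a_WA : WeierstrassCurve A := W.map (Int.castRingHom A)

theorem s41a_WK_eq :
    s41a_WK A (s41a_WA W A) = W.map (Int.castRingHom Kb) := by
  rw [s41a_WK, s41a_WA, WeierstrassCurve.map_map]
  congr 1

theorem s41a_Wk_eq :
    s41a_Wk A (s41a_WA W A) = W.map (Int.castRingHom (ResidueField A)) := by
  rw [s41a_Wk, s41a_WA, WeierstrassCurve.map_map]
  congr 1

theorem s41a_WK_map (σ : Kb →+* Kb) :
    (s41a_WK A (s41a_WA W A)).map σ = s41a_WK A (s41a_WA W A) := by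
  rw [s41a_WK_eq, WeierstrassCurve.map_map]
  congr 1
  exact RingHom.ext_int _ _

variable {W A} {ℓ : ℕ}

theorem s41a_Wk_isElliptic (hℓ : ℓ.Prime) (hA : A.LiesOverPrime ℓ) (hgood : ¬ (ℓ : ℤ) ∣ W.Δ) :
    (s41a_Wk A (s41a_WA W A)).IsElliptic := by
  have : CharP (ResidueField A) ℓ := s41a_charP_residueField A hℓ hA
  refine ⟨isUnit_iff_ne_zero.mpr ?_⟩
  rw [s41a_Wk_eq, map_Δ, eq_intCast]
  intro h0
  exact hgood ((CharP.intCast_eq_zero_iff (ResidueField A) ℓ W.Δ).mp h0)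

theorem s41a_frob_mem {σ : Gal} (hσ : A.IsFrobeniusAt σ ℓ) (a : Kb) (ha : a ∈ A) : σ a ∈ A :=
  ((⟨σ, hσ.mem_decompositionSubgroup⟩ : A.decompositionSubgroup ℚ) • (⟨a, ha⟩ : A)).2

theorem s41a_frob_res {σ : Gal} (hσ : A.IsFrobeniusAt σ ℓ) (a : A) (h : σ (a : Kb) ∈ A) :
    residue A ⟨σ (a : Kb), h⟩ = residue A a ^ ℓ := by
  rw [← hσ.smul_residue_eq (residue A a), ← ResidueField.residue_smul]
  rfl

/-- **Local step.** -/
theorem s41a_local [DecidableEq (ResidueField A)] (hℓ : ℓ.Prime) (hℓ2 : ℓ ≠ 2)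
    (hA : A.LiesOverPrime ℓ)
    (hgood : ¬ (ℓ : ℤ) ∣ W.Δ) {p : ℕ} (hp : p.Prime) (hp2 : p ≠ 2) (hpℓ : p ≠ ℓ) {σ : Gal}
    (hσ : A.IsFrobeniusAt σ ℓ)
    (hfin : s41a_HasFrobEigen (W.map (Int.castRingHom (ResidueField A))) p ℓ) :
    ∃ P : (s41a_WK A (s41a_WA W A)).toAffine.Point, P ≠ 0 ∧ p • P = 0 ∧
      (fab_sigma (σ : Kb →+* Kb) _ (s41a_WK_map W A _) P = P ∨
        fab_sigma (σ : Kb →+* Kb) _ (s41a_WK_map W A _) P = -P) := by
  have hk : (s41a_Wk A (s41a_WA W A)).IsElliptic := s41a_Wk_isElliptic hℓ hA hgood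
  have h2 : A.valuation (2 : Kb) = 1 := by
    have := s41a_valuation_natCast_eq_one A hℓ hA (n := 2) (fun h =>
      hℓ2 ((Nat.prime_dvd_prime_iff_eq hℓ Nat.prime_two).mp h))
    simpa using this
  have hvp : A.valuation (p : Kb) = 1 :=
    s41a_valuation_natCast_eq_one A hℓ hA (fun h =>
      hpℓ ((Nat.prime_dvd_prime_iff_eq hℓ hp).mp h).symm)
  rw [← s41a_Wk_eq] at hfin
  obtain ⟨x, y, h, hQ, hx, hy⟩ := hfin
  exact s41a_frob_eigen A (s41a_WA W A) h2 hp hp2 hvp (σ : Kb →+* Kb)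
    (fun a ha => s41a_frob_mem hσ a ha) (fun a h => s41a_frob_res hσ a h) (s41a_WK_map W A _)
    h hQ hx hy

end Fermat.Agent.Lib.S41
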