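/-
S41 project, package [A] (NonEis), part A2 (helper2): THE FINITE-FIELD SIDE.

`W` a Weierstrass curve over `ℤ`, `ℓ` a prime, `κ` a field extension of `𝔽_ℓ = ZMod ℓ`,
`Frob (x, y) = (x^ℓ, y^ℓ)` on `W(κ)` (`s41af_frob`, an additive endomorphism).
* (a) `s41af_fixed_of_dvd` : `p ∣ #W(𝔽_ℓ)` ⇒ `∃ Q ≠ 0` in `W(κ)`, `p • Q = 0`, `Frob Q = Q`
  (Cauchy + base change).
* (b) `s41af_anti_of_dvd` : `ℓ` odd and good, every element of `𝔽_ℓ` a square in `κ`,
  `p ∣ 2ℓ + 2 - #W(𝔽_ℓ)` ⇒ `∃ Q ≠ 0` in `W(κ)`, `p • Q = 0`, `Frob Q = -Q`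
  (the group `{Q : Frob Q = -Q}` has exactly `2ℓ + 2 - #W(𝔽_ℓ)` elements: with
  `z = 2y + a₁x + a₃`, `z² = D(x)`, the `𝔽_ℓ`-points are `{z^ℓ = z}`, the anti-invariant ones
  `{z^ℓ = -z}`, and for `x ∈ 𝔽_ℓ` the two counts add up to `2`).
* `s41af_main` : `p ∣ a_ℓ² - (ℓ+1)²` ⇒ one of the two (`a_ℓ = W.apOfModel ℓ`).
-/
import Mathlib
import Fermat.Prelude.Def_FLTPrelim_Modularity

set_option autoImplicit false
set_option linter.unusedSectionVars false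
set_option linter.style.haveILetI false

noncomputable section

namespace Fermat.Agent.Lib.S41

open WeierstrassCurve
open scoped WeierstrassCurve.Affine

/-! ### The discriminant form of the Weierstrass equation -/

section Generic

variable {K : Type*} [Field K] (V : WeierstrassCurve.Affine K)

/-- `D(x) = 4x³ + b₂x² + 2b₄x + b₆`. -/
def s41af_D (x : K) : K := 4 * x ^ 3 + V.b₂ * x ^ 2 + 2 * V.b₄ * x + V.b₆

theorem s41af_equation_iff (h2 : (2 : K) ≠ 0) (x y : K) :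
    V.Equation x y ↔ (2 * y + V.a₁ * x + V.a₃) ^ 2 = s41af_D V x := by
  rw [WeierstrassCurve.Affine.equation_iff, s41af_D, WeierstrassCurve.b₂, WeierstrassCurve.b₄,
    WeierstrassCurve.b₆]
  constructor
  · intro h
    linear_combination 4 * h
  · intro h
    have h4 : (4 : K) ≠ 0 := by
      have : (4 : K) = 2 * 2 := by norm_num
      rw [this]
      exact mul_ne_zero h2 h2
    have : 4 * (y ^ 2 + V.a₁ * x * y + V.a₃ * y - (x ^ 3 + V.a₂ * x ^ 2 + V.a₄ * x + V.a₆)) = 0 := by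
      linear_combination h
    rcases mul_eq_zero.mp this with h0 | h0
    · exact absurd h0 h4
    · exact sub_eq_zero.mp h0

/-- the point with coordinates `x`, `y = (z - a₁x - a₃)/2` for `z² = D(x)`. -/
def s41af_mk [V.IsElliptic] (h2 : (2 : K) ≠ 0) (x z : K) (hz : z ^ 2 = s41af_D V x) : V.Point :=
  .some x ((z - V.a₁ * x - V.a₃) / 2)
    ((WeierstrassCurve.Affine.equation_iff_nonsingular (W := V)).mp
      ((s41af_equation_iff V h2 x _).mpr (by
        rw [← hz]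
        congr 1
        field_simp
        ring)))

theorem s41af_mk_ne_zero [V.IsElliptic] (h2 : (2 : K) ≠ 0) (x z : K) (hz : z ^ 2 = s41af_D V x) :
    s41af_mk V h2 x z hz ≠ 0 := by
  intro h
  cases h

theorem s41af_mk_injective [V.IsElliptic] (h2 : (2 : K) ≠ 0) {x z x' z' : K}
    (hz : z ^ 2 = s41af_D V x) (hz' : z' ^ 2 = s41af_D V x')
    (h : s41af_mk V h2 x z hz = s41af_mk V h2 x' z' hz') : x = x' ∧ z = z' := by
  unfold s41af_mk at h
  rw [WeierstrassCurve.Affine.Point.some.injEq] at h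
  obtain ⟨h1, h3⟩ := h
  subst h1
  refine ⟨rfl, ?_⟩
  have := (div_left_inj' h2).mp h3
  linear_combination this

theorem s41af_mk_congr [V.IsElliptic] (h2 : (2 : K) ≠ 0) {x z x' z' : K}
    (hz : z ^ 2 = s41af_D V x) (hz' : z' ^ 2 = s41af_D V x') (hx : x = x') (hzz : z = z') :
    s41af_mk V h2 x z hz = s41af_mk V h2 x' z' hz' := by
  subst hx; subst hzz; rfl

/-- every affine point is `s41af_mk x z` with `z = 2y + a₁x + a₃`. -/
theorem s41af_exists_mk [V.IsElliptic] (h2 : (2 : K) ≠ 0) {x y : K} (h : V.Nonsingular x y) :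
    ∃ hz : (2 * y + V.a₁ * x + V.a₃) ^ 2 = s41af_D V x,
      s41af_mk V h2 x (2 * y + V.a₁ * x + V.a₃) hz = .some x y h := by
  have hz := (s41af_equation_iff V h2 x y).mp h.1
  refine ⟨hz, ?_⟩
  unfold s41af_mk
  rw [WeierstrassCurve.Affine.Point.some.injEq]
  refine ⟨rfl, ?_⟩
  field_simp
  ring

/-- the points are `0` and the `s41af_mk x z`: `#V(K) = 1 + #{(x, z) : z² = D(x)}`. -/
theorem s41af_card_point [V.IsElliptic] [DecidableEq K] [Finite K] (h2 : (2 : K) ≠ 0) :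
    Nat.card V.Point = Nat.card {p : K × K // p.2 ^ 2 = s41af_D V p.1} + 1 := by
  classical
  let g : Option {p : K × K // p.2 ^ 2 = s41af_D V p.1} → V.Point := fun o =>
    match o with
    | none => 0
    | some p => s41af_mk V h2 p.1.1 p.1.2 p.2
  have hg : Function.Bijective g := by
    constructor
    · rintro (_ | ⟨⟨x, z⟩, hz⟩) (_ | ⟨⟨x', z'⟩, hz'⟩) h
      · rfl
      · exact absurd h.symm (s41af_mk_ne_zero V h2 _ _ _)
      · exact absurd h (s41af_mk_ne_zero V h2 _ _ _)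
      · obtain ⟨h1, h3⟩ := s41af_mk_injective V h2 hz hz' h
        simp only at h1 h3
        subst h1; subst h3
        rfl
    · rintro (_ | ⟨x, y, h⟩)
      · exact ⟨none, rfl⟩
      · obtain ⟨hz, e⟩ := s41af_exists_mk V h2 h
        exact ⟨some ⟨(x, 2 * y + V.a₁ * x + V.a₃), hz⟩, e⟩
  rw [← Nat.card_eq_of_bijective g hg, Finite.card_option]

end Generic

/-! ### Counting square roots over a finite field -/

section Count

variable {F : Type*} [Field F] [Fintype F] [DecidableEq F]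

/-- `#{(x, z) : z² = d(x)} = ∑_x (χ(d x) + 1)`, `χ` the quadratic character. -/
theorem s41af_card_sq (hF : ringChar F ≠ 2) (d : F → F) :
    (Nat.card {p : F × F // p.2 ^ 2 = d p.1} : ℤ) = ∑ x : F, (quadraticChar F (d x) + 1) := by
  rw [Nat.card_eq_fintype_card, Fintype.card_subtype, Finset.card_filter,
    ← Finset.univ_product_univ, Finset.sum_product, Nat.cast_sum]
  refine Finset.sum_congr rfl fun x _ => ?_
  rw [← quadraticChar_card_sqrts hF (d x), ← Finset.card_filter, Set.toFinset_ofPred]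

/-- the twisted count: `#{(x, t) : c t² = d(x)} = ∑_x (1 - χ(d x))` for a non-square `c`. -/
theorem s41af_card_sq_twist (hF : ringChar F ≠ 2) (d : F → F) (c : F)
    (hc : quadraticChar F c = -1) :
    (Nat.card {p : F × F // c * p.2 ^ 2 = d p.1} : ℤ) = ∑ x : F, (1 - quadraticChar F (d x)) := by
  have hc0 : c ≠ 0 := by
    rintro rfl
    rw [MulChar.map_zero] at hc
    exact absurd hc (by norm_num)
  have hcinv : quadraticChar F c⁻¹ = -1 := by
    have h1 : quadraticChar F c * quadraticChar F c⁻¹ = 1 := by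
      rw [← map_mul, mul_inv_cancel₀ hc0, map_one]
    rw [hc] at h1
    linarith
  have e : Nat.card {p : F × F // c * p.2 ^ 2 = d p.1} =
      Nat.card {p : F × F // p.2 ^ 2 = d p.1 * c⁻¹} := by
    refine Nat.card_congr (Equiv.subtypeEquivRight fun p => ?_)
    rw [eq_mul_inv_iff_mul_eq₀ hc0, mul_comm]
  rw [e, s41af_card_sq hF (fun x => d x * c⁻¹)]
  refine Finset.sum_congr rfl fun x _ => ?_
  rw [map_mul, hcinv]
  ring

end Count

/-! ### Frobenius on the points over an extension of `𝔽_ℓ` -/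

section Frob

variable (W : WeierstrassCurve ℤ) (ℓ : ℕ) [hℓ : Fact ℓ.Prime] (κ : Type*) [Field κ] [DecidableEq κ]
  [Algebra (ZMod ℓ) κ]

/-- **Frobenius** `(x, y) ↦ (x^ℓ, y^ℓ)` on `W(κ)`, an additive endomorphism. -/
def s41af_frob : (W.toAffine⁄κ).Point →+ (W.toAffine⁄κ).Point :=
  WeierstrassCurve.Affine.Point.map (W' := W.toAffine) (FiniteField.frobeniusAlgHom (ZMod ℓ) κ)

theorem s41af_frobAlg_apply (x : κ) : FiniteField.frobeniusAlgHom (ZMod ℓ) κ x = x ^ ℓ := by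
  rw [FiniteField.coe_frobeniusAlgHom, ZMod.card]

theorem s41af_charP : CharP κ ℓ :=
  charP_of_injective_algebraMap (algebraMap (ZMod ℓ) κ).injective ℓ

/-- the Frobenius-fixed elements of `κ` are those of the prime field. -/
theorem s41af_exists_of_pow_eq {y : κ} (hy : y ^ ℓ = y) :
    ∃ y₀ : ZMod ℓ, algebraMap (ZMod ℓ) κ y₀ = y := by
  haveI := s41af_charP ℓ κ
  have h1 : y ∈ (⊥ : Subfield κ) := (Subfield.mem_bot_iff_pow_eq_self κ ℓ).mpr hy
  obtain ⟨n, hn⟩ := (mem_bot_iff_intCast ℓ κ).mp h1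
  exact ⟨(n : ZMod ℓ), by rw [map_intCast, hn]⟩

theorem s41af_pow_algebraMap (y₀ : ZMod ℓ) :
    (algebraMap (ZMod ℓ) κ y₀) ^ ℓ = algebraMap (ZMod ℓ) κ y₀ := by
  rw [← map_pow, ZMod.pow_card]

theorem s41af_intCast_pow (n : ℤ) : ((n : κ)) ^ ℓ = (n : κ) := by
  have := s41af_pow_algebraMap ℓ κ (n : ZMod ℓ)
  rwa [map_intCast] at this

/-- `D_κ (ι x₀) = ι (D_{𝔽_ℓ} x₀)`. -/
theorem s41af_D_algebraMap (x₀ : ZMod ℓ) :
    s41af_D (W.toAffine⁄κ) (algebraMap (ZMod ℓ) κ x₀) =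
      algebraMap (ZMod ℓ) κ (s41af_D (W.toAffine⁄(ZMod ℓ)) x₀) := by
  simp only [s41af_D, WeierstrassCurve.Affine.baseChange, WeierstrassCurve.baseChange,
    WeierstrassCurve.map_b₂, WeierstrassCurve.map_b₄, WeierstrassCurve.map_b₆, map_add, map_mul,
    map_pow, map_ofNat, eq_intCast, map_intCast]

/-- `D_κ (x^ℓ) = (D_κ x)^ℓ`. -/
theorem s41af_D_pow (x : κ) :
    s41af_D (W.toAffine⁄κ) (x ^ ℓ) = (s41af_D (W.toAffine⁄κ) x) ^ ℓ := by
  haveI := s41af_charP ℓ κ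
  simp only [s41af_D, WeierstrassCurve.Affine.baseChange, WeierstrassCurve.baseChange,
    WeierstrassCurve.map_b₂, WeierstrassCurve.map_b₄, WeierstrassCurve.map_b₆, eq_intCast]
  rw [add_pow_char, add_pow_char, add_pow_char, mul_pow, mul_pow, mul_pow, mul_pow,
    s41af_intCast_pow, s41af_intCast_pow, s41af_intCast_pow]
  have h4 : ((4 : κ)) ^ ℓ = 4 := by exact_mod_cast s41af_intCast_pow ℓ κ 4
  have h2 : ((2 : κ)) ^ ℓ = 2 := by exact_mod_cast s41af_intCast_pow ℓ κ 2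
  rw [h4, h2]
  ring

variable [hE : (W.toAffine⁄κ).IsElliptic] (h2 : (2 : κ) ≠ 0)

/-- Frobenius on `s41af_mk`. -/
theorem s41af_frob_mk (x z : κ) (hz : z ^ 2 = s41af_D (W.toAffine⁄κ) x) :
    s41af_frob W ℓ κ (s41af_mk (W.toAffine⁄κ) h2 x z hz) =
      s41af_mk (W.toAffine⁄κ) h2 (x ^ ℓ) (z ^ ℓ)
        (by rw [s41af_D_pow, ← hz, ← pow_mul, ← pow_mul, mul_comm]) := by
  unfold s41af_frob s41af_mk
  rw [WeierstrassCurve.Affine.Point.map_some, WeierstrassCurve.Affine.Point.some.injEq]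
  refine ⟨s41af_frobAlg_apply ℓ κ x, ?_⟩
  rw [map_div₀, map_sub, map_sub, map_mul, s41af_frobAlg_apply, s41af_frobAlg_apply,
    s41af_frobAlg_apply, s41af_frobAlg_apply]
  have h2' : (FiniteField.frobeniusAlgHom (ZMod ℓ) κ) 2 = 2 := map_ofNat _ 2
  rw [h2']
  simp only [WeierstrassCurve.Affine.baseChange, WeierstrassCurve.baseChange,
    WeierstrassCurve.map_a₁, WeierstrassCurve.map_a₃, eq_intCast, s41af_intCast_pow]

/-- negation on `s41af_mk`. -/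
theorem s41af_neg_mk (x z : κ) (hz : z ^ 2 = s41af_D (W.toAffine⁄κ) x) :
    -(s41af_mk (W.toAffine⁄κ) h2 x z hz) =
      s41af_mk (W.toAffine⁄κ) h2 x (-z) (by rw [neg_sq]; exact hz) := by
  unfold s41af_mk
  rw [WeierstrassCurve.Affine.Point.neg_some, WeierstrassCurve.Affine.Point.some.injEq]
  refine ⟨rfl, ?_⟩
  rw [WeierstrassCurve.Affine.negY]
  field_simp
  ring

/-- `Frob Q = -Q` for `Q = s41af_mk x z` iff `x^ℓ = x` and `z^ℓ = -z`. -/
theorem s41af_frob_mk_eq_neg_iff (x z : κ) (hz : z ^ 2 = s41af_D (W.toAffine⁄κ) x) :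
    s41af_frob W ℓ κ (s41af_mk (W.toAffine⁄κ) h2 x z hz) = -(s41af_mk (W.toAffine⁄κ) h2 x z hz) ↔
      x ^ ℓ = x ∧ z ^ ℓ = -z := by
  rw [s41af_frob_mk, s41af_neg_mk]
  constructor
  · intro h
    exact s41af_mk_injective _ h2 _ _ h
  · rintro ⟨h1, h3⟩
    congr 1

/-! ### The anti-invariant subgroup and its cardinality -/

/-- `H = {Q : Frob Q = -Q} = ker (Frob + id)`. -/
def s41af_H : AddSubgroup (W.toAffine⁄κ).Point :=
  (s41af_frob W ℓ κ + AddMonoidHom.id _).ker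

theorem s41af_mem_H (Q : (W.toAffine⁄κ).Point) :
    Q ∈ s41af_H W ℓ κ ↔ s41af_frob W ℓ κ Q = -Q := by
  rw [s41af_H, AddMonoidHom.mem_ker, AddMonoidHom.add_apply, AddMonoidHom.id_apply,
    eq_neg_iff_add_eq_zero]

include h2 in
/-- the parametrisation of `H` by the `𝔽_ℓ`-points of the quadratic twist: `c` a non-square of
`𝔽_ℓ`, `s ∈ κ` with `s² = c`, `s^ℓ = -s`; `(x₀, t₀) ↦ s41af_mk (ι x₀) (s · ι t₀)`. -/
theorem s41af_card_H (c : ZMod ℓ) (s : κ) (hs : s ^ 2 = algebraMap (ZMod ℓ) κ c)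
    (hsℓ : s ^ ℓ = -s) (hs0 : s ≠ 0) :
    Nat.card (s41af_H W ℓ κ) =
      Nat.card {p : ZMod ℓ × ZMod ℓ // c * p.2 ^ 2 = s41af_D (W.toAffine⁄(ZMod ℓ)) p.1} + 1 := by
  classical
  set ι := algebraMap (ZMod ℓ) κ with hι
  have hιinj : Function.Injective ι := ι.injective
  have hz : ∀ p : {p : ZMod ℓ × ZMod ℓ // c * p.2 ^ 2 = s41af_D (W.toAffine⁄(ZMod ℓ)) p.1},
      (s * ι p.1.2) ^ 2 = s41af_D (W.toAffine⁄κ) (ι p.1.1) := by
    intro p
    rw [s41af_D_algebraMap, ← p.2, mul_pow, hs, map_mul, map_pow]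
  have hmem : ∀ p : {p : ZMod ℓ × ZMod ℓ // c * p.2 ^ 2 = s41af_D (W.toAffine⁄(ZMod ℓ)) p.1},
      s41af_mk (W.toAffine⁄κ) h2 (ι p.1.1) (s * ι p.1.2) (hz p) ∈ s41af_H W ℓ κ := by
    intro p
    rw [s41af_mem_H, s41af_frob_mk_eq_neg_iff]
    refine ⟨s41af_pow_algebraMap ℓ κ _, ?_⟩
    rw [mul_pow, hsℓ, s41af_pow_algebraMap, neg_mul]
  let g : Option {p : ZMod ℓ × ZMod ℓ // c * p.2 ^ 2 = s41af_D (W.toAffine⁄(ZMod ℓ)) p.1} →
      s41af_H W ℓ κ := fun o =>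
    match o with
    | none => 0
    | some p => ⟨s41af_mk (W.toAffine⁄κ) h2 (ι p.1.1) (s * ι p.1.2) (hz p), hmem p⟩
  have hg : Function.Bijective g := by
    constructor
    · rintro (_ | p) (_ | p') h
      · rfl
      · exfalso
        have := congrArg Subtype.val h
        exact s41af_mk_ne_zero _ h2 _ _ (hz p') this.symm
      · exfalso
        have := congrArg Subtype.val h
        exact s41af_mk_ne_zero _ h2 _ _ (hz p) this
      · have h' := congrArg Subtype.val h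
        obtain ⟨h1, h3⟩ := s41af_mk_injective _ h2 (hz p) (hz p') h'
        have e1 : p.1.1 = p'.1.1 := hιinj h1
        have e2 : p.1.2 = p'.1.2 := hιinj (mul_left_cancel₀ hs0 h3)
        congr 1
        exact Subtype.ext (Prod.ext e1 e2)
    · rintro ⟨Q, hQ⟩
      rcases Q with _ | ⟨x, y, h⟩
      · exact ⟨none, rfl⟩
      · obtain ⟨hz', e⟩ := s41af_exists_mk (W.toAffine⁄κ) h2 h
        rw [s41af_mem_H, ← e, s41af_frob_mk_eq_neg_iff] at hQ
        obtain ⟨hx, hzℓ⟩ := hQ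
        set z := 2 * y + (W.toAffine⁄κ).a₁ * x + (W.toAffine⁄κ).a₃ with hzdef
        obtain ⟨x₀, hx₀⟩ := s41af_exists_of_pow_eq ℓ κ hx
        have ht : (z / s) ^ ℓ = z / s := by
          rw [div_pow, hzℓ, hsℓ, neg_div_neg_eq]
        obtain ⟨t₀, ht₀⟩ := s41af_exists_of_pow_eq ℓ κ ht
        have hzs : z = s * ι t₀ := by
          rw [ht₀, mul_div_cancel₀ _ hs0]
        have hrel : c * t₀ ^ 2 = s41af_D (W.toAffine⁄(ZMod ℓ)) x₀ := by
          apply hιinj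
          rw [← s41af_D_algebraMap, hx₀, ← hz', hzs, mul_pow, hs, map_mul, map_pow]
        refine ⟨some ⟨(x₀, t₀), hrel⟩, ?_⟩
        apply Subtype.ext
        show s41af_mk (W.toAffine⁄κ) h2 (ι x₀) (s * ι t₀) (hz ⟨(x₀, t₀), hrel⟩) =
          WeierstrassCurve.Affine.Point.some x y h
        exact (s41af_mk_congr _ h2 _ hz' hx₀ hzs.symm).trans e
  rw [← Nat.card_eq_of_bijective g hg, Finite.card_option]

end Frob

/-! ### The two cases and the main statement -/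

section Main

variable (W : WeierstrassCurve ℤ) (ℓ : ℕ) [hℓ : Fact ℓ.Prime] (κ : Type*) [Field κ] [DecidableEq κ]
  [Algebra (ZMod ℓ) κ]

/-- (a) `p ∣ #W(𝔽_ℓ)` gives a Frobenius-fixed point of order `p` over `κ`. -/
theorem s41af_fixed_of_dvd {p : ℕ} (hp : p.Prime)
    (hdvd : p ∣ Nat.card (W.toAffine⁄(ZMod ℓ)).Point) :
    ∃ (x y : κ) (h : (W.toAffine⁄κ).Nonsingular x y),
      p • (WeierstrassCurve.Affine.Point.some x y h : (W.toAffine⁄κ).Point) = 0 ∧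
        x ^ ℓ = x ∧ y ^ ℓ = y := by
  haveI : Fact p.Prime := ⟨hp⟩
  obtain ⟨P₀, hP₀⟩ := exists_prime_addOrderOf_dvd_card' (G := (W.toAffine⁄(ZMod ℓ)).Point) p hdvd
  have hP₀0 : P₀ ≠ 0 := by
    rintro rfl
    rw [addOrderOf_zero] at hP₀
    exact hp.one_lt.ne hP₀
  have hpP₀ : p • P₀ = 0 := by
    rw [← hP₀]
    exact addOrderOf_nsmul_eq_zero P₀
  rcases P₀ with _ | ⟨x₀, y₀, h₀⟩
  · exact absurd rfl hP₀0
  · have h3 := congrArg (WeierstrassCurve.Affine.Point.baseChange (W' := W.toAffine) (ZMod ℓ) κ) hpP₀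
    rw [map_nsmul, _root_.map_zero, WeierstrassCurve.Affine.Point.map_some] at h3
    exact ⟨_, _, _, h3, s41af_pow_algebraMap ℓ κ x₀, s41af_pow_algebraMap ℓ κ y₀⟩

/-- good reduction descends from `κ` to `𝔽_ℓ`. -/
theorem s41af_isElliptic_zmod [hE : (W.toAffine⁄κ).IsElliptic] :
    (W.toAffine⁄(ZMod ℓ)).IsElliptic := by
  refine ⟨?_⟩
  rw [isUnit_iff_ne_zero]
  intro h0
  have h1 := hE.isUnit.ne_zero
  apply h1
  have h3 : (W.toAffine⁄κ).Δ = algebraMap (ZMod ℓ) κ ((W.toAffine⁄(ZMod ℓ)).Δ) := by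
    simp only [WeierstrassCurve.Affine.baseChange, WeierstrassCurve.baseChange,
      WeierstrassCurve.map_Δ, eq_intCast, map_intCast]
  rw [h3, h0, _root_.map_zero]

/-- `#W(𝔽_ℓ) + #{Q ∈ W(κ) : Frob Q = -Q} = 2ℓ + 2`. -/
theorem s41af_card_add [hE : (W.toAffine⁄κ).IsElliptic] (hℓ2 : ℓ ≠ 2)
    (c : ZMod ℓ) (hc : quadraticChar (ZMod ℓ) c = -1) (s : κ)
    (hs : s ^ 2 = algebraMap (ZMod ℓ) κ c) (hsℓ : s ^ ℓ = -s) :
    Nat.card (W.toAffine⁄(ZMod ℓ)).Point + Nat.card (s41af_H W ℓ κ) = 2 * ℓ + 2 ∧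
      Nat.card (s41af_H W ℓ κ) ≠ 0 := by
  haveI := s41af_charP ℓ κ
  haveI := s41af_isElliptic_zmod W ℓ κ
  have hF : ringChar (ZMod ℓ) ≠ 2 := by rwa [ZMod.ringChar_zmod_n]
  have h2z : (2 : ZMod ℓ) ≠ 0 := Ring.two_ne_zero hF
  have h2 : (2 : κ) ≠ 0 := by
    have : (2 : κ) = algebraMap (ZMod ℓ) κ 2 := (map_ofNat _ 2).symm
    rw [this]
    exact (map_ne_zero_iff _ (algebraMap (ZMod ℓ) κ).injective).mpr h2z
  have hc0 : c ≠ 0 := by
    rintro rfl
    rw [MulChar.map_zero] at hc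
    exact absurd hc (by norm_num)
  have hs0 : s ≠ 0 := by
    rintro rfl
    rw [zero_pow two_ne_zero] at hs
    exact hc0 ((map_eq_zero_iff _ (algebraMap (ZMod ℓ) κ).injective).mp hs.symm)
  have e1 := s41af_card_point (W.toAffine⁄(ZMod ℓ)) h2z
  have e2 := s41af_card_H W ℓ κ h2 c s hs hsℓ hs0
  have e3 := s41af_card_sq hF (s41af_D (W.toAffine⁄(ZMod ℓ)))
  have e4 := s41af_card_sq_twist hF (s41af_D (W.toAffine⁄(ZMod ℓ))) c hc
  have e5 : (Nat.card {p : ZMod ℓ × ZMod ℓ // p.2 ^ 2 = s41af_D (W.toAffine⁄(ZMod ℓ)) p.1} : ℤ) +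
      (Nat.card {p : ZMod ℓ × ZMod ℓ // c * p.2 ^ 2 = s41af_D (W.toAffine⁄(ZMod ℓ)) p.1} : ℤ) =
      2 * ℓ := by
    rw [e3, e4, ← Finset.sum_add_distrib]
    have : ∀ x : ZMod ℓ, (quadraticChar (ZMod ℓ) (s41af_D (W.toAffine⁄(ZMod ℓ)) x) + 1 +
        (1 - quadraticChar (ZMod ℓ) (s41af_D (W.toAffine⁄(ZMod ℓ)) x)) : ℤ) = 2 := fun x => by ring
    simp only [this, Finset.sum_const, Finset.card_univ, ZMod.card, nsmul_eq_mul]
    ring
  refine ⟨?_, by rw [e2]; exact Nat.succ_ne_zero _⟩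
  rw [e1, e2]
  zify
  linarith

/-- (b) `p ∣ 2ℓ + 2 - #W(𝔽_ℓ)` gives a point of order `p` over `κ` (algebraically closed) on which
Frobenius acts as `-1`. -/
theorem s41af_anti_of_dvd [IsAlgClosed κ] [hE : (W.toAffine⁄κ).IsElliptic] (hℓ2 : ℓ ≠ 2) {p : ℕ}
    (hp : p.Prime)
    (hdvd : (p : ℤ) ∣ 2 * (ℓ : ℤ) + 2 - (Nat.card (W.toAffine⁄(ZMod ℓ)).Point : ℤ)) :
    ∃ (x y : κ) (h : (W.toAffine⁄κ).Nonsingular x y),
      p • (WeierstrassCurve.Affine.Point.some x y h : (W.toAffine⁄κ).Point) = 0 ∧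
        x ^ ℓ = x ∧ y ^ ℓ = (W.toAffine⁄κ).negY x y := by
  haveI : Fact p.Prime := ⟨hp⟩
  haveI := s41af_charP ℓ κ
  have hF : ringChar (ZMod ℓ) ≠ 2 := by rwa [ZMod.ringChar_zmod_n]
  -- a non-square `c` and a square root `s` of it in `κ`
  obtain ⟨c, hc⟩ := quadraticChar_exists_neg_one hF
  obtain ⟨s, hs⟩ := IsAlgClosed.exists_pow_nat_eq (algebraMap (ZMod ℓ) κ c) (n := 2) (by norm_num)
  have hsℓ : s ^ ℓ = -s := by
    have h1 : (s ^ ℓ) ^ 2 = s ^ 2 := by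
      rw [← pow_mul, mul_comm, pow_mul, hs, s41af_pow_algebraMap]
    rcases sq_eq_sq_iff_eq_or_eq_neg.mp h1 with h | h
    · exfalso
      obtain ⟨s₀, hs₀⟩ := s41af_exists_of_pow_eq ℓ κ h
      have h3 : s₀ ^ 2 = c := by
        apply (algebraMap (ZMod ℓ) κ).injective
        rw [map_pow, hs₀, hs]
      have h4 : IsSquare c := ⟨s₀, by rw [← h3, sq]⟩
      exact (quadraticChar_neg_one_iff_not_isSquare.mp hc) h4
    · exact h
  obtain ⟨hcard, hcard0⟩ := s41af_card_add W ℓ κ hℓ2 c hc s hs hsℓ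
  have hH : (Nat.card (s41af_H W ℓ κ) : ℤ) =
      2 * (ℓ : ℤ) + 2 - (Nat.card (W.toAffine⁄(ZMod ℓ)).Point : ℤ) := by
    have : ((Nat.card (W.toAffine⁄(ZMod ℓ)).Point + Nat.card (s41af_H W ℓ κ) : ℕ) : ℤ) =
        ((2 * ℓ + 2 : ℕ) : ℤ) := by rw [hcard]
    push_cast at this
    linarith
  rw [← hH] at hdvd
  have hdvd' : p ∣ Nat.card (s41af_H W ℓ κ) := by exact_mod_cast hdvd
  haveI : Finite (s41af_H W ℓ κ) := Nat.finite_of_card_ne_zero hcard0
  obtain ⟨Q, hQ⟩ := exists_prime_addOrderOf_dvd_card' (G := s41af_H W ℓ κ) p hdvd'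
  have hQ0 : Q ≠ 0 := by
    rintro rfl
    rw [addOrderOf_zero] at hQ
    exact hp.one_lt.ne hQ
  have hpQ : p • Q = 0 := by
    rw [← hQ]
    exact addOrderOf_nsmul_eq_zero Q
  obtain ⟨Q, hQmem⟩ := Q
  have hQ0' : Q ≠ 0 := fun h => hQ0 (Subtype.ext h)
  have hpQ' : p • Q = 0 := by
    have := congrArg Subtype.val hpQ
    simpa using this
  rw [s41af_mem_H] at hQmem
  rcases Q with _ | ⟨x, y, h⟩
  · exact absurd rfl hQ0'
  · refine ⟨x, y, h, hpQ', ?_⟩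
    unfold s41af_frob at hQmem
    rw [WeierstrassCurve.Affine.Point.map_some, WeierstrassCurve.Affine.Point.neg_some,
      WeierstrassCurve.Affine.Point.some.injEq, s41af_frobAlg_apply, s41af_frobAlg_apply] at hQmem
    exact hQmem

end Main

/-- **A2, the finite-field side of the non-Eisenstein criterion.** If `p ∣ a_ℓ² - (ℓ+1)²` then over
any algebraically closed `κ` of characteristic `ℓ` (odd, of good reduction) there is a point of
order `p` of `W(κ)` on which the `ℓ`-Frobenius acts as `+1` or as `-1`. -/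
theorem s41af_main (W : WeierstrassCurve ℤ) {ℓ p : ℕ} [Fact ℓ.Prime] (hℓ2 : ℓ ≠ 2) (hp : p.Prime)
    (κ : Type*) [Field κ] [DecidableEq κ] [CharP κ ℓ] [IsAlgClosed κ]
    [(W.map (Int.castRingHom κ)).IsElliptic]
    (hdvd : (p : ℤ) ∣ W.apOfModel ℓ ^ 2 - ((ℓ : ℤ) + 1) ^ 2) :
    ∃ (x y : κ) (h : (W.map (Int.castRingHom κ)).toAffine.Nonsingular x y),
      p • (WeierstrassCurve.Affine.Point.some x y h :
        (W.map (Int.castRingHom κ)).toAffine.Point) = 0 ∧ x ^ ℓ = x ∧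
        (y ^ ℓ = y ∨ y ^ ℓ = (W.map (Int.castRingHom κ)).toAffine.negY x y) := by
  letI : Algebra (ZMod ℓ) κ := ZMod.algebra κ ℓ
  haveI hE : (W.toAffine⁄κ).IsElliptic := ‹(W.map (Int.castRingHom κ)).IsElliptic›
  have hN : W.apOfModel ℓ =
      (ℓ : ℤ) + 1 - (Nat.card (W.toAffine⁄(ZMod ℓ)).Point : ℤ) := by
    unfold WeierstrassCurve.apOfModel WeierstrassCurve.traceOfFrobenius WeierstrassCurve.card
      WeierstrassCurve.reductionMod
    rw [Nat.card_zmod]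
    rfl
  have hfac : W.apOfModel ℓ ^ 2 - ((ℓ : ℤ) + 1) ^ 2 =
      (Nat.card (W.toAffine⁄(ZMod ℓ)).Point : ℤ) *
        -(2 * (ℓ : ℤ) + 2 - (Nat.card (W.toAffine⁄(ZMod ℓ)).Point : ℤ)) := by
    rw [hN]
    ring
  rw [hfac] at hdvd
  rcases (Nat.prime_iff_prime_int.mp hp).dvd_or_dvd hdvd with h | h
  · have h' : p ∣ Nat.card (W.toAffine⁄(ZMod ℓ)).Point := by exact_mod_cast h
    obtain ⟨x, y, hxy, h1, h3, h4⟩ := s41af_fixed_of_dvd W ℓ κ hp h'
    exact ⟨x, y, hxy, h1, h3, Or.inl h4⟩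
  · rw [dvd_neg] at h
    obtain ⟨x, y, hxy, h1, h3, h4⟩ := s41af_anti_of_dvd W ℓ κ hℓ2 hp h
    exact ⟨x, y, hxy, h1, h3, Or.inr h4⟩

end Fermat.Agent.Lib.S41
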