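/-
S41 (level raising), package [A] NonEis (helper7), part 1: THE GROUP LEMMA.

A group acting `𝔽_p`-linearly and IRREDUCIBLY on a 2-dimensional `𝔽_p`-vector space (`p` odd) has
an element `g` WITHOUT eigenvalue `±1`:  `∀ x ≠ 0, g • x ≠ x ∧ g • x ≠ -x`.

Matrix core (`s41a_mat_main`): a set of `2 × 2` matrices over a field of characteristic `≠ 2`,
closed under products and inverses, all of whose elements have an eigenvalue `±1`, has a common
eigenvector.  Proof: (I) a determinant-one element `u ≠ ±1` is `ε + N` with `N² = 0`; the traces of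
`u (h u h⁻¹)`, `u² (h u h⁻¹)` must be `±2`, which forces `tr (N h N h⁻¹) = tr (N h) tr (N h⁻¹) = 0`,
so `ker N` is stable; (II) otherwise the determinant-one part is `⊆ {±1}`, anticommuting pairs are
impossible, the set is commutative and an eigenvector of a non-scalar element is common.
-/
import Mathlib

set_option autoImplicit false

namespace Fermat.Agent.Lib.S41

open Matrix

variable {F : Type*} [Field F]

/-- the `2 × 2` determinant of two vectors. -/
def s41a_cross (a b : Fin 2 → F) : F := a 0 * b 1 - a 1 * b 0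

theorem s41a_exists_smul_of_cross {a b : Fin 2 → F} (ha : a ≠ 0) (h : s41a_cross a b = 0) :
    ∃ c : F, b = c • a := by
  unfold s41a_cross at h
  by_cases h0 : a 0 = 0
  · have h1 : a 1 ≠ 0 := by
      intro h1
      apply ha
      funext i
      fin_cases i
      · exact h0
      · exact h1
    refine ⟨b 1 / a 1, ?_⟩
    funext i
    fin_cases i
    · simp only [Fin.zero_eta, Pi.smul_apply, smul_eq_mul]
      rw [h0] at h ⊢
      have : a 1 * b 0 = 0 := by linear_combination -h
      rcases mul_eq_zero.mp this with h2 | h2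
      · exact absurd h2 h1
      · rw [h2, mul_zero]
    · simp only [Fin.mk_one, Pi.smul_apply, smul_eq_mul]
      field_simp
  · refine ⟨b 0 / a 0, ?_⟩
    funext i
    fin_cases i
    · simp only [Fin.zero_eta, Pi.smul_apply, smul_eq_mul]
      field_simp
    · simp only [Fin.mk_one, Pi.smul_apply, smul_eq_mul]
      field_simp
      linear_combination h

theorem s41a_cross_smul (a : Fin 2 → F) (c : F) : s41a_cross a (c • a) = 0 := by
  unfold s41a_cross
  simp only [Pi.smul_apply, smul_eq_mul]
  ring

/-! ### `2 × 2` identities -/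

theorem s41a_det_sub_one (A : Matrix (Fin 2) (Fin 2) F) :
    (A - 1).det = 1 - A.trace + A.det := by
  rw [det_fin_two, det_fin_two, trace_fin_two]
  simp only [Matrix.sub_apply, one_apply_eq, ne_eq, zero_ne_one, not_false_eq_true, one_apply_ne,
    sub_zero, one_ne_zero]
  ring

theorem s41a_det_add_one (A : Matrix (Fin 2) (Fin 2) F) :
    (A + 1).det = 1 + A.trace + A.det := by
  rw [det_fin_two, det_fin_two, trace_fin_two]
  simp only [Matrix.add_apply, one_apply_eq, ne_eq, zero_ne_one, not_false_eq_true, one_apply_ne,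
    add_zero, one_ne_zero]
  ring

/-- Cayley–Hamilton for `2 × 2` matrices. -/
theorem s41a_cayley (A : Matrix (Fin 2) (Fin 2) F) :
    A * A = A.trace • A - A.det • (1 : Matrix (Fin 2) (Fin 2) F) := by
  ext i j
  fin_cases i <;> fin_cases j <;>
    simp [mul_apply, Fin.sum_univ_two, det_fin_two, trace_fin_two] <;> ring

theorem s41a_det_sub_smul (A : Matrix (Fin 2) (Fin 2) F) (ε : F) :
    (A - ε • (1 : Matrix (Fin 2) (Fin 2) F)).det = ε * ε - ε * A.trace + A.det := by
  rw [det_fin_two, det_fin_two, trace_fin_two]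
  simp only [Matrix.sub_apply, Matrix.smul_apply, one_apply_eq, ne_eq, zero_ne_one,
    not_false_eq_true, one_apply_ne, one_ne_zero, smul_eq_mul, mul_one, mul_zero, sub_zero]
  ring

/-- A matrix of determinant zero satisfies `N X N = tr (N X) N`. -/
theorem s41a_nil_sandwich (N X : Matrix (Fin 2) (Fin 2) F) (hd : N.det = 0) :
    N * X * N = (N * X).trace • N := by
  rw [det_fin_two] at hd
  ext i j
  fin_cases i <;> fin_cases j <;>
    simp only [mul_apply, Fin.sum_univ_two, trace_fin_two, Matrix.smul_apply, smul_eq_mul,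
      Fin.zero_eta, Fin.mk_one]
  · linear_combination (-(X 1 1)) * hd
  · linear_combination (X 0 1) * hd
  · linear_combination (X 1 0) * hd
  · linear_combination (-(X 0 0)) * hd

theorem s41a_mulVec_apply (X : Matrix (Fin 2) (Fin 2) F) (a : Fin 2 → F) (i : Fin 2) :
    (X *ᵥ a) i = X i 0 * a 0 + X i 1 * a 1 := by
  simp [mulVec, dotProduct, Fin.sum_univ_two]

/-- Two vectors in the kernel of a non-zero `2 × 2` matrix are proportional. -/
theorem s41a_cross_of_ker {X : Matrix (Fin 2) (Fin 2) F} (hX : X ≠ 0) {a b : Fin 2 → F}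
    (ha : X *ᵥ a = 0) (hb : X *ᵥ b = 0) : s41a_cross a b = 0 := by
  by_contra hc
  apply hX
  have ha' : ∀ i, X i 0 * a 0 + X i 1 * a 1 = 0 := fun i => by
    rw [← s41a_mulVec_apply, ha]; rfl
  have hb' : ∀ i, X i 0 * b 0 + X i 1 * b 1 = 0 := fun i => by
    rw [← s41a_mulVec_apply, hb]; rfl
  unfold s41a_cross at hc
  have h0 : ∀ i, X i 0 = 0 := fun i => by
    have : X i 0 * (a 0 * b 1 - a 1 * b 0) = 0 := by
      linear_combination (b 1) * ha' i - (a 1) * hb' i
    rcases mul_eq_zero.mp this with h | h
    · exact h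
    · exact absurd h hc
  have h1 : ∀ i, X i 1 = 0 := fun i => by
    have : X i 1 * (a 0 * b 1 - a 1 * b 0) = 0 := by
      linear_combination (a 0) * hb' i - (b 0) * ha' i
    rcases mul_eq_zero.mp this with h | h
    · exact h
    · exact absurd h hc
  ext i j
  fin_cases j
  · exact h0 i
  · exact h1 i

/-! ### The matrix core -/

section Core

variable (S : Set (Matrix (Fin 2) (Fin 2) F))
  (hmul : ∀ x ∈ S, ∀ y ∈ S, x * y ∈ S)
  (hinv : ∀ x ∈ S, ∃ y ∈ S, x * y = 1 ∧ y * x = 1)
  (hS : ∀ x ∈ S, (x - 1).det = 0 ∨ (x + 1).det = 0)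

include hS in
/-- determinant-one elements have trace `±2`. -/
theorem s41a_trace_of_det_one {x : Matrix (Fin 2) (Fin 2) F} (hx : x ∈ S) (hd : x.det = 1) :
    x.trace = 2 ∨ x.trace = -2 := by
  rcases hS x hx with h | h
  · left
    rw [s41a_det_sub_one, hd] at h
    linear_combination -h
  · right
    rw [s41a_det_add_one, hd] at h
    linear_combination h

include hmul hinv hS in
/-- Case I: a determinant-one element `≠ ±1` produces a common eigenvector. -/
theorem s41a_case_one (h2 : (2 : F) ≠ 0) {u : Matrix (Fin 2) (Fin 2) F} (hu : u ∈ S)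
    (hdet : u.det = 1) (hu1 : u ≠ 1) (hu2 : u ≠ -1) :
    ∃ a : Fin 2 → F, a ≠ 0 ∧ ∀ x ∈ S, s41a_cross a (x *ᵥ a) = 0 := by
  -- `u = ε + N`
  obtain ⟨ε, hε, htr⟩ : ∃ ε : F, ε * ε = 1 ∧ u.trace = 2 * ε := by
    rcases s41a_trace_of_det_one S hS hu hdet with h | h
    · exact ⟨1, by ring, by rw [h]; ring⟩
    · exact ⟨-1, by ring, by rw [h]; ring⟩
  set N : Matrix (Fin 2) (Fin 2) F := u - ε • (1 : Matrix (Fin 2) (Fin 2) F) with hN
  have hu_eq : u = ε • (1 : Matrix (Fin 2) (Fin 2) F) + N := by rw [hN]; abel
  have hNtr : N.trace = 0 := by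
    rw [hN, trace_sub, trace_smul, trace_one, htr]
    simp only [Fintype.card_fin, Nat.cast_ofNat, smul_eq_mul]
    ring
  have hNdet : N.det = 0 := by
    rw [hN, s41a_det_sub_smul, htr, hdet, hε]
    linear_combination (-2 : F) * hε
  have hN0 : N ≠ 0 := by
    intro h0
    have hε' : ε = 1 ∨ ε = -1 := by
      have : (ε - 1) * (ε + 1) = 0 := by linear_combination hε
      rcases mul_eq_zero.mp this with h | h
      · left; linear_combination h
      · right; linear_combination h
    rw [h0, add_zero] at hu_eq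
    rcases hε' with h | h
    · exact hu1 (by rw [hu_eq, h, one_smul])
    · exact hu2 (by rw [hu_eq, h, neg_smul, one_smul])
  have hNN : N * N = 0 := by
    rw [s41a_cayley, hNtr, hNdet, zero_smul, zero_smul, sub_zero]
  -- the key trace condition
  have key : ∀ h ∈ S, ∀ h' ∈ S, h * h' = 1 → h' * h = 1 →
      (N * h).trace = 0 ∨ (N * h').trace = 0 := by
    intro h hh h' hh' e1 e2
    set Nh : Matrix (Fin 2) (Fin 2) F := h * N * h' with hNh
    have hNhtr : Nh.trace = 0 := by
      rw [hNh, trace_mul_cycle, e2, one_mul, hNtr]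
    have huh : h * u * h' = ε • (1 : Matrix (Fin 2) (Fin 2) F) + Nh := by
      rw [hu_eq, hNh, mul_add, add_mul, mul_smul_comm, mul_one, smul_mul_assoc, e1]
    have huhS : h * u * h' ∈ S := hmul _ (hmul _ hh _ hu) _ hh'
    have hdh : h.det * h'.det = 1 := by rw [← det_mul, e1, det_one]
    have huhdet : (h * u * h').det = 1 := by
      rw [det_mul, det_mul, hdet, mul_one, hdh]
    set τ : F := (N * Nh).trace with hτ
    -- `w₁ = u (h u h')`
    have hw1 : (u * (h * u * h')).trace = 2 + τ := by
      rw [huh]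
      nth_rewrite 1 [hu_eq]
      rw [add_mul, mul_add, mul_add, smul_mul_smul_comm, mul_one, smul_mul_assoc, one_mul,
        mul_smul_comm, mul_one, trace_add, trace_add, trace_add, trace_smul, trace_smul,
        trace_smul, trace_one, hNhtr, hNtr, hε]
      simp only [Fintype.card_fin, Nat.cast_ofNat, smul_eq_mul, mul_zero, add_zero, one_mul]
      rw [hτ]
      ring
    have huu : u * u = (1 : Matrix (Fin 2) (Fin 2) F) + (2 * ε) • N := by
      rw [hu_eq, add_mul, mul_add, mul_add, smul_mul_smul_comm, mul_one, hε, one_smul,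
        smul_mul_assoc, one_mul, mul_smul_comm, mul_one, hNN, add_zero, two_mul, add_smul]
      abel
    have hw2 : (u * u * (h * u * h')).trace = 2 * ε + 2 * ε * τ := by
      rw [huh, huu, add_mul, mul_add, mul_add, one_mul, one_mul, smul_mul_assoc, mul_smul_comm,
        mul_one, smul_mul_assoc, smul_smul, trace_add, trace_add, trace_add, trace_smul,
        trace_smul, trace_smul, trace_one, hNhtr, hNtr]
      simp only [Fintype.card_fin, Nat.cast_ofNat, smul_eq_mul, mul_zero, add_zero]
      rw [hτ]
      ring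
    have hw1S : u * (h * u * h') ∈ S := hmul _ hu _ huhS
    have hw2S : u * u * (h * u * h') ∈ S := hmul _ (hmul _ hu _ hu) _ huhS
    have hw1d : (u * (h * u * h')).det = 1 := by rw [det_mul, hdet, huhdet, mul_one]
    have hw2d : (u * u * (h * u * h')).det = 1 := by
      rw [det_mul, det_mul, hdet, huhdet, mul_one, mul_one]
    have t1 := s41a_trace_of_det_one S hS hw1S hw1d
    have t2 := s41a_trace_of_det_one S hS hw2S hw2d
    rw [hw1] at t1
    rw [hw2] at t2
    have h4 : (4 : F) ≠ 0 := by
      have : (4 : F) = 2 * 2 := by norm_num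
      rw [this]; exact mul_ne_zero h2 h2
    have hτ0 : τ = 0 := by
      rcases t1 with t1 | t1
      · linear_combination t1
      · -- `τ = -4`
        have hτ4 : τ = -4 := by linear_combination t1
        exfalso
        rcases t2 with t2 | t2
        · -- `2ε(1+τ) = 2`, multiply by `ε`
          have : (2 : F) * (1 + τ) = 2 * ε := by
            have h9 : ε * (2 * ε + 2 * ε * τ) = ε * 2 := by rw [t2]
            linear_combination h9 - (2 + 2 * τ) * hε
          rw [hτ4] at this
          -- `-6 = 2ε`
          have hε' : ε = -3 := by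
            have h6 : (2 : F) * ε = 2 * (-3) := by linear_combination -this
            exact mul_left_cancel₀ h2 h6
          rw [hε'] at hε
          -- `9 = 1`, so `8 = 0`
          have h8 : (2 : F) * (2 * 2) = 0 := by linear_combination hε
          rcases mul_eq_zero.mp h8 with h | h
          · exact h2 h
          · rcases mul_eq_zero.mp h with h | h <;> exact h2 h
        · have : (2 : F) * (1 + τ) = -(2 * ε) := by
            have h9 : ε * (2 * ε + 2 * ε * τ) = ε * (-2) := by rw [t2]
            linear_combination h9 - (2 + 2 * τ) * hε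
          rw [hτ4] at this
          have hε' : ε = 3 := by
            have h6 : (2 : F) * ε = 2 * 3 := by linear_combination this
            exact mul_left_cancel₀ h2 h6
          rw [hε'] at hε
          have h8 : (2 : F) * (2 * 2) = 0 := by linear_combination hε
          rcases mul_eq_zero.mp h8 with h | h
          · exact h2 h
          · rcases mul_eq_zero.mp h with h | h <;> exact h2 h
    -- `τ = tr (N h) tr (N h')`
    have hprod : τ = (N * h).trace * (N * h').trace := by
      rw [hτ, hNh, ← mul_assoc, ← mul_assoc, s41a_nil_sandwich N h hNdet, smul_mul_assoc,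
        trace_smul, smul_eq_mul]
    rw [hprod] at hτ0
    exact mul_eq_zero.mp hτ0
  -- the eigenvector `a = N c`
  obtain ⟨c, hc⟩ : ∃ c : Fin 2 → F, N *ᵥ c ≠ 0 := by
    by_contra hcon
    have hcon' : ∀ c : Fin 2 → F, N *ᵥ c = 0 := fun c => by_contra fun h => hcon ⟨c, h⟩
    apply hN0
    ext i j
    have := congrFun (hcon' (Pi.single j 1)) i
    simpa [mulVec_single] using this
  refine ⟨N *ᵥ c, hc, ?_⟩
  have hNa : N *ᵥ (N *ᵥ c) = 0 := by rw [mulVec_mulVec, hNN, zero_mulVec]
  have step : ∀ h : Matrix (Fin 2) (Fin 2) F, (N * h).trace = 0 →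
      s41a_cross (N *ᵥ c) (h *ᵥ (N *ᵥ c)) = 0 := by
    intro h hh
    apply s41a_cross_of_ker hN0 hNa
    rw [mulVec_mulVec, mulVec_mulVec, s41a_nil_sandwich N h hNdet, hh, zero_smul,
      zero_mulVec]
  intro h hh
  obtain ⟨h', hh', e1, e2⟩ := hinv h hh
  rcases key h hh h' hh' e1 e2 with k | k
  · exact step h k
  · have hc' := step h' k
    obtain ⟨lam, hlam⟩ := s41a_exists_smul_of_cross hc hc'
    -- `a = h (h' a) = lam • h a`
    have ha : N *ᵥ c = lam • (h *ᵥ (N *ᵥ c)) := by
      have : h *ᵥ (h' *ᵥ (N *ᵥ c)) = N *ᵥ c := by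
        rw [mulVec_mulVec, e1, one_mulVec]
      rw [hlam, mulVec_smul] at this
      exact this.symm
    have hlam0 : lam ≠ 0 := by
      rintro rfl
      rw [zero_smul] at ha
      exact hc ha
    have : h *ᵥ (N *ᵥ c) = lam⁻¹ • (N *ᵥ c) := by
      rw [eq_inv_smul_iff₀ hlam0]; exact ha.symm
    rw [this]
    exact s41a_cross_smul _ _

include hmul hinv hS in
/-- Case II, commutativity: if the determinant-one elements are `±1`, the set is commutative. -/
theorem s41a_case_two_comm (h2 : (2 : F) ≠ 0)
    (hII : ∀ u ∈ S, u.det = 1 → u = 1 ∨ u = -1) :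
    ∀ g ∈ S, ∀ h ∈ S, g * h = h * g := by
  intro g hg h hh
  obtain ⟨g', hg', eg1, eg2⟩ := hinv g hg
  obtain ⟨h', hh', eh1, eh2⟩ := hinv h hh
  have hdg : g.det * g'.det = 1 := by rw [← det_mul, eg1, det_one]
  have hdh : h.det * h'.det = 1 := by rw [← det_mul, eh1, det_one]
  have hcS : g * h * g' * h' ∈ S := hmul _ (hmul _ (hmul _ hg _ hh) _ hg') _ hh'
  have hcd : (g * h * g' * h').det = 1 := by
    rw [det_mul, det_mul, det_mul]
    linear_combination (h.det * h'.det) * hdg + hdh
  -- `g h = c h g`
  have hc : g * h = (g * h * g' * h') * (h * g) := by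
    rw [mul_assoc (g * h * g') h' (h * g), ← mul_assoc h' h g, eh2, one_mul, mul_assoc (g * h) g' g,
      eg2, mul_one]
  rcases hII _ hcS hcd with h1 | h1
  · rw [hc, h1, one_mul]
  · -- `g h = - h g`: impossible
    exfalso
    have hanti : g * h = -(h * g) := by rw [hc, h1, neg_mul, one_mul]
    -- traces vanish
    have htg : g.trace = 0 := by
      have e : g = -(h * g * h') := by
        have : g * h * h' = -(h * g) * h' := by rw [hanti]
        rw [mul_assoc, eh1, mul_one, neg_mul] at this
        exact this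
      have := congrArg trace e
      rw [trace_neg, trace_mul_cycle, eh2, one_mul] at this
      have h3 : (2 : F) * g.trace = 0 := by linear_combination this
      rcases mul_eq_zero.mp h3 with h | h
      · exact absurd h h2
      · exact h
    have hth : h.trace = 0 := by
      have e : h = -(g' * h * g) := by
        have : g' * (g * h) = g' * -(h * g) := by rw [hanti]
        rw [← mul_assoc, eg2, one_mul, mul_neg, ← mul_assoc] at this
        exact this
      have := congrArg trace e
      rw [trace_neg, trace_mul_cycle, eg1, one_mul] at this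
      have h3 : (2 : F) * h.trace = 0 := by linear_combination this
      rcases mul_eq_zero.mp h3 with h | h
      · exact absurd h h2
      · exact h
    have hdg' : g.det = -1 := by
      rcases hS g hg with k | k
      · rw [s41a_det_sub_one, htg] at k; linear_combination k
      · rw [s41a_det_add_one, htg] at k; linear_combination k
    have hdh' : h.det = -1 := by
      rcases hS h hh with k | k
      · rw [s41a_det_sub_one, hth] at k; linear_combination k
      · rw [s41a_det_add_one, hth] at k; linear_combination k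
    have hghd : (g * h).det = 1 := by rw [det_mul, hdg', hdh']; ring
    have hghS : g * h ∈ S := hmul _ hg _ hh
    -- `g h = ±1` commutes, so `2 g h = 0`
    have hcomm : g * h = h * g := by
      rcases hII _ hghS hghd with k | k
      · -- `h = g'`
        have hh' : h = g' := by
          have : g' * (g * h) = g' * 1 := by rw [k]
          rw [← mul_assoc, eg2, one_mul, mul_one] at this
          exact this
        rw [hh', eg1, eg2]
      · have hh' : h = -g' := by
          have : g' * (g * h) = g' * (-1) := by rw [k]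
          rw [← mul_assoc, eg2, one_mul, mul_neg, mul_one] at this
          exact this
        rw [hh', mul_neg, neg_mul, eg1, eg2]
    have hzero : (2 : F) • (g * h) = 0 := by
      rw [two_smul]
      nth_rewrite 2 [hcomm]
      rw [hanti]
      abel
    have hdz : ((2 : F) • (g * h)).det = 0 := by rw [hzero, det_zero]
    rw [det_smul, hghd, mul_one, Fintype.card_fin] at hdz
    exact h2 (pow_eq_zero_iff (two_ne_zero) |>.mp hdz)

include hmul hinv hS in
/-- **The matrix core**: a set of `2 × 2` matrices closed under products and inverses all of whose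
elements have an eigenvalue `±1` has a common eigenvector (characteristic `≠ 2`). -/
theorem s41a_mat_main (h2 : (2 : F) ≠ 0) :
    ∃ a : Fin 2 → F, a ≠ 0 ∧ ∀ x ∈ S, s41a_cross a (x *ᵥ a) = 0 := by
  by_cases hI : ∃ u ∈ S, u.det = 1 ∧ u ≠ 1 ∧ u ≠ -1
  · obtain ⟨u, hu, hd, h1, h2'⟩ := hI
    exact s41a_case_one S hmul hinv hS h2 hu hd h1 h2'
  · have hII : ∀ u ∈ S, u.det = 1 → u = 1 ∨ u = -1 := by
      intro u hu hd
      by_contra hcon
      rw [not_or] at hcon
      exact hI ⟨u, hu, hd, hcon.1, hcon.2⟩
    have hcomm := s41a_case_two_comm S hmul hinv hS h2 hII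
    by_cases hsc : ∀ x ∈ S, ∃ c : F, x = c • (1 : Matrix (Fin 2) (Fin 2) F)
    · refine ⟨![1, 0], ?_, ?_⟩
      · intro h
        have := congrFun h 0
        simp at this
      · intro x hx
        obtain ⟨c, rfl⟩ := hsc x hx
        rw [smul_mulVec, one_mulVec]
        exact s41a_cross_smul _ _
    · rw [not_forall] at hsc
      obtain ⟨g, hg⟩ := hsc
      rw [Classical.not_imp] at hg
      obtain ⟨hgS, hgsc⟩ := hg
      obtain ⟨ε, hεdet⟩ : ∃ ε : F, (g - ε • (1 : Matrix (Fin 2) (Fin 2) F)).det = 0 := by
        rcases hS g hgS with k | k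
        · exact ⟨1, by rw [one_smul]; exact k⟩
        · exact ⟨-1, by rw [neg_smul, one_smul, sub_neg_eq_add]; exact k⟩
      set X : Matrix (Fin 2) (Fin 2) F := g - ε • (1 : Matrix (Fin 2) (Fin 2) F) with hX
      have hX0 : X ≠ 0 := by
        intro h0
        apply hgsc
        exact ⟨ε, by rw [← sub_eq_zero]; exact h0⟩
      obtain ⟨a, ha0, haX⟩ := exists_mulVec_eq_zero_iff.mpr hεdet
      refine ⟨a, ha0, ?_⟩
      intro h hh
      apply s41a_cross_of_ker hX0 haX
      have hXh : X * h = h * X := by
        rw [hX, sub_mul, mul_sub, hcomm g hgS h hh, smul_mul_assoc, one_mul, mul_smul_comm, mul_one]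
      rw [mulVec_mulVec, hXh, ← mulVec_mulVec, haX, mulVec_zero]

end Core

/-! ### The group lemma -/

/-- **THE GROUP LEMMA.**  A group acting linearly and irreducibly on a 2-dimensional vector space
over `𝔽_p`, `p` odd, contains an element without eigenvalue `±1`. -/
theorem s41a_exists_no_pm_one {p : ℕ} [Fact p.Prime] (hp2 : p ≠ 2) {G : Type*} [Group G]
    {V : Type*} [AddCommGroup V] [Module (ZMod p) V] [DistribMulAction G V]
    [SMulCommClass G (ZMod p) V] (hV : Module.finrank (ZMod p) V = 2)
    (hirr : ∀ N : Submodule (ZMod p) V, (∀ g : G, ∀ x ∈ N, g • x ∈ N) → N = ⊥ ∨ N = ⊤) :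
    ∃ g : G, ∀ x : V, x ≠ 0 → g • x ≠ x ∧ g • x ≠ -x := by
  by_contra hcon
  have hcon' : ∀ g : G, ∃ x : V, x ≠ 0 ∧ (g • x = x ∨ g • x = -x) := by
    intro g
    by_contra h
    apply hcon
    refine ⟨g, fun x hx => ?_⟩
    constructor
    · intro e; exact h ⟨x, hx, Or.inl e⟩
    · intro e; exact h ⟨x, hx, Or.inr e⟩
  have : Module.Finite (ZMod p) V := Module.finite_of_finrank_pos (by omega)
  let b : Module.Basis (Fin 2) (ZMod p) V := Module.finBasisOfFinrankEq (ZMod p) V hV
  let ρ : G →* Module.End (ZMod p) V := DistribMulAction.toModuleEnd (ZMod p) V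
  let M : G → Matrix (Fin 2) (Fin 2) (ZMod p) := fun g => LinearMap.toMatrix b b (ρ g)
  have hM1 : M 1 = 1 := by
    show LinearMap.toMatrix b b (ρ 1) = 1
    rw [map_one]
    exact LinearMap.toMatrix_one b
  have hMmul : ∀ g h : G, M (g * h) = M g * M h := by
    intro g h
    show LinearMap.toMatrix b b (ρ (g * h)) = _
    rw [map_mul]
    exact LinearMap.toMatrix_mul b (ρ g) (ρ h)
  have hMv : ∀ (g : G) (x : V), M g *ᵥ b.equivFun x = b.equivFun (g • x) := by
    intro g x
    exact LinearMap.toMatrix_mulVec_repr b b (ρ g) x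
  have h2 : (2 : ZMod p) ≠ 0 := by
    intro h
    have h' : ((2 : ℕ) : ZMod p) = 0 := by exact_mod_cast h
    rw [ZMod.natCast_eq_zero_iff] at h'
    have := (Nat.prime_dvd_prime_iff_eq (Fact.out : p.Prime) Nat.prime_two).mp h'
    exact hp2 this
  obtain ⟨a, ha0, ha⟩ := s41a_mat_main (Set.range M)
    (by
      rintro _ ⟨g, rfl⟩ _ ⟨h, rfl⟩
      exact ⟨g * h, hMmul g h⟩)
    (by
      rintro _ ⟨g, rfl⟩
      refine ⟨M g⁻¹, ⟨g⁻¹, rfl⟩, ?_, ?_⟩
      · rw [← hMmul, mul_inv_cancel, hM1]
      · rw [← hMmul, inv_mul_cancel, hM1])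
    (by
      rintro _ ⟨g, rfl⟩
      obtain ⟨x, hx, hgx⟩ := hcon' g
      have hv : b.equivFun x ≠ 0 := by
        intro h
        exact hx (b.equivFun.map_eq_zero_iff.mp h)
      rcases hgx with e | e
      · left
        apply exists_mulVec_eq_zero_iff.mp
        refine ⟨b.equivFun x, hv, ?_⟩
        rw [sub_mulVec, one_mulVec, hMv, e, sub_self]
      · right
        apply exists_mulVec_eq_zero_iff.mp
        refine ⟨b.equivFun x, hv, ?_⟩
        rw [add_mulVec, one_mulVec, hMv, e, map_neg, neg_add_cancel])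
    h2
  -- the stable line
  set x₀ : V := b.equivFun.symm a with hx₀
  have hx₀a : b.equivFun x₀ = a := by rw [hx₀, LinearEquiv.apply_symm_apply]
  have hx₀0 : x₀ ≠ 0 := by
    intro h
    apply ha0
    rw [← hx₀a, h, map_zero]
  have hstab : ∀ g : G, ∃ c : ZMod p, g • x₀ = c • x₀ := by
    intro g
    have h1 := ha (M g) ⟨g, rfl⟩
    obtain ⟨c, hc⟩ := s41a_exists_smul_of_cross ha0 h1
    refine ⟨c, ?_⟩
    apply b.equivFun.injective
    rw [← hMv, hx₀a, hc, map_smul, hx₀a]
  rcases hirr (Submodule.span (ZMod p) {x₀}) (by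
    intro g x hx
    obtain ⟨r, rfl⟩ := Submodule.mem_span_singleton.mp hx
    obtain ⟨c, hc⟩ := hstab g
    rw [smul_comm, hc, smul_smul]
    exact Submodule.mem_span_singleton.mpr ⟨r * c, rfl⟩) with h | h
  · have : x₀ ∈ (⊥ : Submodule (ZMod p) V) := by
      rw [← h]; exact Submodule.mem_span_singleton_self x₀
    exact hx₀0 ((Submodule.mem_bot _).mp this)
  · have h1 : Module.finrank (ZMod p) (Submodule.span (ZMod p) {x₀}) = 1 :=
      finrank_span_singleton hx₀0
    rw [h, finrank_top, hV] at h1
    omega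

end Fermat.Agent.Lib.S41
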