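/-
S41 [A], module A5a (Galois side): for an elliptic curve `E / ℚ` with irreducible mod-`p`
representation (`p` odd) there is `g ∈ Gal(ℚ̄/ℚ)` without eigenvalue `±1` on `E[p]`; the field
`L = ℚ(E[p])` is finite-dimensional, Galois-stable, and the action on `E[p]` factors through the
restriction to `L`.
-/
import Mathlib
import Fermat.Prelude.Def_FLTPrelim_GaloisRep
import Fermat.Prelude.Def_EllipticCurve_FrobeniusTrace
import Fermat.Agent.Lib.S41.AGroup
import Fermat.Agent.Lib.EN.Torsion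
import Fermat.Agent.Lib.Frobenius.Exists

set_option autoImplicit false
set_option linter.unusedSectionVars false

namespace Fermat.Agent.Lib.S41

open WeierstrassCurve WeierstrassCurve.Affine WeierstrassCurve.Affine.Point
open Fermat.Agent.Lib.EN

local notation "Kb" => AlgebraicClosure ℚ
local notation "Gal" => (AlgebraicClosure ℚ ≃ₐ[ℚ] AlgebraicClosure ℚ)

variable (E : WeierstrassCurve ℚ) [E.IsElliptic] {p : ℕ}

instance s41a_instIsEllipticBaseChange : (E.toAffine⁄Kb).IsElliptic :=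
  inferInstanceAs (E.map (algebraMap ℚ Kb)).IsElliptic

/-- `#E[p] = p²`, so `E[p]` has dimension `2` over `𝔽_p`. -/
theorem s41a_finrank_torsion [Fact p.Prime] :
    Module.finrank (ZMod p) (Submodule.torsionBy ℤ (E.toAffine⁄Kb).Point p) = 2 := by
  have hp : p.Prime := Fact.out
  have hcard : Nat.card (Submodule.torsionBy ℤ (E.toAffine⁄Kb).Point p) = p ^ 2 :=
    ent_natCard_torsionBy (E.toAffine⁄Kb) p hp.one_le
  have hfin : Finite (Submodule.torsionBy ℤ (E.toAffine⁄Kb).Point p) :=
    Nat.finite_of_card_ne_zero (by rw [hcard]; exact pow_ne_zero 2 hp.ne_zero)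
  have := Module.natCard_eq_pow_finrank (K := ZMod p)
    (V := Submodule.torsionBy ℤ (E.toAffine⁄Kb).Point p)
  rw [hcard, Nat.card_zmod] at this
  exact (Nat.pow_right_injective hp.two_le this).symm

/-- **An element of the Galois group without eigenvalue `±1` on `E[p]`.** -/
theorem s41a_exists_galois_no_pm_one (hp : p.Prime) (hp2 : p ≠ 2)
    (hirr : GaloisRepIsIrreducible (K := Kb) ℚ E.toAffine p) :
    ∃ g : Gal, ∀ x : Submodule.torsionBy ℤ (E.toAffine⁄Kb).Point p, x ≠ 0 →
      g • x ≠ x ∧ g • x ≠ -x := by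
  have : Fact p.Prime := ⟨hp⟩
  exact s41a_exists_no_pm_one hp2 (G := Gal) (s41a_finrank_torsion E) hirr.2

/-- The `x`-coordinate (junk `0` at infinity). -/
def s41a_cx {F : Type*} [Field F] {W : WeierstrassCurve F} : W.toAffine.Point → F
  | .zero => 0
  | .some x _ _ => x

/-- The `y`-coordinate (junk `0` at infinity). -/
def s41a_cy {F : Type*} [Field F] {W : WeierstrassCurve F} : W.toAffine.Point → F
  | .zero => 0
  | .some _ y _ => y

theorem s41a_smul_some (σ : Gal) {x y : Kb} (h : (E.toAffine⁄Kb).Nonsingular x y) :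
    ∃ h', σ • (Point.some x y h : (E.toAffine⁄Kb).Point) = Point.some (σ x) (σ y) h' :=
  ⟨_, rfl⟩

theorem s41a_cx_smul (σ : Gal) (P : (E.toAffine⁄Kb).Point) :
    s41a_cx (σ • P) = σ (s41a_cx P) := by
  rcases P with _ | ⟨x, y, h⟩
  · exact (map_zero σ).symm
  · rfl

theorem s41a_cy_smul (σ : Gal) (P : (E.toAffine⁄Kb).Point) :
    s41a_cy (σ • P) = σ (s41a_cy P) := by
  rcases P with _ | ⟨x, y, h⟩
  · exact (map_zero σ).symm
  · rfl

/-- **The field `ℚ(E[p])`.** -/
theorem s41a_exists_field (hp : p.Prime) :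
    ∃ L : IntermediateField ℚ Kb, FiniteDimensional ℚ L ∧ (∀ σ : Gal, ∀ x ∈ L, σ x ∈ L) ∧
      ∀ τ g : Gal, (∀ x ∈ L, τ x = g x) →
        ∀ v : Submodule.torsionBy ℤ (E.toAffine⁄Kb).Point p, τ • v = g • v := by
  set T : Set (E.toAffine⁄Kb).Point := {P | p • P = 0} with hT
  have hTfin : T.Finite := by
    have hcard : Nat.card {P : (E.toAffine⁄Kb).Point // p • P = 0} = p ^ 2 :=
      ent_natCard_torsion (E.toAffine⁄Kb) p hp.one_le
    have : Finite {P : (E.toAffine⁄Kb).Point // p • P = 0} :=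
      Nat.finite_of_card_ne_zero (by rw [hcard]; exact pow_ne_zero 2 hp.ne_zero)
    exact Set.finite_coe_iff.mp (show Finite ↥T from this)
  set S : Set Kb := s41a_cx '' T ∪ s41a_cy '' T with hS
  have hSfin : S.Finite := (hTfin.image _).union (hTfin.image _)
  have hTσ : ∀ σ : Gal, ∀ P ∈ T, σ • P ∈ T := by
    intro σ P hP
    have hP' : p • P = 0 := hP
    show p • (σ • P) = 0
    rw [← Nat.cast_smul_eq_nsmul ℤ, ← algEquiv_smul_zsmul, Nat.cast_smul_eq_nsmul ℤ, hP',
      smul_zero]
  have hSσ : ∀ σ : Gal, ∀ c ∈ S, σ c ∈ S := by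
    rintro σ c (⟨P, hP, rfl⟩ | ⟨P, hP, rfl⟩)
    · exact Or.inl ⟨σ • P, hTσ σ P hP, s41a_cx_smul E σ P⟩
    · exact Or.inr ⟨σ • P, hTσ σ P hP, s41a_cy_smul E σ P⟩
  refine ⟨IntermediateField.adjoin ℚ S, ?_, ?_, ?_⟩
  · have : Finite S := hSfin.to_subtype
    exact IntermediateField.finiteDimensional_adjoin fun x _ =>
      (Fermat.Agent.Lib.Frobenius.isAlgebraic_QBar.isAlgebraic x).isIntegral
  · intro σ x hx
    have h1 : σ x ∈ (IntermediateField.adjoin ℚ S).map σ.toAlgHom := ⟨x, hx, rfl⟩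
    rw [IntermediateField.adjoin_map] at h1
    refine IntermediateField.adjoin.mono ℚ _ _ ?_ h1
    rintro _ ⟨c, hc, rfl⟩
    exact hSσ σ c hc
  · intro τ g hτg v
    apply Subtype.ext
    show τ • (v : (E.toAffine⁄Kb).Point) = g • (v : (E.toAffine⁄Kb).Point)
    have hv : (v : (E.toAffine⁄Kb).Point) ∈ T := by
      have := v.2
      rw [Submodule.mem_torsionBy_iff, Nat.cast_smul_eq_nsmul] at this
      exact this
    rcases hP : (v : (E.toAffine⁄Kb).Point) with _ | ⟨x, y, h⟩
    · rfl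
    · have hx : x ∈ IntermediateField.adjoin ℚ S := by
        apply IntermediateField.subset_adjoin
        refine Or.inl ⟨_, hv, ?_⟩
        rw [hP]; rfl
      have hy : y ∈ IntermediateField.adjoin ℚ S := by
        apply IntermediateField.subset_adjoin
        refine Or.inr ⟨_, hv, ?_⟩
        rw [hP]; rfl
      show Point.map τ.toAlgHom (Point.some x y h) = Point.map g.toAlgHom (Point.some x y h)
      rw [Point.map_some, Point.map_some, Point.some.injEq]
      exact ⟨hτg x hx, hτg y hy⟩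

end Fermat.Agent.Lib.S41
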