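/-
S41 [A], module A6b (transport): if `C • E = W_ℚ` (`W / ℤ` an integral model of `E / ℚ`), the
points of `W(ℚ̄)` (as the generic fibre of the model over a valuation subring `A`) are identified
with the points of `E(ℚ̄)`, compatibly with the Galois action.
-/
import Mathlib
import Fermat.Prelude.Def_FLTPrelim_Modularity
import Fermat.Prelude.Def_EllipticCurve_FrobeniusTrace
import Fermat.Agent.Lib.S41.ALocal
import Fermat.Agent.Lib.Frey.VarChange

set_option autoImplicit false
set_option linter.unusedSectionVars false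

namespace Fermat.Agent.Lib.S41

open WeierstrassCurve WeierstrassCurve.Affine IsLocalRing
open Fermat.Agent.Lib.Frey

local notation "Kb" => AlgebraicClosure ℚ
local notation "Gal" => (AlgebraicClosure ℚ ≃ₐ[ℚ] AlgebraicClosure ℚ)

variable (E : WeierstrassCurve ℚ) (W : WeierstrassCurve ℤ) (A : ValuationSubring Kb)
  (C : VariableChange ℚ) (hC : C • E = W.map (Int.castRingHom ℚ))

/-- The variable change over `ℚ̄`. -/
noncomputable abbrev s41a_CK : VariableChange Kb := C.map (algebraMap ℚ Kb)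

include hC in
theorem s41a_curve_eq :
    s41a_WK A (s41a_WA W A) = s41a_CK C • (E.toAffine⁄Kb) := by
  rw [s41a_WK_eq]
  show _ = (C.map (algebraMap ℚ Kb)) • (E.map (algebraMap ℚ Kb))
  rw [WeierstrassCurve.map_variableChange, hC, WeierstrassCurve.map_map]
  congr 1

/-- The identification `W(ℚ̄) ≃ E(ℚ̄)`. -/
noncomputable def s41a_Phi :
    (s41a_WK A (s41a_WA W A)).toAffine.Point ≃+ (E.toAffine⁄Kb).Point :=
  (fab_congr (s41a_curve_eq E W A C hC)).trans (fvc_pointEquiv (E.toAffine⁄Kb) (s41a_CK C))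

theorem s41a_Phi_some {X Y : Kb} (h : (s41a_WK A (s41a_WA W A)).toAffine.Nonsingular X Y) :
    ∃ h', s41a_Phi E W A C hC (Point.some X Y h) =
      Point.some (fvc_X (s41a_CK C) X) (fvc_Y (s41a_CK C) X Y) h' := by
  have e : s41a_Phi E W A C hC (Point.some X Y h) =
      fvc_pointEquiv (E.toAffine⁄Kb) (s41a_CK C)
        (fab_congr (s41a_curve_eq E W A C hC) (Point.some X Y h)) := rfl
  rw [e, fab_congr_some, fvc_pointEquiv_some]
  exact ⟨_, rfl⟩

theorem s41a_sigma_fvc_X (σ : Gal) (X : Kb) :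
    σ (fvc_X (s41a_CK C) X) = fvc_X (s41a_CK C) (σ X) := by
  simp only [fvc_X, s41a_CK, VariableChange.map, Units.coe_map, MonoidHom.coe_coe, map_add,
    map_mul, map_pow, AlgEquiv.commutes]

theorem s41a_sigma_fvc_Y (σ : Gal) (X Y : Kb) :
    σ (fvc_Y (s41a_CK C) X Y) = fvc_Y (s41a_CK C) (σ X) (σ Y) := by
  simp only [fvc_Y, s41a_CK, VariableChange.map, Units.coe_map, MonoidHom.coe_coe, map_add,
    map_mul, map_pow, AlgEquiv.commutes]

/-- Galois equivariance of the identification. -/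
theorem s41a_Phi_sigma (σ : Gal) (P : (s41a_WK A (s41a_WA W A)).toAffine.Point) :
    σ • s41a_Phi E W A C hC P =
      s41a_Phi E W A C hC (fab_sigma (σ : Kb →+* Kb) _ (s41a_WK_map W A _) P) := by
  rcases P with _ | ⟨X, Y, h⟩
  · show σ • s41a_Phi E W A C hC 0 = s41a_Phi E W A C hC (fab_sigma _ _ _ 0)
    rw [map_zero, map_zero, map_zero]
    rfl
  · rw [fab_sigma_some]
    obtain ⟨h₁, e₁⟩ := s41a_Phi_some E W A C hC h
    obtain ⟨h₂, e₂⟩ := s41a_Phi_some E W A C hC
      (s41a_WK_map W A (σ : Kb →+* Kb) ▸ fab_map_nonsingular (σ : Kb →+* Kb) _ h)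
    rw [e₁, e₂]
    show Point.map σ.toAlgHom (Point.some _ _ h₁) = _
    rw [Point.map_some]
    exact s41a_some_congr (s41a_sigma_fvc_X C σ X) (s41a_sigma_fvc_Y C σ X Y) _ _

end Fermat.Agent.Lib.S41
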