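/-
S41 (level raising), [Top] (helper3): **S41 from three named contracts**, type-checked against the
frozen statement.

The lattice that carries the argument is `H(M, A) = s29h_Hpar · M A ⊆ Hom(Γ₀(M), A)` of Lib/S29
(parabolic homs vanishing on the elements of finite order), `H(M, ℤ) = s29s_M M`,
`H(M, 𝔽_p) = s29h_Hp M p`, with the Hecke operators `T_ℓ^H = s29h_heckeHom M ℓ A` (`ℓ ∤ M`).

* `s41_NonEis`  [A]  : `E[p]` irreducible ⇒ outside any finite set of primes there is a good prime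
  `ℓ₀` with `p ∤ a_ℓ₀(W)² − (ℓ₀ + 1)²`.
* `s41_Coh`     [B]–[E],[G] : the COHOMOLOGICAL level raising.  Input: a non-zero class
  `w ∈ k ⊗ H(N, 𝔽_p)` (the output shape of `s29s_dsCore`) with `T_ℓ w = e ℓ • w` (`ℓ ∤ N p`),
  `e(q')² = (q' + 1)²`, and a non-Eisenstein witness `e(ℓ₀)² ≠ (ℓ₀ + 1)²`.  Output, in COORDINATES:
  a `ℤ`-linearly independent family `b : Fin r → H(N q', ℤ)` whose span is stable under the
  `T_ℓ^H` (`ℓ ∤ N q'`) with integer matrices `t ℓ`, which is `q'`-NEW in the sense `s41_NewClass`,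
  and `0 ≠ v ∈ k^r` with `(t ℓ mod p) v = e ℓ • v` (`ℓ ∤ N q' p`).
  (Think: `b` = a `ℤ`-basis of `ker (α_*, β_*) ∩ H(N q', ℤ)`, `v` = the coordinates of the class
  `ῑ(x, −ε x')`.)
* `s41_NewClass M hq χ` : the interface between the two worlds.  For `χ ∈ Hom(Γ₀(M), ℤ)`:
  whenever `periodHomPair M (g₁, g₂) = cast χ`, then `U_q² g₁ = g₁` and `U_q² g₂ = g₂`
  (`U_q = CuspForm.heckeULin 2 hq`).  It is `ℂ`-linear in `χ`, holds on `ker β_*` because there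
  `U_q^H = − w_q^H` (Route Y: `intHk_heckeU` gives the `U_q`-equivariance of the period map for free),
  or from `Tr g = 0 = Tr (g | w_q)` on the forms side (Route X).
* `s41_Form`    [F] : from that data, a normalised eigenform `g` of level `M` with `a_q(g)² = 1`,
  a maximal ideal `𝔪' ∋ p` of `ℤ̄` and `a_ℓ(g) ≡ n mod 𝔪'` whenever `e ℓ = (n : k)`, `n ∈ ℤ`
  (Deligne–Serre lifting in the lattice spanned by `b` + S21).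

`s41_of_contracts : s41_NonEis → s41_Coh → s41_Form → (the frozen S41 statement)`.
-/
import Mathlib
import Fermat.Prelude.Def_FLTPrelim_ModularRep
import Fermat.Prelude.Def_FreyPackage_LevelRaising
import Fermat.Agent.Lib.S29.DSMain

set_option autoImplicit false
set_option linter.unusedSectionVars false
set_option linter.style.haveILetI false

open WeierstrassCurve WeierstrassCurve.Affine WeierstrassCurve.Affine.Point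
open scoped CongruenceSubgroup TensorProduct

namespace Fermat.Agent.Lib.S41

open Fermat.Agent.Lib.S29 CongruenceSubgroup ModularCurve ModularFormClass

noncomputable section

/-- `T_ℓ^H` on `Hom(Γ₀(M), ℤ)` for `ℓ : Nat.Primes`. -/
def s41_TlZ (M : ℕ) (ℓ : Nat.Primes) :
    (Additive (Gamma0 M) →+ ℤ) →+ (Additive (Gamma0 M) →+ ℤ) :=
  haveI : Fact (ℓ : ℕ).Prime := ⟨ℓ.2⟩
  s29h_heckeHom M (ℓ : ℕ) ℤ

/-- **`q`-new classes** (interface between the cohomological and the modular-forms side). -/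
def s41_NewClass (M : ℕ) [NeZero M] {q : ℕ} (hq : q ∣ M) (χ : Additive (Gamma0 M) →+ ℤ) : Prop :=
  ∀ g₁ g₂ : CuspForm (Gamma0 M) 2, periodHomPair M (g₁, g₂) = s29s_cast ℂ χ →
    CuspForm.heckeULin 2 hq (CuspForm.heckeULin 2 hq g₁) = g₁ ∧
    CuspForm.heckeULin 2 hq (CuspForm.heckeULin 2 hq g₂) = g₂

/-- **[A] non-Eisenstein witness.** -/
def s41_NonEis : Prop :=
  ∀ (E : WeierstrassCurve ℚ) [E.IsElliptic] (W : WeierstrassCurve ℤ), W.IsIntegralModelOf E →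
  ∀ (p : ℕ), p.Prime → p ≠ 2 →
    GaloisRepIsIrreducible (K := AlgebraicClosure ℚ) ℚ E p →
    ∀ B : Finset ℕ, ∃ ℓ₀ : ℕ, ℓ₀.Prime ∧ ℓ₀ ∉ B ∧ W.IsGoodPrimeFor ℓ₀ ∧
      ¬ (p : ℤ) ∣ W.apOfModel ℓ₀ ^ 2 - ((ℓ₀ : ℤ) + 1) ^ 2

/-- **[Coh] cohomological level raising**, output in coordinates. -/
def s41_Coh : Prop :=
  ∀ (N : ℕ) [NeZero N] (q' : ℕ) (hq' : q'.Prime), ¬ q' ∣ N →
  ∀ (p : ℕ) [Fact p.Prime], p ≠ 2 → q' ≠ p →
  ∀ (k : Type) [Field k] [Algebra (ZMod p) k] (e : Nat.Primes → k)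
    (w : k ⊗[ZMod p] s29h_Hp N p), w ≠ 0 →
    (∀ ℓ : Nat.Primes, ¬ (ℓ : ℕ) ∣ N * p → (s29h_Tl N p ℓ).baseChange k w = e ℓ • w) →
    e ⟨q', hq'⟩ ^ 2 = ((q' : k) + 1) ^ 2 →
    (∃ ℓ₀ : Nat.Primes, ¬ (ℓ₀ : ℕ) ∣ N * q' * p ∧ e ℓ₀ ^ 2 ≠ (((ℓ₀ : ℕ) : k) + 1) ^ 2) →
    haveI : NeZero (N * q') := ⟨Nat.mul_ne_zero (NeZero.ne N) hq'.ne_zero⟩
    ∃ (r : ℕ) (b : Fin r → (Additive (Gamma0 (N * q')) →+ ℤ))
      (t : Nat.Primes → Matrix (Fin r) (Fin r) ℤ),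
      LinearIndependent ℤ b ∧ (∀ j, b j ∈ s29s_M (N * q')) ∧
      (∀ ℓ : Nat.Primes, ¬ (ℓ : ℕ) ∣ N * q' → ∀ j, s41_TlZ (N * q') ℓ (b j) = ∑ i, t ℓ i j • b i) ∧
      (∀ j, s41_NewClass (N * q') (Dvd.intro_left N rfl) (b j)) ∧
      ∃ v : Fin r → k, v ≠ 0 ∧
        ∀ ℓ : Nat.Primes, ¬ (ℓ : ℕ) ∣ N * q' * p →
          ((t ℓ).map (Int.cast : ℤ → k)).mulVec v = e ℓ • v

/-- **[F] from a mod-`p` eigenvector in a `q`-new Hecke-stable lattice to a normalised eigenform.** -/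
def s41_Form : Prop :=
  ∀ (M : ℕ) [NeZero M] (q : ℕ), q.Prime → ∀ hqM : q ∣ M,
  ∀ (p : ℕ) [Fact p.Prime] (k : Type) [Field k] [Algebra (ZMod p) k] (e : Nat.Primes → k)
    (r : ℕ) (b : Fin r → (Additive (Gamma0 M) →+ ℤ)) (t : Nat.Primes → Matrix (Fin r) (Fin r) ℤ),
    LinearIndependent ℤ b → (∀ j, b j ∈ s29s_M M) →
    (∀ ℓ : Nat.Primes, ¬ (ℓ : ℕ) ∣ M → ∀ j, s41_TlZ M ℓ (b j) = ∑ i, t ℓ i j • b i) →
    (∀ j, s41_NewClass M hqM (b j)) →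
    ∀ v : Fin r → k, v ≠ 0 →
    (∀ ℓ : Nat.Primes, ¬ (ℓ : ℕ) ∣ M * p → ((t ℓ).map (Int.cast : ℤ → k)).mulVec v = e ℓ • v) →
    ∃ (g : CuspForm (Gamma0 M) 2) (𝔪' : Ideal (integralClosure ℤ ℂ)),
      g.IsNormalizedEigenform ∧ 𝔪'.IsMaximal ∧ (p : integralClosure ℤ ℂ) ∈ 𝔪' ∧
      qCoeff g q ^ 2 = 1 ∧
      ∀ ℓ : Nat.Primes, ¬ (ℓ : ℕ) ∣ M * p → ∀ n : ℤ, e ℓ = (n : k) →
        ∃ a : integralClosure ℤ ℂ, (a : ℂ) = qCoeff g ℓ ∧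
          a - ((n : ℤ) : integralClosure ℤ ℂ) ∈ 𝔪'

/-- characteristic `p` of the residue field `ℤ̄ ⧸ 𝔪` when `p ∈ 𝔪`. -/
theorem s41_charP_quot (𝔪 : Ideal (integralClosure ℤ ℂ)) (hmax : 𝔪.IsMaximal) (p : ℕ)
    (hp : p.Prime) (hpm : (p : integralClosure ℤ ℂ) ∈ 𝔪) :
    CharP (integralClosure ℤ ℂ ⧸ 𝔪) p := by
  have : Nontrivial (integralClosure ℤ ℂ ⧸ 𝔪) := Ideal.Quotient.nontrivial_iff.mpr hmax.ne_top
  obtain ⟨c, hc⟩ := CharP.exists (integralClosure ℤ ℂ ⧸ 𝔪)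
  have h0 : ((p : ℕ) : integralClosure ℤ ℂ ⧸ 𝔪) = 0 := by
    have : ((p : ℕ) : integralClosure ℤ ℂ ⧸ 𝔪) =
        Ideal.Quotient.mk 𝔪 ((p : ℕ) : integralClosure ℤ ℂ) := by simp
    rw [this]
    exact Ideal.Quotient.eq_zero_iff_mem.mpr hpm
  have hdvd : c ∣ p := (CharP.cast_eq_zero_iff (integralClosure ℤ ℂ ⧸ 𝔪) c p).mp h0
  rcases (Nat.dvd_prime hp).mp hdvd with h1 | h1
  · exfalso
    subst h1
    exact CharP.char_ne_one (integralClosure ℤ ℂ ⧸ 𝔪) 1 rfl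
  · exact h1 ▸ hc

/-- **S41 from the three contracts** (the conclusion is the frozen statement verbatim). -/
theorem s41_of_contracts (hA : s41_NonEis) (hC : s41_Coh) (hF : s41_Form)
    (E : WeierstrassCurve ℚ) [E.IsElliptic] {W : WeierstrassCurve ℤ} (hW : W.IsIntegralModelOf E)
    {p N q' : ℕ} (hp : p.Prime) (hp2 : p ≠ 2) (hN : 0 < N) (hq' : q'.Prime) (hq'N : ¬ q' ∣ N)
    (hq'p : q' ≠ p)
    (hirr : GaloisRepIsIrreducible (K := AlgebraicClosure ℚ) ℚ E p)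
    (f : CuspForm (CongruenceSubgroup.Gamma0 N) 2) (𝔪 : Ideal (integralClosure ℤ ℂ))
    (hf : f.IsNormalizedEigenform) (hmax : 𝔪.IsMaximal) (hpm : (p : integralClosure ℤ ℂ) ∈ 𝔪)
    (hcong : ∀ ℓ : ℕ, ℓ.Prime → W.IsGoodPrimeFor ℓ → ¬ ℓ ∣ N → ℓ ≠ p →
      ∃ a : integralClosure ℤ ℂ, (a : ℂ) = ModularFormClass.qCoeff f ℓ ∧
        a - ((W.apOfModel ℓ : ℤ) : integralClosure ℤ ℂ) ∈ 𝔪)
    (hLR : ∃ a : integralClosure ℤ ℂ, (a : ℂ) = ModularFormClass.qCoeff f q' ∧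
      a ^ 2 - ((q' : integralClosure ℤ ℂ) + 1) ^ 2 ∈ 𝔪) :
    ∃ (g : CuspForm (CongruenceSubgroup.Gamma0 (N * q')) 2) (𝔪' : Ideal (integralClosure ℤ ℂ)),
      g.IsNormalizedEigenform ∧ 𝔪'.IsMaximal ∧ (p : integralClosure ℤ ℂ) ∈ 𝔪' ∧
      (∀ ℓ : ℕ, ℓ.Prime → W.IsGoodPrimeFor ℓ → ¬ ℓ ∣ N * q' → ℓ ≠ p →
        ∃ a : integralClosure ℤ ℂ, (a : ℂ) = ModularFormClass.qCoeff g ℓ ∧
          a - ((W.apOfModel ℓ : ℤ) : integralClosure ℤ ℂ) ∈ 𝔪') ∧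
      g.IsNewAt q' := by
  classical
  have : NeZero N := ⟨hN.ne'⟩
  have : Fact p.Prime := ⟨hp⟩
  have hNq : NeZero (N * q') := ⟨Nat.mul_ne_zero hN.ne' hq'.ne_zero⟩
  -- the residue field
  let k : Type := integralClosure ℤ ℂ ⧸ 𝔪
  letI : Field k := Ideal.Quotient.field 𝔪
  have hchar : CharP k p := s41_charP_quot 𝔪 hmax p hp hpm
  letI : Algebra (ZMod p) k := ZMod.algebra k p
  let φ : integralClosure ℤ ℂ →+* k := Ideal.Quotient.mk 𝔪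
  have hφ0 : ∀ x : integralClosure ℤ ℂ, φ x = 0 ↔ x ∈ 𝔪 := fun x =>
    Ideal.Quotient.eq_zero_iff_mem
  have hint : ∀ n : ℤ, ((n : ℤ) : k) = 0 ↔ (p : ℤ) ∣ n := fun n =>
    CharP.intCast_eq_zero_iff k p n
  -- the level `N` class
  obtain ⟨w, hw0, hweig⟩ := s29s_dsCore N f hf p k φ
  choose a ha hwa using hweig
  let e : Nat.Primes → k := fun ℓ => if h : ¬ (ℓ : ℕ) ∣ N * p then φ (a ℓ h) else 0
  have he : ∀ (ℓ : Nat.Primes) (h : ¬ (ℓ : ℕ) ∣ N * p), e ℓ = φ (a ℓ h) := fun ℓ h => dif_pos h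
  have heig : ∀ ℓ : Nat.Primes, ¬ (ℓ : ℕ) ∣ N * p →
      (s29h_Tl N p ℓ).baseChange k w = e ℓ • w := fun ℓ h => by rw [he ℓ h]; exact hwa ℓ h
  -- uniqueness of the algebraic integer with a given complex value
  have huniq : ∀ x y : integralClosure ℤ ℂ, (x : ℂ) = (y : ℂ) → x = y := fun x y h =>
    Subtype.ext h
  have hndvd : ∀ ℓ : ℕ, ℓ.Prime → ¬ ℓ ∣ N → ℓ ≠ p → ¬ ℓ ∣ N * p := by
    intro ℓ hℓ hℓN hℓp h
    rcases (Nat.Prime.dvd_mul hℓ).mp h with h | h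
    · exact hℓN h
    · exact hℓp ((Nat.prime_dvd_prime_iff_eq hℓ hp).mp h)
  -- `e` at the good primes of `W`
  have hegood : ∀ (ℓ : Nat.Primes), W.IsGoodPrimeFor ℓ → ¬ (ℓ : ℕ) ∣ N → (ℓ : ℕ) ≠ p →
      e ℓ = ((W.apOfModel ℓ : ℤ) : k) := by
    intro ℓ hgood hℓN hℓp
    obtain ⟨a', ha', hmem⟩ := hcong ℓ ℓ.2 hgood hℓN hℓp
    have h1 := hndvd ℓ ℓ.2 hℓN hℓp
    have h2 : a ℓ h1 = a' := huniq _ _ ((ha ℓ h1).trans ha'.symm)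
    rw [he ℓ h1, h2]
    have h3 := (hφ0 _).mpr hmem
    rw [map_sub, sub_eq_zero] at h3
    rw [h3, map_intCast]
  -- the level raising condition
  have hq'Np : ¬ q' ∣ N * p := hndvd q' hq' hq'N hq'p
  have hLR' : e ⟨q', hq'⟩ ^ 2 = ((q' : k) + 1) ^ 2 := by
    obtain ⟨a', ha', hmem⟩ := hLR
    have h2 : a ⟨q', hq'⟩ hq'Np = a' := huniq _ _ ((ha ⟨q', hq'⟩ hq'Np).trans ha'.symm)
    rw [he ⟨q', hq'⟩ hq'Np, h2]
    have h3 := (hφ0 _).mpr hmem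
    rw [map_sub, sub_eq_zero, map_pow, map_pow, map_add, map_one, map_natCast] at h3
    exact h3
  -- the non-Eisenstein witness
  obtain ⟨ℓ₀, hℓ₀, hℓ₀B, hℓ₀good, hℓ₀ne⟩ := hA E W hW p hp hp2 hirr (N * q' * p).primeFactors
  have hℓ₀ndvd : ¬ ℓ₀ ∣ N * q' * p := by
    intro h
    exact hℓ₀B (Nat.mem_primeFactors.mpr ⟨hℓ₀, h,
      Nat.mul_ne_zero (Nat.mul_ne_zero hN.ne' hq'.ne_zero) hp.ne_zero⟩)
  have hℓ₀N : ¬ ℓ₀ ∣ N := fun h => hℓ₀ndvd (Dvd.dvd.mul_right (Dvd.dvd.mul_right h q') p)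
  have hℓ₀p : ℓ₀ ≠ p := fun h => hℓ₀ndvd (h ▸ Dvd.intro_left (N * q') rfl)
  have hNE : ∃ ℓ₀ : Nat.Primes, ¬ (ℓ₀ : ℕ) ∣ N * q' * p ∧
      e ℓ₀ ^ 2 ≠ (((ℓ₀ : ℕ) : k) + 1) ^ 2 := by
    refine ⟨⟨ℓ₀, hℓ₀⟩, hℓ₀ndvd, fun h => hℓ₀ne ?_⟩
    rw [hegood ⟨ℓ₀, hℓ₀⟩ hℓ₀good hℓ₀N hℓ₀p] at h
    rw [← hint]
    push_cast
    rw [sub_eq_zero]
    exact h
  -- cohomological level raising
  obtain ⟨r, b, t, hbli, hbM, hbt, hbnew, v, hv0, hveig⟩ :=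
    hC N q' hq' hq'N p hp2 hq'p k e w hw0 heig hLR' hNE
  -- the eigenform
  obtain ⟨g, 𝔪', hg, hmax', hpm', hnew, hgcong⟩ :=
    hF (N * q') q' hq' (Dvd.intro_left N rfl) p k e r b t hbli hbM hbt hbnew v hv0 hveig
  refine ⟨g, 𝔪', hg, hmax', hpm', ?_, hnew⟩
  intro ℓ hℓ hgood hℓNq hℓp
  have hℓN : ¬ ℓ ∣ N := fun h => hℓNq (Dvd.dvd.mul_right h q')
  have h1 : ¬ ℓ ∣ N * q' * p := by
    intro h
    rcases (Nat.Prime.dvd_mul hℓ).mp h with h | h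
    · exact hℓNq h
    · exact hℓp ((Nat.prime_dvd_prime_iff_eq hℓ hp).mp h)
  exact hgcong ⟨ℓ, hℓ⟩ h1 (W.apOfModel ℓ) (hegood ⟨ℓ, hℓ⟩ hgood hℓN hℓp)

end

end Fermat.Agent.Lib.S41
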