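/-
S41 [A], module A6c (assembly): `s41_NonEis` from the finite-field contract `s41a_FinSide`
(module A2).
-/
import Mathlib
import Fermat.Prelude.Def_FLTPrelim_Modularity
import Fermat.Prelude.Def_EllipticCurve_FrobeniusTrace
import Fermat.Agent.Lib.S41.AGalois
import Fermat.Agent.Lib.S41.ATransport
import Fermat.Agent.Lib.S29.FDPlace
import Fermat.Agent.Lib.S41.Top

set_option autoImplicit false
set_option linter.unusedSectionVars false

namespace Fermat.Agent.Lib.S41

open WeierstrassCurve WeierstrassCurve.Affine IsLocalRing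
open Fermat.Agent.Lib.Frey Fermat.Agent.Lib.S29

local notation "Kb" => AlgebraicClosure ℚ
local notation "Gal" => (AlgebraicClosure ℚ ≃ₐ[ℚ] AlgebraicClosure ℚ)

/-- **The finite-field contract (module A2).**  `κ` an algebraically closed field of odd
characteristic `ℓ` over which `W` has good reduction; if `p ∣ a_ℓ(W)² − (ℓ+1)²` then the reduction
has a `p`-torsion point which is a `±1`-eigenvector of the `ℓ`-power Frobenius. -/
def s41a_FinSide : Prop :=
  ∀ (W : WeierstrassCurve ℤ) (ℓ p : ℕ), ℓ.Prime → ℓ ≠ 2 → p.Prime →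
    ∀ (κ : Type) [Field κ] [DecidableEq κ] [CharP κ ℓ] [IsAlgClosed κ],
      (W.map (Int.castRingHom κ)).IsElliptic →
      (p : ℤ) ∣ W.apOfModel ℓ ^ 2 - ((ℓ : ℤ) + 1) ^ 2 →
      s41a_HasFrobEigen (W.map (Int.castRingHom κ)) p ℓ

/-- Powers of an operator with a `±1`-eigenvector. -/
theorem s41a_pow_smul_pm {G V : Type*} [Group G] [AddCommGroup V] [DistribMulAction G V]
    (σ : G) (x : V) (h : σ • x = x ∨ σ • x = -x) (j : ℕ) :
    σ ^ j • x = x ∨ σ ^ j • x = -x := by
  induction j with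
  | zero => left; rw [pow_zero, one_smul]
  | succ j ih =>
    rw [pow_succ, mul_smul]
    rcases h with h | h
    · rw [h]; exact ih
    · rw [h, smul_neg]
      rcases ih with ih | ih
      · right; rw [ih]
      · left; rw [ih, neg_neg]

theorem s41a_nonEis_of_finSide (hfin : s41a_FinSide) : s41_NonEis := by
  classical
  intro E _ W hW p hp hp2 hirr B
  obtain ⟨C, hC⟩ := hW
  -- the discriminant of `W` is non-zero
  have hΔ : W.Δ ≠ 0 := by
    intro h0
    have h1 : (C • E).Δ ≠ 0 := (C • E).isUnit_Δ.ne_zero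
    rw [hC, map_Δ, h0, map_zero] at h1
    exact h1 rfl
  -- Galois side
  obtain ⟨g, hg⟩ := s41a_exists_galois_no_pm_one E hp hp2 hirr
  obtain ⟨L, hLfd, hLstab, hLact⟩ := s41a_exists_field E (p := p) hp
  -- density
  obtain ⟨ℓ, A, σ, j, hℓ, hℓS, hA, hσ, hσg⟩ := s29d_frobDensity L hLfd hLstab
    (B ∪ {2, p} ∪ W.Δ.natAbs.primeFactors) g
  have hℓB : ℓ ∉ B := fun h => hℓS (Finset.mem_union_left _ (Finset.mem_union_left _ h))
  have hℓ2 : ℓ ≠ 2 := fun h => hℓS (Finset.mem_union_left _ (Finset.mem_union_right _ (by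
    rw [h]; exact Finset.mem_insert_self _ _)))
  have hℓp : p ≠ ℓ := fun h => hℓS (Finset.mem_union_left _ (Finset.mem_union_right _ (by
    rw [← h]; exact Finset.mem_insert_of_mem (Finset.mem_singleton_self _))))
  have hgood : ¬ (ℓ : ℤ) ∣ W.Δ := by
    intro hdvd
    apply hℓS
    apply Finset.mem_union_right
    rw [Nat.mem_primeFactors]
    refine ⟨hℓ, ?_, Int.natAbs_ne_zero.mpr hΔ⟩
    exact Int.natCast_dvd.mp hdvd
  refine ⟨ℓ, hℓ, hℓB, hgood, ?_⟩
  intro hdvd
  -- finite side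
  have hcharP : CharP (ResidueField A) ℓ := s41a_charP_residueField A hℓ hA
  have hac : IsAlgClosed (ResidueField A) := s41a_isAlgClosed_residueField A
  have hell : (W.map (Int.castRingHom (ResidueField A))).IsElliptic := by
    rw [← s41a_Wk_eq]; exact s41a_Wk_isElliptic hℓ hA hgood
  have hFE := hfin W ℓ p hℓ hℓ2 hp (ResidueField A) hell hdvd
  -- local step
  obtain ⟨P, hP0, hPp, hPσ⟩ := s41a_local hℓ hℓ2 hA hgood hp hp2 hℓp hσ hFE
  -- transport to `E`
  set Φ := s41a_Phi E W A C hC with hΦ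
  have hmem : Φ P ∈ Submodule.torsionBy ℤ (E.toAffine⁄Kb).Point p := by
    rw [Submodule.mem_torsionBy_iff, Nat.cast_smul_eq_nsmul, ← map_nsmul, hPp, map_zero]
  set x₀ : Submodule.torsionBy ℤ (E.toAffine⁄Kb).Point p := ⟨Φ P, hmem⟩ with hx₀
  have hx₀0 : x₀ ≠ 0 := by
    intro h
    apply hP0
    have : Φ P = 0 := congrArg Subtype.val h
    exact (AddEquiv.map_eq_zero_iff Φ).mp this
  have hσx₀ : σ • x₀ = x₀ ∨ σ • x₀ = -x₀ := by
    have key : σ • Φ P = Φ (fab_sigma (σ : Kb →+* Kb) _ (s41a_WK_map W A _) P) :=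
      s41a_Phi_sigma E W A C hC σ P
    rcases hPσ with h | h
    · left
      apply Subtype.ext
      show σ • Φ P = Φ P
      rw [key, h]
    · right
      apply Subtype.ext
      show σ • Φ P = -Φ P
      rw [key, h, map_neg]
  have hpow := s41a_pow_smul_pm σ x₀ hσx₀ j
  have hgx : (σ ^ j) • x₀ = g • x₀ := hLact (σ ^ j) g hσg x₀
  rw [hgx] at hpow
  obtain ⟨h1, h2⟩ := hg x₀ hx₀0
  rcases hpow with h | h
  · exact h1 h
  · exact h2 h

end Fermat.Agent.Lib.S41
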