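/-
S41 [A], final: `s41a_nonEis : s41_NonEis` (the non-Eisenstein input of the level raising
theorem): for an elliptic curve `E / ℚ` with irreducible mod-`p` representation (`p` odd) and an
integral model `W`, outside any finite set of primes there is a good prime `ℓ₀` with
`p ∤ a_ℓ₀(W)² − (ℓ₀ + 1)²`.
-/
import Mathlib
import Fermat.Agent.Lib.S41.ANonEisCore
import Fermat.Agent.Lib.S41.AFinite

set_option autoImplicit false

namespace Fermat.Agent.Lib.S41

theorem s41a_finSide : s41a_FinSide := by
  intro W ℓ p hℓ hℓ2 hp κ _ _ _ _ hell hdvd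
  have : Fact ℓ.Prime := ⟨hℓ⟩
  have := hell
  exact s41af_main W hℓ2 hp κ hdvd

/-- **[A] The non-Eisenstein contract of `Lib/S41/Top.lean`.** -/
theorem s41a_nonEis : s41_NonEis := s41a_nonEis_of_finSide s41a_finSide

end Fermat.Agent.Lib.S41
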