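/-
S41 project, module family [B] (helper5): abstract linear algebra of the Manin model.

`X` a finite set with two permutations `σ` (edge flip) and `τ` (triangle rotation).  A *Manin
triple* is `(v, a, b)` with `v = a - a ∘ σ = b - b ∘ τ`.  The pairing is
`⟪(v,a,b), (v',a',b')⟫ = v ⬝ᵥ (b' - a')`; it depends only on `v, v'`, is skew-symmetric, and its
radical (over a field) is `R = { h - h ∘ σ | h ∘ σ = h ∘ τ }`.  Everything is characteristic free.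
-/
import Mathlib

set_option autoImplicit false

namespace Fermat.Agent.Lib.S41

open Matrix

section Abs

variable {X : Type*} [Fintype X] {A : Type*} [CommRing A] (σ τ : Equiv.Perm X)

theorem s41b_dot_comp (v w : X → A) : (v ∘ σ) ⬝ᵥ (w ∘ σ) = v ⬝ᵥ w :=
  comp_equiv_dotProduct_comp_equiv v w σ

/-- A coboundary `a - a ∘ σ` is orthogonal to the `σ`-invariant functions. -/
theorem s41b_dot_fix {v a c : X → A} (hv : v = a - a ∘ σ) (hc : c ∘ σ = c) : v ⬝ᵥ c = 0 := by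
  have h1 : (a ∘ σ) ⬝ᵥ c = a ⬝ᵥ c := by
    conv_lhs => rw [← hc]
    exact s41b_dot_comp σ a c
  rw [hv, sub_dotProduct, h1, sub_self]

/-- `v ⬝ a' + v' ⬝ a = v ⬝ v'` for two `σ`-coboundaries. -/
theorem s41b_dot_symm {v a v' a' : X → A} (hv : v = a - a ∘ σ) (hv' : v' = a' - a' ∘ σ) :
    v ⬝ᵥ a' + v' ⬝ᵥ a = v ⬝ᵥ v' := by
  have h1 : (a ∘ σ) ⬝ᵥ (a' ∘ σ) = a ⬝ᵥ a' := s41b_dot_comp σ a a'
  have h2 : a' ⬝ᵥ a = a ⬝ᵥ a' := dotProduct_comm _ _
  have h3 : (a' ∘ σ) ⬝ᵥ a = a ⬝ᵥ (a' ∘ σ) := dotProduct_comm _ _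
  rw [hv, hv']
  simp only [sub_dotProduct, dotProduct_sub, h1, h2, h3]
  ring

/-- **Skew-symmetry** of the pairing of Manin triples (no condition on `σ, τ`). -/
theorem s41b_skew {v a b v' a' b' : X → A} (hva : v = a - a ∘ σ) (hvb : v = b - b ∘ τ)
    (hva' : v' = a' - a' ∘ σ) (hvb' : v' = b' - b' ∘ τ) :
    v ⬝ᵥ (b' - a') + v' ⬝ᵥ (b - a) = 0 := by
  have h1 := s41b_dot_symm σ hva hva'
  have h2 := s41b_dot_symm τ hvb hvb'
  simp only [dotProduct_sub]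
  linear_combination h2 - h1

/-- The elements `h - h ∘ σ` with `h ∘ σ = h ∘ τ` are in the (left) radical. -/
theorem s41b_rad_left {h v' a' b' : X → A} (hh : h ∘ σ = h ∘ τ)
    (hva' : v' = a' - a' ∘ σ) (hvb' : v' = b' - b' ∘ τ) :
    (h - h ∘ σ) ⬝ᵥ (b' - a') = 0 := by
  have h1 : h ⬝ᵥ b' = (h ∘ τ) ⬝ᵥ (b' ∘ τ) := (s41b_dot_comp τ h b').symm
  have h2 : h ⬝ᵥ a' = (h ∘ σ) ⬝ᵥ (a' ∘ σ) := (s41b_dot_comp σ h a').symm
  have e1 : (h ∘ σ) ⬝ᵥ v' = (h ∘ σ) ⬝ᵥ a' - (h ∘ σ) ⬝ᵥ (a' ∘ σ) := by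
    rw [hva', dotProduct_sub]
  have e2 : (h ∘ σ) ⬝ᵥ v' = (h ∘ σ) ⬝ᵥ b' - (h ∘ σ) ⬝ᵥ (b' ∘ τ) := by
    rw [hvb', dotProduct_sub]
  simp only [sub_dotProduct, dotProduct_sub]
  rw [h1, h2, ← hh]
  linear_combination e2 - e1

/-- **`6 B = T`**: the section form of the pairing against the cup-product (triangle) form. -/
theorem s41b_six (hσ : ∀ x, σ (σ x) = x) (hτ : ∀ x, τ (τ (τ x)) = x)
    {v a b v' a' b' : X → A} (hva : v = a - a ∘ σ) (hvb : v = b - b ∘ τ)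
    (hva' : v' = a' - a' ∘ σ) (hvb' : v' = b' - b' ∘ τ) :
    v ⬝ᵥ (v' ∘ τ) - (v ∘ τ) ⬝ᵥ v' = 6 * v ⬝ᵥ (b' - a') := by
  -- `v ∘ σ = - v`
  have hvσ : v ∘ σ = - v := by
    funext x
    have h1 := congrFun hva x
    have h2 := congrFun hva (σ x)
    simp only [Pi.sub_apply, Function.comp_apply, hσ] at h1 h2
    simp only [Function.comp_apply, Pi.neg_apply, h1, h2]; ring
  -- the three term relation
  have hv3 : v ∘ τ ∘ τ = - v - v ∘ τ := by
    funext x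
    have h1 := congrFun hvb x
    have h2 := congrFun hvb (τ x)
    have h3 := congrFun hvb (τ (τ x))
    simp only [Pi.sub_apply, Function.comp_apply, hτ] at h1 h2 h3
    simp only [Function.comp_apply, Pi.sub_apply, Pi.neg_apply, h1, h2, h3]; ring
  have hb3 : b' ∘ τ ∘ τ ∘ τ = b' := by
    funext x; simp only [Function.comp_apply, hτ]
  -- `2 v ⬝ a' = v ⬝ v'`
  have F1 : 2 * v ⬝ᵥ a' = v ⬝ᵥ v' := by
    have e1 : v ⬝ᵥ a' = (v ∘ σ) ⬝ᵥ (a' ∘ σ) := (s41b_dot_comp σ v a').symm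
    rw [hvσ, neg_dotProduct] at e1
    have e2 : v ⬝ᵥ v' = v ⬝ᵥ a' - v ⬝ᵥ (a' ∘ σ) := by
      conv_lhs => rw [hva']
      rw [dotProduct_sub]
    linear_combination e1 - e2
  -- moving `τ` around
  have G1 : v ⬝ᵥ (b' ∘ τ) = (v ∘ τ ∘ τ) ⬝ᵥ b' := by
    have e1 : v ⬝ᵥ (b' ∘ τ) = (v ∘ τ) ⬝ᵥ (b' ∘ τ ∘ τ) := (s41b_dot_comp τ v (b' ∘ τ)).symm
    have e2 : (v ∘ τ) ⬝ᵥ (b' ∘ τ ∘ τ) = (v ∘ τ ∘ τ) ⬝ᵥ (b' ∘ τ ∘ τ ∘ τ) :=
      (s41b_dot_comp τ (v ∘ τ) (b' ∘ τ ∘ τ)).symm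
    rw [e1, e2, hb3]
  have G2 : v ⬝ᵥ (b' ∘ τ ∘ τ) = (v ∘ τ) ⬝ᵥ b' := by
    have e1 : v ⬝ᵥ (b' ∘ τ ∘ τ) = (v ∘ τ) ⬝ᵥ (b' ∘ τ ∘ τ ∘ τ) :=
      (s41b_dot_comp τ v (b' ∘ τ ∘ τ)).symm
    rw [e1, hb3]
  have G3 : (v ∘ τ) ⬝ᵥ (b' ∘ τ) = v ⬝ᵥ b' := s41b_dot_comp τ v b'
  have hv'τ : v' ∘ τ = b' ∘ τ - b' ∘ τ ∘ τ := by
    funext x
    have := congrFun hvb' (τ x)
    simpa only [Pi.sub_apply, Function.comp_apply] using this
  have F2 : v ⬝ᵥ v' = v ⬝ᵥ b' - v ⬝ᵥ (b' ∘ τ) := by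
    conv_lhs => rw [hvb']
    rw [dotProduct_sub]
  have F3 : (v ∘ τ) ⬝ᵥ v' = (v ∘ τ) ⬝ᵥ b' - (v ∘ τ) ⬝ᵥ (b' ∘ τ) := by
    conv_lhs => rw [hvb']
    rw [dotProduct_sub]
  have F4 : (v ∘ τ ∘ τ) ⬝ᵥ b' = - (v ⬝ᵥ b') - (v ∘ τ) ⬝ᵥ b' := by
    rw [hv3, sub_dotProduct, neg_dotProduct]
  rw [hv'τ, dotProduct_sub, G1, G2, F3, G3, dotProduct_sub]
  rw [G1] at F2
  linear_combination (3 : A) * F1 + (3 : A) * F2 + (-2 : A) * F4

/-- The pairing does not depend on the sections `a', b'` of the second argument. -/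
theorem s41b_pair_indep {v a b v' a' b' a'' b'' : X → A} (hva : v = a - a ∘ σ)
    (hvb : v = b - b ∘ τ)
    (hva' : v' = a' - a' ∘ σ) (hvb' : v' = b' - b' ∘ τ)
    (hva'' : v' = a'' - a'' ∘ σ) (hvb'' : v' = b'' - b'' ∘ τ) :
    v ⬝ᵥ (b' - a') = v ⬝ᵥ (b'' - a'') := by
  have h1 : v ⬝ᵥ (a'' - a') = 0 := by
    refine s41b_dot_fix σ hva ?_
    have : a'' - a'' ∘ σ = a' - a' ∘ σ := hva''.symm.trans hva'
    funext x
    have := congrFun this x
    simp only [Pi.sub_apply, Function.comp_apply] at this ⊢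
    linear_combination -this
  have h2 : v ⬝ᵥ (b'' - b') = 0 := by
    refine s41b_dot_fix τ hvb ?_
    have : b'' - b'' ∘ τ = b' - b' ∘ τ := hvb''.symm.trans hvb'
    funext x
    have := congrFun this x
    simp only [Pi.sub_apply, Function.comp_apply] at this ⊢
    linear_combination -this
  simp only [dotProduct_sub] at h1 h2 ⊢
  linear_combination h1 - h2

end Abs

section Radical

variable {X : Type*} [Fintype X] [DecidableEq X] {F : Type*} [Field F] (σ τ : Equiv.Perm X)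

/-- every linear functional on `X → F` is a dot product -/
theorem s41b_dual_eq_dot (μ : Module.Dual F (X → F)) :
    ∃ c : X → F, ∀ w, μ w = c ⬝ᵥ w := by
  refine ⟨fun x => μ (Pi.single x 1), fun w => ?_⟩
  have := LinearMap.pi_apply_eq_sum_univ μ w
  rw [this, dotProduct]
  refine Finset.sum_congr rfl fun x _ => ?_
  rw [smul_eq_mul, mul_comm]
  congr 2
  funext j
  rw [Pi.single_apply]
  by_cases h : x = j
  · rw [if_pos h, if_pos h.symm]
  · rw [if_neg h, if_neg (Ne.symm h)]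

theorem s41b_dot_ext {u u' : X → F} (h : ∀ w, u ⬝ᵥ w = u' ⬝ᵥ w) : u = u' := by
  funext x
  have := h (Pi.single x 1)
  simpa using this

/-- **The radical.**  If `v` is orthogonal to `b' - a'` for all pairs with
`a' - a' ∘ σ = b' - b' ∘ τ`, then `v = h - h ∘ σ` with `h ∘ σ = h ∘ τ`. -/
theorem s41b_radical {v : X → F}
    (hv : ∀ a' b' : X → F, a' - a' ∘ σ = b' - b' ∘ τ → v ⬝ᵥ (b' - a') = 0) :
    ∃ h : X → F, v = h - h ∘ σ ∧ h ∘ σ = h ∘ τ := by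
  classical
  -- the two linear maps
  let f : (X → F) × (X → F) →ₗ[F] (X → F) :=
    { toFun := fun p => (p.1 - p.1 ∘ σ) - (p.2 - p.2 ∘ τ)
      map_add' := fun p q => by
        funext x; simp only [Prod.fst_add, Prod.snd_add, Pi.add_apply, Pi.sub_apply,
          Function.comp_apply]; ring
      map_smul' := fun c p => by
        funext x; simp only [Prod.smul_fst, Prod.smul_snd, Pi.smul_apply, Pi.sub_apply,
          Function.comp_apply, RingHom.id_apply, smul_eq_mul]; ring }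
  let lam : Module.Dual F ((X → F) × (X → F)) :=
    { toFun := fun p => v ⬝ᵥ (p.2 - p.1)
      map_add' := fun p q => by
        simp only [Prod.fst_add, Prod.snd_add, dotProduct_sub, dotProduct_add]; ring
      map_smul' := fun c p => by
        simp only [Prod.smul_fst, Prod.smul_snd, dotProduct_sub, dotProduct_smul,
          RingHom.id_apply, smul_eq_mul]; ring }
  have hmem : lam ∈ (LinearMap.ker f).dualAnnihilator := by
    rw [Submodule.mem_dualAnnihilator]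
    intro p hp
    have hp' : (p.1 - p.1 ∘ σ) - (p.2 - p.2 ∘ τ) = 0 := hp
    exact hv p.1 p.2 (sub_eq_zero.mp hp')
  rw [← LinearMap.range_dualMap_eq_dualAnnihilator_ker] at hmem
  obtain ⟨μ, hμ⟩ := hmem
  obtain ⟨c, hc⟩ := s41b_dual_eq_dot μ
  have key : ∀ a' b' : X → F, v ⬝ᵥ (b' - a') = c ⬝ᵥ ((a' - a' ∘ σ) - (b' - b' ∘ τ)) := by
    intro a' b'
    have := LinearMap.congr_fun hμ (a', b')
    rw [LinearMap.dualMap_apply] at this
    rw [← hc]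
    exact this.symm
  -- `- v = c - c ∘ σ⁻¹` and `v = c ∘ τ⁻¹ - c`
  have hσ : ∀ w : X → F, c ⬝ᵥ (w ∘ σ) = (c ∘ σ.symm) ⬝ᵥ w := fun w => by
    have := s41b_dot_comp σ (c ∘ σ.symm) w
    rw [← this]
    congr 1
    funext x; simp
  have hτ : ∀ w : X → F, c ⬝ᵥ (w ∘ τ) = (c ∘ τ.symm) ⬝ᵥ w := fun w => by
    have := s41b_dot_comp τ (c ∘ τ.symm) w
    rw [← this]
    congr 1
    funext x; simp
  have e1 : v = c ∘ σ.symm - c := by
    refine s41b_dot_ext fun w => ?_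
    have := key w 0
    simp only [zero_sub, Pi.zero_comp, sub_zero, dotProduct_neg, dotProduct_sub, hσ] at this
    rw [sub_dotProduct]
    linear_combination -this
  have e2 : v = c ∘ τ.symm - c := by
    refine s41b_dot_ext fun w => ?_
    have := key 0 w
    simp only [sub_zero, Pi.zero_comp, zero_sub, dotProduct_neg, dotProduct_sub, hτ] at this
    rw [sub_dotProduct]
    linear_combination this
  refine ⟨c ∘ σ.symm, ?_, ?_⟩
  · rw [e1]
    congr 1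
    funext x; simp
  · have h3 : c ∘ σ.symm = c ∘ τ.symm := by
      have : c ∘ σ.symm - c = c ∘ τ.symm - c := e1.symm.trans e2
      exact sub_left_injective this
    conv_rhs => rw [h3]
    funext x; simp

end Radical

end Fermat.Agent.Lib.S41
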