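/-
S41 project, module family [B] (helper5): two abstract counting lemmas (Mathlib only).

`Rel ⊆ H × V` a linear relation ("`v` is the edge function of a potential of `φ`"),
`R ≤ Vc ≤ V`.  Upper bound `dim H + dim R ≤ dim Vc` from injectivity modulo `R`, with
surjectivity modulo `R` in the case of equality; lower bound from surjectivity.
-/
import Mathlib

set_option autoImplicit false

open Module

namespace Fermat.Agent.Lib.S41

section Count

variable {F : Type*} [Field F] {H V : Type*} [AddCommGroup H] [Module F H]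
  [AddCommGroup V] [Module F V] [FiniteDimensional F V]

theorem s41b_count_upper (Rel : Submodule F (H × V)) (Vc R : Submodule F V) (hR : R ≤ Vc)
    (h1 : ∀ φ : H, ∃ v, (φ, v) ∈ Rel) (h2 : ∀ p ∈ Rel, p.2 ∈ Vc)
    (h3 : ∀ p ∈ Rel, p.2 ∈ R → p.1 = 0) :
    FiniteDimensional F H ∧ finrank F H + finrank F R ≤ finrank F Vc ∧
      (finrank F H + finrank F R = finrank F Vc → ∀ v ∈ Vc, ∃ p ∈ Rel, v - p.2 ∈ R) := by
  classical
  -- the first projection and a section
  let pr1 : Rel →ₗ[F] H := (LinearMap.fst F H V).comp Rel.subtype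
  have hsurj : LinearMap.range pr1 = ⊤ := by
    rw [LinearMap.range_eq_top]
    intro φ
    obtain ⟨v, hv⟩ := h1 φ
    exact ⟨⟨(φ, v), hv⟩, rfl⟩
  obtain ⟨s, hs⟩ := LinearMap.exists_rightInverse_of_surjective pr1 hsurj
  have hs' : ∀ φ, ((s φ : Rel) : H × V).1 = φ := fun φ => LinearMap.congr_fun hs φ
  -- the map to `Vc ⧸ R`
  let R' : Submodule F Vc := R.comap Vc.subtype
  let pr2 : Rel →ₗ[F] Vc :=
    LinearMap.codRestrict Vc ((LinearMap.snd F H V).comp Rel.subtype) (fun p => h2 p.1 p.2)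
  let j : H →ₗ[F] (Vc ⧸ R') := (R'.mkQ.comp pr2).comp s
  have hj : Function.Injective j := by
    rw [← LinearMap.ker_eq_bot, LinearMap.ker_eq_bot']
    intro φ hφ
    have h0 : pr2 (s φ) ∈ R' := by
      have : R'.mkQ (pr2 (s φ)) = 0 := hφ
      exact (Submodule.Quotient.mk_eq_zero R').mp this
    have h0' : ((s φ : Rel) : H × V).2 ∈ R := h0
    have := h3 _ (s φ).2 h0'
    rw [hs'] at this
    exact this
  have hfd : FiniteDimensional F H := FiniteDimensional.of_injective j hj
  have hquot : finrank F (Vc ⧸ R') + finrank F R' = finrank F Vc :=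
    Submodule.finrank_quotient_add_finrank R'
  have hR' : finrank F R' = finrank F R :=
    LinearEquiv.finrank_eq (Submodule.comapSubtypeEquivOfLe hR)
  have hle : finrank F H ≤ finrank F (Vc ⧸ R') := LinearMap.finrank_le_finrank_of_injective hj
  refine ⟨hfd, by omega, fun heq v hv => ?_⟩
  have heq' : finrank F H = finrank F (Vc ⧸ R') := by omega
  have hjs : Function.Surjective j :=
    (LinearMap.injective_iff_surjective_of_finrank_eq_finrank heq').mp hj
  obtain ⟨φ, hφ⟩ := hjs (R'.mkQ ⟨v, hv⟩)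
  refine ⟨(s φ : Rel), (s φ).2, ?_⟩
  have h4 : R'.mkQ (pr2 (s φ)) = R'.mkQ ⟨v, hv⟩ := hφ
  have h5 : (⟨v, hv⟩ : Vc) - pr2 (s φ) ∈ R' := by
    rw [← Submodule.Quotient.mk_eq_zero R', Submodule.Quotient.mk_sub]
    have e1 : R'.mkQ (pr2 (s φ)) = Submodule.Quotient.mk (pr2 (s φ)) := rfl
    have e2 : R'.mkQ ⟨v, hv⟩ = Submodule.Quotient.mk (⟨v, hv⟩ : Vc) := rfl
    rw [e1, e2] at h4
    rw [h4, sub_self]
  exact h5

theorem s41b_count_lower [FiniteDimensional F H] (Rel : Submodule F (H × V))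
    (Vc R : Submodule F V)
    (h4 : ∀ v ∈ Vc, ∃ φ, (φ, v) ∈ Rel) (h5 : ∀ p ∈ Rel, p.1 = 0 → p.2 ∈ R) :
    finrank F Vc ≤ finrank F H + finrank F R := by
  classical
  -- the relation restricted to `Vc`
  let Relc : Submodule F (H × V) := Rel ⊓ Submodule.comap (LinearMap.snd F H V) Vc
  let pr2 : Relc →ₗ[F] Vc :=
    LinearMap.codRestrict Vc ((LinearMap.snd F H V).comp Relc.subtype) (fun p => p.2.2)
  have hsurj : LinearMap.range pr2 = ⊤ := by
    rw [LinearMap.range_eq_top]
    intro v
    obtain ⟨φ, hφ⟩ := h4 v.1 v.2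
    exact ⟨⟨(φ, v.1), ⟨hφ, v.2⟩⟩, Subtype.ext rfl⟩
  obtain ⟨t, ht⟩ := LinearMap.exists_rightInverse_of_surjective pr2 hsurj
  have ht' : ∀ v : Vc, ((t v : Relc) : H × V).2 = (v : V) := fun v =>
    congrArg Subtype.val (LinearMap.congr_fun ht v)
  let pr1 : Relc →ₗ[F] H := (LinearMap.fst F H V).comp Relc.subtype
  let m : Vc →ₗ[F] H := pr1.comp t
  have hker : LinearMap.ker m ≤ R.comap Vc.subtype := by
    intro v hv
    have h0 : ((t v : Relc) : H × V).1 = 0 := hv
    have := h5 _ (t v).2.1 h0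
    rw [ht'] at this
    exact this
  have hrn := LinearMap.finrank_range_add_finrank_ker m
  have h1 : finrank F (LinearMap.range m) ≤ finrank F H := Submodule.finrank_le _
  have h2 : finrank F (LinearMap.ker m) ≤ finrank F (R.comap Vc.subtype) :=
    Submodule.finrank_mono hker
  have h3 : finrank F (R.comap Vc.subtype) ≤ finrank F R := by
    have : finrank F (R.comap Vc.subtype) = finrank F ((R.comap Vc.subtype).map Vc.subtype) :=
      (LinearEquiv.finrank_eq (Submodule.equivMapOfInjective Vc.subtype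
        (Submodule.subtype_injective Vc) _))
    rw [this]
    exact Submodule.finrank_mono (Submodule.map_comap_le _ _)
  omega

end Count

end Fermat.Agent.Lib.S41
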