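import Mathlib

/-!
# S41 [B], abstract dimension counts (work order of helper5)

`X` a finite nonempty set, `F` a field, `σ τ : Equiv.Perm X` jointly transitive in the functional
form `htr`.  `q(π)` = number of cycles of `π` (fixed points included), independent of `F`.

* `s41b_finrank_Fix`  : `finrank F {c | c ∘ π = c} = q(π)`;
* `s41b_finrank_Vc`   : `finrank Vc + q(σ) + q(τ) = |X| + 1`,
  `Vc = {v | ∃ a b, v = a - a ∘ σ ∧ v = b - b ∘ τ}`;
* `s41b_finrank_Rad`  : `finrank R + 1 = q(τ * σ⁻¹)`,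
  `R = {v | ∃ h, v = h - h ∘ σ ∧ h ∘ σ = h ∘ τ}`, and `s41b_Rad_le_Vc : R ≤ Vc`.
-/

set_option autoImplicit false
set_option linter.unusedSectionVars false

namespace Fermat.Agent.Lib.S41

open scoped BigOperators
open Module

section Defs

variable (F : Type*) [Field F] {X : Type*}

/-- `a ↦ a - a ∘ π`. -/
def s41b_del (π : Equiv.Perm X) : (X → F) →ₗ[F] (X → F) :=
  LinearMap.id - LinearMap.funLeft F F π

theorem s41b_del_apply (π : Equiv.Perm X) (a : X → F) : s41b_del F π a = a - a ∘ π := rfl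

theorem s41b_del_apply' (π : Equiv.Perm X) (a : X → F) (x : X) :
    s41b_del F π a x = a x - a (π x) := rfl

/-- The space of `π`-invariant functions. -/
def s41b_Fix (π : Equiv.Perm X) : Submodule F (X → F) := LinearMap.ker (s41b_del F π)

theorem s41b_mem_Fix {π : Equiv.Perm X} {c : X → F} : c ∈ s41b_Fix F π ↔ c ∘ π = c := by
  rw [s41b_Fix, LinearMap.mem_ker, s41b_del_apply, sub_eq_zero, eq_comm]

/-- `Vc = (1 - σ) V ∩ (1 - τ) V`. -/
def s41b_Vc (σ τ : Equiv.Perm X) : Submodule F (X → F) :=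
  LinearMap.range (s41b_del F σ) ⊓ LinearMap.range (s41b_del F τ)

theorem s41b_mem_Vc {σ τ : Equiv.Perm X} {v : X → F} :
    v ∈ s41b_Vc F σ τ ↔ ∃ a b : X → F, v = a - a ∘ σ ∧ v = b - b ∘ τ := by
  rw [s41b_Vc, Submodule.mem_inf, LinearMap.mem_range, LinearMap.mem_range]
  constructor
  · rintro ⟨⟨a, ha⟩, ⟨b, hb⟩⟩
    exact ⟨a, b, ha.symm, hb.symm⟩
  · rintro ⟨a, b, ha, hb⟩
    exact ⟨⟨a, ha.symm⟩, ⟨b, hb.symm⟩⟩

/-- `R = {h - h ∘ σ | h ∘ σ = h ∘ τ}`. -/
def s41b_Rad (σ τ : Equiv.Perm X) : Submodule F (X → F) :=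
  (s41b_Fix F (τ * σ⁻¹)).map (s41b_del F σ)

theorem s41b_mem_Fix_mul_inv {σ τ : Equiv.Perm X} {h : X → F} :
    h ∈ s41b_Fix F (τ * σ⁻¹) ↔ h ∘ σ = h ∘ τ := by
  rw [s41b_mem_Fix]
  constructor
  · intro hh
    funext x
    have := congrFun hh (σ x)
    simp only [Function.comp_apply, Equiv.Perm.mul_apply, Equiv.Perm.coe_inv,
      Equiv.symm_apply_apply] at this
    exact this.symm
  · intro hh
    funext x
    have := congrFun hh (σ⁻¹ x)
    simp only [Function.comp_apply, Equiv.Perm.coe_inv, Equiv.apply_symm_apply] at this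
    simp only [Function.comp_apply, Equiv.Perm.mul_apply, Equiv.Perm.coe_inv]
    exact this.symm

theorem s41b_mem_Rad {σ τ : Equiv.Perm X} {v : X → F} :
    v ∈ s41b_Rad F σ τ ↔ ∃ h : X → F, v = h - h ∘ σ ∧ h ∘ σ = h ∘ τ := by
  rw [s41b_Rad, Submodule.mem_map]
  constructor
  · rintro ⟨h, hh, rfl⟩
    exact ⟨h, rfl, (s41b_mem_Fix_mul_inv F).mp hh⟩
  · rintro ⟨h, rfl, hh⟩
    exact ⟨h, (s41b_mem_Fix_mul_inv F).mpr hh, rfl⟩

theorem s41b_Rad_le_Vc (σ τ : Equiv.Perm X) : s41b_Rad F σ τ ≤ s41b_Vc F σ τ := by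
  intro v hv
  obtain ⟨h, rfl, hh⟩ := (s41b_mem_Rad F).mp hv
  exact (s41b_mem_Vc F).mpr ⟨h, h, rfl, by rw [hh]⟩

end Defs

/-- The number of cycles (fixed points included) of a permutation. -/
noncomputable def s41b_q {X : Type*} (π : Equiv.Perm X) : ℕ :=
  Nat.card (Quotient (Equiv.Perm.SameCycle.setoid π))

section FixDim

variable (F : Type*) [Field F] {X : Type*}

/-- An invariant function is constant on cycles. -/
theorem s41b_Fix_sameCycle {π : Equiv.Perm X} {c : X → F} (hc : c ∈ s41b_Fix F π) {x y : X}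
    (hxy : Equiv.Perm.SameCycle π x y) : c x = c y := by
  have h1 : ∀ x, c (π x) = c x := fun x => congrFun ((s41b_mem_Fix F).mp hc) x
  have h2 : ∀ x, c (π⁻¹ x) = c x := by
    intro x
    have := h1 (π⁻¹ x)
    simp only [Equiv.Perm.coe_inv, Equiv.apply_symm_apply] at this
    simp only [Equiv.Perm.coe_inv]
    exact this.symm
  have h3 : ∀ i : ℤ, ∀ x, c ((π ^ i) x) = c x := by
    intro i
    induction i using Int.induction_on with
    | zero => intro x; simp
    | succ i ih =>
      intro x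
      rw [zpow_add_one, Equiv.Perm.mul_apply, ih, h1]
    | pred i ih =>
      intro x
      rw [zpow_sub_one, Equiv.Perm.mul_apply, ih, h2]
  obtain ⟨i, rfl⟩ := hxy
  exact (h3 i x).symm

/-- The invariant functions are the functions on the set of cycles. -/
noncomputable def s41b_FixEquiv (π : Equiv.Perm X) :
    s41b_Fix F π ≃ₗ[F] (Quotient (Equiv.Perm.SameCycle.setoid π) → F) where
  toFun c := fun o => Quotient.liftOn o c.1 (fun _ _ hxy => s41b_Fix_sameCycle F c.2 hxy)
  map_add' c c' := by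
    funext o
    induction o using Quotient.inductionOn with
    | h x => rfl
  map_smul' r c := by
    funext o
    induction o using Quotient.inductionOn with
    | h x => rfl
  invFun f := ⟨fun x => f (Quotient.mk _ x), by
    rw [s41b_mem_Fix]
    funext x
    show f (Quotient.mk _ (π x)) = f (Quotient.mk _ x)
    congr 1
    exact Quotient.sound (Equiv.Perm.sameCycle_apply_left.mpr (Equiv.Perm.SameCycle.refl π x))⟩
  left_inv c := by
    apply Subtype.ext
    funext x
    rfl
  right_inv f := by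
    funext o
    induction o using Quotient.inductionOn with
    | h x => rfl

/-- **(1)** `dim Fix(π) = q(π)`. -/
theorem s41b_finrank_Fix [Finite X] (π : Equiv.Perm X) :
    finrank F (s41b_Fix F π) = s41b_q π := by
  classical
  have : Fintype (Quotient (Equiv.Perm.SameCycle.setoid π)) := Fintype.ofFinite _
  rw [(s41b_FixEquiv F π).finrank_eq, Module.finrank_fintype_fun_eq_card, s41b_q,
    Nat.card_eq_fintype_card]

end FixDim

section RadDim

variable (F : Type*) [Field F] {X : Type*} [Fintype X] [Nonempty X]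

/-- **(3)** `dim R + 1 = q(τ σ⁻¹)`. -/
theorem s41b_finrank_Rad (σ τ : Equiv.Perm X)
    (htr : ∀ c : X → F, c ∘ σ = c → c ∘ τ = c → ∀ x y, c x = c y) :
    finrank F (s41b_Rad F σ τ) + 1 = s41b_q (τ * σ⁻¹) := by
  set K := s41b_Fix F (τ * σ⁻¹) with hK
  set D : K →ₗ[F] (X → F) := (s41b_del F σ).domRestrict K with hD
  have hrn := LinearMap.finrank_range_add_finrank_ker D
  have hrange : LinearMap.range D = s41b_Rad F σ τ := by
    rw [hD, LinearMap.range_domRestrict]; rfl
  have hker : finrank F (LinearMap.ker D) = 1 := by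
    have h1K : (fun _ : X => (1 : F)) ∈ K := by
      rw [hK, s41b_mem_Fix]; rfl
    have h1ker : (⟨fun _ : X => (1 : F), h1K⟩ : K) ∈ LinearMap.ker D := by
      rw [LinearMap.mem_ker, hD, LinearMap.domRestrict_apply]
      funext x
      simp [s41b_del_apply']
    obtain ⟨x₀⟩ := ‹Nonempty X›
    have hne : (⟨⟨fun _ => 1, h1K⟩, h1ker⟩ : LinearMap.ker D) ≠ 0 := by
      intro h
      have := congrFun (congrArg (fun w : LinearMap.ker D => (w.1.1 : X → F)) h) x₀
      simp at this
    refine (finrank_eq_one_iff_of_nonzero' (K := F) (V := LinearMap.ker D) _ hne).mpr ?_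
    · rintro ⟨⟨w, hwK⟩, hw⟩
      refine ⟨w x₀, ?_⟩
      apply Subtype.ext
      apply Subtype.ext
      funext x
      have hσ : w ∘ σ = w := by
        rw [LinearMap.mem_ker, hD, LinearMap.domRestrict_apply, s41b_del_apply, sub_eq_zero] at hw
        exact hw.symm
      have hτ : w ∘ τ = w := by
        rw [← (s41b_mem_Fix_mul_inv F).mp hwK, hσ]
      show (w x₀ • fun _ : X => (1 : F)) x = w x
      rw [Pi.smul_apply, smul_eq_mul, mul_one]
      exact htr w hσ hτ x₀ x
  rw [hrange, hker, s41b_finrank_Fix] at hrn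
  exact hrn

end RadDim

section VcDim

variable (F : Type*) [Field F] {X : Type*} [Fintype X]

/-- `(a, b) ↦ (a - a ∘ σ) - (b - b ∘ τ)`. -/
def s41b_f (σ τ : Equiv.Perm X) : ((X → F) × (X → F)) →ₗ[F] (X → F) :=
  (s41b_del F σ).comp (LinearMap.fst F _ _) - (s41b_del F τ).comp (LinearMap.snd F _ _)

theorem s41b_f_apply (σ τ : Equiv.Perm X) (a b : X → F) :
    s41b_f F σ τ (a, b) = (a - a ∘ σ) - (b - b ∘ τ) := rfl

/-- The sum functional. -/
def s41b_sum : (X → F) →ₗ[F] F where
  toFun y := ∑ x, y x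
  map_add' a b := by simp only [Pi.add_apply, Finset.sum_add_distrib]
  map_smul' r a := by simp only [Pi.smul_apply, smul_eq_mul, RingHom.id_apply, Finset.mul_sum]

theorem s41b_sum_apply (y : X → F) : s41b_sum F y = ∑ x, y x := rfl

theorem s41b_sum_del (π : Equiv.Perm X) (a : X → F) : s41b_sum F (a - a ∘ π) = 0 := by
  rw [s41b_sum_apply]
  simp only [Pi.sub_apply, Function.comp_apply, Finset.sum_sub_distrib]
  rw [Equiv.sum_comp π a, sub_self]

/-- The functional `y ↦ ∑ x, h x * y x`. -/
def s41b_dot (h : X → F) : Module.Dual F (X → F) where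
  toFun y := ∑ x, h x * y x
  map_add' a b := by simp only [Pi.add_apply, mul_add, Finset.sum_add_distrib]
  map_smul' r a := by
    simp only [Pi.smul_apply, smul_eq_mul, RingHom.id_apply, Finset.mul_sum]
    exact Finset.sum_congr rfl fun x _ => by ring

theorem s41b_dot_apply (h y : X → F) : s41b_dot F h y = ∑ x, h x * y x := rfl

/-- Adjointness of `a ↦ a - a ∘ π` and `y ↦ y - y ∘ π⁻¹`. -/
theorem s41b_dot_del (π : Equiv.Perm X) (a y : X → F) :
    ∑ x, a x * (y x - y (π⁻¹ x)) = ∑ x, (a x - a (π x)) * y x := by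
  simp only [mul_sub, sub_mul, Finset.sum_sub_distrib]
  congr 1
  rw [← Equiv.sum_comp π (fun x => a x * y (π⁻¹ x))]
  exact Finset.sum_congr rfl fun x _ => by simp

/-- A functional on `X → F` is a dot product. -/
theorem s41b_dual_repr [DecidableEq X] (ξ : Module.Dual F (X → F)) (y : X → F) :
    ξ y = ∑ x, ξ (Pi.single x 1) * y x := by
  rw [LinearMap.pi_apply_eq_sum_univ ξ y]
  refine Finset.sum_congr rfl fun x _ => ?_
  rw [smul_eq_mul, mul_comm]
  congr 2
  funext j
  simp [Pi.single_apply, eq_comm]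

/-- **Step A**: the range of `f` is the space of functions of sum zero. -/
theorem s41b_range_f (σ τ : Equiv.Perm X)
    (htr : ∀ c : X → F, c ∘ σ = c → c ∘ τ = c → ∀ x y, c x = c y) :
    LinearMap.range (s41b_f F σ τ) = LinearMap.ker (s41b_sum F) := by
  classical
  apply le_antisymm
  · rintro _ ⟨⟨a, b⟩, rfl⟩
    rw [LinearMap.mem_ker, s41b_f_apply, map_sub, s41b_sum_del, s41b_sum_del, sub_zero]
  · intro h hh
    rw [LinearMap.mem_ker, s41b_sum_apply] at hh
    -- the adjoint map
    set g : (X → F) →ₗ[F] ((X → F) × (X → F)) :=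
      (s41b_del F σ⁻¹).prod (-(s41b_del F τ⁻¹)) with hg
    have hann : s41b_dot F h ∈ (LinearMap.ker g).dualAnnihilator := by
      rw [Submodule.mem_dualAnnihilator]
      intro k hk
      have hk' : (s41b_del F σ⁻¹ k, -(s41b_del F τ⁻¹ k)) = 0 := by
        rw [LinearMap.mem_ker] at hk
        exact hk
      rw [Prod.mk_eq_zero, neg_eq_zero] at hk'
      replace hk := hk'
      have hσ : k ∘ σ = k := by
        have h1 := hk.1
        rw [s41b_del_apply, sub_eq_zero] at h1
        funext x
        have := congrFun h1 (σ x)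
        simp only [Function.comp_apply, Equiv.Perm.coe_inv, Equiv.symm_apply_apply] at this
        exact this
      have hτ : k ∘ τ = k := by
        have h1 := hk.2
        rw [s41b_del_apply, sub_eq_zero] at h1
        funext x
        have := congrFun h1 (τ x)
        simp only [Function.comp_apply, Equiv.Perm.coe_inv, Equiv.symm_apply_apply] at this
        exact this
      rw [s41b_dot_apply]
      rcases isEmpty_or_nonempty X with hX | ⟨⟨x₀⟩⟩
      · exact Finset.sum_of_isEmpty _
      · have : ∀ x, h x * k x = k x₀ * h x := fun x => by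
          rw [htr k hσ hτ x x₀]; ring
        simp only [this, ← Finset.mul_sum, hh, mul_zero]
    rw [← LinearMap.range_dualMap_eq_dualAnnihilator_ker] at hann
    obtain ⟨ξ, hξ⟩ := hann
    set a : X → F := fun x => ξ (Pi.single x 1, 0) with ha
    set b : X → F := fun x => ξ (0, Pi.single x 1) with hb
    have hξab : ∀ u v : X → F, ξ (u, v) = ∑ x, a x * u x + ∑ x, b x * v x := by
      intro u v
      have h1 : ξ (u, v) = ξ.comp (LinearMap.inl F _ _) u + ξ.comp (LinearMap.inr F _ _) v := by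
        simp only [LinearMap.comp_apply, LinearMap.inl_apply, LinearMap.inr_apply, ← map_add,
          Prod.mk_add_mk, add_zero, zero_add]
      rw [h1, s41b_dual_repr F (ξ.comp (LinearMap.inl F _ _)) u,
        s41b_dual_repr F (ξ.comp (LinearMap.inr F _ _)) v]
      rfl
    refine ⟨(a, b), ?_⟩
    -- compare functionals
    have key : ∀ y : X → F, ∑ x, h x * y x = ∑ x, (s41b_f F σ τ (a, b)) x * y x := by
      intro y
      have e := LinearMap.congr_fun hξ y
      rw [LinearMap.dualMap_apply] at e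
      have e' : ξ (s41b_del F σ⁻¹ y, -(s41b_del F τ⁻¹ y)) = s41b_dot F h y := e
      rw [hξab, s41b_dot_apply] at e'
      have e1 := s41b_dot_del F σ a y
      have e2 := s41b_dot_del F τ b y
      have e3 : ∑ x, b x * (-(s41b_del F τ⁻¹) y) x = - ∑ x, b x * (y x - y (τ⁻¹ x)) := by
        rw [← Finset.sum_neg_distrib]
        refine Finset.sum_congr rfl fun x _ => ?_
        rw [Pi.neg_apply, s41b_del_apply', mul_neg]
      have e4 : ∑ x, a x * (s41b_del F σ⁻¹) y x = ∑ x, a x * (y x - y (σ⁻¹ x)) :=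
        Finset.sum_congr rfl fun x _ => by rw [s41b_del_apply']
      have e5 : ∑ x, (s41b_f F σ τ (a, b)) x * y x =
          ∑ x, (a x - a (σ x)) * y x - ∑ x, (b x - b (τ x)) * y x := by
        rw [← Finset.sum_sub_distrib]
        refine Finset.sum_congr rfl fun x _ => ?_
        rw [s41b_f_apply]
        simp only [Pi.sub_apply, Function.comp_apply]
        ring
      rw [e5, ← e', e3, e4, e1, e2]
      ring
    funext x
    have := key (Pi.single x 1)
    simp only [Pi.single_apply, mul_ite, mul_one, mul_zero, Finset.sum_ite_eq', Finset.mem_univ,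
      if_true] at this
    exact this.symm

variable [Nonempty X]

theorem s41b_finrank_ker_sum : finrank F (LinearMap.ker (s41b_sum (X := X) F)) + 1 =
    Fintype.card X := by
  classical
  have hrn := LinearMap.finrank_range_add_finrank_ker (s41b_sum (X := X) F)
  have hsurj : LinearMap.range (s41b_sum (X := X) F) = ⊤ := by
    rw [LinearMap.range_eq_top]
    intro r
    obtain ⟨x₀⟩ := ‹Nonempty X›
    refine ⟨Pi.single x₀ r, ?_⟩
    rw [s41b_sum_apply, Finset.sum_pi_single']
    simp
  rw [hsurj, finrank_top, Module.finrank_self, Module.finrank_fintype_fun_eq_card] at hrn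
  omega

/-- **Step B**: `dim ker f = |X| + 1`. -/
theorem s41b_finrank_ker_f (σ τ : Equiv.Perm X)
    (htr : ∀ c : X → F, c ∘ σ = c → c ∘ τ = c → ∀ x y, c x = c y) :
    finrank F (LinearMap.ker (s41b_f F σ τ)) = Fintype.card X + 1 := by
  have hrn := LinearMap.finrank_range_add_finrank_ker (s41b_f F σ τ)
  rw [s41b_range_f F σ τ htr, Module.finrank_prod, Module.finrank_fintype_fun_eq_card] at hrn
  have h1 := s41b_finrank_ker_sum (X := X) F
  omega

/-- The kernel of `(a, b) ↦ a - a ∘ σ` on `ker f` is `Fix σ × Fix τ`. -/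
noncomputable def s41b_kerEquiv (σ τ : Equiv.Perm X) :
    LinearMap.ker (((s41b_del F σ).comp (LinearMap.fst F (X → F) (X → F))).domRestrict
      (LinearMap.ker (s41b_f F σ τ))) ≃ₗ[F] (s41b_Fix F σ × s41b_Fix F τ) where
  toFun w := (⟨w.1.1.1, by
      have := w.2
      rw [LinearMap.mem_ker, LinearMap.domRestrict_apply] at this
      exact this⟩, ⟨w.1.1.2, by
      have h1 := w.2
      rw [LinearMap.mem_ker, LinearMap.domRestrict_apply] at h1
      have h2 := w.1.2
      rw [LinearMap.mem_ker] at h2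
      have h3 : s41b_f F σ τ w.1.1 = s41b_del F σ w.1.1.1 - s41b_del F τ w.1.1.2 := rfl
      rw [h3] at h2
      have h4 : s41b_del F σ w.1.1.1 = 0 := h1
      rw [h4, zero_sub, neg_eq_zero] at h2
      exact h2⟩)
  map_add' w w' := rfl
  map_smul' r w := rfl
  invFun c := ⟨⟨(c.1.1, c.2.1), by
      rw [LinearMap.mem_ker]
      show s41b_del F σ c.1.1 - s41b_del F τ c.2.1 = 0
      have h1 : s41b_del F σ c.1.1 = 0 := c.1.2
      have h2 : s41b_del F τ c.2.1 = 0 := c.2.2
      rw [h1, h2, sub_zero]⟩, by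
      rw [LinearMap.mem_ker, LinearMap.domRestrict_apply]
      exact c.1.2⟩
  left_inv w := rfl
  right_inv c := rfl

/-- **(2)** `dim Vc + q(σ) + q(τ) = |X| + 1`. -/
theorem s41b_finrank_Vc (σ τ : Equiv.Perm X)
    (htr : ∀ c : X → F, c ∘ σ = c → c ∘ τ = c → ∀ x y, c x = c y) :
    finrank F (s41b_Vc F σ τ) + s41b_q σ + s41b_q τ = Fintype.card X + 1 := by
  set p := ((s41b_del F σ).comp (LinearMap.fst F (X → F) (X → F))).domRestrict
    (LinearMap.ker (s41b_f F σ τ)) with hp
  have hrn := LinearMap.finrank_range_add_finrank_ker p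
  have hrange : LinearMap.range p = s41b_Vc F σ τ := by
    rw [hp, LinearMap.range_domRestrict]
    ext v
    rw [Submodule.mem_map, s41b_mem_Vc]
    constructor
    · rintro ⟨⟨a, b⟩, hab, rfl⟩
      rw [LinearMap.mem_ker, s41b_f_apply, sub_eq_zero] at hab
      exact ⟨a, b, rfl, hab⟩
    · rintro ⟨a, b, ha, hb⟩
      refine ⟨(a, b), ?_, ha.symm⟩
      rw [LinearMap.mem_ker, s41b_f_apply, ← ha, ← hb, sub_self]
  rw [hrange, (s41b_kerEquiv F σ τ).finrank_eq, Module.finrank_prod, s41b_finrank_Fix,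
    s41b_finrank_Fix, s41b_finrank_ker_f F σ τ htr] at hrn
  omega

end VcDim

end Fermat.Agent.Lib.S41
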