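/-
S41 project, module family [C] (helper4): SHARED DEFINITIONS for the Poincaré pairing on
`H_par(Γ, R)` through potentials on the cusps.

`Γ ≤ SL(2, ℤ)`, `φ : Additive Γ →+ A`.
* `s41c_IsPotential Γ φ P` : `P : ℙ¹(ℚ) → A` with `P (γ • α) = P α + φ γ` (`γ ∈ Γ`);
* `s41c_exists_potential` : a parabolic `φ` has a potential; `s41c_potential Γ φ` a chosen one;
* `s41c_edgeFun Γ P : SL(2, ℤ) ⧸ Γ → A`, `v (g Γ) = P (g⁻¹ • ∞) - P (g⁻¹ • 0)`;
* `s41c_cup P Q a b c = (P a - P b) (Q b - Q c) - (P b - P c) (Q a - Q b)` : the cup-product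
  `2`-cocycle on triples of cusps (alternating, a coboundary of a non-invariant cochain);
* `s41c_triP Γ P Q : SL(2, ℤ) ⧸ Γ → R`, `τ (g Γ) = cup P Q (g⁻¹ o₀) (g⁻¹ o₁) (g⁻¹ o₂)`
  (`= v_φ(x) v_ψ(U⁻¹x) - v_φ(U⁻¹x) v_ψ(x)`), constant on `⟨U⟩`-orbits, `0` at `U`-fixed points;
* `s41c_pairP Γ P Q = ∑ over ⟨U⟩-orbits o ⊂ SL(2, ℤ) ⧸ Γ of τ (o.out)`,
  `s41c_pairing Γ φ ψ = pairP (potential φ) (potential ψ)` : **the pairing `B_Γ`**.
-/
import Mathlib
import Fermat.Agent.Lib.S41.CFareyAct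
import Fermat.Prelude.Def_ModularCurve_PeriodMap

set_option autoImplicit false

open Matrix MatrixGroups OnePoint Matrix.SpecialLinearGroup ModularCurve.Period

namespace Fermat.Agent.Lib.S41

section Potential

variable (Γ : Subgroup SL(2, ℤ)) {A : Type*} [AddCommGroup A]

/-- `P` is a potential of `φ`: `P (γ • α) = P α + φ γ` for `γ ∈ Γ`. -/
def s41c_IsPotential (φ : Additive Γ →+ A) (P : OnePoint ℚ → A) : Prop :=
  ∀ (γ : Γ) (α : OnePoint ℚ), P ((γ : SL(2, ℤ)) • α) = P α + φ (Additive.ofMul γ)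

variable {Γ}

theorem s41c_IsPotential.inv {φ : Additive Γ →+ A} {P : OnePoint ℚ → A}
    (hP : s41c_IsPotential Γ φ P) (γ : Γ) (α : OnePoint ℚ) :
    P ((γ : SL(2, ℤ))⁻¹ • α) = P α - φ (Additive.ofMul γ) := by
  have := hP γ ((γ : SL(2, ℤ))⁻¹ • α)
  rw [smul_inv_smul] at this
  rw [this]; abel

/-- A parabolic homomorphism has a potential. -/
theorem s41c_exists_potential (φ : Additive Γ →+ A) (hφ : IsParabolicHom Γ φ) :
    ∃ P : OnePoint ℚ → A, s41c_IsPotential Γ φ P := by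
  classical
  -- orbit representatives
  let r : OnePoint ℚ → OnePoint ℚ := fun α =>
    (Quotient.mk (MulAction.orbitRel Γ (OnePoint ℚ)) α).out
  have hr : ∀ α, ∃ γ : Γ, (γ : SL(2, ℤ)) • r α = α := by
    intro α
    have h1 : (MulAction.orbitRel Γ (OnePoint ℚ)).r (r α) α :=
      Quotient.exact (Quotient.out_eq _)
    have h2 : α ∈ MulAction.orbit Γ (r α) := by
      have := MulAction.orbitRel_apply.mp h1
      exact MulAction.mem_orbit_symm.mp this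
    obtain ⟨γ, hγ⟩ := h2
    exact ⟨γ, hγ⟩
  have hrr : ∀ (γ : Γ) α, r ((γ : SL(2, ℤ)) • α) = r α := by
    intro γ α
    have : (Quotient.mk (MulAction.orbitRel Γ (OnePoint ℚ)) ((γ : SL(2, ℤ)) • α)) =
        Quotient.mk (MulAction.orbitRel Γ (OnePoint ℚ)) α := by
      apply Quotient.sound
      exact MulAction.orbitRel_apply.mpr ⟨γ, rfl⟩
    simp only [r, this]
  choose c hc using hr
  refine ⟨fun α => φ (Additive.ofMul (c α)), fun γ α => ?_⟩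
  -- `c (γ α) r = γ α = γ c(α) r`
  have h1 : ((c ((γ : SL(2, ℤ)) • α) : Γ) : SL(2, ℤ)) • r α = (γ : SL(2, ℤ)) • α := by
    have := hc ((γ : SL(2, ℤ)) • α)
    rwa [hrr] at this
  have h2 : (((γ * c α)⁻¹ * c ((γ : SL(2, ℤ)) • α) : Γ) : SL(2, ℤ)) • r α = r α := by
    push_cast
    rw [mul_smul, h1, _root_.mul_inv_rev, mul_smul, inv_smul_smul, inv_smul_eq_iff]
    exact (hc α).symm
  have h3 := hφ _ (s41c_trace_sq_of_fix h2)
  rw [ofMul_mul, map_add, ofMul_inv, map_neg, ofMul_mul, map_add] at h3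
  change φ (Additive.ofMul (c ((γ : SL(2, ℤ)) • α))) = φ (Additive.ofMul (c α)) +
    φ (Additive.ofMul γ)
  rw [← sub_eq_zero, ← h3]; abel

variable (Γ)

/-- A chosen potential of `φ` (zero if there is none). -/
noncomputable def s41c_potential (φ : Additive Γ →+ A) : OnePoint ℚ → A :=
  open Classical in if h : ∃ P : OnePoint ℚ → A, s41c_IsPotential Γ φ P then Classical.choose h
  else 0

variable {Γ}

theorem s41c_potential_spec {φ : Additive Γ →+ A} (hφ : IsParabolicHom Γ φ) :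
    s41c_IsPotential Γ φ (s41c_potential Γ φ) := by
  unfold s41c_potential
  rw [dif_pos (s41c_exists_potential φ hφ)]
  exact Classical.choose_spec (s41c_exists_potential φ hφ)

/-- The difference of two potentials is `Γ`-invariant. -/
theorem s41c_IsPotential.sub_invariant {φ : Additive Γ →+ A} {P P' : OnePoint ℚ → A}
    (hP : s41c_IsPotential Γ φ P) (hP' : s41c_IsPotential Γ φ P') (γ : Γ) (α : OnePoint ℚ) :
    P' ((γ : SL(2, ℤ)) • α) - P ((γ : SL(2, ℤ)) • α) = P' α - P α := by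
  rw [hP γ α, hP' γ α]; abel

/-- The homomorphism is recovered from any potential. -/
theorem s41c_IsPotential.hom_eq {φ : Additive Γ →+ A} {P : OnePoint ℚ → A}
    (hP : s41c_IsPotential Γ φ P) (γ : Γ) (α : OnePoint ℚ) :
    φ (Additive.ofMul γ) = P ((γ : SL(2, ℤ)) • α) - P α := by
  rw [hP γ α]; abel

variable (Γ)

/-- The edge function of a function on cusps, on `X = SL(2, ℤ) ⧸ Γ`:
`v (g Γ) = P (g⁻¹ • ∞) - P (g⁻¹ • 0)`. -/
noncomputable def s41c_edgeFun (P : OnePoint ℚ → A) (x : SL(2, ℤ) ⧸ Γ) : A :=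
  P (x.out⁻¹ • s41c_o0) - P (x.out⁻¹ • s41c_o1)

variable {Γ}

theorem s41c_edgeFun_mk {φ : Additive Γ →+ A} {P : OnePoint ℚ → A}
    (hP : s41c_IsPotential Γ φ P) (g : SL(2, ℤ)) :
    s41c_edgeFun Γ P (g : SL(2, ℤ) ⧸ Γ) = P (g⁻¹ • s41c_o0) - P (g⁻¹ • s41c_o1) := by
  obtain ⟨γ, hγ⟩ := QuotientGroup.mk_out_eq_mul Γ g
  unfold s41c_edgeFun
  rw [hγ, _root_.mul_inv_rev, mul_smul, mul_smul, hP.inv γ, hP.inv γ]; abel

end Potential

section Pairing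

variable (Γ : Subgroup SL(2, ℤ)) {R : Type*} [CommRing R]

/-- The cup-product cocycle of two functions on cusps, on triples of cusps. -/
def s41c_cup (P Q : OnePoint ℚ → R) (a b c : OnePoint ℚ) : R :=
  (P a - P b) * (Q b - Q c) - (P b - P c) * (Q a - Q b)

theorem s41c_cup_rot (P Q : OnePoint ℚ → R) (a b c : OnePoint ℚ) :
    s41c_cup P Q b c a = s41c_cup P Q a b c := by
  unfold s41c_cup; ring

theorem s41c_cup_swap12 (P Q : OnePoint ℚ → R) (a b c : OnePoint ℚ) :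
    s41c_cup P Q b a c = - s41c_cup P Q a b c := by
  unfold s41c_cup; ring

theorem s41c_cup_swap23 (P Q : OnePoint ℚ → R) (a b c : OnePoint ℚ) :
    s41c_cup P Q a c b = - s41c_cup P Q a b c := by
  unfold s41c_cup; ring

/-- `cup P Q = δ s`, `s a b = P a Q b - P b Q a`; in particular it is a `2`-cocycle. -/
theorem s41c_cup_eq_delta (P Q : OnePoint ℚ → R) (a b c : OnePoint ℚ) :
    s41c_cup P Q a b c = (P b * Q c - P c * Q b) - (P a * Q c - P c * Q a)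
      + (P a * Q b - P b * Q a) := by
  unfold s41c_cup; ring

theorem s41c_cup_cocycle (P Q : OnePoint ℚ → R) (a b c d : OnePoint ℚ) :
    s41c_cup P Q b c d - s41c_cup P Q a c d + s41c_cup P Q a b d - s41c_cup P Q a b c = 0 := by
  unfold s41c_cup; ring

variable {Γ}

/-- `Γ`-invariance of the cup product of two potentials. -/
theorem s41c_cup_smul {φ ψ : Additive Γ →+ R} {P Q : OnePoint ℚ → R}
    (hP : s41c_IsPotential Γ φ P) (hQ : s41c_IsPotential Γ ψ Q) (γ : Γ) (a b c : OnePoint ℚ) :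
    s41c_cup P Q ((γ : SL(2, ℤ)) • a) ((γ : SL(2, ℤ)) • b) ((γ : SL(2, ℤ)) • c) =
      s41c_cup P Q a b c := by
  unfold s41c_cup
  rw [hP γ a, hP γ b, hP γ c, hQ γ a, hQ γ b, hQ γ c]; ring

theorem s41c_cup_inv_smul {φ ψ : Additive Γ →+ R} {P Q : OnePoint ℚ → R}
    (hP : s41c_IsPotential Γ φ P) (hQ : s41c_IsPotential Γ ψ Q) (γ : Γ) (a b c : OnePoint ℚ) :
    s41c_cup P Q ((γ : SL(2, ℤ))⁻¹ • a) ((γ : SL(2, ℤ))⁻¹ • b) ((γ : SL(2, ℤ))⁻¹ • c) =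
      s41c_cup P Q a b c := by
  have := s41c_cup_smul hP hQ γ ((γ : SL(2, ℤ))⁻¹ • a) ((γ : SL(2, ℤ))⁻¹ • b)
    ((γ : SL(2, ℤ))⁻¹ • c)
  rw [smul_inv_smul, smul_inv_smul, smul_inv_smul] at this
  exact this.symm

variable (Γ)

/-- The triangle function on `X = SL(2, ℤ) ⧸ Γ`:
`τ (g Γ) = cup P Q (g⁻¹ o₀) (g⁻¹ o₁) (g⁻¹ o₂)`. -/
noncomputable def s41c_triP (P Q : OnePoint ℚ → R) (x : SL(2, ℤ) ⧸ Γ) : R :=
  s41c_cup P Q (x.out⁻¹ • s41c_o0) (x.out⁻¹ • s41c_o1) (x.out⁻¹ • s41c_o2)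

variable {Γ}

theorem s41c_triP_mk {φ ψ : Additive Γ →+ R} {P Q : OnePoint ℚ → R}
    (hP : s41c_IsPotential Γ φ P) (hQ : s41c_IsPotential Γ ψ Q) (g : SL(2, ℤ)) :
    s41c_triP Γ P Q (g : SL(2, ℤ) ⧸ Γ) =
      s41c_cup P Q (g⁻¹ • s41c_o0) (g⁻¹ • s41c_o1) (g⁻¹ • s41c_o2) := by
  obtain ⟨γ, hγ⟩ := QuotientGroup.mk_out_eq_mul Γ g
  unfold s41c_triP
  rw [hγ, _root_.mul_inv_rev, mul_smul, mul_smul, mul_smul, s41c_cup_inv_smul hP hQ]

/-- `τ` in terms of the edge functions: `τ x = v_φ(x) v_ψ(U⁻¹ x) - v_φ(U⁻¹ x) v_ψ(x)`. -/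
theorem s41c_triP_eq_edgeFun {φ ψ : Additive Γ →+ R} {P Q : OnePoint ℚ → R}
    (hP : s41c_IsPotential Γ φ P) (hQ : s41c_IsPotential Γ ψ Q) (x : SL(2, ℤ) ⧸ Γ) :
    s41c_triP Γ P Q x = s41c_edgeFun Γ P x * s41c_edgeFun Γ Q (s41c_U⁻¹ • x)
      - s41c_edgeFun Γ P (s41c_U⁻¹ • x) * s41c_edgeFun Γ Q x := by
  induction x using QuotientGroup.induction_on with
  | H g =>
    have hU : s41c_U⁻¹ • (g : SL(2, ℤ) ⧸ Γ) = ((s41c_U⁻¹ * g : SL(2, ℤ)) : SL(2, ℤ) ⧸ Γ) := rfl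
    rw [hU, s41c_triP_mk hP hQ, s41c_edgeFun_mk hP, s41c_edgeFun_mk hQ, s41c_edgeFun_mk hP,
      s41c_edgeFun_mk hQ]
    simp only [_root_.mul_inv_rev, inv_inv, mul_smul, s41c_U_o0, s41c_U_o1]
    unfold s41c_cup; ring

/-- `τ` is constant on `⟨U⟩`-orbits. -/
theorem s41c_triP_U_smul {φ ψ : Additive Γ →+ R} {P Q : OnePoint ℚ → R}
    (hP : s41c_IsPotential Γ φ P) (hQ : s41c_IsPotential Γ ψ Q) (x : SL(2, ℤ) ⧸ Γ) :
    s41c_triP Γ P Q (s41c_U⁻¹ • x) = s41c_triP Γ P Q x := by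
  induction x using QuotientGroup.induction_on with
  | H g =>
    have hU : s41c_U⁻¹ • (g : SL(2, ℤ) ⧸ Γ) = ((s41c_U⁻¹ * g : SL(2, ℤ)) : SL(2, ℤ) ⧸ Γ) := rfl
    rw [hU, s41c_triP_mk hP hQ, s41c_triP_mk hP hQ]
    simp only [_root_.mul_inv_rev, inv_inv, mul_smul, s41c_U_o0, s41c_U_o1, s41c_U_o2]
    exact s41c_cup_rot P Q _ _ _

variable (Γ)

/-- The pairing of two functions on cusps: the sum of `τ` over the `⟨U⟩`-orbits on
`SL(2, ℤ) ⧸ Γ` (the `Γ`-orbits of Farey triangles). -/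
noncomputable def s41c_pairP (P Q : OnePoint ℚ → R) : R :=
  ∑ᶠ o : MulAction.orbitRel.Quotient (Subgroup.zpowers s41c_U) (SL(2, ℤ) ⧸ Γ),
    s41c_triP Γ P Q o.out

/-- **The pairing `B_Γ`** on `Hom(Γ, R)` (meaningful on parabolic homomorphisms). -/
noncomputable def s41c_pairing (φ ψ : Additive Γ →+ R) : R :=
  s41c_pairP Γ (s41c_potential Γ φ) (s41c_potential Γ ψ)

end Pairing

end Fermat.Agent.Lib.S41
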