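/-
S41 project, module family [B] (helper5): potentials on `G`-sets and the pairing in "section form".

For `φ : Γ → A` and a `G`-set `Y`, a potential is `P : Y → A` with `P (γ • y) = P y + φ γ`.
Potentials exist as soon as `φ` kills the stabilisers.  For two potentials `P` on `Y`, `Q` on `Z`
of the same `φ` the function `g Γ ↦ P (g⁻¹ y) - Q (g⁻¹ z)` on `X = G ⧸ Γ` is well defined
(`s41b_diff`).  For `G = SL(2, ℤ)` we use the cusps `ℙ¹(ℚ)` (helper4's `s41c_IsPotential`), the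
edges `G ⧸ ⟨S⟩` and the triangles `G ⧸ ⟨U⟩`:
`v = diff P ∞ P 0`, `a = diff P ∞ P_E e₀`, `b = diff P ∞ P_F f₀`, `d = b - a = diff P_E e₀ P_F f₀`,
`v = a - a ∘ S = b - b ∘ U⁻¹`, and the pairing is `B(φ, ψ) = ∑_x v_φ(x) d_ψ(x)`.
-/
import Mathlib
import Fermat.Agent.Lib.S41.CDefs
import Fermat.Agent.Lib.S41.BAbs

set_option autoImplicit false

open Matrix MatrixGroups OnePoint

namespace Fermat.Agent.Lib.S41

section Pot

variable {G : Type*} [Group G] (Γ : Subgroup G) {A : Type*} [AddCommGroup A]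
variable {Y : Type*} [MulAction G Y] {Z : Type*} [MulAction G Z]

/-- `P` is a potential of `φ` on the `G`-set `Y`. -/
def s41b_IsPot (φ : Additive Γ →+ A) (P : Y → A) : Prop :=
  ∀ (γ : Γ) (y : Y), P ((γ : G) • y) = P y + φ (Additive.ofMul γ)

variable {Γ}

theorem s41b_IsPot.inv {φ : Additive Γ →+ A} {P : Y → A}
    (hP : s41b_IsPot Γ φ P) (γ : Γ) (y : Y) :
    P ((γ : G)⁻¹ • y) = P y - φ (Additive.ofMul γ) := by
  have := hP γ ((γ : G)⁻¹ • y)
  rw [smul_inv_smul] at this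
  rw [this]; abel

theorem s41b_IsPot.add {φ ψ : Additive Γ →+ A} {P Q : Y → A}
    (hP : s41b_IsPot Γ φ P) (hQ : s41b_IsPot Γ ψ Q) : s41b_IsPot Γ (φ + ψ) (P + Q) := by
  intro γ y
  simp only [Pi.add_apply, AddMonoidHom.add_apply, hP γ y, hQ γ y]; abel

theorem s41b_IsPot.sub {φ ψ : Additive Γ →+ A} {P Q : Y → A}
    (hP : s41b_IsPot Γ φ P) (hQ : s41b_IsPot Γ ψ Q) : s41b_IsPot Γ (φ - ψ) (P - Q) := by
  intro γ y
  simp only [Pi.sub_apply, AddMonoidHom.sub_apply, hP γ y, hQ γ y]; abel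

theorem s41b_IsPot.zero : s41b_IsPot Γ (0 : Additive Γ →+ A) (0 : Y → A) := by
  intro γ y; simp

/-- A homomorphism killing the stabilisers has a potential. -/
theorem s41b_exists_pot (φ : Additive Γ →+ A)
    (hφ : ∀ (γ : Γ) (y : Y), (γ : G) • y = y → φ (Additive.ofMul γ) = 0) :
    ∃ P : Y → A, s41b_IsPot Γ φ P := by
  classical
  let r : Y → Y := fun α => (Quotient.mk (MulAction.orbitRel Γ Y) α).out
  have hr : ∀ α, ∃ γ : Γ, (γ : G) • r α = α := by
    intro α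
    have h1 : (MulAction.orbitRel Γ Y).r (r α) α := Quotient.exact (Quotient.out_eq _)
    have h2 : α ∈ MulAction.orbit Γ (r α) := by
      have := MulAction.orbitRel_apply.mp h1
      exact MulAction.mem_orbit_symm.mp this
    obtain ⟨γ, hγ⟩ := h2
    exact ⟨γ, hγ⟩
  have hrr : ∀ (γ : Γ) α, r ((γ : G) • α) = r α := by
    intro γ α
    have : (Quotient.mk (MulAction.orbitRel Γ Y) ((γ : G) • α)) =
        Quotient.mk (MulAction.orbitRel Γ Y) α := by
      apply Quotient.sound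
      exact MulAction.orbitRel_apply.mpr ⟨γ, rfl⟩
    simp only [r, this]
  choose c hc using hr
  refine ⟨fun α => φ (Additive.ofMul (c α)), fun γ α => ?_⟩
  have h1 : ((c ((γ : G) • α) : Γ) : G) • r α = (γ : G) • α := by
    have := hc ((γ : G) • α)
    rwa [hrr] at this
  have h2 : (((γ * c α)⁻¹ * c ((γ : G) • α) : Γ) : G) • r α = r α := by
    push_cast
    rw [mul_smul, h1, _root_.mul_inv_rev, mul_smul, inv_smul_smul, inv_smul_eq_iff]
    exact (hc α).symm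
  have h3 := hφ _ _ h2
  rw [ofMul_mul, map_add, ofMul_inv, map_neg, ofMul_mul, map_add] at h3
  change φ (Additive.ofMul (c ((γ : G) • α))) = φ (Additive.ofMul (c α)) +
    φ (Additive.ofMul γ)
  rw [← sub_eq_zero, ← h3]; abel

variable (Γ)

/-- `g Γ ↦ P (g⁻¹ y) - Q (g⁻¹ z)` (through the chosen representative). -/
noncomputable def s41b_diff (P : Y → A) (y : Y) (Q : Z → A) (z : Z) (x : G ⧸ Γ) : A :=
  P (x.out⁻¹ • y) - Q (x.out⁻¹ • z)

variable {Γ}

theorem s41b_diff_mk {φ : Additive Γ →+ A} {P : Y → A} {Q : Z → A}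
    (hP : s41b_IsPot Γ φ P) (hQ : s41b_IsPot Γ φ Q) (y : Y) (z : Z) (g : G) :
    s41b_diff Γ P y Q z (g : G ⧸ Γ) = P (g⁻¹ • y) - Q (g⁻¹ • z) := by
  obtain ⟨γ, hγ⟩ := QuotientGroup.mk_out_eq_mul Γ g
  unfold s41b_diff
  rw [hγ, _root_.mul_inv_rev, mul_smul, mul_smul, hP.inv γ, hQ.inv γ]; abel

theorem s41b_diff_smul {φ : Additive Γ →+ A} {P : Y → A} {Q : Z → A}
    (hP : s41b_IsPot Γ φ P) (hQ : s41b_IsPot Γ φ Q) (y : Y) (z : Z) (k : G) (x : G ⧸ Γ) :
    s41b_diff Γ P y Q z (k • x) = s41b_diff Γ P (k⁻¹ • y) Q (k⁻¹ • z) x := by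
  induction x using QuotientGroup.induction_on with
  | H g =>
    have hk : k • (g : G ⧸ Γ) = ((k * g : G) : G ⧸ Γ) := rfl
    rw [hk, s41b_diff_mk hP hQ, s41b_diff_mk hP hQ, _root_.mul_inv_rev, mul_smul, mul_smul]

end Pot

section SL2

variable (Γ : Subgroup SL(2, ℤ)) {A : Type*} [AddCommGroup A]

/-- the `SL(2, ℤ)`-set of (unoriented) Farey edges -/
abbrev s41b_YE : Type := SL(2, ℤ) ⧸ Subgroup.zpowers s41c_S
/-- the `SL(2, ℤ)`-set of Farey triangles -/
abbrev s41b_YF : Type := SL(2, ℤ) ⧸ Subgroup.zpowers s41c_U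

/-- the base edge -/
def s41b_e0 : s41b_YE := ((1 : SL(2, ℤ)) : s41b_YE)
/-- the base triangle -/
def s41b_f0 : s41b_YF := ((1 : SL(2, ℤ)) : s41b_YF)

theorem s41b_S_e0 : s41c_S • s41b_e0 = s41b_e0 := by
  unfold s41b_e0
  rw [MulAction.Quotient.smul_mk, QuotientGroup.eq]
  simp only [smul_eq_mul, mul_one]
  exact Subgroup.inv_mem _ (Subgroup.mem_zpowers _)

theorem s41b_U_f0 : s41c_U • s41b_f0 = s41b_f0 := by
  unfold s41b_f0
  rw [MulAction.Quotient.smul_mk, QuotientGroup.eq]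
  simp only [smul_eq_mul, mul_one]
  exact Subgroup.inv_mem _ (Subgroup.mem_zpowers _)

theorem s41b_Sinv_e0 : s41c_S⁻¹ • s41b_e0 = s41b_e0 := by
  rw [inv_smul_eq_iff, s41b_S_e0]

theorem s41b_Uinv_f0 : s41c_U⁻¹ • s41b_f0 = s41b_f0 := by
  rw [inv_smul_eq_iff, s41b_U_f0]

theorem s41b_S_pow_four : s41c_S ^ 4 = 1 := by
  apply Subtype.ext
  rw [Matrix.SpecialLinearGroup.coe_pow]
  show (!![0, -1; 1, 0] : Matrix (Fin 2) (Fin 2) ℤ) ^ 4 = 1
  simp [pow_succ, Matrix.one_fin_two]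

theorem s41b_U_pow_six : s41c_U ^ 6 = 1 := by
  apply Subtype.ext
  rw [Matrix.SpecialLinearGroup.coe_pow]
  show (!![0, -1; 1, 1] : Matrix (Fin 2) (Fin 2) ℤ) ^ 6 = 1
  simp [pow_succ, Matrix.one_fin_two]

theorem s41b_finOrd_conj {g x : SL(2, ℤ)} (h : IsOfFinOrder x) : IsOfFinOrder (g * x * g⁻¹) := by
  have := (MulAut.conj g).toMonoidHom.isOfFinOrder h
  simpa using this

/-- the stabilisers of edges consist of elements of finite order -/
theorem s41b_finOrd_of_fix_YE {γ : SL(2, ℤ)} {y : s41b_YE} (h : γ • y = y) : IsOfFinOrder γ := by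
  induction y using QuotientGroup.induction_on with
  | H g =>
    rw [MulAction.Quotient.smul_mk, eq_comm, QuotientGroup.eq] at h
    obtain ⟨n, hn⟩ := Subgroup.mem_zpowers_iff.mp h
    have hS : IsOfFinOrder s41c_S :=
      isOfFinOrder_iff_pow_eq_one.mpr ⟨4, by norm_num, s41b_S_pow_four⟩
    have hγ : γ = g * s41c_S ^ n * g⁻¹ := by
      rw [hn]; simp only [smul_eq_mul]; group
    rw [hγ]
    exact s41b_finOrd_conj hS.zpow

/-- the stabilisers of triangles consist of elements of finite order -/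
theorem s41b_finOrd_of_fix_YF {γ : SL(2, ℤ)} {y : s41b_YF} (h : γ • y = y) : IsOfFinOrder γ := by
  induction y using QuotientGroup.induction_on with
  | H g =>
    rw [MulAction.Quotient.smul_mk, eq_comm, QuotientGroup.eq] at h
    obtain ⟨n, hn⟩ := Subgroup.mem_zpowers_iff.mp h
    have hS : IsOfFinOrder s41c_U :=
      isOfFinOrder_iff_pow_eq_one.mpr ⟨6, by norm_num, s41b_U_pow_six⟩
    have hγ : γ = g * s41c_U ^ n * g⁻¹ := by
      rw [hn]; simp only [smul_eq_mul]; group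
    rw [hγ]
    exact s41b_finOrd_conj hS.zpow

end SL2

end Fermat.Agent.Lib.S41
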