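/-
S41 project, module family [B] (helper5): the Manin triple of a class and the pairing `B`.

`Γ ≤ SL(2, ℤ)` of finite index with `-1 ∈ Γ`, `X = SL(2, ℤ) ⧸ Γ`, `σ = S •`, `τ = U⁻¹ •`.
For `φ : Γ → A` with potentials `P` (cusps), `P_E` (edges), `P_F` (triangles):
`v = diff P ∞ P 0`, `a = diff P ∞ P_E e₀`, `b = diff P ∞ P_F f₀`, `v = a - a ∘ σ = b - b ∘ τ`.
`s41b_pairP P Q_E Q_F = ∑_x v_P(x) (Q_E(x⁻¹e₀) - Q_F(x⁻¹f₀))`; independent of all choices;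
`6 • pairP = ∑_x triP Γ P Q x` (helper4's triangle form).
-/
import Mathlib
import Fermat.Agent.Lib.S41.BPot

set_option autoImplicit false

open Matrix MatrixGroups OnePoint

namespace Fermat.Agent.Lib.S41

section Triple

variable {Γ : Subgroup SL(2, ℤ)} {A : Type*} [AddCommGroup A]

/-- `σ` : the action of `S` on `X`. -/
noncomputable def s41b_sigma (Γ : Subgroup SL(2, ℤ)) : Equiv.Perm (SL(2, ℤ) ⧸ Γ) :=
  MulAction.toPerm s41c_S

/-- `τ` : the action of `U⁻¹` on `X`. -/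
noncomputable def s41b_tau (Γ : Subgroup SL(2, ℤ)) : Equiv.Perm (SL(2, ℤ) ⧸ Γ) :=
  MulAction.toPerm s41c_U⁻¹

theorem s41b_sigma_apply (x : SL(2, ℤ) ⧸ Γ) : s41b_sigma Γ x = s41c_S • x := rfl
theorem s41b_tau_apply (x : SL(2, ℤ) ⧸ Γ) : s41b_tau Γ x = s41c_U⁻¹ • x := rfl

theorem s41b_Sinv_o0 : s41c_S⁻¹ • s41c_o0 = s41c_o1 := by rw [inv_smul_eq_iff, s41c_S_o1]
theorem s41b_Sinv_o1 : s41c_S⁻¹ • s41c_o1 = s41c_o0 := by rw [inv_smul_eq_iff, s41c_S_o0]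

variable {φ : Additive Γ →+ A} {P : OnePoint ℚ → A} {PE : s41b_YE → A} {PF : s41b_YF → A}

/-- `v = a - a ∘ σ`. -/
theorem s41b_triple_a (hP : s41b_IsPot Γ φ P) (hE : s41b_IsPot Γ φ PE) :
    s41b_diff Γ P s41c_o0 P s41c_o1 =
      s41b_diff Γ P s41c_o0 PE s41b_e0 - (s41b_diff Γ P s41c_o0 PE s41b_e0) ∘ s41b_sigma Γ := by
  funext x
  simp only [Pi.sub_apply, Function.comp_apply, s41b_sigma_apply]
  rw [s41b_diff_smul hP hE, s41b_Sinv_o0, s41b_Sinv_e0]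
  unfold s41b_diff
  abel

/-- `v = b - b ∘ τ`. -/
theorem s41b_triple_b (hP : s41b_IsPot Γ φ P) (hF : s41b_IsPot Γ φ PF) :
    s41b_diff Γ P s41c_o0 P s41c_o1 =
      s41b_diff Γ P s41c_o0 PF s41b_f0 - (s41b_diff Γ P s41c_o0 PF s41b_f0) ∘ s41b_tau Γ := by
  funext x
  simp only [Pi.sub_apply, Function.comp_apply, s41b_tau_apply]
  rw [s41b_diff_smul hP hF, inv_inv, s41c_U_o0, s41b_U_f0]
  unfold s41b_diff
  abel

/-- `d = b - a`. -/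
theorem s41b_d_eq (P : OnePoint ℚ → A) (PE : s41b_YE → A) (PF : s41b_YF → A) :
    s41b_diff Γ PE s41b_e0 PF s41b_f0 =
      s41b_diff Γ P s41c_o0 PF s41b_f0 - s41b_diff Γ P s41c_o0 PE s41b_e0 := by
  funext x
  simp only [Pi.sub_apply]
  unfold s41b_diff
  abel

/-- For a `Γ`-invariant function `h` on the cusps, `ĥ(gΓ) = h(g⁻¹∞)` satisfies
`ĥ ∘ σ = ĥ ∘ τ`, and `v_h = ĥ - ĥ ∘ σ`. -/
theorem s41b_inv_sigma_tau {h : OnePoint ℚ → A} (hh : s41b_IsPot Γ (0 : Additive Γ →+ A) h) :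
    (s41b_diff Γ h s41c_o0 (0 : OnePoint ℚ → A) s41c_o0) ∘ s41b_sigma Γ =
      (s41b_diff Γ h s41c_o0 (0 : OnePoint ℚ → A) s41c_o0) ∘ s41b_tau Γ := by
  funext x
  simp only [Function.comp_apply, s41b_sigma_apply, s41b_tau_apply]
  rw [s41b_diff_smul hh s41b_IsPot.zero, s41b_diff_smul hh s41b_IsPot.zero, inv_inv, s41c_U_o0,
    s41b_Sinv_o0]

theorem s41b_inv_edge {h : OnePoint ℚ → A} (hh : s41b_IsPot Γ (0 : Additive Γ →+ A) h) :
    s41b_diff Γ h s41c_o0 h s41c_o1 =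
      s41b_diff Γ h s41c_o0 (0 : OnePoint ℚ → A) s41c_o0 -
        (s41b_diff Γ h s41c_o0 (0 : OnePoint ℚ → A) s41c_o0) ∘ s41b_sigma Γ := by
  funext x
  simp only [Pi.sub_apply, Function.comp_apply, s41b_sigma_apply]
  rw [s41b_diff_smul hh s41b_IsPot.zero, s41b_Sinv_o0]
  unfold s41b_diff
  simp

end Triple

section Orders

variable {Γ : Subgroup SL(2, ℤ)}

theorem s41b_S_mul_S : s41c_S * s41c_S = -1 := by
  apply Subtype.ext
  rw [Matrix.SpecialLinearGroup.coe_mul, Matrix.SpecialLinearGroup.coe_neg,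
    Matrix.SpecialLinearGroup.coe_one]
  show (!![0, -1; 1, 0] : Matrix (Fin 2) (Fin 2) ℤ) * !![0, -1; 1, 0] = -1
  simp [Matrix.one_fin_two]

theorem s41b_U_cube : s41c_U * s41c_U * s41c_U = -1 := by
  apply Subtype.ext
  rw [Matrix.SpecialLinearGroup.coe_mul, Matrix.SpecialLinearGroup.coe_mul,
    Matrix.SpecialLinearGroup.coe_neg, Matrix.SpecialLinearGroup.coe_one]
  show (!![0, -1; 1, 1] : Matrix (Fin 2) (Fin 2) ℤ) * !![0, -1; 1, 1] * !![0, -1; 1, 1] = -1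
  simp [Matrix.one_fin_two]

theorem s41b_neg_one_smul (hΓ : (-1 : SL(2, ℤ)) ∈ Γ) (x : SL(2, ℤ) ⧸ Γ) :
    (-1 : SL(2, ℤ)) • x = x := by
  induction x using QuotientGroup.induction_on with
  | H g =>
    rw [MulAction.Quotient.smul_mk, QuotientGroup.eq]
    have : ((-1 : SL(2, ℤ)) • g)⁻¹ * g = -1 := by
      rw [smul_eq_mul, neg_mul, one_mul, inv_neg, neg_mul, inv_mul_cancel]
    rw [this]; exact hΓ

theorem s41b_sigma_sq (hΓ : (-1 : SL(2, ℤ)) ∈ Γ) (x : SL(2, ℤ) ⧸ Γ) :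
    s41b_sigma Γ (s41b_sigma Γ x) = x := by
  rw [s41b_sigma_apply, s41b_sigma_apply, ← mul_smul, s41b_S_mul_S, s41b_neg_one_smul hΓ]

theorem s41b_tau_cube (hΓ : (-1 : SL(2, ℤ)) ∈ Γ) (x : SL(2, ℤ) ⧸ Γ) :
    s41b_tau Γ (s41b_tau Γ (s41b_tau Γ x)) = x := by
  rw [s41b_tau_apply, s41b_tau_apply, s41b_tau_apply, ← mul_smul, ← mul_smul, ← _root_.mul_inv_rev,
    ← _root_.mul_inv_rev, ← mul_assoc, s41b_U_cube, inv_smul_eq_iff, s41b_neg_one_smul hΓ]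

end Orders

section Pairing

variable (Γ : Subgroup SL(2, ℤ)) [Fintype (SL(2, ℤ) ⧸ Γ)] {R : Type*} [CommRing R]

/-- The pairing in terms of potentials: `∑_x v_P(x) d_Q(x)`. -/
noncomputable def s41b_pairP (P : OnePoint ℚ → R) (QE : s41b_YE → R) (QF : s41b_YF → R) : R :=
  (s41b_diff Γ P s41c_o0 P s41c_o1) ⬝ᵥ (s41b_diff Γ QE s41b_e0 QF s41b_f0)

variable {Γ}
variable {φ ψ : Additive Γ →+ R}

/-- Independence of the edge and triangle potentials of the second argument. -/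
theorem s41b_pairP_indep_right {P : OnePoint ℚ → R} {PE : s41b_YE → R} {PF : s41b_YF → R}
    {Q : OnePoint ℚ → R} {QE QE' : s41b_YE → R} {QF QF' : s41b_YF → R}
    (hP : s41b_IsPot Γ φ P) (hPE : s41b_IsPot Γ φ PE) (hPF : s41b_IsPot Γ φ PF)
    (hQ : s41b_IsPot Γ ψ Q) (hQE : s41b_IsPot Γ ψ QE) (hQF : s41b_IsPot Γ ψ QF)
    (hQE' : s41b_IsPot Γ ψ QE') (hQF' : s41b_IsPot Γ ψ QF') :
    s41b_pairP Γ P QE QF = s41b_pairP Γ P QE' QF' := by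
  unfold s41b_pairP
  rw [s41b_d_eq Q QE QF, s41b_d_eq Q QE' QF']
  exact s41b_pair_indep (s41b_sigma Γ) (s41b_tau Γ) (s41b_triple_a hP hPE) (s41b_triple_b hP hPF)
    (s41b_triple_a hQ hQE) (s41b_triple_b hQ hQF) (s41b_triple_a hQ hQE') (s41b_triple_b hQ hQF')

/-- Independence of the cusp potential of the first argument. -/
theorem s41b_pairP_indep_left {P P' : OnePoint ℚ → R}
    {Q : OnePoint ℚ → R} {QE : s41b_YE → R} {QF : s41b_YF → R}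
    (hP : s41b_IsPot Γ φ P) (hP' : s41b_IsPot Γ φ P')
    (hQ : s41b_IsPot Γ ψ Q) (hQE : s41b_IsPot Γ ψ QE) (hQF : s41b_IsPot Γ ψ QF) :
    s41b_pairP Γ P QE QF = s41b_pairP Γ P' QE QF := by
  have hh : s41b_IsPot Γ (0 : Additive Γ →+ R) (P' - P) := by
    have := hP'.sub hP
    rwa [sub_self] at this
  have h0 := s41b_rad_left (s41b_sigma Γ) (s41b_tau Γ) (s41b_inv_sigma_tau hh)
    (s41b_triple_a hQ hQE) (s41b_triple_b hQ hQF)
  rw [← s41b_inv_edge hh, ← s41b_d_eq Q QE QF] at h0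
  have hsplit : s41b_diff Γ P' s41c_o0 P' s41c_o1 =
      s41b_diff Γ P s41c_o0 P s41c_o1 + s41b_diff Γ (P' - P) s41c_o0 (P' - P) s41c_o1 := by
    funext x
    simp only [Pi.add_apply]
    unfold s41b_diff
    simp only [Pi.sub_apply]
    ring
  unfold s41b_pairP
  rw [hsplit, add_dotProduct, h0, add_zero]

/-- **Skew-symmetry.** -/
theorem s41b_pairP_skew {P : OnePoint ℚ → R} {PE : s41b_YE → R} {PF : s41b_YF → R}
    {Q : OnePoint ℚ → R} {QE : s41b_YE → R} {QF : s41b_YF → R}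
    (hP : s41b_IsPot Γ φ P) (hPE : s41b_IsPot Γ φ PE) (hPF : s41b_IsPot Γ φ PF)
    (hQ : s41b_IsPot Γ ψ Q) (hQE : s41b_IsPot Γ ψ QE) (hQF : s41b_IsPot Γ ψ QF) :
    s41b_pairP Γ P QE QF + s41b_pairP Γ Q PE PF = 0 := by
  unfold s41b_pairP
  rw [s41b_d_eq Q QE QF, s41b_d_eq P PE PF]
  exact s41b_skew (s41b_sigma Γ) (s41b_tau Γ) (s41b_triple_a hP hPE) (s41b_triple_b hP hPF)
    (s41b_triple_a hQ hQE) (s41b_triple_b hQ hQF)

/-- **`6 B = T`**: helper4's triangle form is six times the section form. -/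
theorem s41b_six_pairP (hΓ : (-1 : SL(2, ℤ)) ∈ Γ)
    {P : OnePoint ℚ → R} {PE : s41b_YE → R} {PF : s41b_YF → R}
    {Q : OnePoint ℚ → R} {QE : s41b_YE → R} {QF : s41b_YF → R}
    (hP : s41b_IsPot Γ φ P) (hPE : s41b_IsPot Γ φ PE) (hPF : s41b_IsPot Γ φ PF)
    (hQ : s41b_IsPot Γ ψ Q) (hQE : s41b_IsPot Γ ψ QE) (hQF : s41b_IsPot Γ ψ QF) :
    ∑ x : SL(2, ℤ) ⧸ Γ, s41c_triP Γ P Q x = 6 * s41b_pairP Γ P QE QF := by
  have h6 := s41b_six (s41b_sigma Γ) (s41b_tau Γ) (s41b_sigma_sq hΓ) (s41b_tau_cube hΓ)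
    (s41b_triple_a hP hPE) (s41b_triple_b hP hPF) (s41b_triple_a hQ hQE) (s41b_triple_b hQ hQF)
  unfold s41b_pairP
  rw [s41b_d_eq Q QE QF, ← h6, dotProduct, dotProduct, ← Finset.sum_sub_distrib]
  refine Finset.sum_congr rfl fun x _ => ?_
  rw [s41c_triP_eq_edgeFun (φ := φ) (ψ := ψ) hP hQ]
  rfl

end Pairing

end Fermat.Agent.Lib.S41
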