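import Mathlib

/-!
# S41 [C], abstract part: invariant cocycles on triples of cusps and the integral over a
`Γ`-invariant triangulation

Setting: a group `G` acting on a set `P` ("cusps"), a base edge `(o₀, o₁)` with two elements
`S, U : G` (`S` flips the edge, `U` rotates the base triangle `(o₀, o₁, o₂)`, `o₂ = U • o₁`),
a subgroup `Γ` of finite index and `X = G ⧸ Γ` (the coset `hΓ` is the `Γ`-orbit of the
oriented edge `h⁻¹ • (o₀, o₁)`).

* `s41k_flow`: finite linear algebra (flows on a connected graph with orbifold points).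
* `s41k_int`: the integral `∑_{x ∈ X} t(x-triangle)` of a `2`-cochain on triples.
* `s41k_KL`: an invariant alternating `2`-cocycle of integral zero is the coboundary of an
  invariant alternating `1`-cochain (under the two Farey hypotheses `T0`, `T1`).
* `s41k_similitude`: `∫ ∘ w^* = c • ∫` with `c ≠ 0` for every bijection `w` of `P`
  normalising `Γ`.
-/

set_option autoImplicit false
set_option linter.unusedSectionVars false

namespace Fermat.Agent.Lib.S41

open scoped BigOperators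

section Flow

variable {F : Type*} [Field F] {X : Type*}

/-- The `ρ`-orbit sum operator `k ↦ k + k ∘ ρ + k ∘ ρ²`. -/
def s41k_orbSum (ρ : Equiv.Perm X) : (X → F) →ₗ[F] (X → F) where
  toFun k := fun x => k x + k (ρ x) + k (ρ (ρ x))
  map_add' a b := by funext x; simp only [Pi.add_apply]; ring
  map_smul' r a := by
    funext x; simp only [Pi.smul_apply, smul_eq_mul, RingHom.id_apply]; ring

theorem s41k_orbSum_apply (ρ : Equiv.Perm X) (k : X → F) (x : X) :
    s41k_orbSum ρ k x = k x + k (ρ x) + k (ρ (ρ x)) := rfl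

/-- `k ↦ N k - (N k) ∘ σ`, the adjoint of `a ↦ N (a - a ∘ σ)`. -/
def s41k_Adag (σ ρ : Equiv.Perm X) : (X → F) →ₗ[F] (X → F) where
  toFun k := fun x => s41k_orbSum ρ k x - s41k_orbSum ρ k (σ x)
  map_add' a b := by funext x; simp only [map_add, Pi.add_apply]; ring
  map_smul' r a := by
    funext x; simp only [map_smul, Pi.smul_apply, smul_eq_mul, RingHom.id_apply]; ring

theorem s41k_Adag_apply (σ ρ : Equiv.Perm X) (k : X → F) (x : X) :
    s41k_Adag σ ρ k x = s41k_orbSum ρ k x - s41k_orbSum ρ k (σ x) := rfl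

variable [Fintype X]

/-- The functional `y ↦ ∑ x, h x * y x`. -/
def s41k_dot (h : X → F) : Module.Dual F (X → F) where
  toFun y := ∑ x, h x * y x
  map_add' a b := by
    simp only [Pi.add_apply, mul_add, Finset.sum_add_distrib]
  map_smul' r a := by
    simp only [Pi.smul_apply, smul_eq_mul, RingHom.id_apply, Finset.mul_sum]
    exact Finset.sum_congr rfl fun x _ => by ring

theorem s41k_dot_apply (h y : X → F) : s41k_dot h y = ∑ x, h x * y x := rfl

/-- `N` is self-adjoint for the dot product when `ρ³ = 1`. -/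
theorem s41k_dot_orbSum (ρ : Equiv.Perm X) (hρ : ∀ x, ρ (ρ (ρ x)) = x) (a y : X → F) :
    ∑ x, a x * s41k_orbSum ρ y x = ∑ x, s41k_orbSum ρ a x * y x := by
  simp only [s41k_orbSum_apply, mul_add, add_mul, Finset.sum_add_distrib]
  have h1 : ∑ x, a x * y (ρ x) = ∑ x, a (ρ (ρ x)) * y x := by
    rw [← Equiv.sum_comp (ρ.trans ρ) (fun x => a x * y (ρ x))]
    exact Finset.sum_congr rfl fun x _ => by simp [hρ]
  have h2 : ∑ x, a x * y (ρ (ρ x)) = ∑ x, a (ρ x) * y x := by
    rw [← Equiv.sum_comp ρ (fun x => a x * y (ρ (ρ x)))]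
    exact Finset.sum_congr rfl fun x _ => by simp [hρ]
  rw [h1, h2]; ring

/-- `y ↦ y - y ∘ σ` is self-adjoint for the dot product when `σ² = 1`. -/
theorem s41k_dot_sigma (σ : Equiv.Perm X) (hσ : ∀ x, σ (σ x) = x) (a y : X → F) :
    ∑ x, a x * (y x - y (σ x)) = ∑ x, (a x - a (σ x)) * y x := by
  simp only [mul_sub, sub_mul, Finset.sum_sub_distrib]
  congr 1
  rw [← Equiv.sum_comp σ (fun x => a x * y (σ x))]
  exact Finset.sum_congr rfl fun x _ => by simp [hσ]

/-- **Flow lemma.** `σ, ρ` permutations of a finite set with `σ² = 1 = ρ³`, jointly transitive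
(in the functional form), `3` invertible: every `ρ`-invariant function of sum zero is
`c + c ∘ ρ + c ∘ ρ²` for a `σ`-antisymmetric `c`. -/
theorem s41k_flow (h3 : (3 : F) ≠ 0) (σ ρ : Equiv.Perm X)
    (hσ : ∀ x, σ (σ x) = x) (hρ : ∀ x, ρ (ρ (ρ x)) = x)
    (htr : ∀ f : X → F, (∀ x, f (σ x) = f x) → (∀ x, f (ρ x) = f x) → ∀ x y, f x = f y)
    (h : X → F) (hh : ∀ x, h (ρ x) = h x) (hsum : ∑ x, h x = 0) :
    ∃ c : X → F, (∀ x, c (σ x) = - c x) ∧ ∀ x, c x + c (ρ x) + c (ρ (ρ x)) = h x := by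
  classical
  have hann : s41k_dot h ∈ (LinearMap.ker (s41k_Adag (F := F) σ ρ)).dualAnnihilator := by
    rw [Submodule.mem_dualAnnihilator]
    intro k hk
    rw [LinearMap.mem_ker] at hk
    -- `N k` is invariant under `σ` and `ρ`, hence constant
    have hσinv : ∀ x, s41k_orbSum ρ k (σ x) = s41k_orbSum ρ k x := by
      intro x
      have := congrFun hk x
      rw [s41k_Adag_apply, Pi.zero_apply, sub_eq_zero] at this
      exact this.symm
    have hρinv : ∀ x, s41k_orbSum ρ k (ρ x) = s41k_orbSum ρ k x := by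
      intro x
      simp only [s41k_orbSum_apply, hρ]; ring
    have hconst := htr _ hσinv hρinv
    -- `3 ⟨h, k⟩ = ⟨h, N k⟩ = κ ∑ h = 0`
    have h3' : (3 : F) * s41k_dot h k = ∑ x, h x * s41k_orbSum ρ k x := by
      rw [s41k_dot_orbSum ρ hρ h k, s41k_dot_apply, Finset.mul_sum]
      refine Finset.sum_congr rfl fun x _ => ?_
      simp only [s41k_orbSum_apply, hh]; ring
    rcases isEmpty_or_nonempty X with hX | ⟨⟨x₀⟩⟩
    · rw [s41k_dot_apply]; exact Finset.sum_of_isEmpty _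
    · have : ∑ x, h x * s41k_orbSum ρ k x = 0 := by
        have : ∀ x, h x * s41k_orbSum ρ k x = s41k_orbSum ρ k x₀ * h x := fun x => by
          rw [hconst x x₀]; ring
        simp only [this, ← Finset.mul_sum, hsum, mul_zero]
      rw [this] at h3'
      exact (mul_eq_zero.mp h3').resolve_left h3
  rw [← LinearMap.range_dualMap_eq_dualAnnihilator_ker] at hann
  obtain ⟨ξ, hξ⟩ := hann
  -- represent `ξ` by a vector `a`
  set a : X → F := fun x => ξ (Pi.single x 1) with ha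
  have hξa : ∀ y : X → F, ξ y = ∑ x, a x * y x := by
    intro y
    rw [LinearMap.pi_apply_eq_sum_univ ξ y]
    refine Finset.sum_congr rfl fun x _ => ?_
    rw [smul_eq_mul, mul_comm, ha]
    congr 2
    funext j
    simp [Pi.single_apply, eq_comm]
  refine ⟨fun x => a x - a (σ x), fun x => by simp only [hσ]; ring, ?_⟩
  -- compare functionals
  have key : ∀ y : X → F, ∑ x, h x * y x = ∑ x, s41k_orbSum ρ (fun x => a x - a (σ x)) x * y x := by
    intro y
    have := LinearMap.congr_fun hξ y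
    rw [LinearMap.dualMap_apply, hξa] at this
    rw [← s41k_dot_apply, ← this, ← s41k_dot_orbSum ρ hρ, ← s41k_dot_sigma σ hσ]
    rfl
  intro x
  have := key (Pi.single x 1)
  simp only [Pi.single_apply, mul_ite, mul_one, mul_zero, Finset.sum_ite_eq', Finset.mem_univ,
    if_true] at this
  rw [this]; rfl

end Flow

section Cochains

variable {F : Type*} [Field F] {G : Type*} [Group G] {P : Type*} [MulAction G P]
variable (Γ : Subgroup G)

/-- Alternating `1`-cochains on pairs. -/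
def s41k_Alt1 (s : P → P → F) : Prop := ∀ a b, s b a = - s a b

/-- Alternating `2`-cochains on triples. -/
def s41k_Alt2 (t : P → P → P → F) : Prop :=
  (∀ a b c, t b a c = - t a b c) ∧ (∀ a b c, t a c b = - t a b c)

/-- The `2`-cocycle condition on `4`-tuples. -/
def s41k_Coc2 (t : P → P → P → F) : Prop :=
  ∀ a b c d, t b c d - t a c d + t a b d - t a b c = 0

/-- `Γ`-invariance of a `1`-cochain. -/
def s41k_Inv1 (s : P → P → F) : Prop := ∀ γ ∈ Γ, ∀ a b, s (γ • a) (γ • b) = s a b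

/-- `Γ`-invariance of a `2`-cochain. -/
def s41k_Inv2 (t : P → P → P → F) : Prop :=
  ∀ γ ∈ Γ, ∀ a b c, t (γ • a) (γ • b) (γ • c) = t a b c

/-- The coboundary of a `1`-cochain. -/
def s41k_d1 (s : P → P → F) : P → P → P → F := fun a b c => s b c - s a c + s a b

theorem s41k_d1_apply (s : P → P → F) (a b c : P) :
    s41k_d1 s a b c = s b c - s a c + s a b := rfl

theorem s41k_d1_alt {s : P → P → F} (hs : s41k_Alt1 s) : s41k_Alt2 (s41k_d1 s) := by
  refine ⟨fun a b c => ?_, fun a b c => ?_⟩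
  · simp only [s41k_d1_apply]; rw [hs a b]; ring
  · simp only [s41k_d1_apply]; rw [hs b c]; ring

theorem s41k_d1_coc (s : P → P → F) : s41k_Coc2 (s41k_d1 s) := by
  intro a b c d
  simp only [s41k_d1_apply]; ring

theorem s41k_d1_inv {s : P → P → F} (hs : s41k_Inv1 Γ s) : s41k_Inv2 Γ (s41k_d1 s) := by
  intro γ hγ a b c
  simp only [s41k_d1_apply, hs γ hγ]

theorem s41k_Alt1.diag {s : P → P → F} (hs : s41k_Alt1 s) (h2 : (2 : F) ≠ 0) (a : P) :
    s a a = 0 := by
  have h := hs a a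
  have : (2 : F) * s a a = 0 := by linear_combination h
  exact (mul_eq_zero.mp this).resolve_left h2

theorem s41k_Alt2.rot {t : P → P → P → F} (ht : s41k_Alt2 t) (a b c : P) :
    t b c a = t a b c := by
  rw [ht.2 b a c, ht.1 a b c, neg_neg]

theorem s41k_Alt2.rot' {t : P → P → P → F} (ht : s41k_Alt2 t) (a b c : P) :
    t c a b = t a b c := by
  rw [ht.rot c a b, ht.rot b c a]

theorem s41k_Alt2.swap13 {t : P → P → P → F} (ht : s41k_Alt2 t) (a b c : P) :
    t c b a = - t a b c := by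
  rw [ht.1 b c a, ht.rot a b c]

/-- Pull-back of a `2`-cochain along a self-map of `P`. -/
def s41k_pull (w : P → P) (t : P → P → P → F) : P → P → P → F :=
  fun a b c => t (w a) (w b) (w c)

theorem s41k_pull_apply (w : P → P) (t : P → P → P → F) (a b c : P) :
    s41k_pull w t a b c = t (w a) (w b) (w c) := rfl

theorem s41k_pull_alt (w : P → P) {t : P → P → P → F} (ht : s41k_Alt2 t) :
    s41k_Alt2 (s41k_pull w t) :=
  ⟨fun _ _ _ => ht.1 _ _ _, fun _ _ _ => ht.2 _ _ _⟩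

theorem s41k_pull_coc (w : P → P) {t : P → P → P → F} (ht : s41k_Coc2 t) :
    s41k_Coc2 (s41k_pull w t) := fun _ _ _ _ => ht _ _ _ _

theorem s41k_pull_inv {w : P → P} (hw : ∀ γ ∈ Γ, ∃ γ' ∈ Γ, ∀ a, w (γ • a) = γ' • w a)
    {t : P → P → P → F} (ht : s41k_Inv2 Γ t) : s41k_Inv2 Γ (s41k_pull w t) := by
  intro γ hγ a b c
  obtain ⟨γ', hγ', h⟩ := hw γ hγ
  simp only [s41k_pull_apply, h]
  exact ht γ' hγ' _ _ _

end Cochains

section Quot

variable {F : Type*} {G : Type*} [Group G] (Γ : Subgroup G)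

/-- A right-`Γ`-invariant function on `G` evaluated at the chosen representative. -/
theorem s41k_out_eq {φ : G → F} (hφ : ∀ h : G, ∀ γ ∈ Γ, φ (h * γ) = φ h) (h : G) :
    φ ((h : G ⧸ Γ)).out = φ h := by
  obtain ⟨γ, hγ⟩ := QuotientGroup.mk_out_eq_mul Γ h
  rw [hγ, hφ h γ γ.2]

theorem s41k_mk_mul (a b : G) : ((a * b : G) : G ⧸ Γ) = a • (b : G ⧸ Γ) := rfl

theorem s41k_out_smul {φ : G → F} (hφ : ∀ h : G, ∀ γ ∈ Γ, φ (h * γ) = φ h) (g : G)
    (x : G ⧸ Γ) : φ (g • x).out = φ (g * x.out) := by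
  have : g • x = ((g * x.out : G) : G ⧸ Γ) := by
    conv_lhs => rw [← QuotientGroup.out_eq' x]
    rfl
  rw [this, s41k_out_eq Γ hφ]

end Quot

section Setup

variable (F : Type*) [Field F] {G : Type*} [Group G] {P : Type*} [MulAction G P]

/-- The abstract Farey setting: `S` flips the base edge `(o₀, o₁)`, `U` rotates the base triangle
`(o₀, o₁, U • o₁)`, the stabiliser of the base edge is "central modulo `Γ`", `S, U` generate `G`,
and the two Farey hypotheses `T0` (connectedness) and `T1` (`H¹ = 0`) in `G`-translate form. -/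
structure s41k_Setup (Γ : Subgroup G) (S U : G) (o₀ o₁ : P) : Prop where
  two : (2 : F) ≠ 0
  three : (3 : F) ≠ 0
  hS0 : S • o₀ = o₁
  hS1 : S • o₁ = o₀
  hU0 : U • o₀ = o₁
  hU2 : U • U • o₁ = o₀
  gen : Subgroup.closure {S, U} = ⊤
  hZ : ∀ z : G, z • o₀ = o₀ → z • o₁ = o₁ → ∀ g : G, g * z * g⁻¹ ∈ Γ
  T0 : ∀ f : P → F, (∀ g : G, f (g • o₀) = f (g • o₁)) → ∀ a b, f a = f b
  T1 : ∀ c : P → P → F, (∀ g : G, c (g • o₁) (g • o₀) = - c (g • o₀) (g • o₁)) →
    (∀ g : G, c (g • o₀) (g • o₁) + c (g • o₁) (g • U • o₁) + c (g • U • o₁) (g • o₀) = 0) →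
    ∃ f : P → F, ∀ g : G, c (g • o₀) (g • o₁) = f (g • o₁) - f (g • o₀)

end Setup

section KL

variable {F : Type*} [Field F] {G : Type*} [Group G] {P : Type*} [MulAction G P]
variable {Γ : Subgroup G} {S U : G} {o₀ o₁ : P}

namespace s41k_Setup

variable (H : s41k_Setup F Γ S U o₀ o₁)
include H

theorem Sinv0 : S⁻¹ • o₀ = o₁ := by rw [inv_smul_eq_iff, H.hS1]
theorem Sinv1 : S⁻¹ • o₁ = o₀ := by rw [inv_smul_eq_iff, H.hS0]
theorem Uinv1 : U⁻¹ • o₁ = o₀ := by rw [inv_smul_eq_iff, H.hU0]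
theorem Uinv0 : U⁻¹ • o₀ = U • o₁ := by rw [inv_smul_eq_iff, H.hU2]

/-- Elements fixing the base edge act trivially on `G ⧸ Γ`. -/
theorem fix_smul (z : G) (h0 : z • o₀ = o₀) (h1 : z • o₁ = o₁) (x : G ⧸ Γ) : z • x = x := by
  induction x using QuotientGroup.induction_on with
  | H h =>
    rw [MulAction.Quotient.smul_mk, QuotientGroup.eq]
    have hz0 : z⁻¹ • o₀ = o₀ := by rw [inv_smul_eq_iff, h0]
    have hz1 : z⁻¹ • o₁ = o₁ := by rw [inv_smul_eq_iff, h1]
    have := H.hZ z⁻¹ hz0 hz1 h⁻¹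
    simpa [mul_assoc] using this

theorem S2 (x : G ⧸ Γ) : S • S • x = x := by
  rw [← mul_smul]
  exact H.fix_smul _ (by rw [mul_smul, H.hS0, H.hS1]) (by rw [mul_smul, H.hS1, H.hS0]) x

theorem U3 (x : G ⧸ Γ) : U • U • U • x = x := by
  rw [← mul_smul, ← mul_smul]
  refine H.fix_smul _ ?_ ?_ x
  · rw [mul_smul, mul_smul, H.hU0, H.hU2]
  · rw [mul_smul, mul_smul, H.hU2, H.hU0]

/-- Joint transitivity of `S, U` on `G ⧸ Γ`, functional form. -/
theorem orbit_const (f : G ⧸ Γ → F) (hS : ∀ x, f (S • x) = f x) (hU : ∀ x, f (U • x) = f x)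
    (x y : G ⧸ Γ) : f x = f y := by
  have hall : ∀ g : G, ∀ x, f (g • x) = f x := by
    intro g
    have hg : g ∈ Subgroup.closure ({S, U} : Set G) := by rw [H.gen]; trivial
    induction hg using Subgroup.closure_induction with
    | mem g hg =>
      rcases hg with rfl | rfl
      · exact hS
      · exact hU
    | one => intro x; rw [one_smul]
    | mul a b _ _ ha hb => intro x; rw [mul_smul, ha, hb]
    | inv a _ ha => intro x; rw [← ha (a⁻¹ • x), smul_inv_smul]
  obtain ⟨g, rfl⟩ := MulAction.exists_smul_eq G y x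
  exact hall g y

end s41k_Setup

/-- The integral of a `2`-cochain over the triangulation: the sum over `x = hΓ ∈ G ⧸ Γ` of the
value on the triangle `h⁻¹ • (o₀, o₁, U • o₁)` (each triangle is counted three times, with the
orbifold weights). -/
noncomputable def s41k_int (Γ : Subgroup G) [Fintype (G ⧸ Γ)] (U : G) (o₀ o₁ : P)
    (t : P → P → P → F) : F :=
  ∑ x : G ⧸ Γ, t ((x.out)⁻¹ • o₀) ((x.out)⁻¹ • o₁) ((x.out)⁻¹ • U • o₁)

/-- The value of a `1`-cochain on the edge attached to a coset. -/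
noncomputable def s41k_edge (Γ : Subgroup G) (o₀ o₁ : P) (s : P → P → F) : G ⧸ Γ → F :=
  fun x => s ((x.out)⁻¹ • o₀) ((x.out)⁻¹ • o₁)

theorem s41k_edge_rinv {s : P → P → F} (hs : s41k_Inv1 Γ s) (a b : P) (h : G) (γ : G)
    (hγ : γ ∈ Γ) : s ((h * γ)⁻¹ • a) ((h * γ)⁻¹ • b) = s (h⁻¹ • a) (h⁻¹ • b) := by
  rw [mul_inv_rev, mul_smul, mul_smul, hs γ⁻¹ (Γ.inv_mem hγ)]

theorem s41k_edge_mk {s : P → P → F} (hs : s41k_Inv1 Γ s) (h : G) :
    s41k_edge Γ o₀ o₁ s (h : G ⧸ Γ) = s (h⁻¹ • o₀) (h⁻¹ • o₁) :=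
  s41k_out_eq Γ (φ := fun h => s (h⁻¹ • o₀) (h⁻¹ • o₁))
    (fun h γ hγ => s41k_edge_rinv hs o₀ o₁ h γ hγ) h

theorem s41k_edge_smul {s : P → P → F} (hs : s41k_Inv1 Γ s) (g : G) (x : G ⧸ Γ) :
    s41k_edge Γ o₀ o₁ s (g • x) = s ((x.out)⁻¹ • g⁻¹ • o₀) ((x.out)⁻¹ • g⁻¹ • o₁) := by
  have := s41k_out_smul Γ (φ := fun h => s (h⁻¹ • o₀) (h⁻¹ • o₁))
    (fun h γ hγ => s41k_edge_rinv hs o₀ o₁ h γ hγ) g x
  simp only [mul_inv_rev, mul_smul] at this
  exact this

open Classical in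
/-- Extension by zero of a function on `G ⧸ Γ` (= `Γ`-orbits of oriented edges) to a `1`-cochain
supported on the edges `g • (o₀, o₁)`. -/
noncomputable def s41k_ext0 (Γ : Subgroup G) (o₀ o₁ : P) (c : G ⧸ Γ → F) : P → P → F :=
  fun a b => if h : ∃ g : G, a = g • o₀ ∧ b = g • o₁ then c ((h.choose⁻¹ : G) : G ⧸ Γ) else 0

/-- The value of a `2`-cochain on the triangle attached to a coset. -/
noncomputable def s41k_tri (Γ : Subgroup G) (U : G) (o₀ o₁ : P) (t : P → P → P → F) :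
    G ⧸ Γ → F :=
  fun x => t ((x.out)⁻¹ • o₀) ((x.out)⁻¹ • o₁) ((x.out)⁻¹ • U • o₁)

theorem s41k_tri_smul {t : P → P → P → F} (ht : s41k_Inv2 Γ t) (g : G) (x : G ⧸ Γ) :
    s41k_tri Γ U o₀ o₁ t (g • x) =
      t ((x.out)⁻¹ • g⁻¹ • o₀) ((x.out)⁻¹ • g⁻¹ • o₁) ((x.out)⁻¹ • g⁻¹ • U • o₁) := by
  have := s41k_out_smul Γ (φ := fun h => t (h⁻¹ • o₀) (h⁻¹ • o₁) (h⁻¹ • U • o₁))
    (fun h γ hγ => by
      simp only [mul_inv_rev, mul_smul]
      exact ht γ⁻¹ (Γ.inv_mem hγ) _ _ _) g x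
  simp only [mul_inv_rev, mul_smul] at this
  exact this

theorem s41k_tri_mk {t : P → P → P → F} (ht : s41k_Inv2 Γ t) (h : G) :
    s41k_tri Γ U o₀ o₁ t (h : G ⧸ Γ) = t (h⁻¹ • o₀) (h⁻¹ • o₁) (h⁻¹ • U • o₁) :=
  s41k_out_eq Γ (φ := fun h => t (h⁻¹ • o₀) (h⁻¹ • o₁) (h⁻¹ • U • o₁))
    (fun h γ hγ => by
      simp only [mul_inv_rev, mul_smul]
      exact ht γ⁻¹ (Γ.inv_mem hγ) _ _ _) h

variable [Fintype (G ⧸ Γ)]

theorem s41k_int_add (t t' : P → P → P → F) :
    s41k_int Γ U o₀ o₁ (fun a b c => t a b c + t' a b c) =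
      s41k_int Γ U o₀ o₁ t + s41k_int Γ U o₀ o₁ t' := by
  simp only [s41k_int, Finset.sum_add_distrib]

theorem s41k_int_sub (t t' : P → P → P → F) :
    s41k_int Γ U o₀ o₁ (fun a b c => t a b c - t' a b c) =
      s41k_int Γ U o₀ o₁ t - s41k_int Γ U o₀ o₁ t' := by
  simp only [s41k_int, Finset.sum_sub_distrib]

theorem s41k_int_smul (r : F) (t : P → P → P → F) :
    s41k_int Γ U o₀ o₁ (fun a b c => r * t a b c) = r * s41k_int Γ U o₀ o₁ t := by
  simp only [s41k_int, Finset.mul_sum]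

namespace s41k_Setup

variable (H : s41k_Setup F Γ S U o₀ o₁)
include H

/-- The integral of the coboundary of an invariant alternating `1`-cochain vanishes. -/
theorem int_d1 {s : P → P → F} (hs : s41k_Alt1 s) (hi : s41k_Inv1 Γ s) :
    s41k_int Γ U o₀ o₁ (s41k_d1 s) = 0 := by
  set e := s41k_edge Γ o₀ o₁ s with he
  have hterm : ∀ x : G ⧸ Γ, s41k_d1 s ((x.out)⁻¹ • o₀) ((x.out)⁻¹ • o₁) ((x.out)⁻¹ • U • o₁) =
      e (U • U • x) + e (U • x) + e x := by
    intro x
    rw [he, ← mul_smul U U x, s41k_edge_smul hi, s41k_edge_smul hi, s41k_d1_apply]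
    rw [mul_inv_rev, mul_smul, mul_smul, H.Uinv0, H.Uinv1, inv_smul_smul, H.Uinv0]
    rw [hs ((x.out)⁻¹ • o₀) ((x.out)⁻¹ • U • o₁)]
    simp only [s41k_edge]; ring
  have hsum : ∑ x : G ⧸ Γ, e x = 0 := by
    have h1 : ∑ x : G ⧸ Γ, e (S • x) = ∑ x : G ⧸ Γ, e x :=
      Equiv.sum_comp (MulAction.toPerm S) e
    have h2 : ∀ x : G ⧸ Γ, e (S • x) = - e x := by
      intro x
      rw [he, s41k_edge_smul hi, H.Sinv0, H.Sinv1, hs]; rfl
    simp only [h2, Finset.sum_neg_distrib] at h1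
    have : (2 : F) * ∑ x : G ⧸ Γ, e x = 0 := by linear_combination -h1
    exact (mul_eq_zero.mp this).resolve_left H.two
  unfold s41k_int
  simp only [hterm, Finset.sum_add_distrib]
  have h1 : ∑ x : G ⧸ Γ, e (U • U • x) = ∑ x : G ⧸ Γ, e x := by
    rw [← Equiv.sum_comp (MulAction.toPerm (U * U)) e]
    simp [mul_smul]
  have h2 : ∑ x : G ⧸ Γ, e (U • x) = ∑ x : G ⧸ Γ, e x :=
    Equiv.sum_comp (MulAction.toPerm U) e
  rw [h1, h2, hsum]; ring

/-- **Step 2 (cone + uniqueness).** An invariant alternating `2`-cocycle vanishing on all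
triangles `g • (o₀, o₁, U • o₁)` is the coboundary of an invariant alternating `1`-cochain
(vanishing on all edges `g • (o₀, o₁)`). -/
theorem cone {t : P → P → P → F} (ha : s41k_Alt2 t) (hc : s41k_Coc2 t) (hi : s41k_Inv2 Γ t)
    (hv : ∀ g : G, t (g • o₀) (g • o₁) (g • U • o₁) = 0) :
    ∃ s : P → P → F, s41k_Alt1 s ∧ s41k_Inv1 Γ s ∧ (∀ g : G, s (g • o₀) (g • o₁) = 0) ∧
      ∀ a b c, t a b c = s41k_d1 s a b c := by
  -- the cone from `o₀`
  obtain ⟨f, hf⟩ := H.T1 (fun a b => t o₀ a b) (fun g => ha.2 _ _ _) (by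
    intro g
    have h1 := hc o₀ (g • o₀) (g • o₁) (g • U • o₁)
    have h2 := ha.2 o₀ (g • o₀) (g • U • o₁)
    rw [hv g] at h1
    linear_combination -h1 + h2)
  refine ⟨fun a b => t o₀ a b - (f b - f a), ?_, ?_, ?_, ?_⟩
  · intro a b
    simp only
    rw [ha.2 o₀ a b]; ring
  · -- invariance by uniqueness
    intro γ hγ a b
    -- `d a b := s (γ a) (γ b) - s a b` is an alternating cocycle vanishing on edges
    set s : P → P → F := fun a b => t o₀ a b - (f b - f a) with hs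
    have hsalt : s41k_Alt1 s := by
      intro a b
      simp only [hs]
      rw [ha.2 o₀ a b]; ring
    have hsd : ∀ a b c, t a b c = s41k_d1 s a b c := by
      intro a b c
      have := hc o₀ a b c
      simp only [hs, s41k_d1_apply]
      linear_combination this
    have hsedge : ∀ g : G, s (g • o₀) (g • o₁) = 0 := by
      intro g
      simp only [hs]
      rw [hf g]; ring
    set d : P → P → F := fun a b => s (γ • a) (γ • b) - s a b with hd
    have hdcoc : ∀ a b c, d b c - d a c + d a b = 0 := by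
      intro a b c
      have h1 := hsd (γ • a) (γ • b) (γ • c)
      have h2 := hsd a b c
      rw [hi γ hγ] at h1
      simp only [s41k_d1_apply] at h1 h2
      simp only [hd]
      linear_combination h2 - h1
    have hdedge : ∀ g : G, d (g • o₀) (g • o₁) = 0 := by
      intro g
      simp only [hd]
      rw [← mul_smul, ← mul_smul, hsedge, hsedge, sub_zero]
    -- `k b := d o₀ b` is constant along edges, hence constant
    have hk : ∀ a b, d o₀ a = d o₀ b := by
      refine H.T0 (fun b => d o₀ b) ?_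
      intro g
      have := hdcoc o₀ (g • o₀) (g • o₁)
      rw [hdedge g] at this
      show d o₀ (g • o₀) = d o₀ (g • o₁)
      linear_combination this
    have hdz : d a b = 0 := by
      have h1 := hdcoc o₀ a b
      rw [hk a b] at h1
      linear_combination h1
    have : s (γ • a) (γ • b) = s a b := by
      have := hdz
      simp only [hd] at this
      exact sub_eq_zero.mp this
    exact this
  · intro g
    show t o₀ (g • o₀) (g • o₁) - (f (g • o₁) - f (g • o₀)) = 0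
    rw [hf g]; ring
  · intro a b c
    have := hc o₀ a b c
    simp only [s41k_d1_apply]
    linear_combination this

theorem ext_edge (c : G ⧸ Γ → F) (g : G) :
    s41k_ext0 Γ o₀ o₁ c (g • o₀) (g • o₁) = c ((g⁻¹ : G) : G ⧸ Γ) := by
  have h : ∃ g' : G, g • o₀ = g' • o₀ ∧ g • o₁ = g' • o₁ := ⟨g, rfl, rfl⟩
  rw [s41k_ext0, dif_pos h]
  congr 1
  rw [QuotientGroup.eq, inv_inv]
  have h0 : (g⁻¹ * h.choose) • o₀ = o₀ := by
    rw [mul_smul, inv_smul_eq_iff]; exact h.choose_spec.1.symm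
  have h1 : (g⁻¹ * h.choose) • o₁ = o₁ := by
    rw [mul_smul, inv_smul_eq_iff]; exact h.choose_spec.2.symm
  have := H.hZ (g⁻¹ * h.choose) h0 h1 g
  simpa [mul_assoc] using this

omit H in
theorem ext_not_edge (c : G ⧸ Γ → F) {a b : P} (h : ¬ ∃ g : G, a = g • o₀ ∧ b = g • o₁) :
    s41k_ext0 Γ o₀ o₁ c a b = 0 := by
  rw [s41k_ext0, dif_neg h]

theorem ext_alt {c : G ⧸ Γ → F} (hc : ∀ x, c (S • x) = - c x) :
    s41k_Alt1 (s41k_ext0 Γ o₀ o₁ c) := by
  have hc' : ∀ x, c (S⁻¹ • x) = - c x := by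
    intro x
    have := hc (S⁻¹ • x)
    rw [smul_inv_smul] at this
    rw [this, neg_neg]
  intro a b
  by_cases h : ∃ g : G, a = g • o₀ ∧ b = g • o₁
  · obtain ⟨g, rfl, rfl⟩ := h
    have e1 : g • o₁ = (g * S) • o₀ := by rw [mul_smul, H.hS0]
    have e2 : g • o₀ = (g * S) • o₁ := by rw [mul_smul, H.hS1]
    rw [H.ext_edge c g]
    conv_lhs => rw [e1, e2]
    rw [H.ext_edge c (g * S), mul_inv_rev, s41k_mk_mul, hc']
  · have h' : ¬ ∃ g : G, b = g • o₀ ∧ a = g • o₁ := by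
      rintro ⟨g, rfl, rfl⟩
      exact h ⟨g * S, by rw [mul_smul, H.hS0], by rw [mul_smul, H.hS1]⟩
    rw [ext_not_edge c h, ext_not_edge c h', neg_zero]

omit H in
theorem ext_inv (H : s41k_Setup F Γ S U o₀ o₁) (c : G ⧸ Γ → F) :
    s41k_Inv1 Γ (s41k_ext0 Γ o₀ o₁ c) := by
  intro γ hγ a b
  by_cases h : ∃ g : G, a = g • o₀ ∧ b = g • o₁
  · obtain ⟨g, rfl, rfl⟩ := h
    rw [← mul_smul, ← mul_smul, H.ext_edge c (γ * g), H.ext_edge c g]
    congr 1
    rw [QuotientGroup.eq]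
    simpa using hγ
  · have h' : ¬ ∃ g : G, γ • a = g • o₀ ∧ γ • b = g • o₁ := by
      rintro ⟨g, h0, h1⟩
      refine h ⟨γ⁻¹ * g, ?_, ?_⟩
      · rw [mul_smul, ← h0, inv_smul_smul]
      · rw [mul_smul, ← h1, inv_smul_smul]
    rw [ext_not_edge c h, ext_not_edge c h']

/-- The coboundary of the extension on a translate of the base triangle. -/
theorem ext_d1 {c : G ⧸ Γ → F} (hc : ∀ x, c (S • x) = - c x) (g : G) :
    s41k_d1 (s41k_ext0 Γ o₀ o₁ c) (g • o₀) (g • o₁) (g • U • o₁) =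
      c ((g⁻¹ : G) : G ⧸ Γ) + c (U • ((g⁻¹ : G) : G ⧸ Γ)) +
        c (U • U • ((g⁻¹ : G) : G ⧸ Γ)) := by
  have hU3 : ∀ x : G ⧸ Γ, U⁻¹ • x = U • U • x := by
    intro x
    rw [inv_smul_eq_iff, H.U3]
  rw [s41k_d1_apply, H.ext_alt hc (g • U • o₁) (g • o₀), H.ext_edge c g]
  have e1 : s41k_ext0 Γ o₀ o₁ c (g • o₁) (g • U • o₁) = c (U • U • ((g⁻¹ : G) : G ⧸ Γ)) := by
    have a1 : g • o₁ = (g * U) • o₀ := by rw [mul_smul, H.hU0]
    have a2 : g • U • o₁ = (g * U) • o₁ := by rw [mul_smul]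
    rw [a1, a2, H.ext_edge c (g * U), mul_inv_rev, s41k_mk_mul, hU3]
  have e2 : s41k_ext0 Γ o₀ o₁ c (g • U • o₁) (g • o₀) = c (U • ((g⁻¹ : G) : G ⧸ Γ)) := by
    have a1 : g • U • o₁ = (g * U * U) • o₀ := by rw [mul_smul, mul_smul, H.hU0]
    have a2 : g • o₀ = (g * U * U) • o₁ := by rw [mul_smul, mul_smul, H.hU2]
    rw [a1, a2, H.ext_edge c (g * U * U), mul_inv_rev, mul_inv_rev,
      s41k_mk_mul, s41k_mk_mul, hU3, hU3, H.U3]
  rw [e1, e2]; ring

/-- **Key lemma.** An invariant alternating `2`-cocycle on triples whose integral over the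
triangulation vanishes is the coboundary of an invariant alternating `1`-cochain on pairs. -/
theorem KL {t : P → P → P → F} (ha : s41k_Alt2 t) (hc : s41k_Coc2 t) (hi : s41k_Inv2 Γ t)
    (h0 : s41k_int Γ U o₀ o₁ t = 0) :
    ∃ s : P → P → F, s41k_Alt1 s ∧ s41k_Inv1 Γ s ∧ ∀ a b c, t a b c = s41k_d1 s a b c := by
  -- Step 1: the flow problem on `G ⧸ Γ`
  have hρ : ∀ x, s41k_tri Γ U o₀ o₁ t (U • x) = s41k_tri Γ U o₀ o₁ t x := by
    intro x
    rw [s41k_tri_smul hi, H.Uinv0, H.Uinv1, inv_smul_smul]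
    exact ha.rot' _ _ _
  obtain ⟨c, hcS, hcU⟩ := s41k_flow H.three (MulAction.toPerm S) (MulAction.toPerm U)
    (fun x => H.S2 x) (fun x => H.U3 x) (fun f hS hU x y => H.orbit_const f hS hU x y)
    (s41k_tri Γ U o₀ o₁ t) hρ h0
  have hcS' : ∀ x : G ⧸ Γ, c (S • x) = - c x := hcS
  have hcU' : ∀ x : G ⧸ Γ, c x + c (U • x) + c (U • U • x) = s41k_tri Γ U o₀ o₁ t x := hcU
  set s₁ := s41k_ext0 Γ o₀ o₁ c with hs₁
  have hs₁alt : s41k_Alt1 s₁ := H.ext_alt hcS'
  have hs₁inv : s41k_Inv1 Γ s₁ := ext_inv H c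
  -- Step 2 for `t - δ s₁`
  obtain ⟨s₂, hs₂alt, hs₂inv, -, hs₂⟩ := H.cone
    (t := fun a b c => t a b c - s41k_d1 s₁ a b c)
    ⟨fun a b c => by
        beta_reduce
        rw [ha.1, (s41k_d1_alt hs₁alt).1]; ring,
      fun a b c => by
        beta_reduce
        rw [ha.2, (s41k_d1_alt hs₁alt).2]; ring⟩
    (fun a b c d => by
      have h1 := hc a b c d
      have h2 := s41k_d1_coc s₁ a b c d
      beta_reduce
      linear_combination h1 - h2)
    (fun γ hγ a b c => by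
      beta_reduce
      rw [hi γ hγ, s41k_d1_inv Γ hs₁inv γ hγ])
    (fun g => by
      rw [hs₁, H.ext_d1 hcS' g, hcU', s41k_tri_mk hi, inv_inv, sub_self])
  refine ⟨fun a b => s₁ a b + s₂ a b, fun a b => ?_, fun γ hγ a b => ?_, fun a b c => ?_⟩
  · beta_reduce
    rw [hs₁alt a b, hs₂alt a b]; ring
  · beta_reduce
    rw [hs₁inv γ hγ, hs₂inv γ hγ]
  · have := hs₂ a b c
    simp only [s41k_d1_apply] at this ⊢
    linear_combination this

/-- The integral of an invariant alternating cocycle of integral zero stays zero after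
pull-back along a map normalising `Γ`. -/
theorem int_pull_eq_zero {w : P → P} (hw : ∀ γ ∈ Γ, ∃ γ' ∈ Γ, ∀ a, w (γ • a) = γ' • w a)
    {t : P → P → P → F} (ha : s41k_Alt2 t) (hc : s41k_Coc2 t) (hi : s41k_Inv2 Γ t)
    (h0 : s41k_int Γ U o₀ o₁ t = 0) : s41k_int Γ U o₀ o₁ (s41k_pull w t) = 0 := by
  obtain ⟨s, hsalt, hsinv, hs⟩ := H.KL ha hc hi h0
  have hfun : s41k_pull w t = s41k_d1 (fun a b => s (w a) (w b)) := by
    funext a b c
    rw [s41k_pull_apply, hs]; rfl
  rw [hfun]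
  refine H.int_d1 (fun a b => hsalt _ _) ?_
  intro γ hγ a b
  obtain ⟨γ', hγ', h⟩ := hw γ hγ
  simp only [h]
  exact hsinv γ' hγ' _ _

/-- **Similitude.** For a bijection `w` of `P` normalising `Γ`, the integral over the
`w`-translated triangulation is a non-zero multiple of the integral over the original one, on
invariant alternating `2`-cocycles. -/
theorem similitude (w : P ≃ P) (hw : ∀ γ ∈ Γ, ∃ γ' ∈ Γ, ∀ a, w (γ • a) = γ' • w a)
    (hw' : ∀ γ ∈ Γ, ∃ γ' ∈ Γ, ∀ a, w.symm (γ • a) = γ' • w.symm a) :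
    ∃ c : F, c ≠ 0 ∧ ∀ t : P → P → P → F, s41k_Alt2 t → s41k_Coc2 t → s41k_Inv2 Γ t →
      s41k_int Γ U o₀ o₁ (s41k_pull w t) = c * s41k_int Γ U o₀ o₁ t := by
  by_cases hall : ∀ t : P → P → P → F, s41k_Alt2 t → s41k_Coc2 t → s41k_Inv2 Γ t →
      s41k_int Γ U o₀ o₁ t = 0
  · refine ⟨1, one_ne_zero, fun t ha hc hi => ?_⟩
    rw [hall t ha hc hi, mul_zero]
    exact H.int_pull_eq_zero hw ha hc hi (hall t ha hc hi)
  · push Not at hall
    obtain ⟨t₀, ha₀, hc₀, hi₀, hI₀⟩ := hall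
    refine ⟨s41k_int Γ U o₀ o₁ (s41k_pull w t₀) / s41k_int Γ U o₀ o₁ t₀, ?_, ?_⟩
    · intro hzero
      have h1 : s41k_int Γ U o₀ o₁ (s41k_pull w t₀) = 0 := by
        rcases div_eq_zero_iff.mp hzero with h | h
        · exact h
        · exact absurd h hI₀
      have h2 := H.int_pull_eq_zero hw' (s41k_pull_alt w ha₀) (s41k_pull_coc w hc₀)
        (s41k_pull_inv Γ hw hi₀) h1
      have h3 : s41k_pull w.symm (s41k_pull w t₀) = t₀ := by
        funext a b c
        simp only [s41k_pull_apply, Equiv.apply_symm_apply]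
      rw [h3] at h2
      exact hI₀ h2
    · intro t ha hc hi
      set r := s41k_int Γ U o₀ o₁ t / s41k_int Γ U o₀ o₁ t₀ with hr
      have hz : s41k_int Γ U o₀ o₁ (fun a b c => t a b c - r * t₀ a b c) = 0 := by
        rw [s41k_int_sub, s41k_int_smul, hr, div_mul_cancel₀ _ hI₀, sub_self]
      have hp := H.int_pull_eq_zero hw (t := fun a b c => t a b c - r * t₀ a b c)
        ⟨fun a b c => by beta_reduce; rw [ha.1, ha₀.1]; ring,
          fun a b c => by beta_reduce; rw [ha.2, ha₀.2]; ring⟩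
        (fun a b c d => by
          have h1 := hc a b c d
          have h2 := hc₀ a b c d
          beta_reduce
          linear_combination h1 - r * h2)
        (fun γ hγ a b c => by beta_reduce; rw [hi γ hγ, hi₀ γ hγ]) hz
      have hp' : s41k_int Γ U o₀ o₁ (s41k_pull w t) -
          r * s41k_int Γ U o₀ o₁ (s41k_pull w t₀) = 0 := by
        rw [← s41k_int_smul, ← s41k_int_sub]
        exact hp
      rw [hr] at hp'
      field_simp
      field_simp at hp'
      linear_combination hp'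

end s41k_Setup

end KL

end Fermat.Agent.Lib.S41
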