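/-
S41 project, module family [C] (helper4): helper9's abstract `s41k_Setup` (CAbs.lean) instantiated
for `G = SL(2, ℤ)` acting on the cusps `ℙ¹(ℚ) = OnePoint ℚ`, and the resulting similitude statement
for the cup-product cocycles of potentials.

* `s41c_closure_SU` : `S, U` generate `SL(2, ℤ)`;
* `s41c_fix_edge` : an element fixing `∞` and `0` is `±1`;
* `s41c_setup` : `s41k_Setup F Γ S U ∞ 0` for `-1 ∈ Γ`, `6 ≠ 0` in `F`;
* `s41c_Normalizes Γ W` : `W ∈ GL(2, ℚ)` normalises `Γ` (elementwise `W γ = γ' W`);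
* `s41c_similitude_sum` : for such `W` there is `c ≠ 0` with
  `∑ x, triP Γ (P ∘ W) (Q ∘ W) x = c * ∑ x, triP Γ P Q x` for all potentials `P, Q`.
-/
import Mathlib
import Fermat.Agent.Lib.S41.CDefs
import Fermat.Agent.Lib.S41.CAbs

set_option autoImplicit false

open Matrix MatrixGroups OnePoint Matrix.SpecialLinearGroup ModularCurve.Period

namespace Fermat.Agent.Lib.S41

/-! ### Generators -/

theorem s41c_S_eq : s41c_S = ModularGroup.S := by
  apply Subtype.ext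
  simp [s41c_S, s41c_mat, ModularGroup.S]

theorem s41c_U_eq : s41c_U = ModularGroup.S * ModularGroup.T := by
  apply Subtype.ext
  simp [s41c_U, s41c_mat, ModularGroup.S, ModularGroup.T]

theorem s41c_closure_SU : Subgroup.closure {s41c_S, s41c_U} = (⊤ : Subgroup SL(2, ℤ)) := by
  rw [eq_top_iff, ← SpecialLinearGroup.SL2Z_generators, Subgroup.closure_le]
  rintro x (rfl | hx)
  · exact Subgroup.subset_closure (by left; exact s41c_S_eq.symm)
  · rw [Set.mem_singleton_iff] at hx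
    subst hx
    have : ModularGroup.T = s41c_S⁻¹ * s41c_U := by
      rw [s41c_S_eq, s41c_U_eq, inv_mul_cancel_left]
    rw [this]
    exact mul_mem (inv_mem (Subgroup.subset_closure (by left; rfl)))
      (Subgroup.subset_closure (by right; rfl))

/-! ### The stabiliser of the base edge -/

theorem s41c_smul_infty (g : SL(2, ℤ)) : g • (∞ : OnePoint ℚ) = s41c_mk (g 0 0) (g 1 0) := by
  have := s41c_smul_mk g 1 0 (Or.inl one_ne_zero)
  rw [s41c_mk_zero_right] at this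
  rw [this]; simp

theorem s41c_smul_zero (g : SL(2, ℤ)) :
    g • (((0 : ℚ) : OnePoint ℚ)) = s41c_mk (g 0 1) (g 1 1) := by
  have h0 : (((0 : ℚ) : OnePoint ℚ)) = s41c_mk 0 1 := by simp [s41c_mk]
  rw [h0, s41c_smul_mk _ 0 1 (Or.inr one_ne_zero)]
  simp

theorem s41c_mk_eq_infty_iff {a b : ℤ} : s41c_mk a b = ∞ ↔ b = 0 := by
  unfold s41c_mk
  split_ifs with h
  · simp [h]
  · simp [h]

theorem s41c_mk_eq_zero {a b : ℤ} (h : s41c_mk a b = (((0 : ℚ) : OnePoint ℚ))) :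
    b ≠ 0 ∧ a = 0 := by
  unfold s41c_mk at h
  split_ifs at h with hb
  · exact absurd h (OnePoint.infty_ne_coe _)
  · refine ⟨hb, ?_⟩
    rw [OnePoint.coe_eq_coe] at h
    have hb' : (b : ℚ) ≠ 0 := by exact_mod_cast hb
    rcases div_eq_zero_iff.mp h with h | h
    · exact_mod_cast h
    · exact absurd h hb'

/-- An element of `SL(2, ℤ)` fixing `∞` and `0` is `±1`. -/
theorem s41c_fix_edge {z : SL(2, ℤ)} (h0 : z • s41c_o0 = s41c_o0) (h1 : z • s41c_o1 = s41c_o1) :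
    z = 1 ∨ z = -1 := by
  have e10 : z 1 0 = 0 := by
    have := h0
    rw [s41c_o0, s41c_smul_infty] at this
    exact s41c_mk_eq_infty_iff.mp this
  have e01 : z 0 1 = 0 := by
    have := h1
    rw [s41c_o1, s41c_smul_zero] at this
    exact (s41c_mk_eq_zero this).2
  have hd := s41c_det_eq_one z
  rw [e10, e01] at hd
  have hu : z 0 0 * z 1 1 = 1 := by linarith
  rcases Int.eq_one_or_neg_one_of_mul_eq_one' hu with ⟨h00, h11⟩ | ⟨h00, h11⟩
  · left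
    ext i j
    fin_cases i <;> fin_cases j <;> simp [h00, h11, e10, e01]
  · right
    ext i j
    fin_cases i <;> fin_cases j <;> simp [h00, h11, e10, e01]

/-! ### The abstract setup for `SL(2, ℤ)` and the Farey complex -/

theorem s41c_setup (F : Type*) [Field F] (h2 : (2 : F) ≠ 0) (h3 : (3 : F) ≠ 0)
    (Γ : Subgroup SL(2, ℤ)) (hΓ : (-1 : SL(2, ℤ)) ∈ Γ) :
    s41k_Setup F Γ s41c_S s41c_U s41c_o0 s41c_o1 where
  two := h2
  three := h3
  hS0 := s41c_S_o0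
  hS1 := s41c_S_o1
  hU0 := s41c_U_o0
  hU2 := by rw [s41c_U_o1, s41c_U_o2]
  gen := s41c_closure_SU
  hZ := by
    intro z h0 h1 g
    rcases s41c_fix_edge h0 h1 with rfl | rfl
    · simp [Γ.one_mem]
    · have : g * (-1) * g⁻¹ = -1 := by
        rw [mul_neg, mul_one, neg_mul, mul_inv_cancel]
      rw [this]; exact hΓ
  T0 := fun f hf a b => s41c_T0' f hf a b
  T1 := fun c h1 h2 => s41c_T1' c h1 (fun g => by
    have := h2 g
    rwa [s41c_U_o1] at this)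

/-! ### Elements of `GL(2, ℚ)` normalising `Γ` -/

/-- `W ∈ GL(2, ℚ)` normalises `Γ ≤ SL(2, ℤ)`: `W γ W⁻¹ ∈ Γ` and `W⁻¹ γ W ∈ Γ` for `γ ∈ Γ`. -/
def s41c_Normalizes (Γ : Subgroup SL(2, ℤ)) (W : GL (Fin 2) ℚ) : Prop :=
  (∀ γ ∈ Γ, ∃ γ' ∈ Γ, W * mapGL ℚ γ = mapGL ℚ γ' * W) ∧
  (∀ γ ∈ Γ, ∃ γ' ∈ Γ, W⁻¹ * mapGL ℚ γ = mapGL ℚ γ' * W⁻¹)

theorem s41c_Normalizes.smul {Γ : Subgroup SL(2, ℤ)} {W : GL (Fin 2) ℚ}
    (hW : s41c_Normalizes Γ W) :
    ∀ γ ∈ Γ, ∃ γ' ∈ Γ, ∀ a : OnePoint ℚ,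
      (MulAction.toPerm W : Equiv.Perm (OnePoint ℚ)) (γ • a) =
        γ' • (MulAction.toPerm W : Equiv.Perm (OnePoint ℚ)) a := by
  intro γ hγ
  obtain ⟨γ', hγ', h⟩ := hW.1 γ hγ
  refine ⟨γ', hγ', fun a => ?_⟩
  simp only [MulAction.toPerm_apply, s41c_smul_def]
  rw [← mul_smul, h, mul_smul]

theorem s41c_Normalizes.smul_symm {Γ : Subgroup SL(2, ℤ)} {W : GL (Fin 2) ℚ}
    (hW : s41c_Normalizes Γ W) :
    ∀ γ ∈ Γ, ∃ γ' ∈ Γ, ∀ a : OnePoint ℚ,
      (MulAction.toPerm W : Equiv.Perm (OnePoint ℚ)).symm (γ • a) =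
        γ' • (MulAction.toPerm W : Equiv.Perm (OnePoint ℚ)).symm a := by
  intro γ hγ
  obtain ⟨γ', hγ', h⟩ := hW.2 γ hγ
  refine ⟨γ', hγ', fun a => ?_⟩
  simp only [MulAction.toPerm_symm_apply, s41c_smul_def]
  rw [← mul_smul, h, mul_smul]

/-! ### Cup products of potentials as invariant alternating cocycles -/

section Cup

variable {F : Type*} [Field F] {Γ : Subgroup SL(2, ℤ)}

theorem s41c_cup_alt2 (P Q : OnePoint ℚ → F) : s41k_Alt2 (s41c_cup P Q) :=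
  ⟨fun a b c => s41c_cup_swap12 P Q a b c, fun a b c => s41c_cup_swap23 P Q a b c⟩

theorem s41c_cup_coc2 (P Q : OnePoint ℚ → F) : s41k_Coc2 (s41c_cup P Q) :=
  fun a b c d => s41c_cup_cocycle P Q a b c d

theorem s41c_cup_inv2 {φ ψ : Additive Γ →+ F} {P Q : OnePoint ℚ → F}
    (hP : s41c_IsPotential Γ φ P) (hQ : s41c_IsPotential Γ ψ Q) :
    s41k_Inv2 Γ (s41c_cup P Q) :=
  fun γ hγ a b c => s41c_cup_smul hP hQ ⟨γ, hγ⟩ a b c

theorem s41c_int_cup [Fintype (SL(2, ℤ) ⧸ Γ)] (P Q : OnePoint ℚ → F) :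
    s41k_int Γ s41c_U s41c_o0 s41c_o1 (s41c_cup P Q) = ∑ x : SL(2, ℤ) ⧸ Γ, s41c_triP Γ P Q x := by
  unfold s41k_int s41c_triP
  simp only [s41c_U_o1]

/-- **Similitude, sum form.**  For `W ∈ GL(2, ℚ)` normalising `Γ ∋ -1` (finite index) and a field
`F` with `6 ≠ 0`, the sum of the cup-product cocycle over the `W`-translated Farey triangulation
is a non-zero constant multiple of the sum over the Farey triangulation. -/
theorem s41c_similitude_sum (h2 : (2 : F) ≠ 0) (h3 : (3 : F) ≠ 0)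
    (hΓ : (-1 : SL(2, ℤ)) ∈ Γ) [Fintype (SL(2, ℤ) ⧸ Γ)] {W : GL (Fin 2) ℚ}
    (hW : s41c_Normalizes Γ W) :
    ∃ c : F, c ≠ 0 ∧ ∀ (φ ψ : Additive Γ →+ F) (P Q : OnePoint ℚ → F),
      s41c_IsPotential Γ φ P → s41c_IsPotential Γ ψ Q →
      ∑ x : SL(2, ℤ) ⧸ Γ, s41c_triP Γ (fun a => P (W • a)) (fun a => Q (W • a)) x =
        c * ∑ x : SL(2, ℤ) ⧸ Γ, s41c_triP Γ P Q x := by
  obtain ⟨c, hc, h⟩ := (s41c_setup F h2 h3 Γ hΓ).similitude
    (MulAction.toPerm W : Equiv.Perm (OnePoint ℚ)) hW.smul hW.smul_symm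
  refine ⟨c, hc, fun φ ψ P Q hP hQ => ?_⟩
  have := h (s41c_cup P Q) (s41c_cup_alt2 P Q) (s41c_cup_coc2 P Q) (s41c_cup_inv2 hP hQ)
  rw [s41c_int_cup] at this
  rw [← this, ← s41c_int_cup]
  rfl

end Cup

end Fermat.Agent.Lib.S41
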