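/-
S41 project, module family [B] (helper5): the Manin model of `H¹_par`.

* `s41b_parabolic_of_pot` : a homomorphism with a potential on the cusps is parabolic;
* `s41b_inj` : **injectivity** — if the edge function of a potential of `φ` lies in
  `R = {h - h ∘ σ | h ∘ σ = h ∘ τ}` then `φ = 0` (`S, U` generate `SL(2, ℤ)`);
* `s41b_surj` : **surjectivity** (helper4's `(T0)`, `(T1)`) — every `v` with `v ∘ σ = -v` and
  `v + v ∘ τ + v ∘ τ ∘ τ = 0` is the edge function of a potential of some `φ : Γ → A`.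
-/
import Mathlib
import Fermat.Agent.Lib.S41.BPair
import Fermat.Agent.Lib.S41.CBridge
import Fermat.Agent.Lib.Period.Parabolic

set_option autoImplicit false

open Matrix MatrixGroups OnePoint ModularCurve.Period

namespace Fermat.Agent.Lib.S41

section Cusps

theorem s41b_neg_one_smul_cusp (x : OnePoint ℚ) : (-1 : SL(2, ℤ)) • x = x := by
  rw [← s41c_mk_ND x, s41c_smul_mk _ _ _ (s41c_ne_zero_or x)]
  simp only [Matrix.SpecialLinearGroup.coe_neg, Matrix.SpecialLinearGroup.coe_one, Matrix.neg_apply,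
    Matrix.one_apply_eq, Matrix.one_apply_ne, ne_eq, zero_ne_one, one_ne_zero, not_false_eq_true,
    neg_zero, zero_mul, add_zero, zero_add, neg_mul, one_mul]
  exact s41c_mk_neg _ _

theorem s41b_neg_smul_cusp (g : SL(2, ℤ)) (x : OnePoint ℚ) : (-g) • x = g • x := by
  have : -g = (-1 : SL(2, ℤ)) * g := by rw [neg_mul, one_mul]
  rw [this, mul_smul, s41b_neg_one_smul_cusp]

theorem s41b_T_zpow_smul_infty (m : ℤ) : (ModularGroup.T ^ m) • (∞ : OnePoint ℚ) = ∞ := by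
  rw [s41c_smul_infty, ModularGroup.coe_T_zpow]
  simp [s41c_mk]

variable {Γ : Subgroup SL(2, ℤ)} {A : Type*} [AddCommGroup A]

/-- A homomorphism with a potential on the cusps is parabolic. -/
theorem s41b_parabolic_of_pot {φ : Additive Γ →+ A} {P : OnePoint ℚ → A}
    (hP : s41b_IsPot Γ φ P) : IsParabolicHom Γ φ := by
  intro γ hγ
  obtain ⟨δ, m, h⟩ := Fermat.Agent.Lib.Period.pmP_exists_conj_of_trace_sq (γ : SL(2, ℤ)) hγ
  have hfix : (γ : SL(2, ℤ)) • (δ • (∞ : OnePoint ℚ)) = δ • (∞ : OnePoint ℚ) := by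
    rcases h with h | h
    · rw [h, mul_smul, mul_smul, inv_smul_smul, s41b_T_zpow_smul_infty]
    · rw [← s41b_neg_smul_cusp, h, mul_smul, mul_smul, inv_smul_smul, s41b_T_zpow_smul_infty]
  have := hP γ (δ • (∞ : OnePoint ℚ))
  rw [hfix] at this
  exact (left_eq_add.mp this)

end Cusps

section Inj

variable {Γ : Subgroup SL(2, ℤ)} {A : Type*} [AddCommGroup A]

/-- **Injectivity of `φ ↦ v_φ` modulo `R`.** -/
theorem s41b_inj {φ : Additive Γ →+ A} {P : OnePoint ℚ → A} (hP : s41b_IsPot Γ φ P)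
    {h : SL(2, ℤ) ⧸ Γ → A} (hh : h ∘ s41b_sigma Γ = h ∘ s41b_tau Γ)
    (hv : s41b_diff Γ P s41c_o0 P s41c_o1 = h - h ∘ s41b_sigma Γ) : φ = 0 := by
  -- the function `p(g) = P(g⁻¹∞) - h(gΓ)` is left invariant under `S` and `U`
  let p : SL(2, ℤ) → A := fun g => P (g⁻¹ • s41c_o0) - h (g : SL(2, ℤ) ⧸ Γ)
  have hvg : ∀ g : SL(2, ℤ), P (g⁻¹ • s41c_o0) - P (g⁻¹ • s41c_o1) =
      h (g : SL(2, ℤ) ⧸ Γ) - h (s41c_S • (g : SL(2, ℤ) ⧸ Γ)) := by
    intro g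
    have := congrFun hv (g : SL(2, ℤ) ⧸ Γ)
    rw [s41b_diff_mk hP hP] at this
    exact this
  have hhg : ∀ x : SL(2, ℤ) ⧸ Γ, h (s41c_S • x) = h (s41c_U⁻¹ • x) := fun x => congrFun hh x
  have hS : ∀ g, p (s41c_S * g) = p g := by
    intro g
    have e := hvg g
    show P ((s41c_S * g)⁻¹ • s41c_o0) - h ((s41c_S * g : SL(2, ℤ)) : SL(2, ℤ) ⧸ Γ) =
      P (g⁻¹ • s41c_o0) - h (g : SL(2, ℤ) ⧸ Γ)
    have e2 : ((s41c_S * g : SL(2, ℤ)) : SL(2, ℤ) ⧸ Γ) = s41c_S • (g : SL(2, ℤ) ⧸ Γ) := rfl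
    rw [_root_.mul_inv_rev, mul_smul, s41b_Sinv_o0, e2]
    rw [sub_eq_sub_iff_add_eq_add] at e ⊢
    rw [add_comm, ← e, add_comm]
  have hU : ∀ g, p (s41c_U⁻¹ * g) = p g := by
    intro g
    have e := hvg g
    show P ((s41c_U⁻¹ * g)⁻¹ • s41c_o0) - h ((s41c_U⁻¹ * g : SL(2, ℤ)) : SL(2, ℤ) ⧸ Γ) =
      P (g⁻¹ • s41c_o0) - h (g : SL(2, ℤ) ⧸ Γ)
    have e2 : ((s41c_U⁻¹ * g : SL(2, ℤ)) : SL(2, ℤ) ⧸ Γ) = s41c_U⁻¹ • (g : SL(2, ℤ) ⧸ Γ) := rfl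
    rw [_root_.mul_inv_rev, inv_inv, mul_smul, s41c_U_o0, e2, ← hhg]
    rw [sub_eq_sub_iff_add_eq_add] at e ⊢
    rw [add_comm, ← e, add_comm]
  have hall : ∀ k : SL(2, ℤ), ∀ g, p (k * g) = p g := by
    intro k
    have hk : k ∈ Subgroup.closure ({s41c_S, s41c_U} : Set SL(2, ℤ)) := by
      rw [s41c_closure_SU]; trivial
    induction hk using Subgroup.closure_induction with
    | mem k hk =>
      rcases hk with rfl | rfl
      · exact hS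
      · intro g
        have := hU (s41c_U * g)
        rw [inv_mul_cancel_left] at this
        exact this.symm
    | one => intro g; rw [one_mul]
    | mul a b _ _ ha hb => intro g; rw [mul_assoc, ha, hb]
    | inv a _ ha => intro g; rw [← ha (a⁻¹ * g), mul_inv_cancel_left]
  refine AddMonoidHom.ext fun γa => ?_
  obtain ⟨γ, rfl⟩ : ∃ γ : Γ, Additive.ofMul γ = γa := ⟨Additive.toMul γa, rfl⟩
  have h1 := hall ((γ : SL(2, ℤ))⁻¹) 1
  rw [mul_one] at h1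
  have h2 : (((γ : SL(2, ℤ))⁻¹ : SL(2, ℤ)) : SL(2, ℤ) ⧸ Γ) = ((1 : SL(2, ℤ)) : SL(2, ℤ) ⧸ Γ) := by
    rw [QuotientGroup.eq]
    simp only [inv_inv, mul_one]
    exact γ.2
  have h3 : P ((γ : SL(2, ℤ)) • s41c_o0) = P s41c_o0 := by
    have : P (((γ : SL(2, ℤ))⁻¹)⁻¹ • s41c_o0) - h (((γ : SL(2, ℤ))⁻¹ : SL(2, ℤ)) : SL(2, ℤ) ⧸ Γ) =
        P ((1 : SL(2, ℤ))⁻¹ • s41c_o0) - h ((1 : SL(2, ℤ)) : SL(2, ℤ) ⧸ Γ) := h1
    rw [h2, inv_inv, inv_one, one_smul] at this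
    exact sub_left_injective this
  have h4 := hP γ s41c_o0
  rw [h3] at h4
  rw [AddMonoidHom.zero_apply]
  exact (left_eq_add.mp h4)

end Inj

section Surj

variable {Γ : Subgroup SL(2, ℤ)} {A : Type*} [AddCommGroup A]

/-- **Surjectivity** (Farey `(T0)`, `(T1)`): every Manin cochain is the edge function of a
potential. -/
theorem s41b_surj (hΓ : (-1 : SL(2, ℤ)) ∈ Γ) (v : SL(2, ℤ) ⧸ Γ → A)
    (hσ : ∀ x, v (s41c_S • x) = - v x)
    (hτ : ∀ x, v x + v (s41c_U⁻¹ • x) + v (s41c_U⁻¹ • s41c_U⁻¹ • x) = 0) :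
    ∃ (φ : Additive Γ →+ A) (P : OnePoint ℚ → A), s41b_IsPot Γ φ P ∧
      s41b_diff Γ P s41c_o0 P s41c_o1 = v := by
  classical
  let c : OnePoint ℚ → OnePoint ℚ → A := fun α β =>
    if h : ∃ g : SL(2, ℤ), g • s41c_o0 = α ∧ g • s41c_o1 = β then
      - v (((Classical.choose h)⁻¹ : SL(2, ℤ)) : SL(2, ℤ) ⧸ Γ) else 0
  have hc : ∀ g : SL(2, ℤ), c (g • s41c_o0) (g • s41c_o1) =
      - v ((g⁻¹ : SL(2, ℤ)) : SL(2, ℤ) ⧸ Γ) := by
    intro g
    have hex : ∃ g' : SL(2, ℤ), g' • s41c_o0 = g • s41c_o0 ∧ g' • s41c_o1 = g • s41c_o1 :=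
      ⟨g, rfl, rfl⟩
    simp only [c, dif_pos hex]
    obtain ⟨h0, h1⟩ := Classical.choose_spec hex
    set g' := Classical.choose hex
    have hz := s41c_fix_edge (z := g⁻¹ * g') (by rw [mul_smul, h0, inv_smul_smul])
      (by rw [mul_smul, h1, inv_smul_smul])
    congr 2
    rcases hz with hz | hz
    · rw [inv_mul_eq_one] at hz
      rw [← hz]
    · have hg' : g' = g * (-1) := eq_mul_of_inv_mul_eq hz
      have e1 : (g'⁻¹ : SL(2, ℤ)) = (-1 : SL(2, ℤ)) * g⁻¹ := by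
        rw [hg', _root_.mul_inv_rev, inv_neg, inv_one]
      rw [e1]
      exact s41b_neg_one_smul hΓ ((g⁻¹ : SL(2, ℤ)) : SL(2, ℤ) ⧸ Γ)
  have hvS : ∀ x, v (s41c_S⁻¹ • x) = - v x := by
    intro x
    have := hσ (s41c_S⁻¹ • x)
    rw [smul_inv_smul] at this
    rw [this, neg_neg]
  have halt : ∀ g : SL(2, ℤ), c (g • s41c_o1) (g • s41c_o0) = - c (g • s41c_o0) (g • s41c_o1) := by
    intro g
    have e0 : g • s41c_o1 = (g * s41c_S) • s41c_o0 := by rw [mul_smul, s41c_S_o0]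
    have e1 : g • s41c_o0 = (g * s41c_S) • s41c_o1 := by rw [mul_smul, s41c_S_o1]
    have e2 : (((g * s41c_S)⁻¹ : SL(2, ℤ)) : SL(2, ℤ) ⧸ Γ) =
        s41c_S⁻¹ • ((g⁻¹ : SL(2, ℤ)) : SL(2, ℤ) ⧸ Γ) := by
      rw [_root_.mul_inv_rev]; rfl
    conv_lhs => rw [e0, e1]
    rw [hc, hc, e2, hvS]
  have htri : ∀ g : SL(2, ℤ), c (g • s41c_o0) (g • s41c_o1) + c (g • s41c_o1) (g • s41c_o2)
      + c (g • s41c_o2) (g • s41c_o0) = 0 := by
    intro g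
    have e0 : g • s41c_o1 = (g * s41c_U) • s41c_o0 := by rw [mul_smul, s41c_U_o0]
    have e1 : g • s41c_o2 = (g * s41c_U) • s41c_o1 := by rw [mul_smul, s41c_U_o1]
    have e2 : g • s41c_o2 = (g * s41c_U * s41c_U) • s41c_o0 := by
      rw [mul_smul, mul_smul, s41c_U_o0, s41c_U_o1]
    have e3 : g • s41c_o0 = (g * s41c_U * s41c_U) • s41c_o1 := by
      rw [mul_smul, mul_smul, s41c_U_o1, s41c_U_o2]
    have e4 : (((g * s41c_U)⁻¹ : SL(2, ℤ)) : SL(2, ℤ) ⧸ Γ) =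
        s41c_U⁻¹ • ((g⁻¹ : SL(2, ℤ)) : SL(2, ℤ) ⧸ Γ) := by
      rw [_root_.mul_inv_rev]; rfl
    have e5 : (((g * s41c_U * s41c_U)⁻¹ : SL(2, ℤ)) : SL(2, ℤ) ⧸ Γ) =
        s41c_U⁻¹ • s41c_U⁻¹ • ((g⁻¹ : SL(2, ℤ)) : SL(2, ℤ) ⧸ Γ) := by
      rw [_root_.mul_inv_rev, _root_.mul_inv_rev]; rfl
    have t1 : c (g • s41c_o1) (g • s41c_o2) =
        - v (s41c_U⁻¹ • ((g⁻¹ : SL(2, ℤ)) : SL(2, ℤ) ⧸ Γ)) := by
      conv_lhs => rw [e0, e1]
      rw [hc, e4]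
    have t2 : c (g • s41c_o2) (g • s41c_o0) =
        - v (s41c_U⁻¹ • s41c_U⁻¹ • ((g⁻¹ : SL(2, ℤ)) : SL(2, ℤ) ⧸ Γ)) := by
      conv_lhs => rw [e2, e3]
      rw [hc, e5]
    rw [hc, t1, t2, ← neg_add, ← neg_add, hτ, neg_zero]
  obtain ⟨f, hf⟩ := s41c_T1' c halt htri
  have hfv : ∀ g : SL(2, ℤ), f (g • s41c_o0) - f (g • s41c_o1) =
      v ((g⁻¹ : SL(2, ℤ)) : SL(2, ℤ) ⧸ Γ) := by
    intro g
    have := hf g
    rw [hc] at this
    rw [← neg_sub, ← this, neg_neg]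
  -- the differences `f (γ α) - f α` do not depend on `α`
  have hD : ∀ (γ : Γ) (α β : OnePoint ℚ),
      f ((γ : SL(2, ℤ)) • α) - f α = f ((γ : SL(2, ℤ)) • β) - f β := by
    intro γ
    refine s41c_T0' (fun α => f ((γ : SL(2, ℤ)) • α) - f α) (fun g => ?_)
    have h1 := hfv ((γ : SL(2, ℤ)) * g)
    have h2 := hfv g
    have e : ((((γ : SL(2, ℤ)) * g)⁻¹ : SL(2, ℤ)) : SL(2, ℤ) ⧸ Γ) =
        ((g⁻¹ : SL(2, ℤ)) : SL(2, ℤ) ⧸ Γ) := by
      rw [QuotientGroup.eq, _root_.mul_inv_rev]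
      have : (g⁻¹ * ((γ : SL(2, ℤ)))⁻¹)⁻¹ * g⁻¹ = (γ : SL(2, ℤ)) := by group
      rw [this]
      exact γ.2
    rw [e, ← h2, mul_smul, mul_smul] at h1
    show f ((γ : SL(2, ℤ)) • g • s41c_o0) - f (g • s41c_o0) =
      f ((γ : SL(2, ℤ)) • g • s41c_o1) - f (g • s41c_o1)
    rw [sub_eq_sub_iff_add_eq_add] at h1 ⊢
    rw [h1, add_comm]
  let φ : Additive Γ →+ A := AddMonoidHom.mk'
    (fun γa => f (((Additive.toMul γa : Γ) : SL(2, ℤ)) • s41c_o0) - f s41c_o0) (by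
      intro γa δa
      show f ((((Additive.toMul γa * Additive.toMul δa : Γ)) : SL(2, ℤ)) • s41c_o0) - f s41c_o0 = _
      rw [Subgroup.coe_mul, mul_smul]
      have := hD (Additive.toMul γa) (((Additive.toMul δa : Γ) : SL(2, ℤ)) • s41c_o0) s41c_o0
      rw [sub_eq_iff_eq_add] at this
      rw [this]; abel)
  have hP : s41b_IsPot Γ φ f := by
    intro γ α
    have := hD γ α s41c_o0
    show f ((γ : SL(2, ℤ)) • α) = f α + (f ((γ : SL(2, ℤ)) • s41c_o0) - f s41c_o0)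
    rw [← this]; abel
  refine ⟨φ, f, hP, ?_⟩
  funext x
  induction x using QuotientGroup.induction_on with
  | H g =>
    rw [s41b_diff_mk hP hP, hfv, inv_inv]

end Surj

end Fermat.Agent.Lib.S41
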