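/-
S41 project, module family [B] (helper5): the dimension of `H(Γ, F)` (parabolic homomorphisms
killing the elements of finite order) through the Manin model, for `Γ ≤ SL(2, ℤ)` of finite index
with `-1 ∈ Γ`:

* `s41b_finrank_H_le` : `dim H(Γ, F) + q(σ) + q(τ) + q(τσ⁻¹) ≤ |X| + 2` for every field `F`;
* `s41b_finrank_H_eq` : equality in characteristic `0`;
* `s41b_surj_mod_Rad` : in case of equality every Manin cochain is, modulo `R`, the edge function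
  of a class in `H(Γ, F)`.
-/
import Mathlib
import Fermat.Agent.Lib.S41.BShap
import Fermat.Agent.Lib.S41.BCount
import Fermat.Agent.Lib.S41.BDimAbs

set_option autoImplicit false
set_option linter.unusedSectionVars false
set_option linter.style.haveILetI false

open Matrix MatrixGroups OnePoint ModularCurve.Period Module

namespace Fermat.Agent.Lib.S41

section H

variable (Γ : Subgroup SL(2, ℤ)) (F : Type*) [Field F]

/-- `H(Γ, F)`: parabolic homomorphisms `Γ → F` killing the elements of finite order. -/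
def s41b_H : Submodule F (Additive Γ →+ F) where
  carrier := {φ | IsParabolicHom Γ φ ∧ ∀ γ : Γ, IsOfFinOrder γ → φ (Additive.ofMul γ) = 0}
  zero_mem' := ⟨fun _ _ => rfl, fun _ _ => rfl⟩
  add_mem' := by
    rintro φ ψ ⟨h1, h2⟩ ⟨h3, h4⟩
    refine ⟨fun γ hγ => ?_, fun γ hγ => ?_⟩
    · show φ (Additive.ofMul γ) + ψ (Additive.ofMul γ) = 0
      rw [h1 γ hγ, h3 γ hγ, add_zero]
    · show φ (Additive.ofMul γ) + ψ (Additive.ofMul γ) = 0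
      rw [h2 γ hγ, h4 γ hγ, add_zero]
  smul_mem' := by
    rintro c φ ⟨h1, h2⟩
    refine ⟨fun γ hγ => ?_, fun γ hγ => ?_⟩
    · show c • φ (Additive.ofMul γ) = 0
      rw [h1 γ hγ, smul_zero]
    · show c • φ (Additive.ofMul γ) = 0
      rw [h2 γ hγ, smul_zero]

variable {Γ F}

theorem s41b_mem_H {φ : Additive Γ →+ F} : φ ∈ s41b_H Γ F ↔
    IsParabolicHom Γ φ ∧ ∀ γ : Γ, IsOfFinOrder γ → φ (Additive.ofMul γ) = 0 := Iff.rfl

/-- edge potentials exist for classes killing the elements of finite order -/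
theorem s41b_exists_potE {A : Type*} [AddCommGroup A] {φ : Additive Γ →+ A}
    (hφ : ∀ γ : Γ, IsOfFinOrder γ → φ (Additive.ofMul γ) = 0) :
    ∃ PE : s41b_YE → A, s41b_IsPot Γ φ PE :=
  s41b_exists_pot φ (fun γ y hy =>
    hφ γ ((Submonoid.isOfFinOrder_coe (H := Γ.toSubmonoid) (x := γ)).mp (s41b_finOrd_of_fix_YE hy)))

/-- triangle potentials exist for classes killing the elements of finite order -/
theorem s41b_exists_potF {A : Type*} [AddCommGroup A] {φ : Additive Γ →+ A}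
    (hφ : ∀ γ : Γ, IsOfFinOrder γ → φ (Additive.ofMul γ) = 0) :
    ∃ PF : s41b_YF → A, s41b_IsPot Γ φ PF :=
  s41b_exists_pot φ (fun γ y hy =>
    hφ γ ((Submonoid.isOfFinOrder_coe (H := Γ.toSubmonoid) (x := γ)).mp (s41b_finOrd_of_fix_YF hy)))

theorem s41b_IsPot.smul' {Y : Type*} [MulAction SL(2, ℤ) Y] {φ : Additive Γ →+ F} {P : Y → F}
    (hP : s41b_IsPot Γ φ P) (c : F) : s41b_IsPot Γ (c • φ) (c • P) := by
  intro γ y
  simp only [Pi.smul_apply, AddMonoidHom.smul_apply, hP γ y, smul_add]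

variable (Γ F)

/-- The linear relation "`v` is the edge function of a potential of `φ`". -/
def s41b_Rel : Submodule F ((s41b_H Γ F) × (SL(2, ℤ) ⧸ Γ → F)) where
  carrier := {p | ∃ P : OnePoint ℚ → F, s41b_IsPot Γ (p.1 : Additive Γ →+ F) P ∧
    s41b_diff Γ P s41c_o0 P s41c_o1 = p.2}
  zero_mem' := ⟨0, s41b_IsPot.zero, by funext x; simp [s41b_diff]⟩
  add_mem' := by
    rintro p q ⟨P, hP, hPv⟩ ⟨Q, hQ, hQv⟩
    refine ⟨P + Q, hP.add hQ, ?_⟩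
    show _ = p.2 + q.2
    rw [← hPv, ← hQv]
    funext x
    simp only [s41b_diff, Pi.add_apply]
    ring
  smul_mem' := by
    rintro c p ⟨P, hP, hPv⟩
    refine ⟨c • P, hP.smul' c, ?_⟩
    show _ = c • p.2
    rw [← hPv]
    funext x
    simp only [s41b_diff, Pi.smul_apply, smul_eq_mul]
    ring

end H

section Count

variable {Γ : Subgroup SL(2, ℤ)} [Fintype (SL(2, ℤ) ⧸ Γ)] {F : Type*} [Field F]

/-- functional transitivity of `σ, τ` on `X` -/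
theorem s41b_htr (c : SL(2, ℤ) ⧸ Γ → F) (hσ : c ∘ s41b_sigma Γ = c) (hτ : c ∘ s41b_tau Γ = c)
    (x y : SL(2, ℤ) ⧸ Γ) : c x = c y := by
  have hS : ∀ x, c (s41c_S • x) = c x := fun x => congrFun hσ x
  have hU' : ∀ x, c (s41c_U⁻¹ • x) = c x := fun x => congrFun hτ x
  have hU : ∀ x, c (s41c_U • x) = c x := fun x => by
    have := hU' (s41c_U • x)
    rw [inv_smul_smul] at this
    exact this.symm
  have hall : ∀ g : SL(2, ℤ), ∀ x, c (g • x) = c x := by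
    intro g
    have hg : g ∈ Subgroup.closure ({s41c_S, s41c_U} : Set SL(2, ℤ)) := by
      rw [s41c_closure_SU]; trivial
    induction hg using Subgroup.closure_induction with
    | mem g hg =>
      rcases hg with rfl | rfl
      · exact hS
      · exact hU
    | one => intro x; rw [one_smul]
    | mul a b _ _ ha hb => intro x; rw [mul_smul, ha, hb]
    | inv a _ ha => intro x; rw [← ha (a⁻¹ • x), smul_inv_smul]
  obtain ⟨g, rfl⟩ := MulAction.exists_smul_eq SL(2, ℤ) y x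
  exact hall g y

theorem s41b_Rel_h1 (φ : s41b_H Γ F) : ∃ v, (φ, v) ∈ s41b_Rel Γ F := by
  obtain ⟨P, hP⟩ := s41c_exists_potential (φ : Additive Γ →+ F) φ.2.1
  exact ⟨_, P, hP, rfl⟩

theorem s41b_Rel_h2 (p : (s41b_H Γ F) × (SL(2, ℤ) ⧸ Γ → F)) (hp : p ∈ s41b_Rel Γ F) :
    p.2 ∈ s41b_Vc F (s41b_sigma Γ) (s41b_tau Γ) := by
  obtain ⟨P, hP, hPv⟩ := hp
  obtain ⟨PE, hPE⟩ := s41b_exists_potE p.1.2.2
  obtain ⟨PF, hPF⟩ := s41b_exists_potF p.1.2.2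
  rw [s41b_mem_Vc, ← hPv]
  exact ⟨_, _, s41b_triple_a hP hPE, s41b_triple_b hP hPF⟩

theorem s41b_Rel_h3 (p : (s41b_H Γ F) × (SL(2, ℤ) ⧸ Γ → F)) (hp : p ∈ s41b_Rel Γ F)
    (hR : p.2 ∈ s41b_Rad F (s41b_sigma Γ) (s41b_tau Γ)) : p.1 = 0 := by
  obtain ⟨P, hP, hPv⟩ := hp
  obtain ⟨h, hv, hh⟩ := (s41b_mem_Rad F).mp hR
  apply Subtype.ext
  exact s41b_inj hP hh (hPv.trans hv)

theorem s41b_Rel_h5 (p : (s41b_H Γ F) × (SL(2, ℤ) ⧸ Γ → F)) (hp : p ∈ s41b_Rel Γ F)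
    (h0 : p.1 = 0) : p.2 ∈ s41b_Rad F (s41b_sigma Γ) (s41b_tau Γ) := by
  obtain ⟨P, hP, hPv⟩ := hp
  have hP0 : s41b_IsPot Γ (0 : Additive Γ →+ F) P := by
    have : ((p.1 : s41b_H Γ F) : Additive Γ →+ F) = 0 := by rw [h0]; rfl
    rwa [this] at hP
  rw [s41b_mem_Rad, ← hPv]
  exact ⟨_, s41b_inv_edge hP0, s41b_inv_sigma_tau hP0⟩

theorem s41b_Rel_h4 [CharZero F] (hΓ : (-1 : SL(2, ℤ)) ∈ Γ) (v : SL(2, ℤ) ⧸ Γ → F)
    (hv : v ∈ s41b_Vc F (s41b_sigma Γ) (s41b_tau Γ)) : ∃ φ, (φ, v) ∈ s41b_Rel Γ F := by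
  obtain ⟨a, b, hva, hvb⟩ := (s41b_mem_Vc F).mp hv
  have hσ : ∀ x, v (s41c_S • x) = - v x := by
    intro x
    have h1 : v x = a x - a (s41b_sigma Γ x) := congrFun hva x
    have h2 : v (s41b_sigma Γ x) = a (s41b_sigma Γ x) - a (s41b_sigma Γ (s41b_sigma Γ x)) :=
      congrFun hva (s41b_sigma Γ x)
    rw [s41b_sigma_sq hΓ] at h2
    show v (s41b_sigma Γ x) = - v x
    rw [h2, h1]; ring
  have hτ : ∀ x, v x + v (s41c_U⁻¹ • x) + v (s41c_U⁻¹ • s41c_U⁻¹ • x) = 0 := by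
    intro x
    have h1 : v x = b x - b (s41b_tau Γ x) := congrFun hvb x
    have h2 : v (s41b_tau Γ x) = b (s41b_tau Γ x) - b (s41b_tau Γ (s41b_tau Γ x)) :=
      congrFun hvb (s41b_tau Γ x)
    have h3 : v (s41b_tau Γ (s41b_tau Γ x)) =
        b (s41b_tau Γ (s41b_tau Γ x)) - b (s41b_tau Γ (s41b_tau Γ (s41b_tau Γ x))) :=
      congrFun hvb (s41b_tau Γ (s41b_tau Γ x))
    rw [s41b_tau_cube hΓ] at h3
    show v x + v (s41b_tau Γ x) + v (s41b_tau Γ (s41b_tau Γ x)) = 0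
    rw [h1, h2, h3]; ring
  obtain ⟨φ, P, hP, hPv⟩ := s41b_surj hΓ v hσ hτ
  have hφ : φ ∈ s41b_H Γ F := by
    refine ⟨s41b_parabolic_of_pot hP, fun γ hγ => ?_⟩
    obtain ⟨n, hn, hγn⟩ := hγ.exists_pow_eq_one
    have h1 : n • φ (Additive.ofMul γ) = 0 := by
      rw [← map_nsmul, ← ofMul_pow, hγn, ofMul_one, map_zero]
    rw [nsmul_eq_mul] at h1
    rcases mul_eq_zero.mp h1 with h | h
    · exact absurd (Nat.cast_eq_zero.mp h) hn.ne'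
    · exact h
  exact ⟨⟨φ, hφ⟩, P, hP, hPv⟩

variable (Γ F)

/-- **Upper bound** in every characteristic. -/
theorem s41b_finrank_H_le :
    FiniteDimensional F (s41b_H Γ F) ∧
    finrank F (s41b_H Γ F) + s41b_q (s41b_sigma Γ) + s41b_q (s41b_tau Γ) +
      s41b_q (s41b_tau Γ * (s41b_sigma Γ)⁻¹) ≤ Fintype.card (SL(2, ℤ) ⧸ Γ) + 2 := by
  haveI : Nonempty (SL(2, ℤ) ⧸ Γ) := ⟨((1 : SL(2, ℤ)) : SL(2, ℤ) ⧸ Γ)⟩
  have h1 : ∀ φ : s41b_H Γ F, ∃ v, (φ, v) ∈ s41b_Rel Γ F := fun φ => s41b_Rel_h1 φ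
  have h2 : ∀ p ∈ s41b_Rel Γ F, p.2 ∈ s41b_Vc F (s41b_sigma Γ) (s41b_tau Γ) :=
    fun p hp => s41b_Rel_h2 p hp
  have h3 : ∀ p ∈ s41b_Rel Γ F, p.2 ∈ s41b_Rad F (s41b_sigma Γ) (s41b_tau Γ) → p.1 = 0 :=
    fun p hp hR => s41b_Rel_h3 p hp hR
  have hle := s41b_Rad_le_Vc F (s41b_sigma Γ) (s41b_tau Γ)
  have key := s41b_count_upper (F := F) (H := s41b_H Γ F)
    (V := SL(2, ℤ) ⧸ Γ → F) (s41b_Rel Γ F) (s41b_Vc F (s41b_sigma Γ) (s41b_tau Γ))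
    (s41b_Rad F (s41b_sigma Γ) (s41b_tau Γ)) hle h1 h2 h3
  have hfd := key.1
  have hle2 := key.2.1
  have htr : ∀ c : SL(2, ℤ) ⧸ Γ → F, c ∘ s41b_sigma Γ = c → c ∘ s41b_tau Γ = c →
      ∀ x y, c x = c y := fun c h1 h2 x y => s41b_htr c h1 h2 x y
  have e1 := s41b_finrank_Vc F (s41b_sigma Γ) (s41b_tau Γ) htr
  have e2 := s41b_finrank_Rad F (s41b_sigma Γ) (s41b_tau Γ) htr
  refine ⟨hfd, ?_⟩
  clear key h1 h2 h3 hle htr hfd
  omega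

/-- **Equality** in characteristic `0`. -/
theorem s41b_finrank_H_eq [CharZero F] (hΓ : (-1 : SL(2, ℤ)) ∈ Γ) :
    finrank F (s41b_H Γ F) + s41b_q (s41b_sigma Γ) + s41b_q (s41b_tau Γ) +
      s41b_q (s41b_tau Γ * (s41b_sigma Γ)⁻¹) = Fintype.card (SL(2, ℤ) ⧸ Γ) + 2 := by
  haveI : Nonempty (SL(2, ℤ) ⧸ Γ) := ⟨((1 : SL(2, ℤ)) : SL(2, ℤ) ⧸ Γ)⟩
  have hup := s41b_finrank_H_le Γ F
  have hfd := hup.1
  have hle := hup.2
  have h4 : ∀ v ∈ s41b_Vc F (s41b_sigma Γ) (s41b_tau Γ), ∃ φ, (φ, v) ∈ s41b_Rel Γ F :=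
    fun v hv => s41b_Rel_h4 hΓ v hv
  have h5 : ∀ p ∈ s41b_Rel Γ F, p.1 = 0 → p.2 ∈ s41b_Rad F (s41b_sigma Γ) (s41b_tau Γ) :=
    fun p hp h0 => s41b_Rel_h5 p hp h0
  have hge := s41b_count_lower (F := F) (H := s41b_H Γ F) (V := SL(2, ℤ) ⧸ Γ → F)
    (s41b_Rel Γ F) (s41b_Vc F (s41b_sigma Γ) (s41b_tau Γ))
    (s41b_Rad F (s41b_sigma Γ) (s41b_tau Γ)) h4 h5
  have htr : ∀ c : SL(2, ℤ) ⧸ Γ → F, c ∘ s41b_sigma Γ = c → c ∘ s41b_tau Γ = c →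
      ∀ x y, c x = c y := fun c h1 h2 x y => s41b_htr c h1 h2 x y
  have e1 := s41b_finrank_Vc F (s41b_sigma Γ) (s41b_tau Γ) htr
  have e2 := s41b_finrank_Rad F (s41b_sigma Γ) (s41b_tau Γ) htr
  clear hup h4 h5 htr hfd
  omega

/-- In case of equality: **surjectivity modulo `R`**. -/
theorem s41b_surj_mod_Rad
    (heq : finrank F (s41b_H Γ F) + s41b_q (s41b_sigma Γ) + s41b_q (s41b_tau Γ) +
      s41b_q (s41b_tau Γ * (s41b_sigma Γ)⁻¹) = Fintype.card (SL(2, ℤ) ⧸ Γ) + 2)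
    (v : SL(2, ℤ) ⧸ Γ → F) (hv : v ∈ s41b_Vc F (s41b_sigma Γ) (s41b_tau Γ)) :
    ∃ p ∈ s41b_Rel Γ F, v - p.2 ∈ s41b_Rad F (s41b_sigma Γ) (s41b_tau Γ) := by
  haveI : Nonempty (SL(2, ℤ) ⧸ Γ) := ⟨((1 : SL(2, ℤ)) : SL(2, ℤ) ⧸ Γ)⟩
  have h1 : ∀ φ : s41b_H Γ F, ∃ v, (φ, v) ∈ s41b_Rel Γ F := fun φ => s41b_Rel_h1 φ
  have h2 : ∀ p ∈ s41b_Rel Γ F, p.2 ∈ s41b_Vc F (s41b_sigma Γ) (s41b_tau Γ) :=
    fun p hp => s41b_Rel_h2 p hp
  have h3 : ∀ p ∈ s41b_Rel Γ F, p.2 ∈ s41b_Rad F (s41b_sigma Γ) (s41b_tau Γ) → p.1 = 0 :=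
    fun p hp hR => s41b_Rel_h3 p hp hR
  have hle := s41b_Rad_le_Vc F (s41b_sigma Γ) (s41b_tau Γ)
  have key := s41b_count_upper (F := F) (H := s41b_H Γ F)
    (V := SL(2, ℤ) ⧸ Γ → F) (s41b_Rel Γ F) (s41b_Vc F (s41b_sigma Γ) (s41b_tau Γ))
    (s41b_Rad F (s41b_sigma Γ) (s41b_tau Γ)) hle h1 h2 h3
  have hsurj := key.2.2
  have htr : ∀ c : SL(2, ℤ) ⧸ Γ → F, c ∘ s41b_sigma Γ = c → c ∘ s41b_tau Γ = c →
      ∀ x y, c x = c y := fun c h1 h2 x y => s41b_htr c h1 h2 x y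
  have e1 := s41b_finrank_Vc F (s41b_sigma Γ) (s41b_tau Γ) htr
  have e2 := s41b_finrank_Rad F (s41b_sigma Γ) (s41b_tau Γ) htr
  have e3 : finrank F (s41b_H Γ F) + finrank F (s41b_Rad F (s41b_sigma Γ) (s41b_tau Γ)) =
      finrank F (s41b_Vc F (s41b_sigma Γ) (s41b_tau Γ)) := by
    clear key h1 h2 h3 hle htr hsurj
    omega
  exact hsurj e3 v hv

end Count

end Fermat.Agent.Lib.S41
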