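import Mathlib
import Fermat.Agent.Lib.S41.CDefs

/-!
# S41 [C]: the pairing `s41c_pairP` — orbit counting, Stokes over `⟨U⟩`-orbits, independence of
the potentials

* `s41k_orbit_sum`: for an element `u` of a group acting on a finite set `Y` with `u³` acting
  trivially, `∑_{orbits o} (E z + E (u z) + E (u² z))_{z = o.out} = ∑_y E y + 2 ∑_{u y = y} E y`.
* `s41k_sum_triP`: `∑_{x ∈ X} τ(x) = 3 · s41c_pairP` (for `-1 ∈ Γ`).
* `s41k_pairP_invariant_left`: Stokes over the `⟨U⟩`-orbits (`2` regular, the homomorphism kills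
  the elements of finite order).
* `s41k_pairP_congr`, `s41k_pairing_eq`: independence of the potentials.
* `s41k_pairP_add_left`, `…_smul_left`, `…_swap`, `…_self`, `…_map`: bilinearity, alternation,
  base change.
-/

set_option autoImplicit false
set_option linter.unusedSectionVars false

namespace Fermat.Agent.Lib.S41

open scoped BigOperators
open Matrix MatrixGroups OnePoint Matrix.SpecialLinearGroup ModularCurve.Period

section OrbitSum

variable {G : Type*} [Group G] {Y : Type*} [MulAction G Y] {R : Type*} [CommRing R]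

/-- Powers of an element whose cube acts trivially. -/
theorem s41k_zpow_smul_mem (u : G) (hu : ∀ y : Y, u • u • u • y = y) (n : ℤ) (z : Y) :
    u ^ n • z = z ∨ u ^ n • z = u • z ∨ u ^ n • z = u • u • z := by
  have h3 : ∀ y : Y, (u ^ (3 : ℤ)) • y = y := by
    intro y
    have : (u ^ (3 : ℤ)) = u * u * u := by
      rw [show (3 : ℤ) = ((3 : ℕ) : ℤ) by norm_num, zpow_natCast, pow_succ, pow_two]
    rw [this, mul_smul, mul_smul, hu]
  have h3k : ∀ k : ℤ, ∀ y : Y, (u ^ (3 * k)) • y = y := by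
    intro k y
    rw [_root_.zpow_mul]
    have : ∀ y : Y, ((u ^ (3 : ℤ)) ^ k) • y = y := by
      have hmem : (u ^ (3 : ℤ)) ∈ MulAction.stabilizer G y := h3 y
      intro y'
      have hmem' : (u ^ (3 : ℤ)) ^ k ∈ MulAction.stabilizer G y' :=
        Subgroup.zpow_mem _ (h3 y') k
      exact hmem'
    exact this y
  have hn : n = 3 * (n / 3) + n % 3 := (Int.mul_ediv_add_emod n 3).symm
  have hr0 : 0 ≤ n % 3 := Int.emod_nonneg n (by norm_num)
  have hr3 : n % 3 < 3 := Int.emod_lt_of_pos n (by norm_num)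
  have key : u ^ n • z = u ^ (n % 3) • z := by
    conv_lhs => rw [hn, _root_.zpow_add, mul_smul, h3k]
  rw [key]
  have : n % 3 = 0 ∨ n % 3 = 1 ∨ n % 3 = 2 := by omega
  rcases this with h | h | h
  · left; rw [h, zpow_zero, one_smul]
  · right; left; rw [h, zpow_one]
  · right; right
    rw [h, show (2 : ℤ) = ((2 : ℕ) : ℤ) by norm_num, zpow_natCast, pow_two, mul_smul]

/-- Membership in a `⟨u⟩`-orbit class, when `u³` acts trivially. -/
theorem s41k_mk_eq_iff (u : G) (hu : ∀ y : Y, u • u • u • y = y) (y z : Y) :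
    (Quotient.mk'' y : MulAction.orbitRel.Quotient (Subgroup.zpowers u) Y) = Quotient.mk'' z ↔
      y = z ∨ y = u • z ∨ y = u • u • z := by
  rw [Quotient.eq'']
  rw [MulAction.orbitRel_apply, MulAction.mem_orbit_iff]
  constructor
  · rintro ⟨⟨k, hk⟩, rfl⟩
    obtain ⟨n, rfl⟩ := Subgroup.mem_zpowers_iff.mp hk
    exact s41k_zpow_smul_mem u hu n z
  · rintro (rfl | rfl | rfl)
    · exact ⟨1, one_smul _ _⟩
    · exact ⟨⟨u, Subgroup.mem_zpowers u⟩, rfl⟩
    · exact ⟨⟨u * u, Subgroup.mul_mem _ (Subgroup.mem_zpowers u) (Subgroup.mem_zpowers u)⟩,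
        mul_smul u u z⟩

/-- **Orbit sum.** `u³` acting trivially on a finite set `Y`: the sum over the `⟨u⟩`-orbits of
the orbit sums of `E` at the chosen representatives is `∑ E + 2 ∑_{fixed points} E` (the second
sum written with a function `F` equal to `E` at the fixed points and to `0` elsewhere). -/
theorem s41k_orbit_sum [Fintype Y] (u : G) (hu : ∀ y : Y, u • u • u • y = y) (E F : Y → R)
    (hF1 : ∀ y, u • y = y → F y = E y) (hF0 : ∀ y, u • y ≠ y → F y = 0) :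
    ∑ᶠ o : MulAction.orbitRel.Quotient (Subgroup.zpowers u) Y,
        (E o.out + E (u • o.out) + E (u • u • o.out)) =
      ∑ y, E y + 2 * ∑ y, F y := by
  classical
  have : Fintype (MulAction.orbitRel.Quotient (Subgroup.zpowers u) Y) := Fintype.ofFinite _
  rw [finsum_eq_sum_of_fintype, Finset.mul_sum, ← Finset.sum_add_distrib]
  rw [← Finset.sum_fiberwise Finset.univ
    (fun y => (Quotient.mk'' y : MulAction.orbitRel.Quotient (Subgroup.zpowers u) Y))
    (fun y => E y + 2 * F y)]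
  refine Finset.sum_congr rfl fun o _ => ?_
  set z := o.out with hz
  have hoz : o = Quotient.mk'' z := (Quotient.out_eq' o).symm
  have hfib : (Finset.univ.filter fun y =>
      (Quotient.mk'' y : MulAction.orbitRel.Quotient (Subgroup.zpowers u) Y) = o) =
      {z, u • z, u • u • z} := by
    ext y
    simp only [Finset.mem_filter, Finset.mem_univ, true_and, Finset.mem_insert,
      Finset.mem_singleton]
    rw [hoz]
    exact s41k_mk_eq_iff u hu y z
  rw [hfib]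
  by_cases hfix : u • z = z
  · simp only [hfix, Finset.mem_singleton, Finset.insert_eq_of_mem, Finset.sum_singleton]
    rw [hF1 z hfix]
    ring
  · have h1 : z ≠ u • z := fun h => hfix h.symm
    have h2 : z ≠ u • u • z := by
      intro h
      apply hfix
      have := congrArg (fun y => u • y) h
      simp only [hu] at this
      exact this
    have h3 : u • z ≠ u • u • z := by
      intro h
      exact h1 (smul_left_cancel u h)
    have hf1 : u • u • z ≠ u • z := fun h => h3 h.symm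
    have hf2 : u • u • u • z ≠ u • u • z := by
      rw [hu]; exact h2
    rw [Finset.sum_insert (by simp [h1, h2]), Finset.sum_insert (by simp [h3]),
      Finset.sum_singleton, hF0 z hfix, hF0 _ hf1, hF0 _ hf2]
    ring

end OrbitSum

section Counting

theorem s41k_U_cube : s41c_U * s41c_U * s41c_U = -1 := by
  ext i j
  rw [Matrix.SpecialLinearGroup.coe_mul, Matrix.SpecialLinearGroup.coe_mul]
  fin_cases i <;> fin_cases j <;> simp [s41c_U, s41c_mat, Matrix.mul_apply, Fin.sum_univ_two]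

theorem s41k_S_sq : s41c_S * s41c_S = -1 := by
  ext i j
  rw [Matrix.SpecialLinearGroup.coe_mul]
  fin_cases i <;> fin_cases j <;> simp [s41c_S, s41c_mat, Matrix.mul_apply, Fin.sum_univ_two]

variable {Γ : Subgroup SL(2, ℤ)}

/-- `-1 ∈ Γ` acts trivially on `SL(2, ℤ) ⧸ Γ`. -/
theorem s41k_neg_one_smul (hneg : (-1 : SL(2, ℤ)) ∈ Γ) (x : SL(2, ℤ) ⧸ Γ) :
    (-1 : SL(2, ℤ)) • x = x := by
  induction x using QuotientGroup.induction_on with
  | H g =>
    show (((-1 : SL(2, ℤ)) * g : SL(2, ℤ)) : SL(2, ℤ) ⧸ Γ) = g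
    rw [QuotientGroup.eq]
    have : ((-1 : SL(2, ℤ)) * g)⁻¹ * g = -1 := by simp
    rw [this]; exact hneg

theorem s41k_U3_smul (hneg : (-1 : SL(2, ℤ)) ∈ Γ) (x : SL(2, ℤ) ⧸ Γ) :
    s41c_U • s41c_U • s41c_U • x = x := by
  rw [← mul_smul, ← mul_smul, s41k_U_cube, s41k_neg_one_smul hneg]

theorem s41k_S2_smul (hneg : (-1 : SL(2, ℤ)) ∈ Γ) (x : SL(2, ℤ) ⧸ Γ) :
    s41c_S • s41c_S • x = x := by
  rw [← mul_smul, s41k_S_sq, s41k_neg_one_smul hneg]

theorem s41k_Uinv_smul (hneg : (-1 : SL(2, ℤ)) ∈ Γ) (x : SL(2, ℤ) ⧸ Γ) :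
    s41c_U⁻¹ • x = s41c_U • s41c_U • x := by
  rw [inv_smul_eq_iff, s41k_U3_smul hneg]

variable {R : Type*} [CommRing R]

/-- The triangle function vanishes at the `U`-fixed points. -/
theorem s41k_triP_fixed {φ ψ : Additive Γ →+ R} {P Q : OnePoint ℚ → R}
    (hP : s41c_IsPotential Γ φ P) (hQ : s41c_IsPotential Γ ψ Q) {x : SL(2, ℤ) ⧸ Γ}
    (hx : s41c_U • x = x) : s41c_triP Γ P Q x = 0 := by
  have hx' : s41c_U⁻¹ • x = x := by rw [inv_smul_eq_iff, hx]
  rw [s41c_triP_eq_edgeFun hP hQ, hx', sub_self]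

theorem s41k_triP_U_smul {φ ψ : Additive Γ →+ R} {P Q : OnePoint ℚ → R}
    (hP : s41c_IsPotential Γ φ P) (hQ : s41c_IsPotential Γ ψ Q) (x : SL(2, ℤ) ⧸ Γ) :
    s41c_triP Γ P Q (s41c_U • x) = s41c_triP Γ P Q x := by
  have := s41c_triP_U_smul hP hQ (s41c_U • x)
  rw [inv_smul_smul] at this
  exact this.symm

/-- **Orbit counting**: `∑_{x ∈ X} τ(x) = 3 · pairP`. -/
theorem s41k_sum_triP [Fintype (SL(2, ℤ) ⧸ Γ)] (hneg : (-1 : SL(2, ℤ)) ∈ Γ)
    {φ ψ : Additive Γ →+ R} {P Q : OnePoint ℚ → R}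
    (hP : s41c_IsPotential Γ φ P) (hQ : s41c_IsPotential Γ ψ Q) :
    ∑ x : SL(2, ℤ) ⧸ Γ, s41c_triP Γ P Q x = 3 * s41c_pairP Γ P Q := by
  have h := s41k_orbit_sum (R := R) s41c_U (s41k_U3_smul hneg) (s41c_triP Γ P Q) (fun _ => 0)
    (fun y hy => (s41k_triP_fixed hP hQ hy).symm) (fun _ _ => rfl)
  rw [Finset.sum_const_zero, mul_zero, add_zero] at h
  rw [← h, s41c_pairP, mul_finsum' _ _ (Set.toFinite _)]
  refine finsum_congr fun o => ?_
  simp only [s41k_triP_U_smul hP hQ]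
  have h3 : ∀ a : R, a + a + a = 3 * a := fun a => by ring
  exact h3 _

end Counting

section Indep

variable {Γ : Subgroup SL(2, ℤ)} {R : Type*} [CommRing R]

theorem s41k_Uinv_o0 : s41c_U⁻¹ • s41c_o0 = s41c_o2 := by rw [inv_smul_eq_iff, s41c_U_o2]
theorem s41k_Uinv_o1 : s41c_U⁻¹ • s41c_o1 = s41c_o0 := by rw [inv_smul_eq_iff, s41c_U_o0]
theorem s41k_Uinv_o2 : s41c_U⁻¹ • s41c_o2 = s41c_o1 := by rw [inv_smul_eq_iff, s41c_U_o1]
theorem s41k_Sinv_o0 : s41c_S⁻¹ • s41c_o0 = s41c_o1 := by rw [inv_smul_eq_iff, s41c_S_o1]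
theorem s41k_Sinv_o1 : s41c_S⁻¹ • s41c_o1 = s41c_o0 := by rw [inv_smul_eq_iff, s41c_S_o0]

/-- The Stokes edge function of an invariant function `h` and a potential `Q`:
`E (gΓ) = (h a + h b) (Q b - Q a)`, `(a, b) = g⁻¹ • (o₀, o₁)`. -/
noncomputable def s41k_stokesE (Γ : Subgroup SL(2, ℤ)) (h Q : OnePoint ℚ → R)
    (x : SL(2, ℤ) ⧸ Γ) : R :=
  (h (x.out⁻¹ • s41c_o0) + h (x.out⁻¹ • s41c_o1)) *
    (Q (x.out⁻¹ • s41c_o1) - Q (x.out⁻¹ • s41c_o0))

theorem s41k_stokesE_mk {ψ : Additive Γ →+ R} {h Q : OnePoint ℚ → R}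
    (hh : s41c_IsPotential Γ (0 : Additive Γ →+ R) h) (hQ : s41c_IsPotential Γ ψ Q)
    (g : SL(2, ℤ)) :
    s41k_stokesE Γ h Q (g : SL(2, ℤ) ⧸ Γ) =
      (h (g⁻¹ • s41c_o0) + h (g⁻¹ • s41c_o1)) * (Q (g⁻¹ • s41c_o1) - Q (g⁻¹ • s41c_o0)) := by
  obtain ⟨γ, hγ⟩ := QuotientGroup.mk_out_eq_mul Γ g
  unfold s41k_stokesE
  rw [hγ, _root_.mul_inv_rev, mul_smul, mul_smul, hh.inv γ, hh.inv γ, hQ.inv γ, hQ.inv γ]
  simp only [AddMonoidHom.zero_apply, sub_zero]
  ring

/-- `τ = E + E ∘ U + E ∘ U²`. -/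
theorem s41k_triP_eq_stokes {ψ : Additive Γ →+ R} {h Q : OnePoint ℚ → R}
    (hh : s41c_IsPotential Γ (0 : Additive Γ →+ R) h) (hQ : s41c_IsPotential Γ ψ Q)
    (x : SL(2, ℤ) ⧸ Γ) :
    s41c_triP Γ h Q x = s41k_stokesE Γ h Q x + s41k_stokesE Γ h Q (s41c_U • x) +
      s41k_stokesE Γ h Q (s41c_U • s41c_U • x) := by
  induction x using QuotientGroup.induction_on with
  | H g =>
    have hU : s41c_U • (g : SL(2, ℤ) ⧸ Γ) = ((s41c_U * g : SL(2, ℤ)) : SL(2, ℤ) ⧸ Γ) := rfl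
    have hUU : s41c_U • s41c_U • (g : SL(2, ℤ) ⧸ Γ) =
        ((s41c_U * (s41c_U * g) : SL(2, ℤ)) : SL(2, ℤ) ⧸ Γ) := rfl
    rw [hUU, hU, s41c_triP_mk hh hQ, s41k_stokesE_mk hh hQ, s41k_stokesE_mk hh hQ,
      s41k_stokesE_mk hh hQ]
    simp only [_root_.mul_inv_rev, mul_smul, s41k_Uinv_o0, s41k_Uinv_o1, s41k_Uinv_o2]
    unfold s41c_cup; ring

theorem s41k_stokesE_S {ψ : Additive Γ →+ R} {h Q : OnePoint ℚ → R}
    (hh : s41c_IsPotential Γ (0 : Additive Γ →+ R) h) (hQ : s41c_IsPotential Γ ψ Q)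
    (x : SL(2, ℤ) ⧸ Γ) :
    s41k_stokesE Γ h Q (s41c_S • x) = - s41k_stokesE Γ h Q x := by
  induction x using QuotientGroup.induction_on with
  | H g =>
    have hS : s41c_S • (g : SL(2, ℤ) ⧸ Γ) = ((s41c_S * g : SL(2, ℤ)) : SL(2, ℤ) ⧸ Γ) := rfl
    rw [hS, s41k_stokesE_mk hh hQ, s41k_stokesE_mk hh hQ]
    simp only [_root_.mul_inv_rev, mul_smul, s41k_Sinv_o0, s41k_Sinv_o1]
    ring

theorem s41k_U_pow_six : s41c_U ^ 6 = 1 := by
  have : s41c_U ^ 6 = (s41c_U * s41c_U * s41c_U) * (s41c_U * s41c_U * s41c_U) := by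
    simp only [pow_succ, pow_zero, one_mul, mul_assoc]
  rw [this, s41k_U_cube]; simp

theorem s41k_stokesE_fixed {ψ : Additive Γ →+ R} {h Q : OnePoint ℚ → R}
    (hh : s41c_IsPotential Γ (0 : Additive Γ →+ R) h) (hQ : s41c_IsPotential Γ ψ Q)
    (hψ : ∀ γ : Γ, IsOfFinOrder γ → ψ (Additive.ofMul γ) = 0)
    {x : SL(2, ℤ) ⧸ Γ} (hx : s41c_U • x = x) : s41k_stokesE Γ h Q x = 0 := by
  induction x using QuotientGroup.induction_on with
  | H g =>
    have hU : s41c_U • (g : SL(2, ℤ) ⧸ Γ) = ((s41c_U * g : SL(2, ℤ)) : SL(2, ℤ) ⧸ Γ) := rfl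
    rw [hU, eq_comm, QuotientGroup.eq] at hx
    -- `γ = g⁻¹ U g ∈ Γ`
    set γ : Γ := ⟨g⁻¹ * (s41c_U * g), hx⟩ with hγ
    have hfin : IsOfFinOrder γ := by
      rw [isOfFinOrder_iff_pow_eq_one]
      refine ⟨6, by norm_num, ?_⟩
      apply Subtype.ext
      rw [Subgroup.coe_pow, Subgroup.coe_one, hγ]
      show (g⁻¹ * (s41c_U * g)) ^ 6 = 1
      have : g⁻¹ * (s41c_U * g) = g⁻¹ * s41c_U * (g⁻¹)⁻¹ := by rw [inv_inv, mul_assoc]
      rw [this, conj_pow, s41k_U_pow_six]; simp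
    have h1 : Q (g⁻¹ • s41c_o1) = Q (g⁻¹ • s41c_o0) := by
      have := hQ γ (g⁻¹ • s41c_o0)
      rw [hψ γ hfin, add_zero] at this
      rw [← this, hγ]
      show Q (g⁻¹ • s41c_o1) = Q ((g⁻¹ * (s41c_U * g)) • g⁻¹ • s41c_o0)
      rw [mul_smul, mul_smul, smul_inv_smul, s41c_U_o0]
    rw [s41k_stokesE_mk hh hQ, h1, sub_self, mul_zero]

variable [Fintype (SL(2, ℤ) ⧸ Γ)]

/-- **Stokes over the `⟨U⟩`-orbits**: the pairing of a `Γ`-invariant function with a potential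
of a homomorphism killing the elements of finite order vanishes (`2` regular in `R`). -/
theorem s41k_pairP_invariant_left (hneg : (-1 : SL(2, ℤ)) ∈ Γ) (h2 : ∀ r : R, 2 * r = 0 → r = 0)
    {ψ : Additive Γ →+ R} {h Q : OnePoint ℚ → R}
    (hh : s41c_IsPotential Γ (0 : Additive Γ →+ R) h) (hQ : s41c_IsPotential Γ ψ Q)
    (hψ : ∀ γ : Γ, IsOfFinOrder γ → ψ (Additive.ofMul γ) = 0) :
    s41c_pairP Γ h Q = 0 := by
  have hos := s41k_orbit_sum (R := R) s41c_U (s41k_U3_smul hneg) (s41k_stokesE Γ h Q)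
    (fun _ => 0) (fun y hy => (s41k_stokesE_fixed hh hQ hψ hy).symm) (fun _ _ => rfl)
  rw [Finset.sum_const_zero, mul_zero, add_zero] at hos
  have hsum : ∑ x : SL(2, ℤ) ⧸ Γ, s41k_stokesE Γ h Q x = 0 := by
    apply h2
    have h1 : ∑ x : SL(2, ℤ) ⧸ Γ, s41k_stokesE Γ h Q (s41c_S • x) =
        ∑ x : SL(2, ℤ) ⧸ Γ, s41k_stokesE Γ h Q x :=
      Equiv.sum_comp (MulAction.toPerm s41c_S) _
    simp only [s41k_stokesE_S hh hQ, Finset.sum_neg_distrib] at h1
    linear_combination -h1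
  rw [s41c_pairP, ← hsum, ← hos]
  exact finsum_congr fun o => s41k_triP_eq_stokes hh hQ _

end Indep

section Linear

variable {Γ : Subgroup SL(2, ℤ)} {R : Type*} [CommRing R]

theorem s41k_cup_add_left (P P' Q : OnePoint ℚ → R) (a b c : OnePoint ℚ) :
    s41c_cup (P + P') Q a b c = s41c_cup P Q a b c + s41c_cup P' Q a b c := by
  unfold s41c_cup; simp only [Pi.add_apply]; ring

theorem s41k_cup_smul_left (r : R) (P Q : OnePoint ℚ → R) (a b c : OnePoint ℚ) :
    s41c_cup (r • P) Q a b c = r * s41c_cup P Q a b c := by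
  unfold s41c_cup; simp only [Pi.smul_apply, smul_eq_mul]; ring

theorem s41k_cup_neg_left (P Q : OnePoint ℚ → R) (a b c : OnePoint ℚ) :
    s41c_cup (-P) Q a b c = - s41c_cup P Q a b c := by
  unfold s41c_cup; simp only [Pi.neg_apply]; ring

theorem s41k_cup_swap (P Q : OnePoint ℚ → R) (a b c : OnePoint ℚ) :
    s41c_cup Q P a b c = - s41c_cup P Q a b c := by
  unfold s41c_cup; ring

theorem s41k_cup_self (P : OnePoint ℚ → R) (a b c : OnePoint ℚ) : s41c_cup P P a b c = 0 := by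
  unfold s41c_cup; ring

variable [Finite (SL(2, ℤ) ⧸ Γ)]

theorem s41k_pairP_add_left (P P' Q : OnePoint ℚ → R) :
    s41c_pairP Γ (P + P') Q = s41c_pairP Γ P Q + s41c_pairP Γ P' Q := by
  unfold s41c_pairP
  rw [← finsum_add_distrib (Set.toFinite _) (Set.toFinite _)]
  exact finsum_congr fun o => s41k_cup_add_left P P' Q _ _ _

theorem s41k_pairP_smul_left (r : R) (P Q : OnePoint ℚ → R) :
    s41c_pairP Γ (r • P) Q = r * s41c_pairP Γ P Q := by
  unfold s41c_pairP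
  rw [mul_finsum' _ _ (Set.toFinite _)]
  exact finsum_congr fun o => s41k_cup_smul_left r P Q _ _ _

theorem s41k_pairP_swap (P Q : OnePoint ℚ → R) : s41c_pairP Γ Q P = - s41c_pairP Γ P Q := by
  unfold s41c_pairP
  rw [← finsum_neg_distrib]
  exact finsum_congr fun o => s41k_cup_swap P Q _ _ _

theorem s41k_pairP_self (P : OnePoint ℚ → R) : s41c_pairP Γ P P = 0 := by
  unfold s41c_pairP
  rw [← finsum_zero (α := MulAction.orbitRel.Quotient (Subgroup.zpowers s41c_U) (SL(2, ℤ) ⧸ Γ))]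
  exact finsum_congr fun o => s41k_cup_self P _ _ _

theorem s41k_pairP_neg_left (P Q : OnePoint ℚ → R) :
    s41c_pairP Γ (-P) Q = - s41c_pairP Γ P Q := by
  have := s41k_pairP_smul_left (Γ := Γ) (-1 : R) P Q
  rwa [neg_one_smul, neg_one_mul] at this

theorem s41k_pairP_sub_left (P P' Q : OnePoint ℚ → R) :
    s41c_pairP Γ (P - P') Q = s41c_pairP Γ P Q - s41c_pairP Γ P' Q := by
  rw [sub_eq_add_neg, s41k_pairP_add_left, s41k_pairP_neg_left, ← sub_eq_add_neg]

theorem s41k_pairP_add_right (P Q Q' : OnePoint ℚ → R) :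
    s41c_pairP Γ P (Q + Q') = s41c_pairP Γ P Q + s41c_pairP Γ P Q' := by
  rw [s41k_pairP_swap, s41k_pairP_add_left, s41k_pairP_swap P Q, s41k_pairP_swap P Q']; ring

theorem s41k_pairP_smul_right (r : R) (P Q : OnePoint ℚ → R) :
    s41c_pairP Γ P (r • Q) = r * s41c_pairP Γ P Q := by
  rw [s41k_pairP_swap, s41k_pairP_smul_left, s41k_pairP_swap P Q]; ring

theorem s41k_pairP_sub_right (P Q Q' : OnePoint ℚ → R) :
    s41c_pairP Γ P (Q - Q') = s41c_pairP Γ P Q - s41c_pairP Γ P Q' := by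
  rw [s41k_pairP_swap, s41k_pairP_sub_left, s41k_pairP_swap P Q, s41k_pairP_swap P Q']; ring

theorem s41k_cup_map {R' : Type*} [CommRing R'] (f : R →+* R') (P Q : OnePoint ℚ → R)
    (a b c : OnePoint ℚ) :
    s41c_cup (fun α => f (P α)) (fun α => f (Q α)) a b c = f (s41c_cup P Q a b c) := by
  unfold s41c_cup; simp only [map_sub, map_mul]

/-- Base change of the pairing of two functions on cusps. -/
theorem s41k_pairP_map {R' : Type*} [CommRing R'] (f : R →+* R') (P Q : OnePoint ℚ → R) :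
    s41c_pairP Γ (fun α => f (P α)) (fun α => f (Q α)) = f (s41c_pairP Γ P Q) := by
  unfold s41c_pairP
  have := AddMonoidHom.map_finsum f.toAddMonoidHom
    (f := fun o : MulAction.orbitRel.Quotient (Subgroup.zpowers s41c_U) (SL(2, ℤ) ⧸ Γ) =>
      s41c_triP Γ P Q o.out) (Set.toFinite _)
  rw [show f (∑ᶠ o : MulAction.orbitRel.Quotient (Subgroup.zpowers s41c_U) (SL(2, ℤ) ⧸ Γ),
      s41c_triP Γ P Q o.out) = f.toAddMonoidHom (∑ᶠ o : MulAction.orbitRel.Quotient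
      (Subgroup.zpowers s41c_U) (SL(2, ℤ) ⧸ Γ), s41c_triP Γ P Q o.out) from rfl, this]
  exact finsum_congr fun o => s41k_cup_map f P Q _ _ _

end Linear

section Potentials

variable {Γ : Subgroup SL(2, ℤ)} {R : Type*} [CommRing R]

theorem s41k_IsPotential_add {φ φ' : Additive Γ →+ R} {P P' : OnePoint ℚ → R}
    (hP : s41c_IsPotential Γ φ P) (hP' : s41c_IsPotential Γ φ' P') :
    s41c_IsPotential Γ (φ + φ') (P + P') := by
  intro γ α
  simp only [Pi.add_apply, AddMonoidHom.add_apply, hP γ α, hP' γ α]; ring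

theorem s41k_IsPotential_sub {φ φ' : Additive Γ →+ R} {P P' : OnePoint ℚ → R}
    (hP : s41c_IsPotential Γ φ P) (hP' : s41c_IsPotential Γ φ' P') :
    s41c_IsPotential Γ (φ - φ') (P - P') := by
  intro γ α
  simp only [Pi.sub_apply, AddMonoidHom.sub_apply, hP γ α, hP' γ α]; ring

theorem s41k_IsPotential_smul (r : R) {φ : Additive Γ →+ R} {P : OnePoint ℚ → R}
    (hP : s41c_IsPotential Γ φ P) : s41c_IsPotential Γ (r • φ) (r • P) := by
  intro γ α
  simp only [Pi.smul_apply, AddMonoidHom.smul_apply, hP γ α, smul_eq_mul]; ring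

theorem s41k_IsPotential_map {R' : Type*} [CommRing R'] (f : R →+* R') {φ : Additive Γ →+ R}
    {P : OnePoint ℚ → R} (hP : s41c_IsPotential Γ φ P) :
    s41c_IsPotential Γ (f.toAddMonoidHom.comp φ) (fun α => f (P α)) := by
  intro γ α
  simp only [hP γ α, map_add]; rfl

variable [Fintype (SL(2, ℤ) ⧸ Γ)]

/-- **Independence of the potentials.** -/
theorem s41k_pairP_congr (hneg : (-1 : SL(2, ℤ)) ∈ Γ) (h2 : ∀ r : R, 2 * r = 0 → r = 0)
    {φ ψ : Additive Γ →+ R} {P P' Q Q' : OnePoint ℚ → R}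
    (hP : s41c_IsPotential Γ φ P) (hP' : s41c_IsPotential Γ φ P')
    (hQ : s41c_IsPotential Γ ψ Q) (hQ' : s41c_IsPotential Γ ψ Q')
    (hφ : ∀ γ : Γ, IsOfFinOrder γ → φ (Additive.ofMul γ) = 0)
    (hψ : ∀ γ : Γ, IsOfFinOrder γ → ψ (Additive.ofMul γ) = 0) :
    s41c_pairP Γ P Q = s41c_pairP Γ P' Q' := by
  have h1 : s41c_pairP Γ (P - P') Q = 0 := by
    have hd := s41k_IsPotential_sub hP hP'
    rw [sub_self] at hd
    exact s41k_pairP_invariant_left hneg h2 hd hQ hψ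
  have h2' : s41c_pairP Γ (Q - Q') P' = 0 := by
    have hd := s41k_IsPotential_sub hQ hQ'
    rw [sub_self] at hd
    exact s41k_pairP_invariant_left hneg h2 hd hP' hφ
  rw [s41k_pairP_sub_left] at h1
  rw [s41k_pairP_sub_left, s41k_pairP_swap P' Q, s41k_pairP_swap P' Q'] at h2'
  linear_combination h1 - h2'

/-- The pairing is computed by any pair of potentials. -/
theorem s41k_pairing_eq (hneg : (-1 : SL(2, ℤ)) ∈ Γ) (h2 : ∀ r : R, 2 * r = 0 → r = 0)
    {φ ψ : Additive Γ →+ R} {P Q : OnePoint ℚ → R}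
    (hP : s41c_IsPotential Γ φ P) (hQ : s41c_IsPotential Γ ψ Q)
    (hφp : IsParabolicHom Γ φ) (hψp : IsParabolicHom Γ ψ)
    (hφ : ∀ γ : Γ, IsOfFinOrder γ → φ (Additive.ofMul γ) = 0)
    (hψ : ∀ γ : Γ, IsOfFinOrder γ → ψ (Additive.ofMul γ) = 0) :
    s41c_pairing Γ φ ψ = s41c_pairP Γ P Q :=
  s41k_pairP_congr hneg h2 (s41c_potential_spec hφp) hP (s41c_potential_spec hψp) hQ hφ hψ

end Potentials

end Fermat.Agent.Lib.S41
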