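/-
S41 project, module family [B] (helper5): `s41c_pairP = 2 • s41b_pairP` — the orbit form of the
pairing (helper4/helper9, `∑` over the `⟨U⟩`-orbits of the triangle function) is twice the
section form, in every commutative ring (no division; per-orbit polynomial identity).
-/
import Mathlib
import Fermat.Agent.Lib.S41.BPair
import Fermat.Agent.Lib.S41.CPair

set_option autoImplicit false

open Matrix MatrixGroups OnePoint

namespace Fermat.Agent.Lib.S41

section Two

variable {Γ : Subgroup SL(2, ℤ)} [Fintype (SL(2, ℤ) ⧸ Γ)] {R : Type*} [CommRing R]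
variable {φ ψ : Additive Γ →+ R}

theorem s41b_pairP_two (hΓ : (-1 : SL(2, ℤ)) ∈ Γ)
    {P : OnePoint ℚ → R} {PE : s41b_YE → R} {PF : s41b_YF → R}
    {Q : OnePoint ℚ → R} {QE : s41b_YE → R} {QF : s41b_YF → R}
    (hP : s41b_IsPot Γ φ P) (hPE : s41b_IsPot Γ φ PE) (hPF : s41b_IsPot Γ φ PF)
    (hQ : s41b_IsPot Γ ψ Q) (hQE : s41b_IsPot Γ ψ QE) (hQF : s41b_IsPot Γ ψ QF) :
    s41c_pairP Γ P Q = 2 * s41b_pairP Γ P QE QF := by
  -- notation
  set v := s41b_diff Γ P s41c_o0 P s41c_o1 with hv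
  set v' := s41b_diff Γ Q s41c_o0 Q s41c_o1 with hv'
  set a := s41b_diff Γ P s41c_o0 PE s41b_e0 with ha
  set b := s41b_diff Γ P s41c_o0 PF s41b_f0 with hb
  set a' := s41b_diff Γ Q s41c_o0 QE s41b_e0 with ha'
  set b' := s41b_diff Γ Q s41c_o0 QF s41b_f0 with hb'
  have hva : v = a - a ∘ s41b_sigma Γ := s41b_triple_a hP hPE
  have hvb : v = b - b ∘ s41b_tau Γ := s41b_triple_b hP hPF
  have hva' : v' = a' - a' ∘ s41b_sigma Γ := s41b_triple_a hQ hQE
  have hvb' : v' = b' - b' ∘ s41b_tau Γ := s41b_triple_b hQ hQF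
  -- pointwise forms
  have pv : ∀ x, v x = b x - b (s41c_U⁻¹ • x) := fun x => by
    have := congrFun hvb x
    simpa only [Pi.sub_apply, Function.comp_apply, s41b_tau_apply] using this
  have pv' : ∀ x, v' x = b' x - b' (s41c_U⁻¹ • x) := fun x => by
    have := congrFun hvb' x
    simpa only [Pi.sub_apply, Function.comp_apply, s41b_tau_apply] using this
  -- the function `E`
  let E : SL(2, ℤ) ⧸ Γ → R := fun y => 2 * (v y * b' y) - v y * v' y
  have hEfix : ∀ y, s41c_U • y = y → (0 : R) = E y := by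
    intro y hy
    have hy' : s41c_U⁻¹ • y = y := by rw [inv_smul_eq_iff, hy]
    have : v y = 0 := by rw [pv y, hy', sub_self]
    simp only [E, this]; ring
  have hos := s41k_orbit_sum (R := R) s41c_U (s41k_U3_smul hΓ) E (fun _ => 0) hEfix
    (fun _ _ => rfl)
  rw [Finset.sum_const_zero, mul_zero, add_zero] at hos
  -- per orbit identity
  have horb : ∀ x : SL(2, ℤ) ⧸ Γ,
      s41c_triP Γ P Q x = E x + E (s41c_U • x) + E (s41c_U • s41c_U • x) := by
    intro x
    rw [s41c_triP_eq_edgeFun (φ := φ) (ψ := ψ) hP hQ]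
    show v x * v' (s41c_U⁻¹ • x) - v (s41c_U⁻¹ • x) * v' x = _
    have hU2 : s41c_U⁻¹ • x = s41c_U • s41c_U • x := s41k_Uinv_smul hΓ x
    have e1 : s41c_U⁻¹ • (s41c_U • x) = x := inv_smul_smul _ _
    have e2 : s41c_U⁻¹ • (s41c_U • s41c_U • x) = s41c_U • x := inv_smul_smul _ _
    simp only [E]
    rw [hU2, pv x, pv' x, pv (s41c_U • x), pv' (s41c_U • x), pv (s41c_U • s41c_U • x),
      pv' (s41c_U • s41c_U • x), e1, e2, hU2]
    ring
  -- assemble
  have F1 : 2 * v ⬝ᵥ a' = v ⬝ᵥ v' := by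
    have hvσ : v ∘ s41b_sigma Γ = - v := by
      funext x
      have h1 := congrFun hva x
      have h2 := congrFun hva (s41b_sigma Γ x)
      simp only [Pi.sub_apply, Function.comp_apply, s41b_sigma_sq hΓ] at h1 h2
      simp only [Function.comp_apply, Pi.neg_apply, h1, h2]; ring
    have e1 : v ⬝ᵥ a' = (v ∘ s41b_sigma Γ) ⬝ᵥ (a' ∘ s41b_sigma Γ) :=
      (s41b_dot_comp (s41b_sigma Γ) v a').symm
    rw [hvσ, neg_dotProduct] at e1
    have e2 : v ⬝ᵥ v' = v ⬝ᵥ a' - v ⬝ᵥ (a' ∘ s41b_sigma Γ) := by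
      conv_lhs => rw [hva']
      rw [dotProduct_sub]
    linear_combination e1 - e2
  have hsumE : ∑ y, E y = 2 * v ⬝ᵥ b' - v ⬝ᵥ v' := by
    simp only [E, dotProduct, Finset.sum_sub_distrib, Finset.mul_sum]
  have h1 : s41c_pairP Γ P Q = ∑ y, E y := by
    rw [← hos]
    exact finsum_congr (fun o => horb (Quotient.out o))
  unfold s41b_pairP
  rw [s41b_d_eq Q QE QF, dotProduct_sub, h1, hsumE]
  linear_combination F1

end Two

end Fermat.Agent.Lib.S41
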