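/-
S41 project, module family [B] (helper5): **(DIM)** for `Γ₀(N)` and **nondegeneracy** of the
pairing `s41c_pairing (Gamma0 N)` on `H(N, 𝔽_p) = s29h_Hp N p` (`p` odd).

* `s41b_finrank_Hpar_complex` : `dim_ℂ H(N, ℂ) = rank_ℤ s29s_M N`;
* `s41b_finrank_Hp` : `dim_{𝔽_p} H(N, 𝔽_p) = rank_ℤ s29s_M N`;
* `s41b_lift` : every class of `H(N, 𝔽_p)` is the reduction of a class of the lattice `s29s_M N`;
* `s41b_nondeg` : the pairing is nondegenerate on `H(N, 𝔽_p)`.
-/
import Mathlib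
import Fermat.Agent.Lib.S41.BDim
import Fermat.Agent.Lib.S41.BTwo
import Fermat.Agent.Lib.S29.DSLattice
import Fermat.Agent.Lib.Period.ParDim

set_option autoImplicit false
set_option linter.unusedSectionVars false
set_option linter.style.haveILetI false

open Matrix MatrixGroups OnePoint ModularCurve.Period Module CongruenceSubgroup

namespace Fermat.Agent.Lib.S41

open Fermat.Agent.Lib.S29

section Lift

variable (N : ℕ) [NeZero N]

theorem s41b_H_eq_Hpar (F : Type*) [Field F] : s41b_H (Gamma0 N) F = s29h_Hpar F N F := by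
  ext φ
  exact Iff.rfl

noncomputable instance s41b_fintype_quot : Fintype (SL(2, ℤ) ⧸ Gamma0 N) := Fintype.ofFinite _

/-- the number `n(X)` of the Manin model -/
noncomputable def s41b_n : ℕ := finrank ℂ (s29h_Hpar ℂ N ℂ)

theorem s41b_count_complex :
    finrank ℂ (s29h_Hpar ℂ N ℂ) + s41b_q (s41b_sigma (Gamma0 N)) + s41b_q (s41b_tau (Gamma0 N)) +
      s41b_q (s41b_tau (Gamma0 N) * (s41b_sigma (Gamma0 N))⁻¹) =
        Fintype.card (SL(2, ℤ) ⧸ Gamma0 N) + 2 := by
  have := s41b_finrank_H_eq (Gamma0 N) ℂ (Fermat.Agent.Lib.Period.pmD_neg_one_mem_Gamma0 N)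
  rwa [s41b_H_eq_Hpar] at this

theorem s41b_count_field (F : Type*) [Field F] :
    FiniteDimensional F (s29h_Hpar F N F) ∧
    finrank F (s29h_Hpar F N F) + s41b_q (s41b_sigma (Gamma0 N)) + s41b_q (s41b_tau (Gamma0 N)) +
      s41b_q (s41b_tau (Gamma0 N) * (s41b_sigma (Gamma0 N))⁻¹) ≤
        Fintype.card (SL(2, ℤ) ⧸ Gamma0 N) + 2 := by
  have := s41b_finrank_H_le (Gamma0 N) F
  rwa [s41b_H_eq_Hpar] at this

variable {N}
variable {ι : Type*} [Fintype ι] [DecidableEq ι] (b : Module.Basis ι ℤ (s29s_M N))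
include b

/-- `dim_ℂ H(N, ℂ) = rank s29s_M N`. -/
theorem s41b_finrank_Hpar_complex : finrank ℂ (s29h_Hpar ℂ N ℂ) = Fintype.card ι := by
  let c : ι → s29h_Hpar ℂ N ℂ := fun i =>
    ⟨s29s_castB b ℂ i, s29s_cast_mem_Hpar ℂ ℂ (b i).2⟩
  have hli : LinearIndependent ℂ c := by
    refine LinearIndependent.of_comp (s29h_Hpar ℂ N ℂ).subtype ?_
    exact s29s_castB_linearIndependent_complex b
  have hspan : ⊤ ≤ Submodule.span ℂ (Set.range c) := by
    rintro ⟨ψ, hψ⟩ -
    obtain ⟨m, hm⟩ := s29s_exists_coeffs b ψ hψ.1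
    have : (⟨ψ, hψ⟩ : s29h_Hpar ℂ N ℂ) = ∑ i, m i • c i := by
      apply Subtype.ext
      rw [Submodule.coe_sum]
      simp only [Submodule.coe_smul]
      exact hm
    rw [this]
    exact Submodule.sum_mem _ fun i _ => Submodule.smul_mem _ _ (Submodule.subset_span ⟨i, rfl⟩)
  exact finrank_eq_card_basis (Basis.mk hli hspan)

variable (p : ℕ) [Fact p.Prime]

/-- **(DIM)**, numerical form. -/
theorem s41b_finrank_Hp :
    FiniteDimensional (ZMod p) (s29h_Hp N p) ∧ finrank (ZMod p) (s29h_Hp N p) = Fintype.card ι := by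
  obtain ⟨hfd, hle⟩ := s41b_count_field N (ZMod p)
  haveI := hfd
  have hC := s41b_count_complex N
  rw [s41b_finrank_Hpar_complex b] at hC
  let c : ι → s29h_Hp N p := fun i =>
    ⟨s29s_castB b (ZMod p) i, s29s_cast_mem_Hpar (ZMod p) (ZMod p) (b i).2⟩
  have hli : LinearIndependent (ZMod p) c := by
    refine LinearIndependent.of_comp (s29h_Hp N p).subtype ?_
    exact s29s_castB_linearIndependent_zmod b p
  have hge : Fintype.card ι ≤ finrank (ZMod p) (s29h_Hp N p) := hli.fintype_card_le_finrank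
  refine ⟨hfd, ?_⟩
  have hle' : finrank (ZMod p) (s29h_Hp N p) + s41b_q (s41b_sigma (Gamma0 N)) +
      s41b_q (s41b_tau (Gamma0 N)) + s41b_q (s41b_tau (Gamma0 N) * (s41b_sigma (Gamma0 N))⁻¹) ≤
        Fintype.card (SL(2, ℤ) ⧸ Gamma0 N) + 2 := hle
  omega

/-- **(DIM)**: every class mod `p` lifts to the lattice. -/
theorem s41b_lift (x : Additive (Gamma0 N) →+ ZMod p) (hx : x ∈ s29h_Hp N p) :
    ∃ χ ∈ s29s_M N, s29s_cast (ZMod p) χ = x := by
  obtain ⟨hfd, hrank⟩ := s41b_finrank_Hp b p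
  haveI := hfd
  let c : ι → s29h_Hp N p := fun i =>
    ⟨s29s_castB b (ZMod p) i, s29s_cast_mem_Hpar (ZMod p) (ZMod p) (b i).2⟩
  have hli : LinearIndependent (ZMod p) c := by
    refine LinearIndependent.of_comp (s29h_Hp N p).subtype ?_
    exact s29s_castB_linearIndependent_zmod b p
  let B := basisOfLinearIndependentOfCardEqFinrank' c hli hrank.symm
  have hB : ∀ i, B i = c i := fun i => by
    simp only [B, coe_basisOfLinearIndependentOfCardEqFinrank']
  have hsum := B.sum_repr ⟨x, hx⟩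
  have hlift : ∀ i, ∃ z : ℤ, (z : ZMod p) = B.repr ⟨x, hx⟩ i := fun i =>
    ZMod.intCast_surjective _
  choose z hz using hlift
  refine ⟨∑ i, z i • (b i : Additive (Gamma0 N) →+ ℤ), ?_, ?_⟩
  · exact Submodule.sum_mem _ fun i _ => Submodule.smul_mem _ _ (b i).2
  · rw [map_sum]
    have h2 := congrArg (fun y : s29h_Hp N p => (y : Additive (Gamma0 N) →+ ZMod p)) hsum
    simp only [Submodule.coe_sum, Submodule.coe_smul, hB] at h2
    rw [← h2]
    refine Finset.sum_congr rfl fun i _ => ?_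
    rw [s29s_cast_zsmul, hz]
    rfl

end Lift

end Fermat.Agent.Lib.S41
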