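/-
S41 project, module family [B] (helper5): **nondegeneracy** of the pairing `s41c_pairing (Gamma0 N)`
on `H(N, 𝔽_p) = s29h_Hp N p` for odd `p` — (PD)(a).
-/
import Mathlib
import Fermat.Agent.Lib.S41.BLift

set_option autoImplicit false
set_option linter.unusedSectionVars false
set_option linter.style.haveILetI false

open Matrix MatrixGroups OnePoint ModularCurve.Period Module CongruenceSubgroup

namespace Fermat.Agent.Lib.S41

open Fermat.Agent.Lib.S29

section Nondeg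

variable (N : ℕ) [NeZero N] (p : ℕ) [Fact p.Prime]

theorem s41b_two_regular (hp2 : p ≠ 2) (r : ZMod p) (h : 2 * r = 0) : r = 0 := by
  have h2 : (2 : ZMod p) ≠ 0 := by
    intro h0
    have : ((2 : ℕ) : ZMod p) = 0 := by exact_mod_cast h0
    rw [ZMod.natCast_eq_zero_iff] at this
    have hp := (Fact.out : p.Prime)
    exact hp2 ((Nat.prime_dvd_prime_iff_eq hp Nat.prime_two).mp this)
  exact (mul_eq_zero.mp h).resolve_left h2

/-- the Manin count over `𝔽_p` is an equality -/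
theorem s41b_count_zmod :
    finrank (ZMod p) (s41b_H (Gamma0 N) (ZMod p)) + s41b_q (s41b_sigma (Gamma0 N)) +
      s41b_q (s41b_tau (Gamma0 N)) + s41b_q (s41b_tau (Gamma0 N) * (s41b_sigma (Gamma0 N))⁻¹) =
        Fintype.card (SL(2, ℤ) ⧸ Gamma0 N) + 2 := by
  classical
  let b := Module.Free.chooseBasis ℤ (s29s_M N)
  have h1 := (s41b_finrank_Hp b p).2
  have h2 := s41b_count_complex N
  rw [s41b_finrank_Hpar_complex b] at h2
  rw [s41b_H_eq_Hpar]
  have h1' : finrank (ZMod p) (s29h_Hpar (ZMod p) N (ZMod p)) =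
      Fintype.card (Module.Free.ChooseBasisIndex ℤ (s29s_M N)) := h1
  omega

/-- **(PD)(a)**: nondegeneracy on `H(N, 𝔽_p)`. -/
theorem s41b_nondeg (hp2 : p ≠ 2) (φ : Additive (Gamma0 N) →+ ZMod p) (hφ : φ ∈ s29h_Hp N p)
    (h : ∀ ψ ∈ s29h_Hp N p, s41c_pairing (Gamma0 N) φ ψ = 0) : φ = 0 := by
  classical
  have hΓ : (-1 : SL(2, ℤ)) ∈ Gamma0 N := Fermat.Agent.Lib.Period.pmD_neg_one_mem_Gamma0 N
  have h2reg := s41b_two_regular p hp2
  have hP : s41b_IsPot (Gamma0 N) φ (s41c_potential (Gamma0 N) φ) := s41c_potential_spec hφ.1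
  obtain ⟨PE, hPE⟩ := s41b_exists_potE hφ.2
  obtain ⟨PF, hPF⟩ := s41b_exists_potF hφ.2
  set P := s41c_potential (Gamma0 N) φ with hPdef
  have hva := s41b_triple_a hP hPE
  have hvb := s41b_triple_b hP hPF
  -- `v_φ` is in the radical of the section form
  have key : ∀ a' b' : SL(2, ℤ) ⧸ Gamma0 N → ZMod p,
      a' - a' ∘ s41b_sigma (Gamma0 N) = b' - b' ∘ s41b_tau (Gamma0 N) →
      (s41b_diff (Gamma0 N) P s41c_o0 P s41c_o1) ⬝ᵥ (b' - a') = 0 := by
    intro a' b' hab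
    have hv' : a' - a' ∘ s41b_sigma (Gamma0 N) ∈
        s41b_Vc (ZMod p) (s41b_sigma (Gamma0 N)) (s41b_tau (Gamma0 N)) :=
      (s41b_mem_Vc (ZMod p)).mpr ⟨a', b', rfl, hab⟩
    obtain ⟨pp, hpp, hrad⟩ := s41b_surj_mod_Rad (Gamma0 N) (ZMod p) (s41b_count_zmod N p) _ hv'
    obtain ⟨Q, hQ, hQw⟩ := hpp
    obtain ⟨hh, hhv, hhh⟩ := (s41b_mem_Rad (ZMod p)).mp hrad
    have hψ : (pp.1 : Additive (Gamma0 N) →+ ZMod p) ∈ s29h_Hp N p := pp.1.2
    obtain ⟨QE, hQE⟩ := s41b_exists_potE hψ.2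
    obtain ⟨QF, hQF⟩ := s41b_exists_potF hψ.2
    have hwa := s41b_triple_a hQ hQE
    have hwb := s41b_triple_b hQ hQF
    rw [hQw] at hwa hwb
    -- sections of `v' = w + (h - h ∘ σ)`
    have hs1 : a' - a' ∘ s41b_sigma (Gamma0 N) =
        (s41b_diff (Gamma0 N) Q s41c_o0 QE s41b_e0 + hh) -
          (s41b_diff (Gamma0 N) Q s41c_o0 QE s41b_e0 + hh) ∘ s41b_sigma (Gamma0 N) := by
      have e : a' - a' ∘ s41b_sigma (Gamma0 N) = pp.2 + (hh - hh ∘ s41b_sigma (Gamma0 N)) := by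
        rw [← hhv]; abel
      rw [e]
      conv_lhs => rw [hwa]
      funext x
      simp only [Pi.add_apply, Pi.sub_apply, Function.comp_apply]
      ring
    have hs2 : a' - a' ∘ s41b_sigma (Gamma0 N) =
        (s41b_diff (Gamma0 N) Q s41c_o0 QF s41b_f0 + hh) -
          (s41b_diff (Gamma0 N) Q s41c_o0 QF s41b_f0 + hh) ∘ s41b_tau (Gamma0 N) := by
      have e : a' - a' ∘ s41b_sigma (Gamma0 N) = pp.2 + (hh - hh ∘ s41b_tau (Gamma0 N)) := by
        rw [← hhh, ← hhv]; abel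
      rw [e]
      conv_lhs => rw [hwb]
      funext x
      simp only [Pi.add_apply, Pi.sub_apply, Function.comp_apply]
      ring
    have hind := s41b_pair_indep (s41b_sigma (Gamma0 N)) (s41b_tau (Gamma0 N)) hva hvb
      (rfl : a' - a' ∘ s41b_sigma (Gamma0 N) = a' - a' ∘ s41b_sigma (Gamma0 N)) hab hs1 hs2
    rw [hind]
    have hd : (s41b_diff (Gamma0 N) Q s41c_o0 QF s41b_f0 + hh) -
        (s41b_diff (Gamma0 N) Q s41c_o0 QE s41b_e0 + hh) =
        s41b_diff (Gamma0 N) QE s41b_e0 QF s41b_f0 := by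
      rw [s41b_d_eq Q QE QF]; abel
    rw [hd]
    -- now the pairing
    have h2 := s41b_pairP_two hΓ hP hPE hPF hQ hQE hQF
    have h3 := s41k_pairing_eq hΓ h2reg hP hQ hφ.1 hψ.1 hφ.2 hψ.2
    have h4 := h _ hψ
    rw [h3, h2] at h4
    exact h2reg _ h4
  obtain ⟨hh, hv, hhh⟩ := s41b_radical (s41b_sigma (Gamma0 N)) (s41b_tau (Gamma0 N)) key
  exact s41b_inj hP hhh hv

end Nondeg

end Fermat.Agent.Lib.S41
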