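/-
S41 project, module family [C] (helper4): T-FORM ADJOINTNESS of restriction and transfer for the
cup-product sums (helper5's work order #1558).

`Γ' ≤ Γ ≤ SL(2, ℤ)`, right coset representatives `g : ι → SL(2, ℤ)`, `g i ∈ Γ`,
`Γ = ⊔ Γ' g_i`, and a coset family `g_i γ = fam γ i * g_{perm γ i}` (`fam γ i ∈ Γ'`).
* `s41c_corPot g Q = ∑ i, Q ∘ (g i • ·)`;
* `s41c_corPot_isPotential` : if `Q` is a potential of `ψ' : Γ' → R` then `corPot g Q` is a
  potential of the transfer `γ ↦ ∑ i, ψ' (fam γ i)`;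
* `s41c_isPotential_of_le` : a `Γ`-potential of `φ` is a `Γ'`-potential of the restriction;
* `s41c_sum_triP_cor` : `∑ x : G ⧸ Γ, triP Γ P (corPot g Q) x = ∑ x' : G ⧸ Γ', triP Γ' P Q x'`
  for every `Γ`-potential `P` (any commutative ring).
-/
import Mathlib
import Fermat.Agent.Lib.S41.CDefs

set_option autoImplicit false

open Matrix MatrixGroups OnePoint Matrix.SpecialLinearGroup ModularCurve.Period

namespace Fermat.Agent.Lib.S41

section Adj

variable {Γ' Γ : Subgroup SL(2, ℤ)} {R : Type*} [CommRing R] {ι : Type*} [Fintype ι]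

/-- The transfer of a function on cusps along coset representatives. -/
def s41c_corPot (g : ι → SL(2, ℤ)) (Q : OnePoint ℚ → R) : OnePoint ℚ → R :=
  fun a => ∑ i, Q (g i • a)

/-- The transfer of a potential is a potential of the transferred homomorphism. -/
theorem s41c_corPot_isPotential (g : ι → SL(2, ℤ)) (perm : Γ → ι → ι)
    (hperm : ∀ γ, Function.Bijective (perm γ)) (fam : Γ → ι → Γ')
    (spec : ∀ (γ : Γ) (i : ι), g i * (γ : SL(2, ℤ)) = (fam γ i : SL(2, ℤ)) * g (perm γ i))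
    {ψ' : Additive Γ' →+ R} {Q : OnePoint ℚ → R} (hQ : s41c_IsPotential Γ' ψ' Q)
    (φ₂ : Additive Γ →+ R)
    (hφ₂ : ∀ γ : Γ, φ₂ (Additive.ofMul γ) = ∑ i, ψ' (Additive.ofMul (fam γ i))) :
    s41c_IsPotential Γ φ₂ (s41c_corPot g Q) := by
  intro γ a
  unfold s41c_corPot
  have h1 : ∀ i, Q (g i • (γ : SL(2, ℤ)) • a) =
      Q (g (perm γ i) • a) + ψ' (Additive.ofMul (fam γ i)) := by
    intro i
    rw [← mul_smul, spec γ i, mul_smul, hQ (fam γ i)]
  simp only [h1, Finset.sum_add_distrib]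
  rw [(hperm γ).sum_comp (fun j => Q (g j • a)), hφ₂]

/-- A `Γ`-potential is a `Γ'`-potential of the restriction. -/
theorem s41c_isPotential_of_le (hle : Γ' ≤ Γ) {φ : Additive Γ →+ R} {P : OnePoint ℚ → R}
    (hP : s41c_IsPotential Γ φ P) :
    s41c_IsPotential Γ' (φ.comp (MonoidHom.toAdditive (Subgroup.inclusion hle))) P := by
  intro γ' a
  exact hP (Subgroup.inclusion hle γ') a

theorem s41c_cup_sum_right (P : OnePoint ℚ → R) (Qs : ι → OnePoint ℚ → R) (a b c : OnePoint ℚ) :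
    s41c_cup P (fun x => ∑ i, Qs i x) a b c = ∑ i, s41c_cup P (Qs i) a b c := by
  unfold s41c_cup
  rw [← Finset.sum_sub_distrib, ← Finset.sum_sub_distrib,
    Finset.mul_sum, Finset.mul_sum, ← Finset.sum_sub_distrib]

/-- Moving an element of `Γ` from the second potential to the points. -/
theorem s41c_cup_comp_right {φ : Additive Γ →+ R} {P : OnePoint ℚ → R}
    (hP : s41c_IsPotential Γ φ P) (Q : OnePoint ℚ → R) {γ : SL(2, ℤ)} (hγ : γ ∈ Γ)
    (a b c : OnePoint ℚ) :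
    s41c_cup P (fun x => Q (γ • x)) a b c = s41c_cup P Q (γ • a) (γ • b) (γ • c) := by
  unfold s41c_cup
  have h := hP ⟨γ, hγ⟩
  simp only at h
  rw [h a, h b, h c]; ring

omit [Fintype ι] in
/-- The map `(x, i) ↦ x.out * (g i)⁻¹ Γ'` from `(G ⧸ Γ) × ι` to `G ⧸ Γ'` is bijective. -/
theorem s41c_fibre_bijective (hle : Γ' ≤ Γ) (g : ι → SL(2, ℤ)) (hg : ∀ i, g i ∈ Γ)
    (hinj : ∀ i j, g j * (g i)⁻¹ ∈ Γ' → i = j) (hcov : ∀ γ ∈ Γ, ∃ i, γ * (g i)⁻¹ ∈ Γ') :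
    Function.Bijective (fun p : (SL(2, ℤ) ⧸ Γ) × ι =>
      ((p.1.out * (g p.2)⁻¹ : SL(2, ℤ)) : SL(2, ℤ) ⧸ Γ')) := by
  constructor
  · rintro ⟨x, i⟩ ⟨y, j⟩ h
    simp only at h
    rw [QuotientGroup.eq] at h
    -- `g i x.out⁻¹ y.out (g j)⁻¹ ∈ Γ'`
    have h1 : g i * (x.out⁻¹ * y.out) * (g j)⁻¹ ∈ Γ' := by
      have : (x.out * (g i)⁻¹)⁻¹ * (y.out * (g j)⁻¹) = g i * (x.out⁻¹ * y.out) * (g j)⁻¹ := by
        group
      rwa [this] at h
    have h2 : x.out⁻¹ * y.out ∈ Γ := by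
      have h3 := hle h1
      have h4 := Γ.mul_mem (Γ.mul_mem (Γ.inv_mem (hg i)) h3) (hg j)
      have : (g i)⁻¹ * (g i * (x.out⁻¹ * y.out) * (g j)⁻¹) * g j = x.out⁻¹ * y.out := by group
      rwa [this] at h4
    have hxy : x = y := by
      rw [← QuotientGroup.out_eq' x, ← QuotientGroup.out_eq' y]
      exact QuotientGroup.eq.mpr h2
    subst hxy
    have h5 : g i * (g j)⁻¹ ∈ Γ' := by
      have : g i * (x.out⁻¹ * x.out) * (g j)⁻¹ = g i * (g j)⁻¹ := by group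
      rwa [this] at h1
    have := hinj j i h5
    rw [this]
  · intro x'
    induction x' using QuotientGroup.induction_on with
    | H k =>
      obtain ⟨γ₀, hγ₀⟩ := QuotientGroup.mk_out_eq_mul Γ k
      obtain ⟨i, hi⟩ := hcov γ₀ γ₀.2
      refine ⟨⟨(k : SL(2, ℤ) ⧸ Γ), i⟩, ?_⟩
      simp only
      rw [QuotientGroup.eq, hγ₀]
      have : (k * (γ₀ : SL(2, ℤ)) * (g i)⁻¹)⁻¹ * k = ((γ₀ : SL(2, ℤ)) * (g i)⁻¹)⁻¹ := by group
      rw [this]
      exact Γ'.inv_mem hi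

/-- **T-form adjointness.**  The cup-product sum over `G ⧸ Γ` against a transferred potential
equals the cup-product sum over `G ⧸ Γ'` against the original potential. -/
theorem s41c_sum_triP_cor [Fintype (SL(2, ℤ) ⧸ Γ)] [Fintype (SL(2, ℤ) ⧸ Γ')] (hle : Γ' ≤ Γ)
    (g : ι → SL(2, ℤ)) (hg : ∀ i, g i ∈ Γ)
    (hinj : ∀ i j, g j * (g i)⁻¹ ∈ Γ' → i = j) (hcov : ∀ γ ∈ Γ, ∃ i, γ * (g i)⁻¹ ∈ Γ')
    {φ : Additive Γ →+ R} {P : OnePoint ℚ → R} (hP : s41c_IsPotential Γ φ P)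
    {ψ' : Additive Γ' →+ R} {Q : OnePoint ℚ → R} (hQ : s41c_IsPotential Γ' ψ' Q) :
    ∑ x : SL(2, ℤ) ⧸ Γ, s41c_triP Γ P (s41c_corPot g Q) x =
      ∑ x' : SL(2, ℤ) ⧸ Γ', s41c_triP Γ' P Q x' := by
  have hP' := s41c_isPotential_of_le hle hP
  have hterm : ∀ x : SL(2, ℤ) ⧸ Γ, s41c_triP Γ P (s41c_corPot g Q) x =
      ∑ i, s41c_triP Γ' P Q ((x.out * (g i)⁻¹ : SL(2, ℤ)) : SL(2, ℤ) ⧸ Γ') := by
    intro x
    unfold s41c_triP s41c_corPot
    rw [s41c_cup_sum_right]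
    refine Finset.sum_congr rfl (fun i _ => ?_)
    rw [s41c_cup_comp_right hP Q (hg i)]
    have := s41c_triP_mk hP' hQ (x.out * (g i)⁻¹)
    unfold s41c_triP at this
    rw [this]
    simp only [_root_.mul_inv_rev, inv_inv, mul_smul]
  simp only [hterm]
  rw [← Finset.sum_product']
  exact Fintype.sum_bijective _ (s41c_fibre_bijective hle g hg hinj hcov) _ _ (fun p => rfl)

end Adj

end Fermat.Agent.Lib.S41
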