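/-
S41 project, module family [C] (helper4): the FAREY GRAPH on `ℙ¹(ℚ) = OnePoint ℚ`.

* `s41c_N x`, `s41c_D x` : numerator / denominator of a cusp (`∞ = 1/0`);
* `s41c_det a b = N a * D b - N b * D a`, `s41c_Adj a b := det a b = 1 ∨ det a b = -1`
  (the Farey adjacency);
* `s41c_lp b` : the left Stern–Brocot parent of a cusp of denominator `≥ 2`;
* **(T0)** `s41c_farey_connected` : a function on cusps which is equal on adjacent cusps is
  constant;
* **(T1)** `s41c_farey_H1` : every alternating function `c` on oriented Farey edges with zero sum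
  around every Farey triangle is a coboundary `c a b = f b - f a` (simple connectedness of the
  Farey complex, by Stern–Brocot recursion on denominators; pure `ℤ`-arithmetic).
-/
import Mathlib

set_option autoImplicit false

open OnePoint

namespace Fermat.Agent.Lib.S41

/-! ### Integer arithmetic -/

theorem s41c_bezout (r s : ℤ) (hs : 2 ≤ s) (h : IsCoprime r s) :
    ∃ p q : ℤ, 0 < q ∧ q < s ∧ r * q - p * s = 1 := by
  obtain ⟨u, v, huv⟩ := h
  refine ⟨-(v + r * (u / s)), u % s, ?_, Int.emod_lt_of_pos u (by omega), ?_⟩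
  · have h0 : 0 ≤ u % s := Int.emod_nonneg u (by omega)
    rcases h0.lt_or_eq with h1 | h1
    · exact h1
    · exfalso
      have hdiv : s ∣ 1 := by
        have h2 : s ∣ u := Int.dvd_of_emod_eq_zero h1.symm
        rw [← huv]
        exact dvd_add (h2.mul_right r) (dvd_mul_left s v)
      have := Int.le_of_dvd one_pos hdiv
      omega
  · have h3 := Int.emod_add_mul_ediv u s
    linear_combination huv + r * h3

theorem s41c_dvd_of_mul_eq (r s u v : ℤ) (h : IsCoprime r s) (he : r * u = v * s) : s ∣ u := by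
  have h1 : s ∣ r * u := ⟨v, by rw [he]; ring⟩
  exact h.symm.dvd_of_dvd_mul_left h1

/-! ### Numerators and denominators of cusps -/

/-- The numerator of a cusp (`1` for `∞`). -/
def s41c_N (x : OnePoint ℚ) : ℤ := x.elim 1 Rat.num

/-- The denominator of a cusp (`0` for `∞`). -/
def s41c_D (x : OnePoint ℚ) : ℕ := x.elim 0 Rat.den

@[simp] theorem s41c_N_infty : s41c_N ∞ = 1 := rfl
@[simp] theorem s41c_D_infty : s41c_D ∞ = 0 := rfl
@[simp] theorem s41c_N_coe (x : ℚ) : s41c_N (x : OnePoint ℚ) = x.num := rfl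
@[simp] theorem s41c_D_coe (x : ℚ) : s41c_D (x : OnePoint ℚ) = x.den := rfl

theorem s41c_D_eq_zero {x : OnePoint ℚ} : s41c_D x = 0 ↔ x = ∞ := by
  induction x using OnePoint.rec with
  | infty => simp
  | coe x => simp [x.den_ne_zero]

theorem s41c_coprime (x : OnePoint ℚ) : IsCoprime (s41c_N x) (s41c_D x : ℤ) := by
  induction x using OnePoint.rec with
  | infty => exact isCoprime_one_left
  | coe x =>
    simp only [s41c_N_coe, s41c_D_coe]
    rw [Int.isCoprime_iff_gcd_eq_one]
    have := x.reduced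
    simpa [Int.gcd, Nat.Coprime] using this

theorem s41c_ext {x y : OnePoint ℚ} (hN : s41c_N x = s41c_N y) (hD : s41c_D x = s41c_D y) :
    x = y := by
  induction x using OnePoint.rec with
  | infty =>
    have : s41c_D y = 0 := by rw [← hD]; rfl
    exact (s41c_D_eq_zero.mp this).symm
  | coe x =>
    induction y using OnePoint.rec with
    | infty =>
      exfalso
      simp only [s41c_D_coe, s41c_D_infty] at hD
      exact x.den_ne_zero hD
    | coe y =>
      simp only [s41c_N_coe, s41c_D_coe] at hN hD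
      rw [Rat.ext hN hD]

theorem s41c_exists_of_coprime (p q : ℤ) (hq : 0 < q) (h : IsCoprime p q) :
    ∃ y : OnePoint ℚ, s41c_N y = p ∧ (s41c_D y : ℤ) = q := by
  have h1 : Nat.Coprime p.natAbs q.natAbs := by
    have := Int.isCoprime_iff_gcd_eq_one.mp h
    simpa [Int.gcd, Nat.Coprime] using this
  exact ⟨((p / q : ℚ) : OnePoint ℚ), Rat.num_div_eq_of_coprime hq h1,
    Rat.den_div_eq_of_coprime hq h1⟩

/-! ### The Farey adjacency -/

/-- `det a b = N a * D b - N b * D a`. -/
def s41c_det (a b : OnePoint ℚ) : ℤ := s41c_N a * s41c_D b - s41c_N b * s41c_D a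

/-- Farey adjacency of cusps. -/
def s41c_Adj (a b : OnePoint ℚ) : Prop := s41c_det a b = 1 ∨ s41c_det a b = -1

theorem s41c_det_swap (a b : OnePoint ℚ) : s41c_det b a = - s41c_det a b := by
  unfold s41c_det; ring

theorem s41c_det_self (a : OnePoint ℚ) : s41c_det a a = 0 := by
  unfold s41c_det; ring

theorem s41c_Adj.symm {a b : OnePoint ℚ} (h : s41c_Adj a b) : s41c_Adj b a := by
  unfold s41c_Adj at *
  rw [s41c_det_swap]
  rcases h with h | h <;> rw [h] <;> simp

theorem s41c_Adj_comm {a b : OnePoint ℚ} : s41c_Adj a b ↔ s41c_Adj b a :=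
  ⟨s41c_Adj.symm, s41c_Adj.symm⟩

theorem s41c_Adj.ne {a b : OnePoint ℚ} (h : s41c_Adj a b) : a ≠ b := by
  rintro rfl
  unfold s41c_Adj at h
  rw [s41c_det_self] at h
  omega

theorem s41c_Adj_infty_iff {x : OnePoint ℚ} : s41c_Adj ∞ x ↔ s41c_D x = 1 := by
  unfold s41c_Adj s41c_det
  simp only [s41c_N_infty, s41c_D_infty, one_mul, Nat.cast_zero, mul_zero, sub_zero]
  omega

/-! ### Stern–Brocot parents -/

theorem s41c_lp_exists (b : OnePoint ℚ) (hb : 2 ≤ s41c_D b) :
    ∃ y : OnePoint ℚ, 0 < s41c_D y ∧ s41c_D y < s41c_D b ∧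
      s41c_N b * s41c_D y - s41c_N y * s41c_D b = 1 := by
  obtain ⟨p, q, hq0, hqs, hpq⟩ :=
    s41c_bezout (s41c_N b) (s41c_D b) (by exact_mod_cast hb) (s41c_coprime b)
  have hcop : IsCoprime p q := ⟨-(s41c_D b : ℤ), s41c_N b, by linarith⟩
  obtain ⟨y, hyN, hyD⟩ := s41c_exists_of_coprime p q hq0 hcop
  refine ⟨y, ?_, ?_, ?_⟩
  · have : (0 : ℤ) < s41c_D y := by rw [hyD]; exact hq0
    exact_mod_cast this
  · have : (s41c_D y : ℤ) < s41c_D b := by rw [hyD]; exact hqs
    exact_mod_cast this
  · rw [hyN, hyD]; exact hpq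

/-- The left Stern–Brocot parent of a cusp of denominator `≥ 2` (junk value `∞` otherwise). -/
noncomputable def s41c_lp (b : OnePoint ℚ) : OnePoint ℚ :=
  if h : 2 ≤ s41c_D b then Classical.choose (s41c_lp_exists b h) else ∞

theorem s41c_lp_spec (b : OnePoint ℚ) (h : 2 ≤ s41c_D b) :
    0 < s41c_D (s41c_lp b) ∧ s41c_D (s41c_lp b) < s41c_D b ∧
      s41c_N b * s41c_D (s41c_lp b) - s41c_N (s41c_lp b) * s41c_D b = 1 := by
  rw [s41c_lp, dif_pos h]
  exact Classical.choose_spec (s41c_lp_exists b h)

theorem s41c_lp_adj (b : OnePoint ℚ) (h : 2 ≤ s41c_D b) : s41c_Adj (s41c_lp b) b := by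
  right
  have := (s41c_lp_spec b h).2.2
  unfold s41c_det
  linarith

/-- A lower neighbour with `det = 1` orientation is the left parent. -/
theorem s41c_eq_lp {a b : OnePoint ℚ} (hb : 2 ≤ s41c_D b) (h0 : 0 < s41c_D a)
    (hlt : s41c_D a < s41c_D b) (hdet : s41c_N b * s41c_D a - s41c_N a * s41c_D b = 1) :
    a = s41c_lp b := by
  obtain ⟨l0, l1, l2⟩ := s41c_lp_spec b hb
  have hdvd : (s41c_D b : ℤ) ∣ (s41c_D a : ℤ) - s41c_D (s41c_lp b) :=
    s41c_dvd_of_mul_eq (s41c_N b) (s41c_D b) _ (s41c_N a - s41c_N (s41c_lp b)) (s41c_coprime b)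
      (by linear_combination hdet - l2)
  have hD : (s41c_D a : ℤ) = s41c_D (s41c_lp b) := by
    have := Int.eq_zero_of_abs_lt_dvd hdvd (by rw [abs_lt]; constructor <;> omega)
    linarith
  have hN : s41c_N a = s41c_N (s41c_lp b) := by
    have h1 : (s41c_N a - s41c_N (s41c_lp b)) * (s41c_D b : ℤ) = 0 := by
      rw [hD] at hdet; linear_combination l2 - hdet
    have h2 : (s41c_D b : ℤ) ≠ 0 := by positivity
    have := (mul_eq_zero.mp h1).resolve_right h2
    linarith
  exact s41c_ext hN (by exact_mod_cast hD)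

/-- A lower neighbour with `det = -1` orientation is adjacent to the left parent
(it is the right parent). -/
theorem s41c_adj_lp_of_right {a b : OnePoint ℚ} (hb : 2 ≤ s41c_D b) (h0 : 0 < s41c_D a)
    (hlt : s41c_D a < s41c_D b) (hdet : s41c_N b * s41c_D a - s41c_N a * s41c_D b = -1) :
    s41c_Adj a (s41c_lp b) := by
  obtain ⟨l0, l1, l2⟩ := s41c_lp_spec b hb
  have hdvd : (s41c_D b : ℤ) ∣ (s41c_D a : ℤ) + s41c_D (s41c_lp b) - s41c_D b :=
    s41c_dvd_of_mul_eq (s41c_N b) (s41c_D b) _
      (s41c_N a + s41c_N (s41c_lp b) - s41c_N b) (s41c_coprime b)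
      (by linear_combination hdet + l2)
  have hD : (s41c_D a : ℤ) + s41c_D (s41c_lp b) = s41c_D b := by
    have := Int.eq_zero_of_abs_lt_dvd hdvd (by rw [abs_lt]; constructor <;> omega)
    linarith
  have hN : s41c_N a + s41c_N (s41c_lp b) = s41c_N b := by
    have h1 : (s41c_N a + s41c_N (s41c_lp b) - s41c_N b) * (s41c_D b : ℤ) = 0 := by
      linear_combination (-1 : ℤ) * hdet - l2 + s41c_N b * hD
    have h2 : (s41c_D b : ℤ) ≠ 0 := by positivity
    have := (mul_eq_zero.mp h1).resolve_right h2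
    linarith
  left
  unfold s41c_det
  have e1 : s41c_N a = s41c_N b - s41c_N (s41c_lp b) := by linarith
  have e2 : (s41c_D a : ℤ) = s41c_D b - s41c_D (s41c_lp b) := by linarith
  rw [e1, e2]
  linear_combination l2

/-! ### (T0): the Farey graph is connected -/

theorem s41c_farey_connected {A : Type*} (f : OnePoint ℚ → A)
    (hf : ∀ a b, s41c_Adj a b → f a = f b) (x : OnePoint ℚ) : f x = f ∞ := by
  induction' hn : s41c_D x using Nat.strong_induction_on with n ih generalizing x
  rcases Nat.lt_or_ge n 2 with h2 | h2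
  · rcases Nat.eq_zero_or_pos n with h0 | h0
    · rw [s41c_D_eq_zero.mp (hn.trans h0)]
    · exact (hf ∞ x (s41c_Adj_infty_iff.mpr (by omega))).symm
  · have hb : 2 ≤ s41c_D x := by omega
    rw [← hf _ _ (s41c_lp_adj x hb)]
    exact ih _ (by rw [← hn]; exact (s41c_lp_spec x hb).2.1) _ rfl

/-! ### (T1): the Farey complex is simply connected -/

section H1

variable {F : Type*} [AddCommGroup F]

/-- The potential of an edge function `c`, by Stern–Brocot recursion:
`pot ∞ = 0`, `pot n = c ∞ n`, `pot x = pot (lp x) + c (lp x) x`. -/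
noncomputable def s41c_pot (c : OnePoint ℚ → OnePoint ℚ → F) (x : OnePoint ℚ) : F :=
  if h : 2 ≤ s41c_D x then s41c_pot c (s41c_lp x) + c (s41c_lp x) x
  else if s41c_D x = 1 then c ∞ x else 0
termination_by s41c_D x
decreasing_by exact (s41c_lp_spec x h).2.1

theorem s41c_pot_of_two_le (c : OnePoint ℚ → OnePoint ℚ → F) {x : OnePoint ℚ}
    (h : 2 ≤ s41c_D x) : s41c_pot c x = s41c_pot c (s41c_lp x) + c (s41c_lp x) x := by
  rw [s41c_pot, dif_pos h]

theorem s41c_pot_of_one (c : OnePoint ℚ → OnePoint ℚ → F) {x : OnePoint ℚ}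
    (h : s41c_D x = 1) : s41c_pot c x = c ∞ x := by
  rw [s41c_pot, dif_neg (by omega), if_pos h]

theorem s41c_pot_infty (c : OnePoint ℚ → OnePoint ℚ → F) : s41c_pot c ∞ = 0 := by
  rw [s41c_pot, dif_neg (by simp), if_neg (by simp)]

variable (c : OnePoint ℚ → OnePoint ℚ → F)
  (halt : ∀ a b, s41c_Adj a b → c b a = - c a b)
  (htri : ∀ a b d, s41c_Adj a b → s41c_Adj b d → s41c_Adj d a → c a b + c b d + c d a = 0)

include halt htri in
theorem s41c_H1_step (b : OnePoint ℚ)
    (ih : ∀ a' b', s41c_Adj a' b' → s41c_D a' < s41c_D b → s41c_D b' < s41c_D b →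
      c a' b' = s41c_pot c b' - s41c_pot c a')
    (a : OnePoint ℚ) (hab : s41c_Adj a b) (hle : s41c_D a ≤ s41c_D b) :
    c a b = s41c_pot c b - s41c_pot c a := by
  rcases Nat.lt_or_ge (s41c_D b) 2 with _ | h2
  · -- `D b ≤ 1`
    rcases Nat.eq_zero_or_pos (s41c_D b) with h0 | h0
    · exfalso
      have hb := s41c_D_eq_zero.mp h0
      have ha := s41c_D_eq_zero.mp (by omega : s41c_D a = 0)
      exact hab.ne (ha.trans hb.symm)
    · have hb1 : s41c_D b = 1 := by omega
      rcases Nat.eq_zero_or_pos (s41c_D a) with ha0 | ha0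
      · have ha := s41c_D_eq_zero.mp ha0
        subst ha
        rw [s41c_pot_of_one c hb1, s41c_pot_infty, sub_zero]
      · have ha1 : s41c_D a = 1 := by omega
        have t := htri ∞ a b (s41c_Adj_infty_iff.mpr ha1) hab
          (s41c_Adj_infty_iff.mpr hb1).symm
        rw [s41c_pot_of_one c hb1, s41c_pot_of_one c ha1]
        have e := halt ∞ b (s41c_Adj_infty_iff.mpr hb1)
        rw [e] at t
        have : c a b = c ∞ b - c ∞ a := by
          rw [eq_sub_iff_add_eq, ← sub_eq_zero]
          rw [← t]; abel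
        exact this
  · -- `2 ≤ D b`
    obtain ⟨l0, l1, l2⟩ := s41c_lp_spec b h2
    have ha0 : 0 < s41c_D a := by
      rcases Nat.eq_zero_or_pos (s41c_D a) with ha0 | ha0
      · exfalso
        have ha := s41c_D_eq_zero.mp ha0
        subst ha
        have := s41c_Adj_infty_iff.mp hab
        omega
      · exact ha0
    have halt' : s41c_D a < s41c_D b := by
      rcases Nat.lt_or_ge (s41c_D a) (s41c_D b) with h | h
      · exact h
      · exfalso
        have heq : s41c_D a = s41c_D b := le_antisymm hle h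
        have hdvd : (s41c_D b : ℤ) ∣ s41c_det a b := by
          unfold s41c_det
          rw [heq]
          exact dvd_sub (dvd_mul_left _ _) (dvd_mul_left _ _)
        have h1 : (s41c_D b : ℤ) ∣ 1 := by
          rcases hab with h | h
          · rwa [h] at hdvd
          · rw [h] at hdvd; exact (dvd_neg.mp hdvd)
        have := Int.le_of_dvd one_pos h1
        omega
    rcases hab with hd | hd
    · -- `det a b = 1`, i.e. `N b * D a - N a * D b = -1`: `a` is the right parent
      have hdet : s41c_N b * s41c_D a - s41c_N a * s41c_D b = -1 := by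
        unfold s41c_det at hd; linarith
      have hadj := s41c_adj_lp_of_right h2 ha0 halt' hdet
      have t := htri (s41c_lp b) b a (s41c_lp_adj b h2) (s41c_Adj.symm (Or.inl hd)) hadj
      have e1 := ih a (s41c_lp b) hadj halt' l1
      have e2 := halt a b (Or.inl hd)
      rw [s41c_pot_of_two_le c h2]
      rw [e1, e2] at t
      rw [eq_sub_iff_add_eq, ← sub_eq_zero]
      rw [← neg_eq_zero, ← t]; abel
    · -- `det a b = -1`: `a` is the left parent
      have hdet : s41c_N b * s41c_D a - s41c_N a * s41c_D b = 1 := by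
        unfold s41c_det at hd; linarith
      have := s41c_eq_lp h2 ha0 halt' hdet
      subst this
      rw [s41c_pot_of_two_le c h2]; abel

include halt htri in
/-- **(T1) Farey `H¹ = 0`.**  An alternating function on oriented Farey edges whose sum around
every Farey triangle vanishes is the coboundary of a function on cusps. -/
theorem s41c_farey_H1 :
    ∃ f : OnePoint ℚ → F, f ∞ = 0 ∧ ∀ a b, s41c_Adj a b → c a b = f b - f a := by
  refine ⟨s41c_pot c, s41c_pot_infty c, ?_⟩
  have key : ∀ m : ℕ, ∀ a b, s41c_Adj a b → s41c_D a ≤ m → s41c_D b ≤ m →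
      c a b = s41c_pot c b - s41c_pot c a := by
    intro m
    induction' m using Nat.strong_induction_on with m ih
    intro a b hab ha hb
    rcases Nat.lt_or_ge (s41c_D b) (s41c_D a) with h | h
    · have := s41c_H1_step c halt htri a
        (fun a' b' h' h1 h2 => ih (s41c_D a - 1) (by omega) a' b' h' (by omega) (by omega))
        b hab.symm h.le
      rw [halt b a hab.symm, this]; abel
    · exact s41c_H1_step c halt htri b
        (fun a' b' h' h1 h2 => ih (s41c_D b - 1) (by omega) a' b' h' (by omega) (by omega))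
        a hab h
  intro a b hab
  exact key (max (s41c_D a) (s41c_D b)) a b hab (le_max_left _ _) (le_max_right _ _)

end H1

end Fermat.Agent.Lib.S41
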