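/-
S41 project, module family [C] (helper4): the action of `SL(2, ℤ)` on the Farey graph.

* `s41c_mk a b = (a : b) ∈ ℙ¹(ℚ)`;
* `s41c_slAction : MulAction SL(2, ℤ) (OnePoint ℚ)` (through Mathlib's `GL(2, ℚ)`-action),
  `s41c_smul_mk`, `s41c_smul_ND` (numerator / denominator of `g • x` up to a common sign);
* `s41c_Adj_smul` : the action preserves Farey adjacency;
* `s41c_exists_edge` : every ordered adjacent pair is `(g • ∞, g • 0)`; `s41c_exists_smul_infty`;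
* `s41c_adj_infty_zero` : the common neighbours of `∞` and `0` are `1` and `-1`;
* `s41c_trace_sq_of_fix` : the stabiliser of a cusp consists of elements with `trace² = 4`;
* `s41c_S`, `s41c_U = S T` and the base triangle `o₀ = ∞, o₁ = 0, o₂ = -1`;
* `s41c_T0'`, `s41c_T1'` : (T0), (T1) in the `G`-translate form used by `CAbs.lean`.
-/
import Mathlib
import Fermat.Agent.Lib.S41.CFarey

set_option autoImplicit false

open Matrix MatrixGroups OnePoint Matrix.SpecialLinearGroup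

namespace Fermat.Agent.Lib.S41

/-! ### `(a : b)` -/

/-- `(a : b) ∈ ℙ¹(ℚ)` for integers `a, b`. -/
def s41c_mk (a b : ℤ) : OnePoint ℚ := if b = 0 then ∞ else ((a / b : ℚ) : OnePoint ℚ)

theorem s41c_mk_zero_right (a : ℤ) : s41c_mk a 0 = ∞ := by simp [s41c_mk]

theorem s41c_mk_of_ne {a b : ℤ} (hb : b ≠ 0) : s41c_mk a b = ((a / b : ℚ) : OnePoint ℚ) := by
  simp [s41c_mk, hb]

theorem s41c_mk_ND (x : OnePoint ℚ) : s41c_mk (s41c_N x) (s41c_D x) = x := by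
  induction x using OnePoint.rec with
  | infty => simp [s41c_mk]
  | coe x =>
    simp only [s41c_N_coe, s41c_D_coe]
    rw [s41c_mk_of_ne (by exact_mod_cast x.den_ne_zero)]
    congr 1
    exact_mod_cast Rat.num_div_den x

theorem s41c_mk_neg (a b : ℤ) : s41c_mk (-a) (-b) = s41c_mk a b := by
  by_cases hb : b = 0
  · simp [s41c_mk, hb]
  · rw [s41c_mk_of_ne hb, s41c_mk_of_ne (by simpa using hb)]
    congr 1
    push_cast
    rw [neg_div_neg_eq]

theorem s41c_ND_mk_pos {a b : ℤ} (hb : 0 < b) (h : IsCoprime a b) :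
    s41c_N (s41c_mk a b) = a ∧ (s41c_D (s41c_mk a b) : ℤ) = b := by
  have h1 : Nat.Coprime a.natAbs b.natAbs := by
    have := Int.isCoprime_iff_gcd_eq_one.mp h
    simpa [Int.gcd, Nat.Coprime] using this
  rw [s41c_mk_of_ne hb.ne']
  exact ⟨Rat.num_div_eq_of_coprime hb h1, Rat.den_div_eq_of_coprime hb h1⟩

theorem s41c_ND_mk (a b : ℤ) (h : IsCoprime a b) :
    ∃ ε : ℤ, (ε = 1 ∨ ε = -1) ∧ s41c_N (s41c_mk a b) = ε * a ∧
      (s41c_D (s41c_mk a b) : ℤ) = ε * b := by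
  rcases lt_trichotomy b 0 with hb | hb | hb
  · have h' : IsCoprime (-a) (-b) := h.neg_neg
    obtain ⟨e1, e2⟩ := s41c_ND_mk_pos (by omega : 0 < -b) h'
    rw [s41c_mk_neg] at e1 e2
    exact ⟨-1, Or.inr rfl, by rw [e1]; ring, by rw [e2]; ring⟩
  · subst hb
    have hu : IsUnit a := isCoprime_zero_right.mp h
    rcases Int.isUnit_iff.mp hu with rfl | rfl
    · exact ⟨1, Or.inl rfl, by simp [s41c_mk], by simp [s41c_mk]⟩
    · exact ⟨-1, Or.inr rfl, by simp [s41c_mk], by simp [s41c_mk]⟩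
  · obtain ⟨e1, e2⟩ := s41c_ND_mk_pos hb h
    exact ⟨1, Or.inl rfl, by rw [e1]; ring, by rw [e2]; ring⟩

/-! ### The action of `SL(2, ℤ)` -/

/-- `SL(2, ℤ)` acts on the cusps `ℙ¹(ℚ)` through `GL(2, ℚ)`. -/
instance s41c_slAction : MulAction SL(2, ℤ) (OnePoint ℚ) := MulAction.compHom _ (mapGL ℚ)

theorem s41c_smul_def (g : SL(2, ℤ)) (x : OnePoint ℚ) : g • x = (mapGL ℚ g) • x := rfl

theorem s41c_det_eq_one (g : SL(2, ℤ)) : g 0 0 * g 1 1 - g 0 1 * g 1 0 = 1 := by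
  have := g.det_coe
  rw [Matrix.det_fin_two] at this
  exact this

theorem s41c_smul_mk (g : SL(2, ℤ)) (a b : ℤ) (hab : a ≠ 0 ∨ b ≠ 0) :
    g • s41c_mk a b = s41c_mk (g 0 0 * a + g 0 1 * b) (g 1 0 * a + g 1 1 * b) := by
  rw [s41c_smul_def]
  have e00 : (mapGL ℚ g : GL (Fin 2) ℚ) 0 0 = ((g 0 0 : ℤ) : ℚ) := by simp [mapGL]
  have e01 : (mapGL ℚ g : GL (Fin 2) ℚ) 0 1 = ((g 0 1 : ℤ) : ℚ) := by simp [mapGL]
  have e10 : (mapGL ℚ g : GL (Fin 2) ℚ) 1 0 = ((g 1 0 : ℤ) : ℚ) := by simp [mapGL]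
  have e11 : (mapGL ℚ g : GL (Fin 2) ℚ) 1 1 = ((g 1 1 : ℤ) : ℚ) := by simp [mapGL]
  by_cases hb : b = 0
  · subst hb
    have ha : a ≠ 0 := by tauto
    rw [s41c_mk_zero_right, OnePoint.smul_infty_eq_ite, e00, e10]
    simp only [mul_zero, add_zero]
    by_cases hc : (g 1 0 : ℤ) = 0
    · rw [if_pos (by exact_mod_cast hc), hc, zero_mul, s41c_mk_zero_right]
    · rw [if_neg (by exact_mod_cast hc), s41c_mk_of_ne (mul_ne_zero hc ha)]
      congr 1
      have ha' : (a : ℚ) ≠ 0 := by exact_mod_cast ha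
      have hc' : ((g 1 0 : ℤ) : ℚ) ≠ 0 := by exact_mod_cast hc
      push_cast
      field_simp
  · have hb' : (b : ℚ) ≠ 0 := by exact_mod_cast hb
    rw [s41c_mk_of_ne hb, OnePoint.smul_some_eq_ite, e00, e01, e10, e11]
    by_cases hc : g 1 0 * a + g 1 1 * b = 0
    · have hc' : ((g 1 0 : ℤ) : ℚ) * a + (g 1 1 : ℤ) * b = 0 := by exact_mod_cast hc
      rw [hc, s41c_mk_zero_right, if_pos]
      field_simp
      linarith
    · have hc' : ((g 1 0 : ℤ) : ℚ) * a + (g 1 1 : ℤ) * b ≠ 0 := by exact_mod_cast hc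
      rw [s41c_mk_of_ne hc, if_neg]
      · congr 1
        push_cast
        field_simp
      · intro h0
        apply hc'
        field_simp at h0
        linarith

theorem s41c_ne_zero_or (x : OnePoint ℚ) : s41c_N x ≠ 0 ∨ (s41c_D x : ℤ) ≠ 0 := by
  by_contra h
  rw [not_or, not_not, not_not] at h
  have := s41c_coprime x
  rw [h.1, h.2] at this
  exact not_isCoprime_zero_zero this

theorem s41c_coprime_image (g : SL(2, ℤ)) {a b : ℤ} (h : IsCoprime a b) :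
    IsCoprime (g 0 0 * a + g 0 1 * b) (g 1 0 * a + g 1 1 * b) := by
  obtain ⟨u, v, huv⟩ := h
  have hd := s41c_det_eq_one g
  refine ⟨u * g 1 1 - v * g 1 0, -u * g 0 1 + v * g 0 0, ?_⟩
  linear_combination (u * a + v * b) * hd + huv

/-- Numerator and denominator of `g • x`, up to a common sign. -/
theorem s41c_smul_ND (g : SL(2, ℤ)) (x : OnePoint ℚ) :
    ∃ ε : ℤ, (ε = 1 ∨ ε = -1) ∧
      s41c_N (g • x) = ε * (g 0 0 * s41c_N x + g 0 1 * s41c_D x) ∧
      (s41c_D (g • x) : ℤ) = ε * (g 1 0 * s41c_N x + g 1 1 * s41c_D x) := by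
  have h1 : g • x = s41c_mk (g 0 0 * s41c_N x + g 0 1 * s41c_D x)
      (g 1 0 * s41c_N x + g 1 1 * s41c_D x) := by
    conv_lhs => rw [← s41c_mk_ND x]
    exact s41c_smul_mk g _ _ (s41c_ne_zero_or x)
  rw [h1]
  exact s41c_ND_mk _ _ (s41c_coprime_image g (s41c_coprime x))

theorem s41c_det_smul (g : SL(2, ℤ)) (a b : OnePoint ℚ) :
    s41c_det (g • a) (g • b) = s41c_det a b ∨ s41c_det (g • a) (g • b) = - s41c_det a b := by
  obtain ⟨ε, hε, e1, e2⟩ := s41c_smul_ND g a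
  obtain ⟨η, hη, f1, f2⟩ := s41c_smul_ND g b
  have hd := s41c_det_eq_one g
  have key : s41c_det (g • a) (g • b) = ε * η * s41c_det a b := by
    unfold s41c_det
    rw [e1, e2, f1, f2]
    linear_combination ε * η * (s41c_N a * s41c_D b - s41c_N b * s41c_D a) * hd
  rw [key]
  rcases hε with rfl | rfl <;> rcases hη with rfl | rfl <;> simp

theorem s41c_Adj_smul_of (g : SL(2, ℤ)) {a b : OnePoint ℚ} (h : s41c_Adj a b) :
    s41c_Adj (g • a) (g • b) := by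
  unfold s41c_Adj at *
  rcases s41c_det_smul g a b with e | e <;> rw [e] <;> rcases h with h | h <;> rw [h] <;> simp

theorem s41c_Adj_smul (g : SL(2, ℤ)) {a b : OnePoint ℚ} :
    s41c_Adj (g • a) (g • b) ↔ s41c_Adj a b := by
  refine ⟨fun h => ?_, s41c_Adj_smul_of g⟩
  have := s41c_Adj_smul_of g⁻¹ h
  rwa [inv_smul_smul, inv_smul_smul] at this

/-! ### Transitivity on cusps and on oriented edges -/

/-- The integer matrix with columns `(a, c)`, `(b, d)` of determinant one. -/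
def s41c_mat (a b c d : ℤ) (h : a * d - b * c = 1) : SL(2, ℤ) :=
  ⟨!![a, b; c, d], by rw [Matrix.det_fin_two_of]; exact h⟩

theorem s41c_mat_smul_infty (a b c d : ℤ) (h : a * d - b * c = 1) :
    s41c_mat a b c d h • (∞ : OnePoint ℚ) = s41c_mk a c := by
  have := s41c_smul_mk (s41c_mat a b c d h) 1 0 (Or.inl one_ne_zero)
  rw [s41c_mk_zero_right] at this
  rw [this]
  simp [s41c_mat]

theorem s41c_mat_smul_zero (a b c d : ℤ) (h : a * d - b * c = 1) :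
    s41c_mat a b c d h • (((0 : ℚ) : OnePoint ℚ)) = s41c_mk b d := by
  have h0 : (((0 : ℚ) : OnePoint ℚ)) = s41c_mk 0 1 := by simp [s41c_mk]
  rw [h0, s41c_smul_mk _ 0 1 (Or.inr one_ne_zero)]
  simp [s41c_mat]

theorem s41c_exists_smul_infty (x : OnePoint ℚ) : ∃ g : SL(2, ℤ), g • (∞ : OnePoint ℚ) = x := by
  obtain ⟨u, v, huv⟩ := s41c_coprime x
  refine ⟨s41c_mat (s41c_N x) (-v) (s41c_D x) u (by linear_combination huv), ?_⟩
  rw [s41c_mat_smul_infty, s41c_mk_ND]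

/-- Every ordered adjacent pair of cusps is `(g • ∞, g • 0)`. -/
theorem s41c_exists_edge {a b : OnePoint ℚ} (h : s41c_Adj a b) :
    ∃ g : SL(2, ℤ), g • (∞ : OnePoint ℚ) = a ∧ g • (((0 : ℚ) : OnePoint ℚ)) = b := by
  rcases h with h | h
  · refine ⟨s41c_mat (s41c_N a) (s41c_N b) (s41c_D a) (s41c_D b)
      (by unfold s41c_det at h; linarith), ?_, ?_⟩
    · rw [s41c_mat_smul_infty, s41c_mk_ND]
    · rw [s41c_mat_smul_zero, s41c_mk_ND]
  · refine ⟨s41c_mat (s41c_N a) (-s41c_N b) (s41c_D a) (-(s41c_D b : ℤ))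
      (by unfold s41c_det at h; linarith), ?_, ?_⟩
    · rw [s41c_mat_smul_infty, s41c_mk_ND]
    · rw [s41c_mat_smul_zero, s41c_mk_neg, s41c_mk_ND]

theorem s41c_adj_infty_zero : s41c_Adj (∞ : OnePoint ℚ) (((0 : ℚ) : OnePoint ℚ)) := by
  rw [s41c_Adj_infty_iff]; simp

/-- The common neighbours of `∞` and `0` are `1` and `-1`. -/
theorem s41c_common_nbr {x : OnePoint ℚ} (h1 : s41c_Adj ∞ x)
    (h2 : s41c_Adj (((0 : ℚ) : OnePoint ℚ)) x) :
    x = (((1 : ℚ) : OnePoint ℚ)) ∨ x = (((-1 : ℚ) : OnePoint ℚ)) := by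
  have hD : s41c_D x = 1 := s41c_Adj_infty_iff.mp h1
  unfold s41c_Adj s41c_det at h2
  simp only [s41c_N_coe, s41c_D_coe, Rat.num_zero, Rat.den_zero, zero_mul, Nat.cast_one, mul_one,
    zero_sub] at h2
  rcases h2 with h2 | h2
  · right
    exact s41c_ext (by simp; linarith) (by simp [hD])
  · left
    exact s41c_ext (by simp; linarith) (by simp [hD])

/-- The stabiliser of a cusp consists of parabolic elements (or `±1`). -/
theorem s41c_trace_sq_of_fix {g : SL(2, ℤ)} {x : OnePoint ℚ} (h : g • x = x) :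
    (g : Matrix (Fin 2) (Fin 2) ℤ).trace ^ 2 = 4 := by
  obtain ⟨ε, hε, e1, e2⟩ := s41c_smul_ND g x
  rw [h] at e1 e2
  obtain ⟨u, v, huv⟩ := s41c_coprime x
  have hd := s41c_det_eq_one g
  rw [Matrix.trace_fin_two]
  have hε2 : ε * ε = 1 := by rcases hε with rfl | rfl <;> norm_num
  -- `(ε g - 1) (n, d) = 0`
  set n := s41c_N x
  set d := (s41c_D x : ℤ)
  have k1 : (ε * g 0 0 - 1) * n + ε * g 0 1 * d = 0 := by linarith
  have k2 : ε * g 1 0 * n + (ε * g 1 1 - 1) * d = 0 := by linarith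
  have D0 : (ε * g 0 0 - 1) * (ε * g 1 1 - 1) - ε * g 0 1 * (ε * g 1 0) = 0 := by
    have a1 : ((ε * g 0 0 - 1) * (ε * g 1 1 - 1) - ε * g 0 1 * (ε * g 1 0)) * n = 0 := by
      linear_combination (ε * g 1 1 - 1) * k1 - ε * g 0 1 * k2
    have a2 : ((ε * g 0 0 - 1) * (ε * g 1 1 - 1) - ε * g 0 1 * (ε * g 1 0)) * d = 0 := by
      linear_combination (ε * g 0 0 - 1) * k2 - ε * g 1 0 * k1
    linear_combination u * a1 + v * a2 - ((ε * g 0 0 - 1) * (ε * g 1 1 - 1) - ε * g 0 1 * (ε * g 1 0)) * huv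
  have tr : ε * (g 0 0 + g 1 1) = 2 := by
    linear_combination (-1 : ℤ) * D0 + (g 0 0 * g 1 1 - g 0 1 * g 1 0) * hε2 + hd
  have : (g 0 0 + g 1 1) ^ 2 = (ε * (g 0 0 + g 1 1)) ^ 2 := by
    rw [mul_pow, sq ε, hε2, one_mul]
  rw [this, tr]; norm_num

/-! ### `S`, `U` and the base triangle -/

/-- `S = [[0, -1], [1, 0]]`. -/
def s41c_S : SL(2, ℤ) := s41c_mat 0 (-1) 1 0 (by norm_num)

/-- `U = S T = [[0, -1], [1, 1]]`, of order `3` in `PSL(2, ℤ)`. -/
def s41c_U : SL(2, ℤ) := s41c_mat 0 (-1) 1 1 (by norm_num)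

/-- `o₀ = ∞`. -/
def s41c_o0 : OnePoint ℚ := ∞
/-- `o₁ = 0`. -/
def s41c_o1 : OnePoint ℚ := ((0 : ℚ) : OnePoint ℚ)
/-- `o₂ = -1`. -/
def s41c_o2 : OnePoint ℚ := ((-1 : ℚ) : OnePoint ℚ)

theorem s41c_mk_zero_one : s41c_mk 0 1 = s41c_o1 := by simp [s41c_mk, s41c_o1]
theorem s41c_mk_neg_one_one : s41c_mk (-1) 1 = s41c_o2 := by simp [s41c_mk, s41c_o2]
theorem s41c_mk_one_one : s41c_mk 1 1 = (((1 : ℚ) : OnePoint ℚ)) := by simp [s41c_mk]
theorem s41c_mk_one_zero : s41c_mk 1 0 = s41c_o0 := by simp [s41c_mk, s41c_o0]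
theorem s41c_mk_neg_one_zero : s41c_mk (-1) 0 = s41c_o0 := by simp [s41c_mk, s41c_o0]

theorem s41c_S_o0 : s41c_S • s41c_o0 = s41c_o1 := by
  rw [s41c_o0, s41c_S, s41c_mat_smul_infty, s41c_mk_zero_one]

theorem s41c_S_o1 : s41c_S • s41c_o1 = s41c_o0 := by
  rw [s41c_o1, s41c_S, s41c_mat_smul_zero, s41c_mk_neg_one_zero]

theorem s41c_U_o0 : s41c_U • s41c_o0 = s41c_o1 := by
  rw [s41c_o0, s41c_U, s41c_mat_smul_infty, s41c_mk_zero_one]

theorem s41c_U_o1 : s41c_U • s41c_o1 = s41c_o2 := by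
  rw [s41c_o1, s41c_U, s41c_mat_smul_zero, s41c_mk_neg_one_one]

theorem s41c_U_o2 : s41c_U • s41c_o2 = s41c_o0 := by
  rw [← s41c_mk_neg_one_one, s41c_smul_mk _ _ _ (Or.inr one_ne_zero)]
  simp [s41c_U, s41c_mat, s41c_mk, s41c_o0]

theorem s41c_S_o2 : s41c_S • s41c_o2 = (((1 : ℚ) : OnePoint ℚ)) := by
  rw [← s41c_mk_neg_one_one, s41c_smul_mk _ _ _ (Or.inr one_ne_zero)]
  simp [s41c_S, s41c_mat, s41c_mk]

/-- Every ordered adjacent pair is a translate of `(o₀, o₁)`. -/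
theorem s41c_exists_edge' {a b : OnePoint ℚ} (h : s41c_Adj a b) :
    ∃ g : SL(2, ℤ), g • s41c_o0 = a ∧ g • s41c_o1 = b := s41c_exists_edge h

/-- Every Farey triangle `(a, b, d)` is a translate of `(o₀, o₁, o₂)` or of `(o₁, o₀, o₂)`. -/
theorem s41c_exists_triangle {a b d : OnePoint ℚ} (hab : s41c_Adj a b) (hbd : s41c_Adj b d)
    (hda : s41c_Adj d a) :
    (∃ g : SL(2, ℤ), g • s41c_o0 = a ∧ g • s41c_o1 = b ∧ g • s41c_o2 = d) ∨
    (∃ g : SL(2, ℤ), g • s41c_o1 = a ∧ g • s41c_o0 = b ∧ g • s41c_o2 = d) := by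
  obtain ⟨g, ha, hb⟩ := s41c_exists_edge' hab
  have h1 : s41c_Adj ∞ (g⁻¹ • d) := by
    rw [← s41c_Adj_smul g, smul_inv_smul]
    change s41c_Adj (g • s41c_o0) d
    rw [ha]; exact hda.symm
  have h2 : s41c_Adj (((0 : ℚ) : OnePoint ℚ)) (g⁻¹ • d) := by
    rw [← s41c_Adj_smul g, smul_inv_smul]
    change s41c_Adj (g • s41c_o1) d
    rw [hb]; exact hbd
  rcases s41c_common_nbr h1 h2 with h | h
  · right
    refine ⟨g * s41c_S, ?_, ?_, ?_⟩
    · rw [mul_smul, s41c_S_o1, ha]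
    · rw [mul_smul, s41c_S_o0, hb]
    · rw [mul_smul, s41c_S_o2, ← h, smul_inv_smul]
  · left
    refine ⟨g, ha, hb, ?_⟩
    change g • (((-1 : ℚ) : OnePoint ℚ)) = d
    rw [← h, smul_inv_smul]

/-- **(T0)** in translate form. -/
theorem s41c_T0' {A : Type*} (f : OnePoint ℚ → A)
    (hf : ∀ g : SL(2, ℤ), f (g • s41c_o0) = f (g • s41c_o1)) (a b : OnePoint ℚ) : f a = f b := by
  have h : ∀ x, f x = f ∞ := s41c_farey_connected f (fun a b hab => by
    obtain ⟨g, rfl, rfl⟩ := s41c_exists_edge' hab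
    exact hf g)
  rw [h a, h b]

/-- **(T1)** in translate form. -/
theorem s41c_T1' {F : Type*} [AddCommGroup F] (c : OnePoint ℚ → OnePoint ℚ → F)
    (halt : ∀ g : SL(2, ℤ), c (g • s41c_o1) (g • s41c_o0) = - c (g • s41c_o0) (g • s41c_o1))
    (htri : ∀ g : SL(2, ℤ), c (g • s41c_o0) (g • s41c_o1) + c (g • s41c_o1) (g • s41c_o2)
      + c (g • s41c_o2) (g • s41c_o0) = 0) :
    ∃ f : OnePoint ℚ → F, ∀ g : SL(2, ℤ),
      c (g • s41c_o0) (g • s41c_o1) = f (g • s41c_o1) - f (g • s41c_o0) := by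
  have halt' : ∀ a b, s41c_Adj a b → c b a = - c a b := by
    intro a b hab
    obtain ⟨g, rfl, rfl⟩ := s41c_exists_edge' hab
    exact halt g
  have htri' : ∀ a b d, s41c_Adj a b → s41c_Adj b d → s41c_Adj d a →
      c a b + c b d + c d a = 0 := by
    intro a b d hab hbd hda
    rcases s41c_exists_triangle hab hbd hda with ⟨g, rfl, rfl, rfl⟩ | ⟨g, rfl, rfl, rfl⟩
    · exact htri g
    · have t := htri g
      rw [halt' _ _ hab.symm, halt' _ _ hbd.symm, halt' _ _ hda.symm]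
      calc _ = -(c (g • s41c_o0) (g • s41c_o1) + c (g • s41c_o1) (g • s41c_o2)
            + c (g • s41c_o2) (g • s41c_o0)) := by abel
        _ = 0 := by rw [t, neg_zero]
  obtain ⟨f, -, hf⟩ := s41c_farey_H1 c halt' htri'
  refine ⟨f, fun g => hf _ _ ?_⟩
  have := s41c_Adj_smul_of g s41c_adj_infty_zero
  exact this

end Fermat.Agent.Lib.S41
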