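import Mathlib
import Fermat.Agent.Lib.S41.CBridge
import Fermat.Agent.Lib.S41.CPair

/-!
# S41 [C]: conjugation by an element of `GL(2, ℚ)` normalising `Γ` is a similitude of the
pairing `s41c_pairing` on parabolic homomorphisms killing the elements of finite order

`Γ ≤ SL(2, ℤ)` of finite index with `-1 ∈ Γ`, `W ∈ GL(2, ℚ)`, `κ : Γ ≃* Γ` with
`W γ = κ(γ) W` in `GL(2, ℚ)` and `κ ∘ κ` inner on each element.

* `s41k_similitude_field`: over a field with `6 ≠ 0`: `∃ c = ±1`,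
  `B(φ ∘ κ, ψ ∘ κ) = c · B(φ, ψ)`.
* `s41k_similitude_int`: the same over `ℤ`.
* `s41k_similitude_lift`: one sign `c = ±1` such that for every commutative ring `R` with `2`
  regular and all `φ, ψ ∈ H(Γ, ℤ)`: `B_R(φ_R ∘ κ, ψ_R ∘ κ) = c · B_R(φ_R, ψ_R)` (`φ_R` the image
  of `φ` in `Hom(Γ, R)`); this covers `R = 𝔽_3`.
-/

set_option autoImplicit false
set_option linter.unusedSectionVars false

namespace Fermat.Agent.Lib.S41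

open scoped BigOperators
open Matrix MatrixGroups OnePoint Matrix.SpecialLinearGroup ModularCurve.Period

/-- Conjugate elements have the same trace. -/
theorem s41k_trace_of_conj {W : GL (Fin 2) ℚ} {g g' : SL(2, ℤ)}
    (h : W * mapGL ℚ g = mapGL ℚ g' * W) :
    (g' : Matrix (Fin 2) (Fin 2) ℤ).trace = (g : Matrix (Fin 2) (Fin 2) ℤ).trace := by
  have h1 : mapGL ℚ g' = W * mapGL ℚ g * W⁻¹ := by
    rw [h, mul_inv_cancel_right]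
  have h2 : ((mapGL ℚ g' : GL (Fin 2) ℚ) : Matrix (Fin 2) (Fin 2) ℚ).trace =
      ((mapGL ℚ g : GL (Fin 2) ℚ) : Matrix (Fin 2) (Fin 2) ℚ).trace := by
    rw [h1, Matrix.GeneralLinearGroup.coe_mul, Matrix.GeneralLinearGroup.coe_mul,
      Matrix.trace_mul_cycle, ← Matrix.GeneralLinearGroup.coe_mul, inv_mul_cancel,
      Matrix.GeneralLinearGroup.coe_one, one_mul]
  rw [mapGL_coe_matrix, mapGL_coe_matrix] at h2
  have h3 : ∀ g : SL(2, ℤ), (g.map (algebraMap ℤ ℚ) : Matrix (Fin 2) (Fin 2) ℚ).trace =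
      (((g : Matrix (Fin 2) (Fin 2) ℤ).trace : ℤ) : ℚ) := by
    intro g
    simp [Matrix.trace, Fin.sum_univ_two]
  rw [h3, h3] at h2
  exact_mod_cast h2

section Twist

variable {Γ : Subgroup SL(2, ℤ)} {A : Type*} [AddCommGroup A]

/-- Precomposition of a homomorphism `Γ → A` with an endomorphism of `Γ`. -/
def s41k_twist (κ : Γ →* Γ) (φ : Additive Γ →+ A) : Additive Γ →+ A :=
  φ.comp (MonoidHom.toAdditive κ)

@[simp] theorem s41k_twist_apply (κ : Γ →* Γ) (φ : Additive Γ →+ A) (γ : Γ) :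
    s41k_twist κ φ (Additive.ofMul γ) = φ (Additive.ofMul (κ γ)) := rfl

theorem s41k_twist_finOrd (κ : Γ →* Γ) {φ : Additive Γ →+ A}
    (hφ : ∀ γ : Γ, IsOfFinOrder γ → φ (Additive.ofMul γ) = 0) :
    ∀ γ : Γ, IsOfFinOrder γ → s41k_twist κ φ (Additive.ofMul γ) = 0 := by
  intro γ hγ
  rw [s41k_twist_apply]
  exact hφ _ (κ.isOfFinOrder hγ)

theorem s41k_twist_parabolic {W : GL (Fin 2) ℚ} (κ : Γ →* Γ)
    (hκ : ∀ γ : Γ, W * mapGL ℚ (γ : SL(2, ℤ)) = mapGL ℚ ((κ γ : Γ) : SL(2, ℤ)) * W)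
    {φ : Additive Γ →+ A} (hφ : IsParabolicHom Γ φ) : IsParabolicHom Γ (s41k_twist κ φ) := by
  intro γ hγ
  rw [s41k_twist_apply]
  apply hφ
  rw [s41k_trace_of_conj (hκ γ)]
  exact hγ

/-- The twisted homomorphism is the original one when `κ ∘ κ` is inner on each element. -/
theorem s41k_twist_twist (κ : Γ →* Γ) (hκ2 : ∀ γ : Γ, ∃ γ₀ : Γ, κ (κ γ) = γ₀ * γ * γ₀⁻¹)
    (φ : Additive Γ →+ A) : s41k_twist κ (s41k_twist κ φ) = φ := by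
  refine AddMonoidHom.ext fun a => ?_
  obtain ⟨γ, rfl⟩ : ∃ γ : Γ, Additive.ofMul γ = a := ⟨Additive.toMul a, rfl⟩
  rw [s41k_twist_apply, s41k_twist_apply]
  obtain ⟨γ₀, h⟩ := hκ2 γ
  rw [h, ofMul_mul, ofMul_mul, map_add, map_add, ofMul_inv, map_neg]
  abel

/-- `P ∘ W` is a potential of `φ ∘ κ`. -/
theorem s41k_potential_twist {W : GL (Fin 2) ℚ} (κ : Γ →* Γ)
    (hκ : ∀ γ : Γ, W * mapGL ℚ (γ : SL(2, ℤ)) = mapGL ℚ ((κ γ : Γ) : SL(2, ℤ)) * W)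
    {φ : Additive Γ →+ A} {P : OnePoint ℚ → A} (hP : s41c_IsPotential Γ φ P) :
    s41c_IsPotential Γ (s41k_twist κ φ) (fun a => P (W • a)) := by
  intro γ α
  show P (W • ((γ : SL(2, ℤ)) • α)) = P (W • α) + φ (Additive.ofMul (κ γ))
  rw [s41c_smul_def, ← mul_smul, hκ γ, mul_smul, ← s41c_smul_def, hP (κ γ)]

theorem s41k_normalizes_of_equiv {W : GL (Fin 2) ℚ} (κ : Γ ≃* Γ)
    (hκ : ∀ γ : Γ, W * mapGL ℚ (γ : SL(2, ℤ)) = mapGL ℚ ((κ γ : Γ) : SL(2, ℤ)) * W) :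
    s41c_Normalizes Γ W := by
  refine ⟨fun γ hγ => ⟨(κ ⟨γ, hγ⟩ : Γ), (κ ⟨γ, hγ⟩).2, hκ ⟨γ, hγ⟩⟩, fun γ hγ => ?_⟩
  refine ⟨(κ.symm ⟨γ, hγ⟩ : Γ), (κ.symm ⟨γ, hγ⟩).2, ?_⟩
  have := hκ (κ.symm ⟨γ, hγ⟩)
  rw [MulEquiv.apply_symm_apply] at this
  -- `W γ' = γ W`  ⇒  `W⁻¹ γ = γ' W⁻¹`
  have h2 : mapGL ℚ ((κ.symm ⟨γ, hγ⟩ : Γ) : SL(2, ℤ)) = W⁻¹ * mapGL ℚ γ * W := by
    rw [mul_assoc, ← this, inv_mul_cancel_left]
  rw [h2, mul_assoc, mul_assoc, mul_inv_cancel, mul_one]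

end Twist

section Main

variable {Γ : Subgroup SL(2, ℤ)}

/-- `φ ∈ H(Γ, A)`: parabolic and trivial on the elements of finite order. -/
def s41k_InH {A : Type*} [AddCommGroup A] (Γ : Subgroup SL(2, ℤ)) (φ : Additive Γ →+ A) : Prop :=
  IsParabolicHom Γ φ ∧ ∀ γ : Γ, IsOfFinOrder γ → φ (Additive.ofMul γ) = 0

theorem s41k_InH.twist {A : Type*} [AddCommGroup A] {W : GL (Fin 2) ℚ} (κ : Γ →* Γ)
    (hκ : ∀ γ : Γ, W * mapGL ℚ (γ : SL(2, ℤ)) = mapGL ℚ ((κ γ : Γ) : SL(2, ℤ)) * W)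
    {φ : Additive Γ →+ A} (hφ : s41k_InH Γ φ) : s41k_InH Γ (s41k_twist κ φ) :=
  ⟨s41k_twist_parabolic κ hκ hφ.1, s41k_twist_finOrd κ hφ.2⟩

/-- Base change of a homomorphism along a ring homomorphism. -/
def s41k_bc {R R' : Type*} [CommRing R] [CommRing R'] (f : R →+* R') (φ : Additive Γ →+ R) :
    Additive Γ →+ R' := f.toAddMonoidHom.comp φ

@[simp] theorem s41k_bc_apply {R R' : Type*} [CommRing R] [CommRing R'] (f : R →+* R')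
    (φ : Additive Γ →+ R) (a : Additive Γ) : s41k_bc f φ a = f (φ a) := rfl

theorem s41k_InH.bc {R R' : Type*} [CommRing R] [CommRing R'] (f : R →+* R')
    {φ : Additive Γ →+ R} (hφ : s41k_InH Γ φ) : s41k_InH Γ (s41k_bc f φ) := by
  refine ⟨fun γ hγ => ?_, fun γ hγ => ?_⟩
  · rw [s41k_bc_apply, hφ.1 γ hγ, map_zero]
  · rw [s41k_bc_apply, hφ.2 γ hγ, map_zero]

theorem s41k_twist_bc {R R' : Type*} [CommRing R] [CommRing R'] (f : R →+* R') (κ : Γ →* Γ)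
    (φ : Additive Γ →+ R) : s41k_twist κ (s41k_bc f φ) = s41k_bc f (s41k_twist κ φ) := rfl

variable [Fintype (SL(2, ℤ) ⧸ Γ)]

/-- Base change of the pairing. -/
theorem s41k_pairing_bc {R R' : Type*} [CommRing R] [CommRing R'] (f : R →+* R')
    (hneg : (-1 : SL(2, ℤ)) ∈ Γ) (h2 : ∀ r : R', 2 * r = 0 → r = 0)
    {φ ψ : Additive Γ →+ R} (hφ : s41k_InH Γ φ) (hψ : s41k_InH Γ ψ) :
    s41c_pairing Γ (s41k_bc f φ) (s41k_bc f ψ) = f (s41c_pairing Γ φ ψ) := by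
  have hP : s41c_IsPotential Γ (s41k_bc f φ) (fun α => f (s41c_potential Γ φ α)) :=
    s41k_IsPotential_map f (s41c_potential_spec hφ.1)
  have hQ : s41c_IsPotential Γ (s41k_bc f ψ) (fun α => f (s41c_potential Γ ψ α)) :=
    s41k_IsPotential_map f (s41c_potential_spec hψ.1)
  rw [s41k_pairing_eq hneg h2 hP hQ (hφ.bc f).1 (hψ.bc f).1 (hφ.bc f).2 (hψ.bc f).2,
    s41k_pairP_map]
  rfl

/-- **[C] over a field with `6 ≠ 0`.** -/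
theorem s41k_similitude_field {F : Type*} [Field F] (h2 : (2 : F) ≠ 0) (h3 : (3 : F) ≠ 0)
    (hneg : (-1 : SL(2, ℤ)) ∈ Γ) {W : GL (Fin 2) ℚ} (κ : Γ ≃* Γ)
    (hκ : ∀ γ : Γ, W * mapGL ℚ (γ : SL(2, ℤ)) = mapGL ℚ ((κ γ : Γ) : SL(2, ℤ)) * W)
    (hκ2 : ∀ γ : Γ, ∃ γ₀ : Γ, κ (κ γ) = γ₀ * γ * γ₀⁻¹) :
    ∃ c : F, (c = 1 ∨ c = -1) ∧ ∀ φ ψ : Additive Γ →+ F, s41k_InH Γ φ → s41k_InH Γ ψ →
      s41c_pairing Γ (s41k_twist κ.toMonoidHom φ) (s41k_twist κ.toMonoidHom ψ) =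
        c * s41c_pairing Γ φ ψ := by
  have h2' : ∀ r : F, 2 * r = 0 → r = 0 := fun r hr => (mul_eq_zero.mp hr).resolve_left h2
  have hκ' : ∀ γ : Γ, W * mapGL ℚ (γ : SL(2, ℤ)) =
      mapGL ℚ ((κ.toMonoidHom γ : Γ) : SL(2, ℤ)) * W := hκ
  obtain ⟨c₀, -, h⟩ := s41c_similitude_sum (F := F) h2 h3 hneg (s41k_normalizes_of_equiv κ hκ)
  have key : ∀ φ ψ : Additive Γ →+ F, s41k_InH Γ φ → s41k_InH Γ ψ →
      s41c_pairing Γ (s41k_twist κ.toMonoidHom φ) (s41k_twist κ.toMonoidHom ψ) =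
        c₀ * s41c_pairing Γ φ ψ := by
    intro φ ψ hφ hψ
    have hP := s41c_potential_spec hφ.1
    have hQ := s41c_potential_spec hψ.1
    have hPW := s41k_potential_twist κ.toMonoidHom hκ' hP
    have hQW := s41k_potential_twist κ.toMonoidHom hκ' hQ
    have e1 := h φ ψ _ _ hP hQ
    rw [s41k_sum_triP hneg hPW hQW, s41k_sum_triP hneg hP hQ] at e1
    have e2 : s41c_pairP Γ (fun a => s41c_potential Γ φ (W • a))
        (fun a => s41c_potential Γ ψ (W • a)) =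
        c₀ * s41c_pairP Γ (s41c_potential Γ φ) (s41c_potential Γ ψ) := by
      apply mul_left_cancel₀ h3
      linear_combination e1
    rw [s41k_pairing_eq hneg h2' hPW hQW (hφ.twist _ hκ').1 (hψ.twist _ hκ').1
      (hφ.twist _ hκ').2 (hψ.twist _ hκ').2, e2]
    rfl
  by_cases hz : ∀ φ ψ : Additive Γ →+ F, s41k_InH Γ φ → s41k_InH Γ ψ → s41c_pairing Γ φ ψ = 0
  · refine ⟨1, Or.inl rfl, fun φ ψ hφ hψ => ?_⟩
    rw [hz φ ψ hφ hψ, mul_zero]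
    exact hz _ _ (hφ.twist _ hκ') (hψ.twist _ hκ')
  · push Not at hz
    obtain ⟨φ₀, ψ₀, hφ₀, hψ₀, hne⟩ := hz
    refine ⟨c₀, ?_, key⟩
    have e := key _ _ (hφ₀.twist _ hκ') (hψ₀.twist _ hκ')
    rw [s41k_twist_twist _ hκ2, s41k_twist_twist _ hκ2, key φ₀ ψ₀ hφ₀ hψ₀] at e
    have : (c₀ * c₀ - 1) * s41c_pairing Γ φ₀ ψ₀ = 0 := by linear_combination -e
    have hcc : c₀ * c₀ = 1 := by
      rcases mul_eq_zero.mp this with h | h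
      · exact sub_eq_zero.mp h
      · exact absurd h hne
    exact mul_self_eq_one_iff.mp hcc

/-- **[C] over `ℤ`.** -/
theorem s41k_similitude_int (hneg : (-1 : SL(2, ℤ)) ∈ Γ) {W : GL (Fin 2) ℚ} (κ : Γ ≃* Γ)
    (hκ : ∀ γ : Γ, W * mapGL ℚ (γ : SL(2, ℤ)) = mapGL ℚ ((κ γ : Γ) : SL(2, ℤ)) * W)
    (hκ2 : ∀ γ : Γ, ∃ γ₀ : Γ, κ (κ γ) = γ₀ * γ * γ₀⁻¹) :
    ∃ c : ℤ, (c = 1 ∨ c = -1) ∧ ∀ φ ψ : Additive Γ →+ ℤ, s41k_InH Γ φ → s41k_InH Γ ψ →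
      s41c_pairing Γ (s41k_twist κ.toMonoidHom φ) (s41k_twist κ.toMonoidHom ψ) =
        c * s41c_pairing Γ φ ψ := by
  have hκ' : ∀ γ : Γ, W * mapGL ℚ (γ : SL(2, ℤ)) =
      mapGL ℚ ((κ.toMonoidHom γ : Γ) : SL(2, ℤ)) * W := hκ
  obtain ⟨c, hc, h⟩ := s41k_similitude_field (F := ℚ) (by norm_num) (by norm_num) hneg κ hκ hκ2
  have h2 : ∀ r : ℚ, 2 * r = 0 → r = 0 := fun r hr => by linarith
  obtain ⟨c', hc', hcc'⟩ : ∃ c' : ℤ, (c' = 1 ∨ c' = -1) ∧ (c' : ℚ) = c := by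
    rcases hc with rfl | rfl
    · exact ⟨1, Or.inl rfl, by norm_num⟩
    · exact ⟨-1, Or.inr rfl, by norm_num⟩
  refine ⟨c', hc', fun φ ψ hφ hψ => ?_⟩
  have e := h _ _ (hφ.bc (Int.castRingHom ℚ)) (hψ.bc (Int.castRingHom ℚ))
  rw [s41k_twist_bc, s41k_twist_bc,
    s41k_pairing_bc (Int.castRingHom ℚ) hneg h2 (hφ.twist _ hκ') (hψ.twist _ hκ'),
    s41k_pairing_bc (Int.castRingHom ℚ) hneg h2 hφ hψ, ← hcc'] at e
  have : ((s41c_pairing Γ (s41k_twist κ.toMonoidHom φ) (s41k_twist κ.toMonoidHom ψ) : ℤ) : ℚ) =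
      ((c' * s41c_pairing Γ φ ψ : ℤ) : ℚ) := by
    push_cast
    exact e
  exact_mod_cast this

/-- **[C], lifted form**: one sign `c = ±1` valid over every commutative ring with `2` regular,
for the classes coming from `H(Γ, ℤ)`. -/
theorem s41k_similitude_lift (hneg : (-1 : SL(2, ℤ)) ∈ Γ) {W : GL (Fin 2) ℚ} (κ : Γ ≃* Γ)
    (hκ : ∀ γ : Γ, W * mapGL ℚ (γ : SL(2, ℤ)) = mapGL ℚ ((κ γ : Γ) : SL(2, ℤ)) * W)
    (hκ2 : ∀ γ : Γ, ∃ γ₀ : Γ, κ (κ γ) = γ₀ * γ * γ₀⁻¹) :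
    ∃ c : ℤ, (c = 1 ∨ c = -1) ∧ ∀ (R : Type) [CommRing R], (∀ r : R, 2 * r = 0 → r = 0) →
      ∀ φ ψ : Additive Γ →+ ℤ, s41k_InH Γ φ → s41k_InH Γ ψ →
      s41c_pairing Γ (s41k_twist κ.toMonoidHom (s41k_bc (Int.castRingHom R) φ))
          (s41k_twist κ.toMonoidHom (s41k_bc (Int.castRingHom R) ψ)) =
        (c : R) * s41c_pairing Γ (s41k_bc (Int.castRingHom R) φ)
          (s41k_bc (Int.castRingHom R) ψ) := by
  have hκ' : ∀ γ : Γ, W * mapGL ℚ (γ : SL(2, ℤ)) =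
      mapGL ℚ ((κ.toMonoidHom γ : Γ) : SL(2, ℤ)) * W := hκ
  obtain ⟨c, hc, h⟩ := s41k_similitude_int hneg κ hκ hκ2
  refine ⟨c, hc, fun R _ h2 φ ψ hφ hψ => ?_⟩
  rw [s41k_twist_bc, s41k_twist_bc,
    s41k_pairing_bc (Int.castRingHom R) hneg h2 (hφ.twist _ hκ') (hψ.twist _ hκ'),
    s41k_pairing_bc (Int.castRingHom R) hneg h2 hφ hψ, h φ ψ hφ hψ]
  simp

end Main

end Fermat.Agent.Lib.S41
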