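/-
S41 project, module family [E] (amalgam), shared definitions (helper6).

* `s41e_R q`      : the subring `ℤ[1/q]` of `ℚ`;
* `s41e_G N q`    : `Γ₀(N)[1/q] ≤ SL(2, ℚ)`: entries in `ℤ[1/q]`, lower-left entry in `N ℤ[1/q]`;
* `s41e_iota`     : `SL(2, ℤ) →* SL(2, ℚ)`;
* `s41e_conj q hq`: conjugation by `δ = diag(q, 1)`:  `[[a, b], [c, d]] ↦ [[a, q b], [c / q, d]]`.
-/
import Mathlib

set_option autoImplicit false

open Matrix MatrixGroups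

namespace Fermat.Agent.Lib.S41

/-- `ℤ[1/q]` as a subring of `ℚ`. -/
def s41e_R (q : ℕ) : Subring ℚ where
  carrier := {x | ∃ k : ℕ, ∃ m : ℤ, x * (q : ℚ) ^ k = m}
  mul_mem' := by
    rintro x y ⟨k, m, hx⟩ ⟨l, n, hy⟩
    refine ⟨k + l, m * n, ?_⟩
    push_cast
    rw [← hx, ← hy]
    ring
  one_mem' := ⟨0, 1, by simp⟩
  add_mem' := by
    rintro x y ⟨k, m, hx⟩ ⟨l, n, hy⟩
    refine ⟨k + l, m * (q : ℤ) ^ l + n * (q : ℤ) ^ k, ?_⟩
    push_cast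
    rw [← hx, ← hy]
    ring
  zero_mem' := ⟨0, 0, by simp⟩
  neg_mem' := by
    rintro x ⟨k, m, hx⟩
    refine ⟨k, -m, ?_⟩
    push_cast
    rw [← hx]
    ring

theorem s41e_mem_R {q : ℕ} {x : ℚ} : x ∈ s41e_R q ↔ ∃ k : ℕ, ∃ m : ℤ, x * (q : ℚ) ^ k = m :=
  Iff.rfl

theorem s41e_int_mem_R (q : ℕ) (m : ℤ) : (m : ℚ) ∈ s41e_R q := ⟨0, m, by simp⟩

theorem s41e_nat_mem_R (q : ℕ) (m : ℕ) : (m : ℚ) ∈ s41e_R q := ⟨0, m, by simp⟩

theorem s41e_inv_mem_R {q : ℕ} (hq : q ≠ 0) : ((q : ℚ))⁻¹ ∈ s41e_R q :=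
  ⟨1, 1, by
    have : (q : ℚ) ≠ 0 := by exact_mod_cast hq
    simp [this]⟩

theorem s41e_div_mem_R {q : ℕ} (hq : q ≠ 0) {x : ℚ} (hx : x ∈ s41e_R q) :
    x / (q : ℚ) ∈ s41e_R q := by
  rw [div_eq_mul_inv]
  exact (s41e_R q).mul_mem hx (s41e_inv_mem_R hq)

/-- `Γ₀(N)[1/q] ≤ SL(2, ℚ)`. -/
def s41e_G (N q : ℕ) : Subgroup SL(2, ℚ) where
  carrier := {g | (∀ i j, g.1 i j ∈ s41e_R q) ∧ ∃ r ∈ s41e_R q, g.1 1 0 = (N : ℚ) * r}
  mul_mem' := by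
    rintro g h ⟨hg, r, hr, hgr⟩ ⟨hh, s, hs, hhs⟩
    refine ⟨fun i j => ?_, r * h.1 0 0 + g.1 1 1 * s, ?_, ?_⟩
    · rw [Matrix.SpecialLinearGroup.coe_mul, Matrix.mul_apply, Fin.sum_univ_two]
      exact (s41e_R q).add_mem ((s41e_R q).mul_mem (hg _ _) (hh _ _))
        ((s41e_R q).mul_mem (hg _ _) (hh _ _))
    · exact (s41e_R q).add_mem ((s41e_R q).mul_mem hr (hh _ _)) ((s41e_R q).mul_mem (hg _ _) hs)
    · rw [Matrix.SpecialLinearGroup.coe_mul, Matrix.mul_apply, Fin.sum_univ_two, hgr, hhs]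
      ring
  one_mem' := by
    refine ⟨fun i j => ?_, 0, (s41e_R q).zero_mem, by simp⟩
    rw [Matrix.SpecialLinearGroup.coe_one, Matrix.one_apply]
    split_ifs
    · exact (s41e_R q).one_mem
    · exact (s41e_R q).zero_mem
  inv_mem' := by
    rintro g ⟨hg, r, hr, hgr⟩
    have hinv : (g⁻¹).1 = !![g.1 1 1, -g.1 0 1; -g.1 1 0, g.1 0 0] := by
      rw [Matrix.SpecialLinearGroup.coe_inv, Matrix.adjugate_fin_two]
    refine ⟨fun i j => ?_, -r, (s41e_R q).neg_mem hr, ?_⟩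
    · rw [hinv]
      fin_cases i <;> fin_cases j
      · exact hg _ _
      · exact (s41e_R q).neg_mem (hg _ _)
      · exact (s41e_R q).neg_mem (hg _ _)
      · exact hg _ _
    · rw [hinv]
      simp [hgr]

theorem s41e_mem_G {N q : ℕ} {g : SL(2, ℚ)} :
    g ∈ s41e_G N q ↔ (∀ i j, g.1 i j ∈ s41e_R q) ∧ ∃ r ∈ s41e_R q, g.1 1 0 = (N : ℚ) * r :=
  Iff.rfl

/-- `SL(2, ℤ) → SL(2, ℚ)`. -/
def s41e_iota : SL(2, ℤ) →* SL(2, ℚ) :=
  Matrix.SpecialLinearGroup.map (Int.castRingHom ℚ)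

theorem s41e_iota_apply (γ : SL(2, ℤ)) (i j : Fin 2) :
    (s41e_iota γ).1 i j = ((γ.1 i j : ℤ) : ℚ) := rfl

theorem s41e_iota_injective : Function.Injective s41e_iota := by
  intro γ γ' h
  ext i j
  have := congrArg (fun g : SL(2, ℚ) => g.1 i j) h
  simpa [s41e_iota_apply] using this

theorem s41e_iota_mem_G {N : ℕ} (q : ℕ) {γ : SL(2, ℤ)} (hγ : γ ∈ CongruenceSubgroup.Gamma0 N) :
    s41e_iota γ ∈ s41e_G N q := by
  rw [CongruenceSubgroup.Gamma0_mem] at hγ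
  obtain ⟨c, hc⟩ : (N : ℤ) ∣ γ.1 1 0 := (ZMod.intCast_zmod_eq_zero_iff_dvd _ _).mp hγ
  refine ⟨fun i j => ?_, (c : ℚ), s41e_int_mem_R q c, ?_⟩
  · rw [s41e_iota_apply]
    exact s41e_int_mem_R q _
  · rw [s41e_iota_apply, hc]
    push_cast
    ring

/-- the underlying function of conjugation by `δ = diag(q, 1)`. -/
def s41e_conjFun (q : ℕ) (hq : q ≠ 0) (g : SL(2, ℚ)) : SL(2, ℚ) :=
  ⟨!![g.1 0 0, (q : ℚ) * g.1 0 1; g.1 1 0 / (q : ℚ), g.1 1 1], by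
    have hq' : (q : ℚ) ≠ 0 := by exact_mod_cast hq
    have hdet := g.2
    rw [Matrix.det_fin_two] at hdet
    rw [Matrix.det_fin_two_of]
    field_simp
    linarith⟩

/-- conjugation by `δ = diag(q, 1)` on `SL(2, ℚ)`. -/
def s41e_conj (q : ℕ) (hq : q ≠ 0) : SL(2, ℚ) →* SL(2, ℚ) where
  toFun := s41e_conjFun q hq
  map_one' := by
    ext i j
    fin_cases i <;> fin_cases j <;> simp [s41e_conjFun]
  map_mul' := by
    intro g h
    have hq' : (q : ℚ) ≠ 0 := by exact_mod_cast hq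
    ext i j
    fin_cases i <;> fin_cases j <;>
      simp [s41e_conjFun, Matrix.mul_apply, Fin.sum_univ_two] <;> (try field_simp)

theorem s41e_conj_apply (q : ℕ) (hq : q ≠ 0) (g : SL(2, ℚ)) :
    (s41e_conj q hq g).1 = !![g.1 0 0, (q : ℚ) * g.1 0 1; g.1 1 0 / (q : ℚ), g.1 1 1] := rfl

theorem s41e_conj_injective (q : ℕ) (hq : q ≠ 0) : Function.Injective (s41e_conj q hq) := by
  intro g h hgh
  have hq' : (q : ℚ) ≠ 0 := by exact_mod_cast hq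
  have h2 := congrArg (fun x : SL(2, ℚ) => x.1) hgh
  simp only [s41e_conj_apply] at h2
  ext i j
  have e00 := congrFun (congrFun h2 0) 0
  have e01 := congrFun (congrFun h2 0) 1
  have e10 := congrFun (congrFun h2 1) 0
  have e11 := congrFun (congrFun h2 1) 1
  simp at e00 e01 e10 e11
  fin_cases i <;> fin_cases j
  · exact e00
  · exact e01.resolve_right hq
  · exact (div_left_inj' hq').mp e10
  · exact e11

theorem s41e_conj_mem_G {N q : ℕ} (hq : q ≠ 0) {g : SL(2, ℚ)} (hg : g ∈ s41e_G N q) :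
    s41e_conj q hq g ∈ s41e_G N q := by
  obtain ⟨hg1, r, hr, hgr⟩ := hg
  refine ⟨fun i j => ?_, r / (q : ℚ), s41e_div_mem_R hq hr, ?_⟩
  · rw [s41e_conj_apply]
    fin_cases i <;> fin_cases j
    · exact hg1 _ _
    · exact (s41e_R q).mul_mem (s41e_nat_mem_R q q) (hg1 _ _)
    · exact s41e_div_mem_R hq (hg1 _ _)
    · exact hg1 _ _
  · rw [s41e_conj_apply]
    simp [hgr]
    ring

end Fermat.Agent.Lib.S41
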