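/-
S41 project, module [D], file 5 (helper1): arithmetic of `ℤ[1/q]` for the END GAME.

* `s41d_dirichlet`: Dirichlet's theorem in `ℤ[1/q]`: for `c₁ = C₁ / q^k`, `d = D / q^k` coprime
  (up to `q`) with `p ∤ D` there are arbitrarily large primes `ℓ'` with `p ∤ ℓ' - 1` and
  `ℓ' ≡ c₁` modulo `d ℤ[1/q]`;
* `s41d_fermat`: `d ^ (ℓ' - 1) ≡ 1` modulo `ℓ' ℤ[1/q]` if `ℓ'` does not divide the numerator of `d`;
* `s41d_crt`: `M ℤ[1/q] ∩ ℓ' ℤ[1/q] = M ℓ' ℤ[1/q]` for coprime `M`, `ℓ'`.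
-/
import Mathlib
import Fermat.Agent.Lib.S41.EDefs

set_option autoImplicit false

namespace Fermat.Agent.Lib.S41

theorem s41d_qpow_mem' {q : ℕ} (k : ℕ) : ((q : ℚ)) ^ k ∈ s41e_R q :=
  (s41e_R q).pow_mem (s41e_nat_mem_R q q) k

theorem s41d_qpow_inv_mem' {q : ℕ} (hq : q ≠ 0) (k : ℕ) : (((q : ℚ)) ^ k)⁻¹ ∈ s41e_R q := by
  rw [← inv_pow]
  exact (s41e_R q).pow_mem (s41e_inv_mem_R hq) k

/-- `M ℤ[1/q] ∩ L ℤ[1/q] = M L ℤ[1/q]` for coprime integers `M`, `L`. -/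
theorem s41d_crt {q : ℕ} {M L : ℕ} (h : Nat.Coprime M L) {x r₁ r₂ : ℚ} (hr₁ : r₁ ∈ s41e_R q)
    (hr₂ : r₂ ∈ s41e_R q) (h₁ : x = (M : ℚ) * r₁) (h₂ : x = (L : ℚ) * r₂) :
    ∃ r ∈ s41e_R q, x = (M : ℚ) * (L : ℚ) * r := by
  obtain ⟨u, v, huv⟩ := (Nat.isCoprime_iff_coprime.mpr h : IsCoprime (M : ℤ) (L : ℤ))
  have huv' : (u : ℚ) * M + v * L = 1 := by exact_mod_cast huv
  refine ⟨(u : ℚ) * r₂ + v * r₁, (s41e_R q).add_mem ((s41e_R q).mul_mem (s41e_int_mem_R q u) hr₂)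
    ((s41e_R q).mul_mem (s41e_int_mem_R q v) hr₁), ?_⟩
  have : x = x * ((u : ℚ) * M + v * L) := by rw [huv', mul_one]
  rw [this]
  have e1 : x * ((u : ℚ) * M) = (M : ℚ) * (L : ℚ) * ((u : ℚ) * r₂) := by rw [h₂]; ring
  have e2 : x * ((v : ℚ) * L) = (M : ℚ) * (L : ℚ) * ((v : ℚ) * r₁) := by rw [h₁]; ring
  rw [mul_add, e1, e2]; ring

/-- **Fermat's little theorem in `ℤ[1/q]`.** -/
theorem s41d_fermat {q L : ℕ} (hq : q.Prime) (hL : L.Prime) (hLq : L ≠ q) {d : ℚ} {k : ℕ} {D : ℤ}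
    (hd : d * (q : ℚ) ^ k = D) (hLD : ¬ (L : ℤ) ∣ D) :
    ∃ r ∈ s41e_R q, d ^ (L - 1) = 1 + (L : ℚ) * r := by
  have : Fact L.Prime := ⟨hL⟩
  have hq0 : (q : ℚ) ≠ 0 := by exact_mod_cast hq.ne_zero
  have h1 : ((D : ZMod L)) ^ (L - 1) = 1 := by
    apply ZMod.pow_card_sub_one_eq_one
    rwa [Ne, ZMod.intCast_zmod_eq_zero_iff_dvd]
  have h2 : (((q : ℤ) ^ k : ℤ) : ZMod L) ^ (L - 1) = 1 := by
    apply ZMod.pow_card_sub_one_eq_one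
    rw [Ne, ZMod.intCast_zmod_eq_zero_iff_dvd]
    intro hdvd
    have h3 : L ∣ q ^ k := by exact_mod_cast hdvd
    exact hLq ((Nat.prime_dvd_prime_iff_eq hL hq).mp (hL.dvd_of_dvd_pow h3))
  have h3 : (L : ℤ) ∣ D ^ (L - 1) - ((q : ℤ) ^ k) ^ (L - 1) := by
    rw [← ZMod.intCast_zmod_eq_zero_iff_dvd]
    push_cast
    push_cast at h2
    rw [h1, h2, sub_self]
  obtain ⟨w, hw⟩ := h3
  refine ⟨(w : ℚ) * (((q : ℚ) ^ (k * (L - 1))))⁻¹,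
    (s41e_R q).mul_mem (s41e_int_mem_R q w) (s41d_qpow_inv_mem' hq.ne_zero _), ?_⟩
  have hw' : (D : ℚ) ^ (L - 1) - ((q : ℚ) ^ k) ^ (L - 1) = (L : ℚ) * w := by exact_mod_cast hw
  have hqk : ((q : ℚ) ^ k) ^ (L - 1) ≠ 0 := pow_ne_zero _ (pow_ne_zero _ hq0)
  have hd' : d = (D : ℚ) / (q : ℚ) ^ k := by
    rw [eq_div_iff (pow_ne_zero _ hq0)]; exact hd
  rw [hd', div_pow, pow_mul]
  field_simp
  linarith

/-- a prime dividing the numerators of a unimodular row over `ℤ[1/q]` is `q`. -/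
theorem s41d_prime_of_unimodular {q : ℕ} (hq : q.Prime) {c d x y : ℚ} (hx : x ∈ s41e_R q)
    (hy : y ∈ s41e_R q) (h : x * c + y * d = 1) {k : ℕ} {C D : ℤ} (hC : c * (q : ℚ) ^ k = C)
    (hD : d * (q : ℚ) ^ k = D) (r : ℕ) (hr : r.Prime) (hrC : (r : ℤ) ∣ C) (hrD : (r : ℤ) ∣ D) :
    r = q := by
  obtain ⟨i, X, hX⟩ := hx
  obtain ⟨j, Y, hY⟩ := hy
  have hrel : X * (q : ℤ) ^ j * C + Y * (q : ℤ) ^ i * D = (q : ℤ) ^ (k + i + j) := by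
    have : ((X * (q : ℤ) ^ j * C + Y * (q : ℤ) ^ i * D : ℤ) : ℚ) =
        (((q : ℤ) ^ (k + i + j) : ℤ) : ℚ) := by
      push_cast
      rw [← hX, ← hY, ← hC, ← hD, pow_add, pow_add]
      linear_combination (q : ℚ) ^ k * (q : ℚ) ^ i * (q : ℚ) ^ j * h
    exact_mod_cast this
  have h1 : (r : ℤ) ∣ (q : ℤ) ^ (k + i + j) := by
    rw [← hrel]
    exact dvd_add (Dvd.dvd.mul_left hrC _) (Dvd.dvd.mul_left hrD _)
  have h2 : r ∣ q ^ (k + i + j) := by exact_mod_cast h1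
  exact (Nat.prime_dvd_prime_iff_eq hr hq).mp (hr.dvd_of_dvd_pow h2)

/-- **Dirichlet's theorem in `ℤ[1/q]`.** -/
theorem s41d_dirichlet {q p : ℕ} (hq : q.Prime) (hp : p.Prime) (hp2 : p ≠ 2) (k : ℕ)
    (C₁ D : ℤ) (hD : D ≠ 0)
    (hcop : ∀ r : ℕ, r.Prime → (r : ℤ) ∣ C₁ → (r : ℤ) ∣ D → r = q) (hpD : ¬ (p : ℤ) ∣ D)
    (B : ℕ) :
    ∃ L : ℕ, B < L ∧ L.Prime ∧ ¬ p ∣ L - 1 ∧
      ∃ t ∈ s41e_R q, t * (D : ℚ) = (q : ℚ) ^ k * (L : ℚ) - C₁ := by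
  have : Fact p.Prime := ⟨hp⟩
  have hq0 : (q : ℚ) ≠ 0 := by exact_mod_cast hq.ne_zero
  -- `|D| = q^e D''`, `q ∤ D''`
  have hDn : D.natAbs ≠ 0 := by simpa using hD
  obtain ⟨e, D'', hqD'', hDeq⟩ := Nat.exists_eq_pow_mul_and_not_dvd hDn q hq.ne_one
  have hD''0 : D'' ≠ 0 := by
    rintro rfl
    exact hqD'' (dvd_zero _)
  have hD''D : (D'' : ℤ) ∣ D := by
    have : D'' ∣ D.natAbs := ⟨q ^ e, by rw [hDeq]; ring⟩
    exact Int.natCast_dvd.mpr this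
  -- coprimalities
  have hcop1 : Nat.Coprime D'' p := by
    rw [Nat.coprime_comm, Nat.Prime.coprime_iff_not_dvd hp]
    intro h
    exact hpD ((Int.natCast_dvd_natCast.mpr h).trans hD''D)
  have hcopq : Nat.Coprime q D'' := (Nat.Prime.coprime_iff_not_dvd hq).mpr hqD''
  have hcopC : IsCoprime (C₁ : ℤ) (D'' : ℤ) := by
    rw [Int.isCoprime_iff_gcd_eq_one]
    by_contra hne
    obtain ⟨r, hr, hrd⟩ := Nat.exists_prime_and_dvd hne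
    have hrC : (r : ℤ) ∣ C₁ := (Int.natCast_dvd_natCast.mpr hrd).trans (Int.gcd_dvd_left _ _)
    have hrD'' : (r : ℤ) ∣ (D'' : ℤ) :=
      (Int.natCast_dvd_natCast.mpr hrd).trans (Int.gcd_dvd_right _ _)
    have hrq := hcop r hr hrC (hrD''.trans hD''D)
    subst hrq
    exact hqD'' (by exact_mod_cast hrD'')
  have : NeZero (D'' * p) := ⟨Nat.mul_ne_zero hD''0 hp.ne_zero⟩
  have : NeZero D'' := ⟨hD''0⟩
  -- the unit of `ZMod (D'' p)`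
  have hu1 : IsUnit ((C₁ : ZMod D'')) := by
    rw [ZMod.coe_int_isUnit_iff_isCoprime]
    exact hcopC.symm
  have hu2 : IsUnit (((q : ℕ) : ZMod D'') ^ k) :=
    ((ZMod.isUnit_iff_coprime q D'').mpr hcopq).pow k
  have hu3 : IsUnit (((2 : ℕ) : ZMod p)) := by
    rw [ZMod.isUnit_iff_coprime]
    rw [Nat.coprime_comm, Nat.Prime.coprime_iff_not_dvd hp]
    intro h
    have := (Nat.prime_dvd_prime_iff_eq hp Nat.prime_two).mp h
    exact hp2 this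
  obtain ⟨u2, hu2'⟩ := hu2
  let a₁ : ZMod D'' := (C₁ : ZMod D'') * ((u2⁻¹ : (ZMod D'')ˣ) : ZMod D'')
  have ha₁ : IsUnit a₁ := hu1.mul (Units.isUnit _)
  let eqv := ZMod.chineseRemainder hcop1
  let a : ZMod (D'' * p) := eqv.symm (a₁, ((2 : ℕ) : ZMod p))
  have ha : IsUnit a := by
    have : IsUnit ((a₁, ((2 : ℕ) : ZMod p)) : ZMod D'' × ZMod p) :=
      Prod.isUnit_iff.mpr ⟨ha₁, hu3⟩
    exact this.map eqv.symm
  obtain ⟨L, hBL, hL, hLa⟩ := Nat.forall_exists_prime_gt_and_eq_mod ha B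
  have hLe : eqv (L : ZMod (D'' * p)) = (a₁, ((2 : ℕ) : ZMod p)) := by
    rw [hLa]; exact eqv.apply_symm_apply _
  rw [map_natCast] at hLe
  have hL1 : ((L : ℕ) : ZMod D'') = a₁ := by
    have := congrArg Prod.fst hLe
    simpa using this
  have hL2 : ((L : ℕ) : ZMod p) = ((2 : ℕ) : ZMod p) := by
    have := congrArg Prod.snd hLe
    simpa using this
  refine ⟨L, hBL, hL, ?_, ?_⟩
  · -- `p ∤ L - 1`
    intro hdvd
    have hL1' : 1 ≤ L := hL.one_lt.le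
    have h0 : ((L - 1 : ℕ) : ZMod p) = 0 := (ZMod.natCast_eq_zero_iff _ _).mpr hdvd
    rw [Nat.cast_sub hL1', hL2] at h0
    have h1 : ((1 : ℕ) : ZMod p) = 0 := by
      have : ((2 : ℕ) : ZMod p) - ((1 : ℕ) : ZMod p) = ((1 : ℕ) : ZMod p) := by
        push_cast; ring
      rw [← this]; exact h0
    rw [ZMod.natCast_eq_zero_iff] at h1
    exact hp.one_lt.ne' (Nat.dvd_one.mp h1)
  · -- `D'' ∣ q^k L - C₁`
    have h3 : (((q : ℤ) ^ k * (L : ℤ) - C₁ : ℤ) : ZMod D'') = 0 := by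
      push_cast
      rw [hL1]
      show ((q : ℕ) : ZMod D'') ^ k * ((C₁ : ZMod D'') * ((u2⁻¹ : (ZMod D'')ˣ) : ZMod D'')) - _ = 0
      rw [← hu2']
      rw [mul_comm (C₁ : ZMod D''), ← mul_assoc, Units.mul_inv, one_mul, sub_self]
    rw [ZMod.intCast_zmod_eq_zero_iff_dvd] at h3
    obtain ⟨w, hw⟩ := h3
    have hw' : (q : ℚ) ^ k * (L : ℚ) - C₁ = (D'' : ℚ) * w := by exact_mod_cast hw
    have hDabs : ((D.natAbs : ℕ) : ℚ) = (q : ℚ) ^ e * (D'' : ℚ) := by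
      rw [hDeq]; push_cast; ring
    have hqe : (q : ℚ) ^ e ≠ 0 := pow_ne_zero _ hq0
    rcases Int.natAbs_eq D with hs | hs
    · refine ⟨(w : ℚ) * ((q : ℚ) ^ e)⁻¹,
        (s41e_R q).mul_mem (s41e_int_mem_R q w) (s41d_qpow_inv_mem' hq.ne_zero e), ?_⟩
      have hDq : (D : ℚ) = (q : ℚ) ^ e * (D'' : ℚ) := by
        rw [← hDabs]
        have : (D : ℚ) = ((D.natAbs : ℤ) : ℚ) := by rw [← hs]
        rw [this]; simp
      rw [hw', hDq]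
      field_simp
    · refine ⟨-(w : ℚ) * ((q : ℚ) ^ e)⁻¹,
        (s41e_R q).mul_mem ((s41e_R q).neg_mem (s41e_int_mem_R q w))
          (s41d_qpow_inv_mem' hq.ne_zero e), ?_⟩
      have hDq : (D : ℚ) = -((q : ℚ) ^ e * (D'' : ℚ)) := by
        rw [← hDabs]
        have : (D : ℚ) = ((-(D.natAbs : ℤ) : ℤ) : ℚ) := by rw [← hs]
        rw [this]; simp
      rw [hw', hDq]
      field_simp

end Fermat.Agent.Lib.S41
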