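/-
S41 project, module [D] (congruence subgroup property, abelian form), file 1 (helper1):
elementary matrices of `Γ₀(N)[1/q] = s41e_G N q`, homomorphisms killing the unipotents,
the "bottom row" calculus.

* `s41d_up x = [[1, x], [0, 1]]`, `s41d_lo x = [[1, 0], [x, 1]]`, `s41d_dg u = [[u⁻¹, 0], [0, u]]`;
* `s41d_Kills N q φ`: the homomorphism `φ : Γ₀(N)[1/q] → A` vanishes on the upper unipotents
  `[[1, x], [0, 1]]` (`x ∈ ℤ[1/q]`) and on the lower unipotents `[[1, 0], [N r, 1]]` of the group;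
* `s41d_kills_of_gen`: it is enough to kill `[[1, 1], [0, 1]]` and `[[1, 0], [N, 1]]`;
* `s41d_phi_eq_of_row`: `φ g` only depends on the bottom row of `g`;
* `s41d_phi_mul_up`, `s41d_phi_mul_lo`: the moves `(c, d) ↦ (c, d + t c)`, `(c, d) ↦ (c + N r d, d)`;
* `s41d_rowG`: every unimodular row `(c, d)` over `ℤ[1/q]` with `c ∈ N ℤ[1/q]` is a bottom row.
-/
import Mathlib
import Fermat.Agent.Lib.S41.EDefs

set_option autoImplicit false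

open Matrix MatrixGroups

namespace Fermat.Agent.Lib.S41

/-! ### Elementary matrices -/

/-- a general element of `SL(2, ℚ)` from its entries. -/
def s41d_mk (a b c d : ℚ) (h : a * d - b * c = 1) : SL(2, ℚ) :=
  ⟨!![a, b; c, d], by rw [Matrix.det_fin_two_of]; exact h⟩

@[simp] theorem s41d_mk_00 (a b c d : ℚ) (h : a * d - b * c = 1) : (s41d_mk a b c d h).1 0 0 = a := rfl
@[simp] theorem s41d_mk_01 (a b c d : ℚ) (h : a * d - b * c = 1) : (s41d_mk a b c d h).1 0 1 = b := rfl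
@[simp] theorem s41d_mk_10 (a b c d : ℚ) (h : a * d - b * c = 1) : (s41d_mk a b c d h).1 1 0 = c := rfl
@[simp] theorem s41d_mk_11 (a b c d : ℚ) (h : a * d - b * c = 1) : (s41d_mk a b c d h).1 1 1 = d := rfl

theorem s41d_mk_mem {N q : ℕ} {a b c d : ℚ} (h : a * d - b * c = 1) (ha : a ∈ s41e_R q)
    (hb : b ∈ s41e_R q) (hd : d ∈ s41e_R q) {r : ℚ} (hr : r ∈ s41e_R q) (hc : c = (N : ℚ) * r) :
    s41d_mk a b c d h ∈ s41e_G N q := by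
  refine ⟨fun i j => ?_, r, hr, hc⟩
  fin_cases i <;> fin_cases j
  · exact ha
  · exact hb
  · show c ∈ s41e_R q
    rw [hc]
    exact (s41e_R q).mul_mem (s41e_nat_mem_R q N) hr
  · exact hd

/-- `[[1, x], [0, 1]]`. -/
def s41d_up (x : ℚ) : SL(2, ℚ) := s41d_mk 1 x 0 1 (by ring)

/-- `[[1, 0], [x, 1]]`. -/
def s41d_lo (x : ℚ) : SL(2, ℚ) := s41d_mk 1 0 x 1 (by ring)

@[simp] theorem s41d_up_00 (x : ℚ) : (s41d_up x).1 0 0 = 1 := rfl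
@[simp] theorem s41d_up_01 (x : ℚ) : (s41d_up x).1 0 1 = x := rfl
@[simp] theorem s41d_up_10 (x : ℚ) : (s41d_up x).1 1 0 = 0 := rfl
@[simp] theorem s41d_up_11 (x : ℚ) : (s41d_up x).1 1 1 = 1 := rfl
@[simp] theorem s41d_lo_00 (x : ℚ) : (s41d_lo x).1 0 0 = 1 := rfl
@[simp] theorem s41d_lo_01 (x : ℚ) : (s41d_lo x).1 0 1 = 0 := rfl
@[simp] theorem s41d_lo_10 (x : ℚ) : (s41d_lo x).1 1 0 = x := rfl
@[simp] theorem s41d_lo_11 (x : ℚ) : (s41d_lo x).1 1 1 = 1 := rfl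

theorem s41d_up_mem {N q : ℕ} {x : ℚ} (hx : x ∈ s41e_R q) : s41d_up x ∈ s41e_G N q :=
  s41d_mk_mem _ (s41e_R q).one_mem hx (s41e_R q).one_mem (s41e_R q).zero_mem (by simp)

theorem s41d_lo_mem {N q : ℕ} {r : ℚ} (hr : r ∈ s41e_R q) :
    s41d_lo ((N : ℚ) * r) ∈ s41e_G N q :=
  s41d_mk_mem _ (s41e_R q).one_mem (s41e_R q).zero_mem (s41e_R q).one_mem hr rfl

theorem s41d_mul_10 (g h : SL(2, ℚ)) :
    (g * h).1 1 0 = g.1 1 0 * h.1 0 0 + g.1 1 1 * h.1 1 0 := by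
  rw [Matrix.SpecialLinearGroup.coe_mul, Matrix.mul_apply, Fin.sum_univ_two]

theorem s41d_mul_11 (g h : SL(2, ℚ)) :
    (g * h).1 1 1 = g.1 1 0 * h.1 0 1 + g.1 1 1 * h.1 1 1 := by
  rw [Matrix.SpecialLinearGroup.coe_mul, Matrix.mul_apply, Fin.sum_univ_two]

theorem s41d_mul_00 (g h : SL(2, ℚ)) :
    (g * h).1 0 0 = g.1 0 0 * h.1 0 0 + g.1 0 1 * h.1 1 0 := by
  rw [Matrix.SpecialLinearGroup.coe_mul, Matrix.mul_apply, Fin.sum_univ_two]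

theorem s41d_mul_01 (g h : SL(2, ℚ)) :
    (g * h).1 0 1 = g.1 0 0 * h.1 0 1 + g.1 0 1 * h.1 1 1 := by
  rw [Matrix.SpecialLinearGroup.coe_mul, Matrix.mul_apply, Fin.sum_univ_two]

theorem s41d_det (g : SL(2, ℚ)) : g.1 0 0 * g.1 1 1 - g.1 0 1 * g.1 1 0 = 1 := by
  have := g.2
  rwa [Matrix.det_fin_two] at this

theorem s41d_inv_10 (g : SL(2, ℚ)) : (g⁻¹).1 1 0 = - g.1 1 0 := by
  rw [Matrix.SpecialLinearGroup.coe_inv, Matrix.adjugate_fin_two]; rfl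

theorem s41d_inv_11 (g : SL(2, ℚ)) : (g⁻¹).1 1 1 = g.1 0 0 := by
  rw [Matrix.SpecialLinearGroup.coe_inv, Matrix.adjugate_fin_two]; rfl

theorem s41d_inv_00 (g : SL(2, ℚ)) : (g⁻¹).1 0 0 = g.1 1 1 := by
  rw [Matrix.SpecialLinearGroup.coe_inv, Matrix.adjugate_fin_two]; rfl

theorem s41d_inv_01 (g : SL(2, ℚ)) : (g⁻¹).1 0 1 = - g.1 0 1 := by
  rw [Matrix.SpecialLinearGroup.coe_inv, Matrix.adjugate_fin_two]; rfl

theorem s41d_ext {g h : SL(2, ℚ)} (h00 : g.1 0 0 = h.1 0 0) (h01 : g.1 0 1 = h.1 0 1)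
    (h10 : g.1 1 0 = h.1 1 0) (h11 : g.1 1 1 = h.1 1 1) : g = h := by
  ext i j
  fin_cases i <;> fin_cases j
  · exact h00
  · exact h01
  · exact h10
  · exact h11

/-! ### Homomorphisms killing the unipotents -/

section Kills

variable {N q : ℕ} {A : Type*} [AddCommGroup A]

/-- `φ` kills the upper unipotents `[[1, x], [0, 1]]` and the lower unipotents `[[1, 0], [N r, 1]]`
of `Γ₀(N)[1/q]`. -/
def s41d_Kills (N q : ℕ) {A : Type*} [AddCommGroup A] (φ : Additive ↥(s41e_G N q) →+ A) : Prop :=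
  (∀ g : ↥(s41e_G N q), g.1.1 1 0 = 0 → g.1.1 1 1 = 1 → φ (Additive.ofMul g) = 0) ∧
    (∀ g : ↥(s41e_G N q), g.1.1 0 1 = 0 → g.1.1 1 1 = 1 → φ (Additive.ofMul g) = 0)

variable {φ : Additive ↥(s41e_G N q) →+ A}

theorem s41d_phi_mul (φ : Additive ↥(s41e_G N q) →+ A) (g h : ↥(s41e_G N q)) :
    φ (Additive.ofMul (g * h)) = φ (Additive.ofMul g) + φ (Additive.ofMul h) := by
  rw [ofMul_mul, map_add]

theorem s41d_phi_inv (φ : Additive ↥(s41e_G N q) →+ A) (g : ↥(s41e_G N q)) :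
    φ (Additive.ofMul g⁻¹) = - φ (Additive.ofMul g) := by
  rw [ofMul_inv, map_neg]

theorem s41d_phi_up (hK : s41d_Kills N q φ) {x : ℚ} (hx : x ∈ s41e_R q) :
    φ (Additive.ofMul (⟨s41d_up x, s41d_up_mem hx⟩ : ↥(s41e_G N q))) = 0 :=
  hK.1 _ rfl rfl

theorem s41d_phi_lo (hK : s41d_Kills N q φ) {r : ℚ} (hr : r ∈ s41e_R q) :
    φ (Additive.ofMul (⟨s41d_lo ((N : ℚ) * r), s41d_lo_mem hr⟩ : ↥(s41e_G N q))) = 0 :=
  hK.2 _ rfl rfl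

/-- `φ g` only depends on the bottom row of `g`. -/
theorem s41d_phi_eq_of_row (hK : s41d_Kills N q φ) (g g' : ↥(s41e_G N q))
    (h0 : g.1.1 1 0 = g'.1.1 1 0) (h1 : g.1.1 1 1 = g'.1.1 1 1) :
    φ (Additive.ofMul g) = φ (Additive.ofMul g') := by
  have hk : φ (Additive.ofMul (g' * g⁻¹)) = 0 := by
    refine hK.1 _ ?_ ?_
    · show ((g'.1 * (g.1)⁻¹ : SL(2, ℚ))).1 1 0 = 0
      rw [s41d_mul_10, s41d_inv_00, s41d_inv_10, ← h0, ← h1]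
      ring
    · show ((g'.1 * (g.1)⁻¹ : SL(2, ℚ))).1 1 1 = 1
      rw [s41d_mul_11, s41d_inv_01, s41d_inv_11, ← h0, ← h1]
      linarith [s41d_det g.1]
  rw [s41d_phi_mul, s41d_phi_inv, add_neg_eq_zero] at hk
  exact hk.symm

/-- the move `(c, d) ↦ (c, d + t c)`. -/
theorem s41d_phi_mul_up (hK : s41d_Kills N q φ) (g : ↥(s41e_G N q)) {t : ℚ}
    (ht : t ∈ s41e_R q) :
    φ (Additive.ofMul (g * ⟨s41d_up t, s41d_up_mem ht⟩)) = φ (Additive.ofMul g) := by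
  rw [s41d_phi_mul, s41d_phi_up hK ht, add_zero]

/-- the move `(c, d) ↦ (c + N r d, d)`. -/
theorem s41d_phi_mul_lo (hK : s41d_Kills N q φ) (g : ↥(s41e_G N q)) {r : ℚ}
    (hr : r ∈ s41e_R q) :
    φ (Additive.ofMul (g * ⟨s41d_lo ((N : ℚ) * r), s41d_lo_mem hr⟩)) = φ (Additive.ofMul g) := by
  rw [s41d_phi_mul, s41d_phi_lo hK hr, add_zero]

theorem s41d_mul_up_10 (g : ↥(s41e_G N q)) {t : ℚ} (ht : t ∈ s41e_R q) :
    (g * (⟨s41d_up t, s41d_up_mem ht⟩ : ↥(s41e_G N q))).1.1 1 0 = g.1.1 1 0 := by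
  show (g.1 * s41d_up t).1 1 0 = _
  rw [s41d_mul_10]; simp

theorem s41d_mul_up_11 (g : ↥(s41e_G N q)) {t : ℚ} (ht : t ∈ s41e_R q) :
    (g * (⟨s41d_up t, s41d_up_mem ht⟩ : ↥(s41e_G N q))).1.1 1 1 = g.1.1 1 1 + t * g.1.1 1 0 := by
  show (g.1 * s41d_up t).1 1 1 = _
  rw [s41d_mul_11]; simp; ring

theorem s41d_mul_lo_10 (g : ↥(s41e_G N q)) {r : ℚ} (hr : r ∈ s41e_R q) :
    (g * (⟨s41d_lo ((N : ℚ) * r), s41d_lo_mem hr⟩ : ↥(s41e_G N q))).1.1 1 0 =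
      g.1.1 1 0 + (N : ℚ) * r * g.1.1 1 1 := by
  show (g.1 * s41d_lo _).1 1 0 = _
  rw [s41d_mul_10]; simp; ring

theorem s41d_mul_lo_11 (g : ↥(s41e_G N q)) {r : ℚ} (hr : r ∈ s41e_R q) :
    (g * (⟨s41d_lo ((N : ℚ) * r), s41d_lo_mem hr⟩ : ↥(s41e_G N q))).1.1 1 1 = g.1.1 1 1 := by
  show (g.1 * s41d_lo _).1 1 1 = _
  rw [s41d_mul_11]; simp

/-- Every unimodular row `(c, d)` over `ℤ[1/q]` with `c ∈ N ℤ[1/q]` is the bottom row of an element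
of `Γ₀(N)[1/q]`. -/
theorem s41d_rowG {c d x y r : ℚ} (hx : x ∈ s41e_R q) (hy : y ∈ s41e_R q) (hd : d ∈ s41e_R q)
    (hr : r ∈ s41e_R q) (hc : c = (N : ℚ) * r) (h : x * c + y * d = 1) :
    ∃ g : ↥(s41e_G N q), g.1.1 1 0 = c ∧ g.1.1 1 1 = d :=
  ⟨⟨s41d_mk y (-x) c d (by linarith), s41d_mk_mem _ hy ((s41e_R q).neg_mem hx) hd hr hc⟩, rfl, rfl⟩

end Kills

end Fermat.Agent.Lib.S41
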