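/-
S41 project, module [D], file 3 (helper1): **from a congruence level to the level `N`**.

If `φ : Γ₀(N)[1/q] → A` kills the unipotents and kills every element whose bottom row is
`≡ (0, 1)` modulo `M ℤ[1/q]` for ONE `M` prime to `q` with `N ∣ M`, then `φ` kills every element
with `d ≡ 1` modulo `N ℤ[1/q]` (`s41d_claim_of_key`): the bottom row of such an element is, modulo
`M`, the bottom row of `[[1,0],[N,1]] [[1,t₂],[0,1]] [[1,0],[N t₃,1]]`.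
-/
import Mathlib
import Fermat.Agent.Lib.S41.DSymb
import Fermat.Agent.Lib.RR.CosetsBasic

set_option autoImplicit false

open Matrix MatrixGroups

namespace Fermat.Agent.Lib.S41

/-- two elements of `ℤ[1/q]` have a common denominator `q ^ k`. -/
theorem s41d_common_den {q : ℕ} {c d : ℚ} (hc : c ∈ s41e_R q) (hd : d ∈ s41e_R q) :
    ∃ k : ℕ, ∃ C D : ℤ, c * (q : ℚ) ^ k = C ∧ d * (q : ℚ) ^ k = D := by
  obtain ⟨k₁, C₁, h₁⟩ := hc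
  obtain ⟨k₂, D₂, h₂⟩ := hd
  refine ⟨k₁ + k₂, C₁ * (q : ℤ) ^ k₂, D₂ * (q : ℤ) ^ k₁, ?_, ?_⟩
  · push_cast; rw [← h₁]; ring
  · push_cast; rw [← h₂]; ring

/-- **Units modulo `M`**: for a unimodular row `(c, d)` over `ℤ[1/q]` and `M` prime to `q` there is
an integer `t` such that `d + t c` is invertible modulo `M ℤ[1/q]`. -/
theorem s41d_exists_unit_mod {q : ℕ} (hq : q.Prime) {M : ℕ} (hM : M ≠ 0) (hMq : Nat.Coprime M q)
    {c d x y : ℚ} (hc : c ∈ s41e_R q) (hd : d ∈ s41e_R q) (hx : x ∈ s41e_R q) (hy : y ∈ s41e_R q)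
    (h : x * c + y * d = 1) :
    ∃ t : ℤ, ∃ e ∈ s41e_R q, ∃ s ∈ s41e_R q, (d + (t : ℚ) * c) * e = 1 + (M : ℚ) * s := by
  have hq0 : (q : ℚ) ≠ 0 := by exact_mod_cast hq.ne_zero
  obtain ⟨k, C, D, hC, hD⟩ := s41d_common_den hc hd
  obtain ⟨i, X, Y, hX, hY⟩ := s41d_common_den hx hy
  -- the integer relation `X C + Y D = q ^ (k + i)`
  have hrel : X * C + Y * D = (q : ℤ) ^ (k + i) := by
    have : ((X * C + Y * D : ℤ) : ℚ) = (((q : ℤ) ^ (k + i) : ℤ) : ℚ) := by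
      push_cast
      rw [← hX, ← hY, ← hC, ← hD, pow_add]
      linear_combination (q : ℚ) ^ k * (q : ℚ) ^ i * h
    exact_mod_cast this
  have hprime : ∀ p : ℕ, p.Prime → (p : ℤ) ∣ D → (p : ℤ) ∣ (M : ℤ) → ¬ p ∣ C.natAbs := by
    intro p pp hpD hpM hpC
    have hpC' : (p : ℤ) ∣ C := Int.natCast_dvd.mpr hpC
    have h1 : (p : ℤ) ∣ (q : ℤ) ^ (k + i) := by
      rw [← hrel]
      exact dvd_add (Dvd.dvd.mul_left hpC' _) (Dvd.dvd.mul_left hpD _)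
    have h2 : p ∣ q ^ (k + i) := by exact_mod_cast h1
    have h3 : p ∣ q := pp.dvd_of_dvd_pow h2
    have h4 : p = q := (Nat.prime_dvd_prime_iff_eq pp hq).mp h3
    have h5 : p ∣ M := by exact_mod_cast hpM
    have h6 : p ∣ Nat.gcd M q := Nat.dvd_gcd h5 h3
    rw [hMq] at h6
    exact pp.one_lt.ne' (Nat.dvd_one.mp h6)
  have hM' : (M : ℤ) ≠ 0 := by exact_mod_cast hM
  obtain ⟨k₀, hk₀⟩ := Fermat.Agent.Lib.RR.Cosets.exists_isCoprime_add_mul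
    (a := D) (c := (M : ℤ)) (N := C.natAbs) hM' hprime
  -- `C.natAbs = ± C`
  obtain ⟨t, ht⟩ : ∃ t : ℤ, D + k₀ * (C.natAbs : ℤ) = D + t * C := by
    rcases Int.natAbs_eq C with hC' | hC'
    · exact ⟨k₀, by rw [← hC']⟩
    · refine ⟨-k₀, ?_⟩
      have : (C.natAbs : ℤ) = -C := by linarith
      rw [this]; ring
  rw [ht] at hk₀
  obtain ⟨u, v, huv⟩ := hk₀
  refine ⟨t, (u : ℚ) * (q : ℚ) ^ k, (s41e_R q).mul_mem (s41e_int_mem_R q u) ?_, -(v : ℚ),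
    (s41e_R q).neg_mem (s41e_int_mem_R q v), ?_⟩
  · exact (s41e_R q).pow_mem (s41e_nat_mem_R q q) k
  · have huv' : (u : ℚ) * ((D : ℚ) + t * C) + v * (M : ℚ) = 1 := by exact_mod_cast huv
    rw [← hC, ← hD] at huv'
    linear_combination huv'

section

variable {N q : ℕ} {A : Type*} [AddCommGroup A] {φ : Additive ↥(s41e_G N q) →+ A}

/-- **KEY ⇒ CLAIM.** -/
theorem s41d_claim_of_key (hq : q.Prime) (hK : s41d_Kills N q φ) {M : ℕ} (hM : M ≠ 0)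
    (hMq : Nat.Coprime M q)
    (hkey : ∀ g : ↥(s41e_G N q), (∃ r ∈ s41e_R q, g.1.1 1 0 = (M : ℚ) * r) →
      (∃ r ∈ s41e_R q, g.1.1 1 1 = 1 + (M : ℚ) * r) → φ (Additive.ofMul g) = 0)
    (g : ↥(s41e_G N q)) (hg : ∃ r ∈ s41e_R q, g.1.1 1 1 = 1 + (N : ℚ) * r) :
    φ (Additive.ofMul g) = 0 := by
  obtain ⟨c₁, hc₁, hc⟩ := g.2.2
  obtain ⟨t₂', ht₂', hd'⟩ := hg
  -- unimodularity of the bottom row
  have hdet := s41d_det g.1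
  obtain ⟨t, e, he, s, hs, hes⟩ := s41d_exists_unit_mod hq hM hMq (g.2.1 1 0) (g.2.1 1 1)
    ((s41e_R q).neg_mem (g.2.1 0 1)) (g.2.1 0 0) (by linarith)
  -- replace `g` by `g₀ = g [[1, t], [0, 1]]`
  have htR : (t : ℚ) ∈ s41e_R q := s41e_int_mem_R q t
  set g₀ : ↥(s41e_G N q) := g * ⟨s41d_up t, s41d_up_mem htR⟩ with hg₀
  have hφ₀ : φ (Additive.ofMul g₀) = φ (Additive.ofMul g) := s41d_phi_mul_up hK g htR
  have hc0 : g₀.1.1 1 0 = (N : ℚ) * c₁ := by rw [hg₀, s41d_mul_up_10 g htR, hc]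
  set d := g₀.1.1 1 1 with hd
  have hd0 : d = g.1.1 1 1 + t * g.1.1 1 0 := by rw [hd, hg₀, s41d_mul_up_11 g htR]
  set t₂ : ℚ := t₂' + t * c₁ with ht₂def
  have ht₂ : t₂ ∈ s41e_R q := (s41e_R q).add_mem ht₂' ((s41e_R q).mul_mem htR hc₁)
  have hd1 : d = 1 + (N : ℚ) * t₂ := by rw [hd0, hd', hc, ht₂def]; ring
  have hde : d * e = 1 + (M : ℚ) * s := by rw [hd0]; exact hes
  -- the three moves
  set t₃ : ℚ := (c₁ - 1) * e with ht₃def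
  have ht₃ : t₃ ∈ s41e_R q :=
    (s41e_R q).mul_mem ((s41e_R q).sub_mem hc₁ (s41e_R q).one_mem) he
  have hnt₃ : -t₃ ∈ s41e_R q := (s41e_R q).neg_mem ht₃
  have hnt₂ : -t₂ ∈ s41e_R q := (s41e_R q).neg_mem ht₂
  have hn1 : (-1 : ℚ) ∈ s41e_R q := (s41e_R q).neg_mem (s41e_R q).one_mem
  set g₁ : ↥(s41e_G N q) := g₀ * ⟨s41d_lo ((N : ℚ) * (-t₃)), s41d_lo_mem hnt₃⟩ with hg₁
  set g₂ : ↥(s41e_G N q) := g₁ * ⟨s41d_up (-t₂), s41d_up_mem hnt₂⟩ with hg₂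
  set g₃ : ↥(s41e_G N q) := g₂ * ⟨s41d_lo ((N : ℚ) * (-1)), s41d_lo_mem hn1⟩ with hg₃
  have hφ₁ : φ (Additive.ofMul g₁) = φ (Additive.ofMul g₀) := s41d_phi_mul_lo hK g₀ hnt₃
  have hφ₂ : φ (Additive.ofMul g₂) = φ (Additive.ofMul g₁) := s41d_phi_mul_up hK g₁ hnt₂
  have hφ₃ : φ (Additive.ofMul g₃) = φ (Additive.ofMul g₂) := s41d_phi_mul_lo hK g₂ hn1
  -- the rows
  have r1c : g₁.1.1 1 0 = (N : ℚ) * c₁ + (N : ℚ) * (-t₃) * d := by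
    rw [hg₁, s41d_mul_lo_10 g₀ hnt₃, hc0]
  have r1d : g₁.1.1 1 1 = d := by rw [hg₁, s41d_mul_lo_11 g₀ hnt₃]
  have r2c : g₂.1.1 1 0 = (N : ℚ) * c₁ + (N : ℚ) * (-t₃) * d := by
    rw [hg₂, s41d_mul_up_10 g₁ hnt₂, r1c]
  have r2d : g₂.1.1 1 1 = d + (-t₂) * ((N : ℚ) * c₁ + (N : ℚ) * (-t₃) * d) := by
    rw [hg₂, s41d_mul_up_11 g₁ hnt₂, r1d, r1c]
  have r3c : g₃.1.1 1 0 = ((N : ℚ) * c₁ + (N : ℚ) * (-t₃) * d) + (N : ℚ) * (-1) *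
      (d + (-t₂) * ((N : ℚ) * c₁ + (N : ℚ) * (-t₃) * d)) := by
    rw [hg₃, s41d_mul_lo_10 g₂ hn1, r2c, r2d]
  have r3d : g₃.1.1 1 1 = d + (-t₂) * ((N : ℚ) * c₁ + (N : ℚ) * (-t₃) * d) := by
    rw [hg₃, s41d_mul_lo_11 g₂ hn1, r2d]
  have hN : (N : ℚ) ∈ s41e_R q := s41e_nat_mem_R q N
  have hfin : φ (Additive.ofMul g₃) = 0 := by
    refine hkey g₃ ⟨-(N : ℚ) * (c₁ - 1) * s * d, ?_, ?_⟩ ⟨t₂ * (N : ℚ) * (c₁ - 1) * s, ?_, ?_⟩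
    · refine (s41e_R q).mul_mem ((s41e_R q).mul_mem ((s41e_R q).mul_mem
        ((s41e_R q).neg_mem hN) ((s41e_R q).sub_mem hc₁ (s41e_R q).one_mem)) hs) ?_
      rw [hd1]
      exact (s41e_R q).add_mem (s41e_R q).one_mem ((s41e_R q).mul_mem hN ht₂)
    · rw [r3c, ht₃def]
      linear_combination (-d * (N : ℚ) * (c₁ - 1)) * hde +
        (-((N : ℚ) * c₁ - (N : ℚ) * (c₁ - 1) * e * d)) * hd1
    · exact (s41e_R q).mul_mem ((s41e_R q).mul_mem ((s41e_R q).mul_mem ht₂ hN)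
        ((s41e_R q).sub_mem hc₁ (s41e_R q).one_mem)) hs
    · rw [r3d, ht₃def]
      linear_combination (t₂ * (N : ℚ) * (c₁ - 1)) * hde + (1 : ℚ) * hd1
  rw [← hφ₀, ← hφ₁, ← hφ₂, ← hφ₃, hfin]

end

end Fermat.Agent.Lib.S41
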