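/-
S41 project, module [D], file 6 (helper1): **the END GAME**.

`s41d_MS2At N q M φ` is the multiplicativity (MS2b) of the symbol `[c, d] = φ [[*, *], [c, d]]` in `d`
on the rows `≡ (0, 1)` modulo `M ℤ[1/q]`.  From it (for ONE `M` prime to `q`, `N ∣ M`), Dirichlet's
theorem and `p • A = 0` (`p` an odd prime `≠ q`) we get that `φ` kills every row `≡ (0, 1)` modulo
`M` (`s41d_key_of_ms2`), hence every element with `d ≡ 1` modulo `N` (`s41d_claim_of_ms2`).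
-/
import Mathlib
import Fermat.Agent.Lib.S41.DSymb
import Fermat.Agent.Lib.S41.DArith
import Fermat.Agent.Lib.S41.DCong

set_option autoImplicit false

open Matrix MatrixGroups

namespace Fermat.Agent.Lib.S41

/-- **(MS2b) at the level `M`**: multiplicativity in `d` of the symbol of `φ`, on the rows
`(c, d)` with `c ∈ M ℤ[1/q]`, `d ∈ 1 + M ℤ[1/q]`. -/
def s41d_MS2At (N q M : ℕ) {A : Type*} [AddCommGroup A] (φ : Additive ↥(s41e_G N q) →+ A) : Prop :=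
  ∀ g₁ g₂ g₃ : ↥(s41e_G N q),
    g₂.1.1 1 0 = g₁.1.1 1 0 → g₃.1.1 1 0 = g₁.1.1 1 0 →
    (∃ r ∈ s41e_R q, g₁.1.1 1 0 = (M : ℚ) * r) →
    (∃ r ∈ s41e_R q, g₁.1.1 1 1 = 1 + (M : ℚ) * r) →
    (∃ r ∈ s41e_R q, g₂.1.1 1 1 = 1 + (M : ℚ) * r) →
    g₃.1.1 1 1 = g₁.1.1 1 1 * g₂.1.1 1 1 →
    φ (Additive.ofMul g₃) = φ (Additive.ofMul g₁) + φ (Additive.ofMul g₂)

/-- if `a + b = 1` then `b ^ n ≡ 1` modulo `a`, inside any subring. -/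
theorem s41d_pow_unimodular (S : Subring ℚ) {a b : ℚ} (ha : a ∈ S) (hb : b ∈ S) (h : a + b = 1)
    (n : ℕ) : ∃ z ∈ S, a * z + b ^ n = 1 := by
  induction n with
  | zero => exact ⟨0, S.zero_mem, by simp⟩
  | succ n ih =>
    obtain ⟨z, hz, hzn⟩ := ih
    refine ⟨1 + b * z, S.add_mem S.one_mem (S.mul_mem hb hz), ?_⟩
    rw [pow_succ]
    linear_combination b * hzn + h

/-- `1 + M ℤ[1/q]` is closed under powers. -/
theorem s41d_one_add_pow {q M : ℕ} {d s : ℚ} (hs : s ∈ s41e_R q) (hd : d = 1 + (M : ℚ) * s)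
    (n : ℕ) : ∃ r ∈ s41e_R q, d ^ n = 1 + (M : ℚ) * r := by
  induction n with
  | zero => exact ⟨0, (s41e_R q).zero_mem, by simp⟩
  | succ n ih =>
    obtain ⟨r, hr, hrn⟩ := ih
    refine ⟨r + s + (M : ℚ) * r * s, (s41e_R q).add_mem ((s41e_R q).add_mem hr hs)
      ((s41e_R q).mul_mem ((s41e_R q).mul_mem (s41e_nat_mem_R q M) hr) hs), ?_⟩
    rw [pow_succ, hrn, hd]
    ring

section

variable {N q : ℕ} {A : Type*} [AddCommGroup A] {φ : Additive ↥(s41e_G N q) →+ A}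

/-- **MS2b + Dirichlet ⇒ KEY**: `φ` kills the rows `≡ (0, 1)` modulo `M`. -/
theorem s41d_key_of_ms2 (hq : q.Prime) {p : ℕ} (hp : p.Prime) (hp2 : p ≠ 2) (hpq : p ≠ q)
    (hA : ∀ a : A, p • a = 0) (hK : s41d_Kills N q φ) {M : ℕ} (hM : M ≠ 0) (hNM : N ∣ M)
    (hms : s41d_MS2At N q M φ) (g : ↥(s41e_G N q))
    (hgc : ∃ r ∈ s41e_R q, g.1.1 1 0 = (M : ℚ) * r)
    (hgd : ∃ r ∈ s41e_R q, g.1.1 1 1 = 1 + (M : ℚ) * r) : φ (Additive.ofMul g) = 0 := by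
  have hq0 : (q : ℚ) ≠ 0 := by exact_mod_cast hq.ne_zero
  obtain ⟨M', rfl⟩ := hNM
  have hMR : ((N * M' : ℕ) : ℚ) ∈ s41e_R q := s41e_nat_mem_R q _
  have hM'R : (M' : ℚ) ∈ s41e_R q := s41e_nat_mem_R q _
  obtain ⟨c₁, hc₁, hc⟩ := hgc
  obtain ⟨s₀, hs₀, hd⟩ := hgd
  -- numerators
  obtain ⟨k, C₁, D, hC₁, hD⟩ := s41d_common_den hc₁ (g.2.1 1 1)
  have hqk : (q : ℚ) ^ k ≠ 0 := pow_ne_zero _ hq0
  have hCnum : g.1.1 1 0 * (q : ℚ) ^ k = (((N * M' : ℕ) : ℤ) * C₁ : ℤ) := by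
    push_cast; rw [hc, ← hC₁]; push_cast; ring
  have hdet := s41d_det g.1
  have hcopg : ∀ r : ℕ, r.Prime → (r : ℤ) ∣ ((N * M' : ℕ) : ℤ) * C₁ → (r : ℤ) ∣ D → r = q :=
    fun r hr h1 h2 => s41d_prime_of_unimodular hq ((s41e_R q).neg_mem (g.2.1 0 1)) (g.2.1 0 0)
      (by linarith) hCnum hD r hr h1 h2
  -- (S0) make `p ∤ D`
  obtain ⟨t, ht⟩ : ∃ t : ℤ, ¬ (p : ℤ) ∣ D + t * (((N * M' : ℕ) : ℤ) * C₁) := by
    by_cases hpD : (p : ℤ) ∣ D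
    · refine ⟨1, fun h => ?_⟩
      rw [one_mul] at h
      have h1 : (p : ℤ) ∣ ((N * M' : ℕ) : ℤ) * C₁ := (dvd_add_right hpD).mp h
      exact hpq (hcopg p hp h1 hpD)
    · exact ⟨0, by simpa using hpD⟩
  have htR : (t : ℚ) ∈ s41e_R q := s41e_int_mem_R q t
  set g₀ : ↥(s41e_G N q) := g * ⟨s41d_up t, s41d_up_mem htR⟩ with hg₀
  have hφ₀ : φ (Additive.ofMul g₀) = φ (Additive.ofMul g) := s41d_phi_mul_up hK g htR
  have hc0 : g₀.1.1 1 0 = ((N * M' : ℕ) : ℚ) * c₁ := by rw [hg₀, s41d_mul_up_10 g htR, hc]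
  set d' := g₀.1.1 1 1 with hd'def
  have hd'0 : d' = g.1.1 1 1 + t * g.1.1 1 0 := by rw [hd'def, hg₀, s41d_mul_up_11 g htR]
  set D' : ℤ := D + t * (((N * M' : ℕ) : ℤ) * C₁) with hD'def
  have hD' : d' * (q : ℚ) ^ k = D' := by
    rw [hd'0, hD'def, add_mul, hD, mul_assoc, hCnum]; push_cast; ring
  have hd'1 : ∃ r ∈ s41e_R q, d' = 1 + ((N * M' : ℕ) : ℚ) * r :=
    ⟨s₀ + t * c₁, (s41e_R q).add_mem hs₀ ((s41e_R q).mul_mem htR hc₁), by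
      rw [hd'0, hd, hc]; ring⟩
  have hD'0 : D' ≠ 0 := by
    intro h; rw [h] at ht; exact ht (dvd_zero _)
  -- coprimality of the new numerators
  have hdet₀ := s41d_det g₀.1
  have hcop₀ : ∀ r : ℕ, r.Prime → (r : ℤ) ∣ C₁ → (r : ℤ) ∣ D' → r = q := by
    intro r hr h1 h2
    have hx : -g₀.1.1 0 1 * ((N * M' : ℕ) : ℚ) ∈ s41e_R q :=
      (s41e_R q).mul_mem ((s41e_R q).neg_mem (g₀.2.1 0 1)) hMR
    refine s41d_prime_of_unimodular hq hx (g₀.2.1 0 0) (c := c₁) (d := d') ?_ hC₁ hD' r hr h1 h2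
    rw [hc0] at hdet₀
    linarith
  -- Dirichlet
  obtain ⟨L, hBL, hL, hpL, t', ht', htD⟩ :=
    s41d_dirichlet hq hp hp2 k C₁ D' hD'0 hcop₀ ht (max q (N * M'))
  have hLq : q < L := lt_of_le_of_lt (le_max_left _ _) hBL
  have hLM : N * M' < L := lt_of_le_of_lt (le_max_right _ _) hBL
  have hLQ : (L : ℚ) ∈ s41e_R q := s41e_nat_mem_R q L
  have hcL : c₁ + t' * d' = (L : ℚ) := by
    have h1 : c₁ = (C₁ : ℚ) / (q : ℚ) ^ k := by rw [eq_div_iff hqk]; exact hC₁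
    have h2 : d' = (D' : ℚ) / (q : ℚ) ^ k := by rw [eq_div_iff hqk]; exact hD'
    rw [h1, h2, ← mul_div_assoc, ← add_div, htD, div_eq_iff hqk]; ring
  -- the move `c ↦ M L`
  have hM't' : (M' : ℚ) * t' ∈ s41e_R q := (s41e_R q).mul_mem hM'R ht'
  set g₁ : ↥(s41e_G N q) := g₀ * ⟨s41d_lo ((N : ℚ) * ((M' : ℚ) * t')), s41d_lo_mem hM't'⟩ with hg₁
  have hφ₁ : φ (Additive.ofMul g₁) = φ (Additive.ofMul g₀) := s41d_phi_mul_lo hK g₀ hM't'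
  have hc1 : g₁.1.1 1 0 = ((N * M' : ℕ) : ℚ) * (L : ℚ) := by
    rw [hg₁, s41d_mul_lo_10 g₀ hM't', hc0, ← hcL]; push_cast; ring
  have hd1 : g₁.1.1 1 1 = d' := by rw [hg₁, s41d_mul_lo_11 g₀ hM't']
  have hc1M : ∃ r ∈ s41e_R q, g₁.1.1 1 0 = ((N * M' : ℕ) : ℚ) * r := ⟨L, hLQ, hc1⟩
  -- the powers
  have hdet₁ := s41d_det g₁.1
  set a : ℚ := -g₁.1.1 0 1 * g₁.1.1 1 0 with hadef
  set b : ℚ := g₁.1.1 0 0 * d' with hbdef
  have hab : a + b = 1 := by rw [hadef, hbdef, ← hd1]; linarith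
  have haR : a ∈ s41e_R q := (s41e_R q).mul_mem ((s41e_R q).neg_mem (g₁.2.1 0 1)) (g₁.2.1 1 0)
  have hbR : b ∈ s41e_R q := (s41e_R q).mul_mem (g₁.2.1 0 0) (hd1 ▸ g₁.2.1 1 1)
  have hd'R : d' ∈ s41e_R q := hd1 ▸ g₁.2.1 1 1
  have hpow : ∀ j : ℕ, ∃ h : ↥(s41e_G N q), h.1.1 1 0 = g₁.1.1 1 0 ∧ h.1.1 1 1 = d' ^ (j + 1) ∧
      φ (Additive.ofMul h) = (j + 1) • φ (Additive.ofMul g₁) := by
    intro j
    induction j with
    | zero => exact ⟨g₁, rfl, by rw [hd1]; simp, by simp⟩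
    | succ j ih =>
      obtain ⟨h, hh0, hh1, hhφ⟩ := ih
      obtain ⟨z, hz, hzn⟩ := s41d_pow_unimodular (s41e_R q) haR hbR hab (j + 1 + 1)
      have hMLr : ((M' * L : ℕ) : ℚ) ∈ s41e_R q := s41e_nat_mem_R q _
      obtain ⟨h', hh'0, hh'1⟩ := s41d_rowG (N := N) (q := q) (c := g₁.1.1 1 0)
        (d := d' ^ (j + 1 + 1)) (x := -g₁.1.1 0 1 * z) (y := g₁.1.1 0 0 ^ (j + 1 + 1))
        (r := ((M' * L : ℕ) : ℚ))
        ((s41e_R q).mul_mem ((s41e_R q).neg_mem (g₁.2.1 0 1)) hz)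
        ((s41e_R q).pow_mem (g₁.2.1 0 0) _) ((s41e_R q).pow_mem hd'R _) hMLr
        (by rw [hc1]; push_cast; ring)
        (by
          have hzn' := hzn
          rw [hadef, hbdef, mul_pow] at hzn'
          linear_combination hzn')
      refine ⟨h', hh'0, hh'1, ?_⟩
      obtain ⟨r, hr, hrn⟩ := s41d_one_add_pow (q := q) hd'1.choose_spec.1 hd'1.choose_spec.2 (j + 1)
      have := hms h g₁ h' hh0.symm (hh'0.trans hh0.symm) (by rw [hh0]; exact hc1M)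
        ⟨r, hr, by rw [hh1]; exact hrn⟩ (by rw [hd1]; exact hd'1)
        (by rw [hh'1, hh1, hd1, pow_succ])
      rw [this, hhφ]
      exact (succ_nsmul _ _).symm
  -- `n = L - 1`
  have hL1 : 1 ≤ L - 1 := by have := hL.two_le; omega
  obtain ⟨h, hh0, hh1, hhφ⟩ := hpow (L - 1 - 1)
  have hn : L - 1 - 1 + 1 = L - 1 := by omega
  rw [hn] at hh1
  have hhφ' : φ (Additive.ofMul h) = (L - 1) • φ (Additive.ofMul g₁) := by
    rw [hhφ, hn]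
  -- `d' ^ (L - 1) ≡ 1` modulo `M L`
  have hLD' : ¬ (L : ℤ) ∣ D' := by
    intro hdvd
    have hnum : g₁.1.1 1 0 * (q : ℚ) ^ k = (((N * M' : ℕ) : ℤ) * (L : ℤ) * (q : ℤ) ^ k : ℤ) := by
      rw [hc1]; push_cast; ring
    have hD'1 : g₁.1.1 1 1 * (q : ℚ) ^ k = D' := by rw [hd1]; exact hD'
    have := s41d_prime_of_unimodular hq ((s41e_R q).neg_mem (g₁.2.1 0 1)) (g₁.2.1 0 0)
      (by linarith) hnum hD'1 L hL (Dvd.dvd.mul_right (Dvd.dvd.mul_left (dvd_refl _) _) _) hdvd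
    omega
  obtain ⟨r₂, hr₂, hfer⟩ := s41d_fermat hq hL (by omega) hD' hLD'
  obtain ⟨r₁, hr₁, hpow1⟩ :=
    s41d_one_add_pow (q := q) hd'1.choose_spec.1 hd'1.choose_spec.2 (L - 1)
  have hcopML : Nat.Coprime (N * M') L := by
    rw [Nat.coprime_comm, Nat.Prime.coprime_iff_not_dvd hL]
    intro hdvd
    exact absurd (Nat.le_of_dvd (Nat.pos_of_ne_zero hM) hdvd) (by omega)
  obtain ⟨r, hr, hrML⟩ := s41d_crt (q := q) hcopML (x := d' ^ (L - 1) - 1) hr₁ hr₂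
    (by rw [hpow1]; ring) (by rw [hfer]; ring)
  -- the last two moves
  have hnr : -r ∈ s41e_R q := (s41e_R q).neg_mem hr
  have hnML : -((M' * L : ℕ) : ℚ) ∈ s41e_R q := (s41e_R q).neg_mem (s41e_nat_mem_R q _)
  set h₁ : ↥(s41e_G N q) := h * ⟨s41d_up (-r), s41d_up_mem hnr⟩ with hh₁
  set h₂ : ↥(s41e_G N q) := h₁ * ⟨s41d_lo ((N : ℚ) * (-((M' * L : ℕ) : ℚ))), s41d_lo_mem hnML⟩
    with hh₂
  have hφh₁ : φ (Additive.ofMul h₁) = φ (Additive.ofMul h) := s41d_phi_mul_up hK h hnr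
  have hφh₂ : φ (Additive.ofMul h₂) = φ (Additive.ofMul h₁) := s41d_phi_mul_lo hK h₁ hnML
  have e1c : h₁.1.1 1 0 = ((N * M' : ℕ) : ℚ) * (L : ℚ) := by
    rw [hh₁, s41d_mul_up_10 h hnr, hh0, hc1]
  have e1d : h₁.1.1 1 1 = 1 := by
    rw [hh₁, s41d_mul_up_11 h hnr, hh1, hh0, hc1]
    linear_combination hrML
  have e2c : h₂.1.1 1 0 = 0 := by
    rw [hh₂, s41d_mul_lo_10 h₁ hnML, e1c, e1d]; push_cast; ring
  have e2d : h₂.1.1 1 1 = 1 := by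
    rw [hh₂, s41d_mul_lo_11 h₁ hnML, e1d]
  have hzero : φ (Additive.ofMul h₂) = 0 := hK.1 h₂ e2c e2d
  have hnφ : (L - 1) • φ (Additive.ofMul g₁) = 0 := by
    rw [← hhφ', ← hφh₁, ← hφh₂, hzero]
  -- `gcd (L - 1, p) = 1`
  have hcopn : Nat.Coprime p (L - 1) := (Nat.Prime.coprime_iff_not_dvd hp).mpr hpL
  obtain ⟨u, v, huv⟩ := (Nat.isCoprime_iff_coprime.mpr hcopn : IsCoprime (p : ℤ) ((L - 1 : ℕ) : ℤ))
  have hfin : φ (Additive.ofMul g₁) = 0 := by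
    have h1 : (1 : ℤ) • φ (Additive.ofMul g₁) = 0 := by
      rw [← huv, add_smul, mul_smul, mul_smul, natCast_zsmul, natCast_zsmul, hA, hnφ, smul_zero,
        smul_zero, add_zero]
    simpa using h1
  rw [← hφ₀, ← hφ₁, hfin]

/-- **MS2b ⇒ CLAIM.** -/
theorem s41d_claim_of_ms2 (hq : q.Prime) {p : ℕ} (hp : p.Prime) (hp2 : p ≠ 2) (hpq : p ≠ q)
    (hA : ∀ a : A, p • a = 0) (hK : s41d_Kills N q φ) {M : ℕ} (hM : M ≠ 0) (hNM : N ∣ M)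
    (hMq : Nat.Coprime M q) (hms : s41d_MS2At N q M φ) (g : ↥(s41e_G N q))
    (hg : ∃ r ∈ s41e_R q, g.1.1 1 1 = 1 + (N : ℚ) * r) : φ (Additive.ofMul g) = 0 :=
  s41d_claim_of_key hq hK hM hMq
    (fun g' h1 h2 => s41d_key_of_ms2 hq hp hp2 hpq hA hK hM hNM hms g' h1 h2) g hg

end

end Fermat.Agent.Lib.S41
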