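/-
S41 project, module [D], file 4 (helper1): **homomorphisms `Γ₀(N) → A` which only depend on
`d mod N` are Eisenstein**: `T_ℓ^H χ = (ℓ + 1) • χ` for every prime `ℓ ∤ N`
(`s41d_hecke_eisenstein`, for `s29h_heckeHom`).
-/
import Mathlib
import Fermat.Agent.Lib.S29.HDefs

set_option autoImplicit false

namespace Fermat.Agent.Lib.S41

open CongruenceSubgroup Fermat.Agent.Lib.ES Fermat.Agent.Lib.S29
open P2MW.S_ModularForm_heckeT_slash_eq_self_of_mem_Gamma0.ModularForm.HeckeSlashInvariance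
open scoped MatrixGroups

variable {N : ℕ} {A : Type*} [AddCommGroup A]

/-- a homomorphism killing `Γ₁(N)` only depends on `d mod N`. -/
theorem s41d_chi_eq_of_map_eq (χ : Additive (Gamma0 N) →+ A)
    (hχ : ∀ γ : Gamma0 N, Gamma0Map N γ = 1 → χ (Additive.ofMul γ) = 0) (u v : Gamma0 N)
    (h : Gamma0Map N u = Gamma0Map N v) : χ (Additive.ofMul u) = χ (Additive.ofMul v) := by
  have h1 : Gamma0Map N (u * v⁻¹) = 1 := by
    rw [map_mul, h, ← map_mul, mul_inv_cancel, map_one]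
  have h2 := hχ _ h1
  rw [ofMul_mul, map_add, ofMul_inv, map_neg, add_neg_eq_zero] at h2
  exact h2

/-- an element of `Γ₀(N)` with `d = ℓ`, for `ℓ` prime to `N`. -/
theorem s41d_exists_d (ℓ : ℕ) (h : Nat.Coprime ℓ N) :
    ∃ γ : Gamma0 N, Gamma0Map N γ = (ℓ : ZMod N) := by
  obtain ⟨u, v, huv⟩ := (Nat.isCoprime_iff_coprime.mpr h : IsCoprime (ℓ : ℤ) (N : ℤ))
  refine ⟨⟨⟨!![u, -v; (N : ℤ), (ℓ : ℤ)], ?_⟩, ?_⟩, ?_⟩
  · rw [Matrix.det_fin_two_of]; linarith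
  · rw [Gamma0_mem]
    simp
  · show (((ℓ : ℤ) : ℤ) : ZMod N) = (ℓ : ZMod N)
    simp

variable {ℓ : ℕ} [Fact ℓ.Prime]

theorem s41d_card_onePoint : Fintype.card (OnePoint (ZMod ℓ)) = ℓ + 1 := by
  have h1 : Fintype.card (OnePoint (ZMod ℓ)) = Fintype.card (Option (ZMod ℓ)) :=
    Fintype.card_congr (Equiv.refl _)
  rw [h1, Fintype.card_option, ZMod.card]

/-- the lower right entry of the coset representatives is `1` or `ℓ`. -/
theorem s41d_rep_11 (x : OnePoint (ZMod ℓ)) :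
    heckeRepZ ℓ x 1 1 = 1 ∨ heckeRepZ ℓ x 1 1 = (ℓ : ℤ) := by
  induction x using OnePoint.rec with
  | infty => left; show heckeDiagZ ℓ 1 1 = 1; simp [heckeDiagZ]
  | coe j => right; show heckeMatZ ℓ j.val 1 1 = (ℓ : ℤ); simp [heckeMatZ]

/-- **Eisenstein**: a homomorphism `χ : Γ₀(N) → A` which kills `Γ₁(N)` satisfies
`T_ℓ^H χ = (ℓ + 1) χ` for every prime `ℓ ∤ N`. -/
theorem s41d_hecke_eisenstein (hℓN : ¬ ℓ ∣ N) (χ : Additive (Gamma0 N) →+ A)
    (hχ : ∀ γ : Gamma0 N, Gamma0Map N γ = 1 → χ (Additive.ofMul γ) = 0) :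
    s29h_heckeHom N ℓ A χ = (ℓ + 1) • χ := by
  have hcop : Nat.Coprime ℓ N := (Nat.Prime.coprime_iff_not_dvd (Fact.out : ℓ.Prime)).mpr hℓN
  obtain ⟨hℓ, hhℓ⟩ := s41d_exists_d (N := N) ℓ hcop
  -- elements `k x ∈ Γ₀(N)` with `d (k x) ≡ (α_x)₁₁`
  have hk : ∀ x : OnePoint (ZMod ℓ), ∃ k : Gamma0 N,
      Gamma0Map N k = ((heckeRepZ ℓ x 1 1 : ℤ) : ZMod N) := by
    intro x
    rcases s41d_rep_11 x with h | h
    · exact ⟨1, by rw [h, map_one]; simp⟩
    · exact ⟨hℓ, by rw [h, hhℓ]; simp⟩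
  choose k hk using hk
  refine AddMonoidHom.ext fun γ => ?_
  obtain ⟨γ, rfl⟩ := Additive.ofMul.surjective γ
  rw [s29h_heckeHom_apply hℓN]
  have key : ∀ x : OnePoint (ZMod ℓ), χ (Additive.ofMul (s29h_fam hℓN γ x)) =
      χ (Additive.ofMul γ) + (χ (Additive.ofMul (k x)) -
        χ (Additive.ofMul (k (heckePermT ℓ (γ : SL(2, ℤ)) x)))) := by
    intro x
    have hspec := s29h_fam_spec hℓN γ x
    have h11 := congrFun (congrFun hspec 1) 1
    rw [Matrix.mul_apply, Matrix.mul_apply, Fin.sum_univ_two, Fin.sum_univ_two,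
      heckeRepZ_apply_one_zero, zero_mul, zero_add] at h11
    have hc0 : ((((s29h_fam hℓN γ x : Gamma0 N) : SL(2, ℤ)) 1 0 : ℤ) : ZMod N) = 0 :=
      Gamma0_mem.mp (s29h_fam hℓN γ x).2
    have h11' := congrArg (fun z : ℤ => (z : ZMod N)) h11
    simp only [Int.cast_add, Int.cast_mul] at h11'
    have hc0' : (((((s29h_fam hℓN γ x : Gamma0 N) : SL(2, ℤ)) :
        Matrix (Fin 2) (Fin 2) ℤ) 1 0 : ℤ) : ZMod N) = 0 := hc0
    rw [hc0', zero_mul, zero_add] at h11'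
    have heq : Gamma0Map N (s29h_fam hℓN γ x * k (heckePermT ℓ (γ : SL(2, ℤ)) x)) =
        Gamma0Map N (k x * γ) := by
      rw [map_mul, map_mul, hk, hk]
      exact h11'.symm
    have h2 := s41d_chi_eq_of_map_eq χ hχ _ _ heq
    rw [ofMul_mul, map_add, ofMul_mul, map_add] at h2
    rw [eq_sub_of_add_eq h2]
    abel
  rw [Finset.sum_congr rfl fun x _ => key x, Finset.sum_add_distrib, Finset.sum_sub_distrib,
    Equiv.sum_comp (heckePermT ℓ (γ : SL(2, ℤ))) (fun x => χ (Additive.ofMul (k x))), sub_self,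
    add_zero, Finset.sum_const, Finset.card_univ, s41d_card_onePoint]
  rfl

end Fermat.Agent.Lib.S41
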