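/-
S41 project, module [D], file 7 (helper1): **assembly of [D] modulo the contract `s41d_MS2`**.

* `s41d_MS2 N q` (THE CONTRACT): there is `M ≠ 0`, `N ∣ M`, `M` prime to `q`, such that for every
  homomorphism `φ : Γ₀(N)[1/q] → A` (abelian `A`) killing the unipotents `[[1, x], [0, 1]]`,
  `[[1, 0], [N r, 1]]`, the symbol `[c, d] = φ [[*, *], [c, d]]` is multiplicative in `d` on the rows
  `≡ (0, 1)` modulo `M ℤ[1/q]` (`s41d_MS2At`).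
* `s41d_hecke_of_claim`: if `φ` kills the elements with `d ≡ 1` modulo `N`, then its restriction
  `φ₁` to `Γ₀(N)` satisfies `T_ℓ^H φ₁ = (ℓ + 1) φ₁` for all primes `ℓ ∤ N`.
* `s41d_ihara_of_ms2` (**Ihara's lemma, abelian form**): `s41d_MS2 N q`, `p` an odd prime `≠ q`,
  `p • A = 0`, `φ : Γ₀(N)[1/q] → A` killing `[[1, 1], [0, 1]]` and `[[1, 0], [N, 1]]` ⇒
  `T_ℓ^H φ₁ = (ℓ + 1) φ₁`.
-/
import Mathlib
import Fermat.Agent.Lib.S41.DKills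
import Fermat.Agent.Lib.S41.DEnd
import Fermat.Agent.Lib.S41.DHecke

set_option autoImplicit false

open Matrix MatrixGroups CongruenceSubgroup

namespace Fermat.Agent.Lib.S41

open Fermat.Agent.Lib.S29

universe u

/-- **THE CONTRACT (MS2)** of module [D]. -/
def s41d_MS2 (N q : ℕ) : Prop :=
  ∃ M : ℕ, M ≠ 0 ∧ N ∣ M ∧ Nat.Coprime M q ∧
    ∀ (A : Type u) [AddCommGroup A] (φ : Additive ↥(s41e_G N q) →+ A),
      s41d_Kills N q φ → s41d_MS2At N q M φ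

section

variable {N q : ℕ} {A : Type u} [AddCommGroup A]

/-- a homomorphism on `Γ₀(N)[1/q]` killing the elements with `d ≡ 1` modulo `N` restricts to an
Eisenstein class on `Γ₀(N)`. -/
theorem s41d_hecke_of_claim (φ : Additive ↥(s41e_G N q) →+ A)
    (hclaim : ∀ g : ↥(s41e_G N q), (∃ r ∈ s41e_R q, g.1.1 1 1 = 1 + (N : ℚ) * r) →
      φ (Additive.ofMul g) = 0)
    (φ₁ : Additive (Gamma0 N) →+ A)
    (h1 : ∀ γ : Gamma0 N, φ (Additive.ofMul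
      (⟨s41e_iota γ, s41e_iota_mem_G q γ.2⟩ : ↥(s41e_G N q))) = φ₁ (Additive.ofMul γ))
    {ℓ : ℕ} [Fact ℓ.Prime] (hℓN : ¬ ℓ ∣ N) :
    s29h_heckeHom N ℓ A φ₁ = (ℓ + 1) • φ₁ := by
  refine s41d_hecke_eisenstein hℓN φ₁ fun γ hγ => ?_
  rw [← h1]
  apply hclaim
  have hγ' : (((γ : SL(2, ℤ)) 1 1 : ℤ) : ZMod N) = 1 := hγ
  have h2 : ((((γ : SL(2, ℤ)) 1 1 - 1 : ℤ) : ℤ) : ZMod N) = 0 := by
    push_cast; rw [hγ', sub_self]
  rw [ZMod.intCast_zmod_eq_zero_iff_dvd] at h2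
  obtain ⟨r, hr⟩ := h2
  refine ⟨(r : ℚ), s41e_int_mem_R q r, ?_⟩
  show (s41e_iota (γ : SL(2, ℤ))).1 1 1 = _
  rw [s41e_iota_apply]
  have : (((γ : SL(2, ℤ)) 1 1 : ℤ) : ℚ) - 1 = (N : ℚ) * r := by exact_mod_cast hr
  linarith

/-- **Ihara's lemma (abelian form) modulo the contract MS2.** -/
theorem s41d_ihara_of_ms2 (hms : s41d_MS2.{u} N q) (hq : q.Prime) {p : ℕ} (hp : p.Prime)
    (hp2 : p ≠ 2) (hpq : p ≠ q) (hA : ∀ a : A, p • a = 0) (φ : Additive ↥(s41e_G N q) →+ A)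
    (hT : φ (Additive.ofMul (⟨s41d_up 1, s41d_up_mem (s41e_R q).one_mem⟩ : ↥(s41e_G N q))) = 0)
    (hL : φ (Additive.ofMul
      (⟨s41d_lo ((N : ℚ) * 1), s41d_lo_mem (s41e_R q).one_mem⟩ : ↥(s41e_G N q))) = 0)
    (φ₁ : Additive (Gamma0 N) →+ A)
    (h1 : ∀ γ : Gamma0 N, φ (Additive.ofMul
      (⟨s41e_iota γ, s41e_iota_mem_G q γ.2⟩ : ↥(s41e_G N q))) = φ₁ (Additive.ofMul γ))
    {ℓ : ℕ} [Fact ℓ.Prime] (hℓN : ¬ ℓ ∣ N) :
    s29h_heckeHom N ℓ A φ₁ = (ℓ + 1) • φ₁ := by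
  obtain ⟨M, hM, hNM, hMq, hall⟩ := hms
  have hK : s41d_Kills N q φ := s41d_kills_of_gen φ hq.ne_zero hT hL
  exact s41d_hecke_of_claim φ
    (fun g hg => s41d_claim_of_ms2 hq hp hp2 hpq hA hK hM hNM hMq (hall A φ hK) g hg) φ₁ h1 hℓN

end

end Fermat.Agent.Lib.S41
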