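/-
S41 project, package [E] (amalgam), part (E2a) (helper8): the INTEGER CORE of the generation of
`Γ₀(N)[1/q]` by `Γ₀(N)` and `δ Γ₀(N) δ⁻¹`, `δ = diag(q, 1)` (`q` prime, `q ∤ N`).

* `s41e_gen_bezout` : `s N + t q = 1`;
* `s41e_gen_prop_col` : in a field, a singular `2 × 2` matrix with non-zero first column has its
  second column proportional to the first;
* `s41e_gen_step` : **the reduction step**.  For an integer matrix `m = [[A, B], [C, D]]` with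
  `N ∣ C`, `q² ∣ det m`, not all entries divisible by `q`: there are `x, γ₂ ∈ Γ₀(N)` (given by their
  entries) with `m x = [[A', q B'], [C', q D']]` and, for `γ₂ = [[a, b], [c, d]]`,
  `a A' + c B' = q E`, `a C' + c D' = q G`, `N ∣ G`; i.e.
  `m · x · (δ γ₂ δ⁻¹) = q · [[E, b A' + d B'], [G, b C' + d D']]`.
-/
import Mathlib

set_option autoImplicit false
set_option linter.style.haveILetI false

namespace Fermat.Agent.Lib.S41

/-- Bezout for `N` and a prime `q ∤ N`. -/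
theorem s41e_gen_bezout (N q : ℕ) (hq : q.Prime) (hqN : ¬ q ∣ N) :
    ∃ s t : ℤ, s * (N : ℤ) + t * (q : ℤ) = 1 := by
  have h : Nat.Coprime N q := ((Nat.Prime.coprime_iff_not_dvd hq).mpr hqN).symm
  exact Nat.isCoprime_iff_coprime.mpr h

/-- In a field, a singular `2 × 2` matrix with non-zero first column has second column
proportional to the first. -/
theorem s41e_gen_prop_col {F : Type*} [Field F] (A B C D : F) (h : A * D - B * C = 0)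
    (hAC : ¬ (A = 0 ∧ C = 0)) : ∃ μ : F, B = μ * A ∧ D = μ * C := by
  by_cases hA : A = 0
  · have hC : C ≠ 0 := fun hC => hAC ⟨hA, hC⟩
    refine ⟨D / C, ?_, ?_⟩
    · have hB : B = 0 := by
        have : B * C = 0 := by rw [hA] at h; linear_combination -h
        rcases mul_eq_zero.mp this with h0 | h0
        · exact h0
        · exact absurd h0 hC
      rw [hB, hA, mul_zero]
    · field_simp
  · refine ⟨B / A, ?_, ?_⟩
    · field_simp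
    · field_simp
      linear_combination h

section Step

variable (N q : ℕ)

/-- `q ∣ a ↔ (a : ZMod q) = 0`, the form used below. -/
theorem s41e_gen_dvd_iff (a : ℤ) : (q : ℤ) ∣ a ↔ ((a : ℤ) : ZMod q) = 0 :=
  (ZMod.intCast_zmod_eq_zero_iff_dvd a q).symm

/-- Integer form of `s41e_gen_prop_col` modulo a prime `q`. -/
theorem s41e_gen_prop_col_int (hq : q.Prime) (A B C D : ℤ) (h : (q : ℤ) ∣ A * D - B * C)
    (hAC : ¬ ((q : ℤ) ∣ A ∧ (q : ℤ) ∣ C)) :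
    ∃ μ : ℤ, (q : ℤ) ∣ B - μ * A ∧ (q : ℤ) ∣ D - μ * C := by
  haveI : Fact q.Prime := ⟨hq⟩
  have h' : ((A : ZMod q)) * (D : ZMod q) - (B : ZMod q) * (C : ZMod q) = 0 := by
    have := (s41e_gen_dvd_iff q _).mp h
    push_cast at this
    exact this
  have hAC' : ¬ ((A : ZMod q) = 0 ∧ (C : ZMod q) = 0) := fun ⟨h1, h2⟩ =>
    hAC ⟨(s41e_gen_dvd_iff q A).mpr h1, (s41e_gen_dvd_iff q C).mpr h2⟩
  obtain ⟨μ, hB, hD⟩ := s41e_gen_prop_col (A : ZMod q) B C D h' hAC'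
  obtain ⟨μ', rfl⟩ := ZMod.intCast_surjective μ
  refine ⟨μ', (s41e_gen_dvd_iff q _).mpr ?_, (s41e_gen_dvd_iff q _).mpr ?_⟩
  · push_cast
    rw [hB]; ring
  · push_cast
    rw [hD]; ring

/-- **The matrix `x`**: an element of `Γ₀(N)` (by entries) killing the second column of `m`
modulo `q`. -/
theorem s41e_gen_exists_x (hq : q.Prime) (hqN : ¬ q ∣ N) (A B C D : ℤ)
    (hdet : (q : ℤ) ∣ A * D - B * C) :
    ∃ x₀₀ x₀₁ x₁₀ x₁₁ : ℤ, x₀₀ * x₁₁ - x₀₁ * x₁₀ = 1 ∧ (N : ℤ) ∣ x₁₀ ∧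
      (q : ℤ) ∣ A * x₀₁ + B * x₁₁ ∧ (q : ℤ) ∣ C * x₀₁ + D * x₁₁ := by
  by_cases hAC : (q : ℤ) ∣ A ∧ (q : ℤ) ∣ C
  · obtain ⟨s, t, hst⟩ := s41e_gen_bezout N q hq hqN
    obtain ⟨⟨A₁, rfl⟩, ⟨C₁, rfl⟩⟩ := hAC
    refine ⟨t, -s, N, q, by linear_combination hst, dvd_refl _, ⟨-A₁ * s + B, by ring⟩,
      ⟨-C₁ * s + D, by ring⟩⟩
  · obtain ⟨μ, ⟨e₁, h₁⟩, ⟨e₂, h₂⟩⟩ := s41e_gen_prop_col_int q hq A B C D hdet hAC
    refine ⟨1, -μ, 0, 1, by ring, dvd_zero _, ⟨e₁, by linear_combination h₁⟩,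
      ⟨e₂, by linear_combination h₂⟩⟩

/-- **The matrix `γ₂`** (LIFT): an element `[[a, b], [c, d]]` of `Γ₀(N)` with `a ≡ u`, `c ≡ 1`
modulo `q`. -/
theorem s41e_gen_exists_gamma (hq : q.Prime) (hqN : ¬ q ∣ N) (u : ℤ) :
    ∃ a b c d : ℤ, a * d - b * c = 1 ∧ (N : ℤ) ∣ c ∧ (q : ℤ) ∣ a - u ∧ (q : ℤ) ∣ c - 1 := by
  obtain ⟨s, t, hst⟩ := s41e_gen_bezout N q hq hqN
  refine ⟨1 + (N * s) * (u - 1), u - 1, N * s, 1, by ring, dvd_mul_right _ _,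
    ⟨-t * (u - 1), ?_⟩, ⟨-t, ?_⟩⟩
  · linear_combination (u - 1) * hst
  · linear_combination hst

/-- **The reduction step.** -/
theorem s41e_gen_step (hq : q.Prime) (hqN : ¬ q ∣ N) (A B C D : ℤ)
    (hN : (N : ℤ) ∣ C) (hdet : (q : ℤ) ^ 2 ∣ A * D - B * C)
    (hprim : ¬ ((q : ℤ) ∣ A ∧ (q : ℤ) ∣ B ∧ (q : ℤ) ∣ C ∧ (q : ℤ) ∣ D)) :
    ∃ x₀₀ x₀₁ x₁₀ x₁₁ a b c d : ℤ, x₀₀ * x₁₁ - x₀₁ * x₁₀ = 1 ∧ (N : ℤ) ∣ x₁₀ ∧
      a * d - b * c = 1 ∧ (N : ℤ) ∣ c ∧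
      ∃ A' B' C' D' : ℤ, A * x₀₀ + B * x₁₀ = A' ∧ A * x₀₁ + B * x₁₁ = q * B' ∧
        C * x₀₀ + D * x₁₀ = C' ∧ C * x₀₁ + D * x₁₁ = q * D' ∧
        ∃ E G : ℤ, a * A' + c * B' = q * E ∧ a * C' + c * D' = q * G ∧ (N : ℤ) ∣ G := by
  have hqP : Prime (q : ℤ) := Nat.prime_iff_prime_int.mp hq
  have hq0 : (q : ℤ) ≠ 0 := hqP.ne_zero
  have hdet1 : (q : ℤ) ∣ A * D - B * C := dvd_trans (dvd_pow_self _ two_ne_zero) hdet
  obtain ⟨x₀₀, x₀₁, x₁₀, x₁₁, hx, hxN, ⟨B', hB'⟩, ⟨D', hD'⟩⟩ :=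
    s41e_gen_exists_x N q hq hqN A B C D hdet1
  -- the first column of `m x`
  set A' : ℤ := A * x₀₀ + B * x₁₀ with hA'
  set C' : ℤ := C * x₀₀ + D * x₁₀ with hC'
  -- `m x` is still primitive
  have hprim' : ¬ ((q : ℤ) ∣ A' ∧ (q : ℤ) ∣ C') := by
    rintro ⟨⟨a₁, ha₁⟩, ⟨c₁, hc₁⟩⟩
    apply hprim
    refine ⟨⟨a₁ * x₁₁ - B' * x₁₀, ?_⟩, ⟨-a₁ * x₀₁ + B' * x₀₀, ?_⟩, ⟨c₁ * x₁₁ - D' * x₁₀, ?_⟩,
      ⟨-c₁ * x₀₁ + D' * x₀₀, ?_⟩⟩
    · have : A = A' * x₁₁ - (q * B') * x₁₀ := by rw [← hB', hA']; linear_combination (-A) * hx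
      rw [this, ha₁]; ring
    · have : B = -A' * x₀₁ + (q * B') * x₀₀ := by rw [← hB', hA']; linear_combination (-B) * hx
      rw [this, ha₁]; ring
    · have : C = C' * x₁₁ - (q * D') * x₁₀ := by rw [← hD', hC']; linear_combination (-C) * hx
      rw [this, hc₁]; ring
    · have : D = -C' * x₀₁ + (q * D') * x₀₀ := by rw [← hD', hC']; linear_combination (-D) * hx
      rw [this, hc₁]; ring
  -- the determinant of `[[A', B'], [C', D']]` is divisible by `q`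
  have hdet' : (q : ℤ) ∣ A' * D' - B' * C' := by
    have e : (q : ℤ) * (A' * D' - B' * C') = A * D - B * C := by
      have : (q : ℤ) * (A' * D' - B' * C') = A' * (q * D') - (q * B') * C' := by ring
      rw [this, ← hB', ← hD', hA', hC']
      linear_combination (A * D - B * C) * hx
    have h2 : (q : ℤ) * q ∣ (q : ℤ) * (A' * D' - B' * C') := by
      rw [e, ← sq]; exact hdet
    exact (mul_dvd_mul_iff_left hq0).mp h2
  obtain ⟨lam, ⟨e₁, h₁⟩, ⟨e₂, h₂⟩⟩ := s41e_gen_prop_col_int q hq A' B' C' D' hdet' hprim'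
  obtain ⟨a, b, c, d, hγ, hcN, ⟨a₁, ha₁⟩, ⟨c₁, hc₁⟩⟩ := s41e_gen_exists_gamma N q hq hqN (-lam)
  have hC'N : (N : ℤ) ∣ C' := by
    rw [hC']
    exact dvd_add (Dvd.dvd.mul_right hN _) (Dvd.dvd.mul_left hxN _)
  -- the two congruences
  have hE : a * A' + c * B' = q * (a₁ * A' + c₁ * B' + e₁) := by
    linear_combination A' * ha₁ + B' * hc₁ + h₁
  have hG : a * C' + c * D' = q * (a₁ * C' + c₁ * D' + e₂) := by
    linear_combination C' * ha₁ + D' * hc₁ + h₂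
  have hGN : (N : ℤ) ∣ a₁ * C' + c₁ * D' + e₂ := by
    have h3 : (N : ℤ) ∣ (q : ℤ) * (a₁ * C' + c₁ * D' + e₂) := by
      rw [← hG]
      exact dvd_add (Dvd.dvd.mul_left hC'N _) (Dvd.dvd.mul_right hcN _)
    have hcop : IsCoprime (N : ℤ) (q : ℤ) := by
      obtain ⟨s, t, hst⟩ := s41e_gen_bezout N q hq hqN
      exact ⟨s, t, hst⟩
    exact hcop.dvd_of_dvd_mul_left h3
  exact ⟨x₀₀, x₀₁, x₁₀, x₁₁, a, b, c, d, hx, hxN, hγ, hcN, A', B', C', D', rfl, hB', rfl, hD',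
    _, _, hE, hG, hGN⟩

end Step

end Fermat.Agent.Lib.S41
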