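/-
S41 project, package [E] (amalgam), part (E2) (helper8): GENERATION.

`Γ₀(N)[1/q] = s41e_G N q` is generated by `Γ = ι Γ₀(N)` and `Γ' = δ Γ δ⁻¹`, `δ = diag(q, 1)`
(`q` prime, `q ∤ N`):

* `s41e_gen_le`   : `Γ ⊔ Γ' ≤ s41e_G N q`;
* `s41e_gen_core` : any subgroup `S ≤ SL(2, ℚ)` containing `Γ` and `Γ'` contains `s41e_G N q`
  (induction on the least `k` with `q ^ k • g` integral; the step is `s41e_gen_step`);
* `s41e_gen`      : `Γ ⊔ Γ' = s41e_G N q`.
-/
import Fermat.Agent.Lib.S41.EDefs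
import Fermat.Agent.Lib.S41.EGenInt

set_option autoImplicit false

open Matrix MatrixGroups

namespace Fermat.Agent.Lib.S41

/-- an element of `SL(2, ℤ)` from its entries. -/
def s41e_gen_mk (a b c d : ℤ) (h : a * d - b * c = 1) : SL(2, ℤ) :=
  ⟨!![a, b; c, d], by rw [Matrix.det_fin_two_of]; exact h⟩

theorem s41e_gen_mk_mem (N : ℕ) (a b c d : ℤ) (h : a * d - b * c = 1) (hc : (N : ℤ) ∣ c) :
    s41e_gen_mk a b c d h ∈ CongruenceSubgroup.Gamma0 N := by
  rw [CongruenceSubgroup.Gamma0_mem]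
  exact (ZMod.intCast_zmod_eq_zero_iff_dvd _ _).mpr hc

/-- `Γ ⊔ Γ' ≤ Γ₀(N)[1/q]`. -/
theorem s41e_gen_le (N q : ℕ) (hq : q ≠ 0) :
    (CongruenceSubgroup.Gamma0 N).map s41e_iota ⊔
        ((CongruenceSubgroup.Gamma0 N).map s41e_iota).map (s41e_conj q hq) ≤ s41e_G N q := by
  refine sup_le ?_ ?_
  · rintro _ ⟨γ, hγ, rfl⟩
    exact s41e_iota_mem_G q hγ
  · rintro _ ⟨_, ⟨γ, hγ, rfl⟩, rfl⟩
    exact s41e_conj_mem_G hq (s41e_iota_mem_G q hγ)

theorem s41e_gen_iota_mk (a b c d : ℤ) (h : a * d - b * c = 1) :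
    (s41e_iota (s41e_gen_mk a b c d h)).1 = !![(a : ℚ), b; c, d] := by
  ext i j
  rw [s41e_iota_apply]
  fin_cases i <;> fin_cases j <;> rfl

theorem s41e_gen_conj_mk (q : ℕ) (hq : q ≠ 0) (a b c d : ℤ) (h : a * d - b * c = 1) :
    (s41e_conj q hq (s41e_iota (s41e_gen_mk a b c d h))).1 =
      !![(a : ℚ), (q : ℚ) * b; (c : ℚ) / q, d] := by
  rw [s41e_conj_apply, s41e_gen_iota_mk]
  rfl

/-- **Generation, core form**: a subgroup containing `Γ` and `Γ'` contains every `g` with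
`q ^ k • g` integral and lower-left entry divisible by `N`. -/
theorem s41e_gen_core (N q : ℕ) (hq : q.Prime) (hqN : ¬ q ∣ N) (S : Subgroup SL(2, ℚ))
    (h1 : ∀ γ ∈ CongruenceSubgroup.Gamma0 N, s41e_iota γ ∈ S)
    (h2 : ∀ γ ∈ CongruenceSubgroup.Gamma0 N, s41e_conj q hq.ne_zero (s41e_iota γ) ∈ S) :
    ∀ (k : ℕ) (g : SL(2, ℚ)) (A B C D : ℤ), g.1 0 0 * (q : ℚ) ^ k = A → g.1 0 1 * (q : ℚ) ^ k = B →
      g.1 1 0 * (q : ℚ) ^ k = C → g.1 1 1 * (q : ℚ) ^ k = D → (N : ℤ) ∣ C → g ∈ S := by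
  have hq0 : (q : ℚ) ≠ 0 := by exact_mod_cast hq.ne_zero
  have hcop : IsCoprime (N : ℤ) (q : ℤ) := by
    obtain ⟨s, t, hst⟩ := s41e_gen_bezout N q hq hqN
    exact ⟨s, t, hst⟩
  intro k
  induction k with
  | zero =>
    intro g A B C D hA hB hC hD hN
    simp only [pow_zero, mul_one] at hA hB hC hD
    have hdet : A * D - B * C = 1 := by
      have := g.2
      rw [Matrix.det_fin_two, hA, hB, hC, hD] at this
      exact_mod_cast this
    have e : g = s41e_iota (s41e_gen_mk A B C D hdet) := by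
      apply Subtype.ext
      rw [s41e_gen_iota_mk]
      ext i j
      fin_cases i <;> fin_cases j
      · exact hA
      · exact hB
      · exact hC
      · exact hD
    rw [e]
    exact h1 _ (s41e_gen_mk_mem N A B C D hdet hN)
  | succ k ih =>
    intro g A B C D hA hB hC hD hN
    have hQ : (q : ℚ) ^ (k + 1) ≠ 0 := pow_ne_zero _ hq0
    have hQk : (q : ℚ) ^ k ≠ 0 := pow_ne_zero _ hq0
    by_cases hprim : (q : ℤ) ∣ A ∧ (q : ℤ) ∣ B ∧ (q : ℤ) ∣ C ∧ (q : ℤ) ∣ D
    · -- not primitive: divide by `q`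
      obtain ⟨⟨A₁, rfl⟩, ⟨B₁, rfl⟩, ⟨C₁, rfl⟩, ⟨D₁, rfl⟩⟩ := hprim
      refine ih g A₁ B₁ C₁ D₁ ?_ ?_ ?_ ?_ (hcop.dvd_of_dvd_mul_left hN)
      · apply mul_left_cancel₀ hq0
        rw [pow_succ] at hA
        push_cast at hA
        linear_combination hA
      · apply mul_left_cancel₀ hq0
        rw [pow_succ] at hB
        push_cast at hB
        linear_combination hB
      · apply mul_left_cancel₀ hq0
        rw [pow_succ] at hC
        push_cast at hC
        linear_combination hC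
      · apply mul_left_cancel₀ hq0
        rw [pow_succ] at hD
        push_cast at hD
        linear_combination hD
    · -- primitive: the reduction step
      have hdet : (q : ℤ) ^ 2 ∣ A * D - B * C := by
        have h := g.2
        rw [Matrix.det_fin_two] at h
        have e : ((A * D - B * C : ℤ) : ℚ) = (((q : ℤ) ^ 2 * (q : ℤ) ^ (2 * k) : ℤ) : ℚ) := by
          push_cast
          rw [← hA, ← hB, ← hC, ← hD]
          have : (q : ℚ) ^ 2 * (q : ℚ) ^ (2 * k) = (q : ℚ) ^ (k + 1) * (q : ℚ) ^ (k + 1) := by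
            rw [← pow_add, ← pow_add]; congr 1; ring
          rw [this]
          linear_combination ((q : ℚ) ^ (k + 1) * (q : ℚ) ^ (k + 1)) * h
        exact ⟨(q : ℤ) ^ (2 * k), by exact_mod_cast e⟩
      obtain ⟨x₀₀, x₀₁, x₁₀, x₁₁, a, b, c, d, hx, hxN, hγ, hcN, A', B', C', D', hA', hB', hC', hD',
        E, G, hE, hG, hGN⟩ := s41e_gen_step N q hq hqN A B C D hN hdet hprim
      set X : SL(2, ℤ) := s41e_gen_mk x₀₀ x₀₁ x₁₀ x₁₁ hx with hX
      set Y : SL(2, ℤ) := s41e_gen_mk a b c d hγ with hY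
      have hXS : s41e_iota X ∈ S := h1 _ (s41e_gen_mk_mem N _ _ _ _ hx hxN)
      have hYS : s41e_conj q hq.ne_zero (s41e_iota Y) ∈ S :=
        h2 _ (s41e_gen_mk_mem N _ _ _ _ hγ hcN)
      -- the new element
      have key : g * s41e_iota X * s41e_conj q hq.ne_zero (s41e_iota Y) ∈ S := by
        have hA'q : ((A : ℚ)) * x₀₀ + B * x₁₀ = A' := by exact_mod_cast hA'
        have hB'q : ((A : ℚ)) * x₀₁ + B * x₁₁ = q * B' := by exact_mod_cast hB'
        have hC'q : ((C : ℚ)) * x₀₀ + D * x₁₀ = C' := by exact_mod_cast hC'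
        have hD'q : ((C : ℚ)) * x₀₁ + D * x₁₁ = q * D' := by exact_mod_cast hD'
        have hEq : ((a : ℚ)) * A' + c * B' = q * E := by exact_mod_cast hE
        have hGq : ((a : ℚ)) * C' + c * D' = q * G := by exact_mod_cast hG
        have g00 : g.1 0 0 = A / (q : ℚ) ^ (k + 1) := eq_div_of_mul_eq hQ hA
        have g01 : g.1 0 1 = B / (q : ℚ) ^ (k + 1) := eq_div_of_mul_eq hQ hB
        have g10 : g.1 1 0 = C / (q : ℚ) ^ (k + 1) := eq_div_of_mul_eq hQ hC
        have g11 : g.1 1 1 = D / (q : ℚ) ^ (k + 1) := eq_div_of_mul_eq hQ hD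
        have hmat : (g * s41e_iota X * s41e_conj q hq.ne_zero (s41e_iota Y)).1 =
            g.1 * !![(x₀₀ : ℚ), x₀₁; x₁₀, x₁₁] * !![(a : ℚ), (q : ℚ) * b; (c : ℚ) / q, d] := by
          rw [Matrix.SpecialLinearGroup.coe_mul, Matrix.SpecialLinearGroup.coe_mul, hX, hY,
            s41e_gen_iota_mk, s41e_gen_conj_mk]
        refine ih _ E (b * A' + d * B') G (b * C' + d * D') ?_ ?_ ?_ ?_ hGN
        · rw [hmat]
          simp only [Matrix.mul_apply, Fin.sum_univ_two, Matrix.of_apply, Matrix.cons_val_zero,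
            Matrix.cons_val_one, Matrix.cons_val', Matrix.cons_val_fin_one]
          rw [g00, g01, pow_succ]
          field_simp
          linear_combination ((a : ℚ) * q) * hA'q + (c : ℚ) * hB'q + (q : ℚ) * hEq
        · rw [hmat]
          simp only [Matrix.mul_apply, Fin.sum_univ_two, Matrix.of_apply, Matrix.cons_val_zero,
            Matrix.cons_val_one, Matrix.cons_val', Matrix.cons_val_fin_one]
          rw [g00, g01, pow_succ]
          push_cast
          field_simp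
          linear_combination ((b : ℚ) * q) * hA'q + (d : ℚ) * hB'q
        · rw [hmat]
          simp only [Matrix.mul_apply, Fin.sum_univ_two, Matrix.of_apply, Matrix.cons_val_zero,
            Matrix.cons_val_one, Matrix.cons_val', Matrix.cons_val_fin_one]
          rw [g10, g11, pow_succ]
          field_simp
          linear_combination ((a : ℚ) * q) * hC'q + (c : ℚ) * hD'q + (q : ℚ) * hGq
        · rw [hmat]
          simp only [Matrix.mul_apply, Fin.sum_univ_two, Matrix.of_apply, Matrix.cons_val_zero,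
            Matrix.cons_val_one, Matrix.cons_val', Matrix.cons_val_fin_one]
          rw [g10, g11, pow_succ]
          push_cast
          field_simp
          linear_combination ((b : ℚ) * q) * hC'q + (d : ℚ) * hD'q
      have e : g = g * s41e_iota X * s41e_conj q hq.ne_zero (s41e_iota Y) *
          (s41e_conj q hq.ne_zero (s41e_iota Y))⁻¹ * (s41e_iota X)⁻¹ := by group
      rw [e]
      exact S.mul_mem (S.mul_mem key (S.inv_mem hYS)) (S.inv_mem hXS)

/-- **Generation**: `Γ₀(N)[1/q]` is generated by `Γ₀(N)` and `δ Γ₀(N) δ⁻¹`. -/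
theorem s41e_gen (N q : ℕ) (hq : q.Prime) (hqN : ¬ q ∣ N) :
    (CongruenceSubgroup.Gamma0 N).map s41e_iota ⊔
        ((CongruenceSubgroup.Gamma0 N).map s41e_iota).map (s41e_conj q hq.ne_zero) =
      s41e_G N q := by
  refine le_antisymm (s41e_gen_le N q hq.ne_zero) ?_
  intro g hg
  obtain ⟨hent, r, hr, hgr⟩ := hg
  have hq0 : (q : ℚ) ≠ 0 := by exact_mod_cast hq.ne_zero
  -- a common exponent for the four entries and for `r`
  obtain ⟨k₀, A₀, hA₀⟩ := hent 0 0
  obtain ⟨k₁, B₀, hB₀⟩ := hent 0 1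
  obtain ⟨k₂, r₀, hr₀⟩ := hr
  obtain ⟨k₃, D₀, hD₀⟩ := hent 1 1
  set k : ℕ := k₀ + k₁ + k₂ + k₃ with hk
  refine s41e_gen_core N q hq hqN _
    (fun γ hγ => Subgroup.mem_sup_left (Subgroup.mem_map_of_mem _ hγ))
    (fun γ hγ => Subgroup.mem_sup_right
      (Subgroup.mem_map_of_mem _ (Subgroup.mem_map_of_mem _ hγ)))
    k g (A₀ * (q : ℤ) ^ (k₁ + k₂ + k₃)) (B₀ * (q : ℤ) ^ (k₀ + k₂ + k₃))
    ((N : ℤ) * (r₀ * (q : ℤ) ^ (k₀ + k₁ + k₃))) (D₀ * (q : ℤ) ^ (k₀ + k₁ + k₂)) ?_ ?_ ?_ ?_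
    (dvd_mul_right _ _)
  · push_cast
    rw [← hA₀, hk]
    ring
  · push_cast
    rw [← hB₀, hk]
    ring
  · push_cast
    rw [hgr, ← hr₀, hk]
    ring
  · push_cast
    rw [← hD₀, hk]
    ring

end Fermat.Agent.Lib.S41
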