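/-
S41 project, module family [E] (amalgam), abstract part (helper6), Mathlib only.

**Gluing homomorphisms along a ping-pong table.**  `G` a group acting on `Ω`, `Γ₁ Γ₂ ≤ G` generating
`G`, `Ω₁ Ω₂ ⊆ Ω` disjoint with `(Γ₁ ∖ Γ₂) Ω₁ ⊆ Ω₂`, `(Γ₂ ∖ Γ₁) Ω₂ ⊆ Ω₁` and, for every `g ∈ Γ₁ ∖ Γ₂`,
a point `ω ∈ Ω₂` with `g ω ∈ Ω₂` (and symmetrically).  Then two homomorphisms `φ₁ : Γ₁ →* A`,
`φ₂ : Γ₂ →* A` which agree on `Γ₁ ⊓ Γ₂` extend to a homomorphism `G →* A` (`s41e_glue_abs`), i.e.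
`G` has the universal property of the amalgam `Γ₁ *_{Γ₁ ⊓ Γ₂} Γ₂`.

Proof: words in the letters `Γ₁ ⊕ Γ₂`; a word which is not reduced can be shortened without changing
its value in `G` and in `A`; a non-empty reduced word is `≠ 1` in `G` by ping-pong.
-/
import Mathlib

set_option autoImplicit false

namespace Fermat.Agent.Lib.S41

section Abs

variable {G : Type*} [Group G] {Ω : Type*} [MulAction G Ω] {A : Type*} [Group A]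
  (Γ₁ Γ₂ : Subgroup G) (Ω₁ Ω₂ : Set Ω) (φ₁ : Γ₁ →* A) (φ₂ : Γ₂ →* A)

/-- the value of a letter in `G`. -/
def s41e_ev : Γ₁ ⊕ Γ₂ → G
  | Sum.inl x => (x : G)
  | Sum.inr y => (y : G)

/-- the value of a letter in `A`. -/
def s41e_val : Γ₁ ⊕ Γ₂ → A
  | Sum.inl x => φ₁ x
  | Sum.inr y => φ₂ y

/-- the side of a letter. -/
def s41e_side : Γ₁ ⊕ Γ₂ → Bool
  | Sum.inl _ => true
  | Sum.inr _ => false

/-- a letter which does not lie in the intersection. -/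
def s41e_notH : Γ₁ ⊕ Γ₂ → Prop
  | Sum.inl x => (x : G) ∉ Γ₂
  | Sum.inr y => (y : G) ∉ Γ₁

/-- the inverse letter. -/
def s41e_inv : Γ₁ ⊕ Γ₂ → Γ₁ ⊕ Γ₂
  | Sum.inl x => Sum.inl x⁻¹
  | Sum.inr y => Sum.inr y⁻¹

/-- the two ping-pong sets, indexed by `Bool`. -/
def s41e_Om (b : Bool) : Set Ω := if b then Ω₁ else Ω₂

/-- value of a word in `G`. -/
def s41e_evW (w : List (Γ₁ ⊕ Γ₂)) : G := (w.map (s41e_ev Γ₁ Γ₂)).prod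

/-- value of a word in `A`. -/
def s41e_valW (w : List (Γ₁ ⊕ Γ₂)) : A := (w.map (s41e_val Γ₁ Γ₂ φ₁ φ₂)).prod

/-- reduced words: alternating sides, no letter in the intersection. -/
def s41e_Red : List (Γ₁ ⊕ Γ₂) → Prop
  | [] => True
  | [l] => s41e_notH Γ₁ Γ₂ l
  | l :: l' :: t => s41e_notH Γ₁ Γ₂ l ∧ s41e_side Γ₁ Γ₂ l' = !s41e_side Γ₁ Γ₂ l ∧
      s41e_Red (l' :: t)

variable {Γ₁ Γ₂ Ω₁ Ω₂ φ₁ φ₂}

@[simp] theorem s41e_evW_nil : s41e_evW Γ₁ Γ₂ [] = 1 := rfl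

@[simp] theorem s41e_evW_cons (l : Γ₁ ⊕ Γ₂) (w : List (Γ₁ ⊕ Γ₂)) :
    s41e_evW Γ₁ Γ₂ (l :: w) = s41e_ev Γ₁ Γ₂ l * s41e_evW Γ₁ Γ₂ w := by
  simp [s41e_evW]

@[simp] theorem s41e_valW_nil : s41e_valW Γ₁ Γ₂ φ₁ φ₂ [] = 1 := rfl

@[simp] theorem s41e_valW_cons (l : Γ₁ ⊕ Γ₂) (w : List (Γ₁ ⊕ Γ₂)) :
    s41e_valW Γ₁ Γ₂ φ₁ φ₂ (l :: w) = s41e_val Γ₁ Γ₂ φ₁ φ₂ l * s41e_valW Γ₁ Γ₂ φ₁ φ₂ w := by
  simp [s41e_valW]

theorem s41e_evW_append (w w' : List (Γ₁ ⊕ Γ₂)) :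
    s41e_evW Γ₁ Γ₂ (w ++ w') = s41e_evW Γ₁ Γ₂ w * s41e_evW Γ₁ Γ₂ w' := by
  simp [s41e_evW]

theorem s41e_valW_append (w w' : List (Γ₁ ⊕ Γ₂)) :
    s41e_valW Γ₁ Γ₂ φ₁ φ₂ (w ++ w') = s41e_valW Γ₁ Γ₂ φ₁ φ₂ w * s41e_valW Γ₁ Γ₂ φ₁ φ₂ w' := by
  simp [s41e_valW]

theorem s41e_ev_inv (l : Γ₁ ⊕ Γ₂) : s41e_ev Γ₁ Γ₂ (s41e_inv Γ₁ Γ₂ l) = (s41e_ev Γ₁ Γ₂ l)⁻¹ := by
  cases l <;> simp [s41e_ev, s41e_inv]

theorem s41e_val_inv (l : Γ₁ ⊕ Γ₂) :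
    s41e_val Γ₁ Γ₂ φ₁ φ₂ (s41e_inv Γ₁ Γ₂ l) = (s41e_val Γ₁ Γ₂ φ₁ φ₂ l)⁻¹ := by
  cases l <;> simp [s41e_val, s41e_inv]

theorem s41e_side_inv (l : Γ₁ ⊕ Γ₂) : s41e_side Γ₁ Γ₂ (s41e_inv Γ₁ Γ₂ l) = s41e_side Γ₁ Γ₂ l := by
  cases l <;> rfl

theorem s41e_notH_inv {l : Γ₁ ⊕ Γ₂} (h : s41e_notH Γ₁ Γ₂ l) :
    s41e_notH Γ₁ Γ₂ (s41e_inv Γ₁ Γ₂ l) := by
  cases l with
  | inl x =>
    intro hx
    apply h
    have := Γ₂.inv_mem hx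
    simpa [s41e_inv] using this
  | inr y =>
    intro hy
    apply h
    have := Γ₁.inv_mem hy
    simpa [s41e_inv] using this

/-- the inverse word. -/
def s41e_invW (w : List (Γ₁ ⊕ Γ₂)) : List (Γ₁ ⊕ Γ₂) := (w.map (s41e_inv Γ₁ Γ₂)).reverse

theorem s41e_evW_invW (w : List (Γ₁ ⊕ Γ₂)) :
    s41e_evW Γ₁ Γ₂ (s41e_invW w) = (s41e_evW Γ₁ Γ₂ w)⁻¹ := by
  induction w with
  | nil => simp [s41e_invW, s41e_evW]
  | cons l w ih =>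
    have : s41e_invW (l :: w) = s41e_invW w ++ [s41e_inv Γ₁ Γ₂ l] := by
      simp [s41e_invW]
    rw [this, s41e_evW_append, ih, s41e_evW_cons, s41e_evW_cons, s41e_evW_nil, mul_one,
      s41e_ev_inv, mul_inv_rev]

theorem s41e_valW_invW (w : List (Γ₁ ⊕ Γ₂)) :
    s41e_valW Γ₁ Γ₂ φ₁ φ₂ (s41e_invW w) = (s41e_valW Γ₁ Γ₂ φ₁ φ₂ w)⁻¹ := by
  induction w with
  | nil => simp [s41e_invW, s41e_valW]
  | cons l w ih =>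
    have : s41e_invW (l :: w) = s41e_invW w ++ [s41e_inv Γ₁ Γ₂ l] := by
      simp [s41e_invW]
    rw [this, s41e_valW_append, ih, s41e_valW_cons, s41e_valW_cons, s41e_valW_nil, mul_one,
      s41e_val_inv, mul_inv_rev]

/-- **merging two letters** which are on the same side or one of which lies in the intersection. -/
theorem s41e_merge (hc : ∀ (x : G) (h1 : x ∈ Γ₁) (h2 : x ∈ Γ₂), φ₁ ⟨x, h1⟩ = φ₂ ⟨x, h2⟩)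
    (l l' : Γ₁ ⊕ Γ₂)
    (h : ¬ (s41e_notH Γ₁ Γ₂ l ∧ s41e_side Γ₁ Γ₂ l' = !s41e_side Γ₁ Γ₂ l ∧ s41e_notH Γ₁ Γ₂ l')) :
    ∃ m : Γ₁ ⊕ Γ₂, s41e_ev Γ₁ Γ₂ m = s41e_ev Γ₁ Γ₂ l * s41e_ev Γ₁ Γ₂ l' ∧
      s41e_val Γ₁ Γ₂ φ₁ φ₂ m = s41e_val Γ₁ Γ₂ φ₁ φ₂ l * s41e_val Γ₁ Γ₂ φ₁ φ₂ l' := by
  classical
  cases l with
  | inl x =>
    cases l' with
    | inl x' => exact ⟨Sum.inl (x * x'), by simp [s41e_ev], by simp [s41e_val]⟩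
    | inr y =>
      simp only [s41e_notH, s41e_side, Bool.not_true, true_and, not_and, not_not] at h
      by_cases hx : (x : G) ∈ Γ₂
      · refine ⟨Sum.inr (⟨x, hx⟩ * y), by simp [s41e_ev], ?_⟩
        simp only [s41e_val, map_mul]
        rw [← hc (x : G) x.2 hx]
      · have hy := h hx
        refine ⟨Sum.inl (x * ⟨y, hy⟩), by simp [s41e_ev], ?_⟩
        simp only [s41e_val, map_mul]
        rw [hc (y : G) hy y.2]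
  | inr y =>
    cases l' with
    | inr y' => exact ⟨Sum.inr (y * y'), by simp [s41e_ev], by simp [s41e_val]⟩
    | inl x =>
      simp only [s41e_notH, s41e_side, Bool.not_false, true_and, not_and, not_not] at h
      by_cases hy : (y : G) ∈ Γ₁
      · refine ⟨Sum.inl (⟨y, hy⟩ * x), by simp [s41e_ev], ?_⟩
        simp only [s41e_val, map_mul]
        rw [hc (y : G) hy y.2]
      · have hx := h hy
        refine ⟨Sum.inr (y * ⟨x, hx⟩), by simp [s41e_ev], ?_⟩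
        simp only [s41e_val, map_mul]
        rw [← hc (x : G) x.2 hx]

/-- **shortening** a non-reduced word of length `≥ 2`. -/
theorem s41e_shorten (hc : ∀ (x : G) (h1 : x ∈ Γ₁) (h2 : x ∈ Γ₂), φ₁ ⟨x, h1⟩ = φ₂ ⟨x, h2⟩) :
    ∀ w : List (Γ₁ ⊕ Γ₂), 2 ≤ w.length → ¬ s41e_Red Γ₁ Γ₂ w →
      ∃ w' : List (Γ₁ ⊕ Γ₂), w'.length < w.length ∧ s41e_evW Γ₁ Γ₂ w' = s41e_evW Γ₁ Γ₂ w ∧
        s41e_valW Γ₁ Γ₂ φ₁ φ₂ w' = s41e_valW Γ₁ Γ₂ φ₁ φ₂ w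
  | [], h, _ => by simp at h
  | [_], h, _ => by simp at h
  | l :: l' :: t, _, hred => by
    by_cases hm : s41e_notH Γ₁ Γ₂ l ∧ s41e_side Γ₁ Γ₂ l' = !s41e_side Γ₁ Γ₂ l ∧
        s41e_notH Γ₁ Γ₂ l'
    · -- the defect is in the tail
      have htail : ¬ s41e_Red Γ₁ Γ₂ (l' :: t) := fun h => hred ⟨hm.1, hm.2.1, h⟩
      cases t with
      | nil => exact absurd hm.2.2 htail
      | cons l'' t' =>
        obtain ⟨w', hlen, hev, hval⟩ := s41e_shorten hc (l' :: l'' :: t') (by simp) htail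
        refine ⟨l :: w', by simpa using hlen, ?_, ?_⟩
        · rw [s41e_evW_cons, hev]
          simp only [s41e_evW_cons]
        · rw [s41e_valW_cons, hval]
          simp only [s41e_valW_cons]
    · obtain ⟨m, hev, hval⟩ := s41e_merge hc l l' hm
      refine ⟨m :: t, by simp, ?_, ?_⟩
      · simp only [s41e_evW_cons, hev, mul_assoc]
      · simp only [s41e_valW_cons, hval, mul_assoc]

/-- the ping-pong table. -/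
structure s41e_Table (Γ₁ Γ₂ : Subgroup G) (Ω₁ Ω₂ : Set Ω) : Prop where
  disj : Disjoint Ω₁ Ω₂
  ne₁ : Ω₁.Nonempty
  ne₂ : Ω₂.Nonempty
  h12 : ∀ g ∈ Γ₁, g ∉ Γ₂ → ∀ ω ∈ Ω₁, g • ω ∈ Ω₂
  h21 : ∀ g ∈ Γ₂, g ∉ Γ₁ → ∀ ω ∈ Ω₂, g • ω ∈ Ω₁
  w12 : ∀ g ∈ Γ₁, g ∉ Γ₂ → ∃ ω ∈ Ω₂, g • ω ∈ Ω₂
  w21 : ∀ g ∈ Γ₂, g ∉ Γ₁ → ∃ ω ∈ Ω₁, g • ω ∈ Ω₁

theorem s41e_Om_disj (hT : s41e_Table Γ₁ Γ₂ Ω₁ Ω₂) (b : Bool) {ω : Ω}
    (h1 : ω ∈ s41e_Om Ω₁ Ω₂ b) (h2 : ω ∈ s41e_Om Ω₁ Ω₂ (!b)) : False := by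
  cases b
  · exact Set.disjoint_left.mp hT.disj h2 h1
  · exact Set.disjoint_left.mp hT.disj h1 h2

theorem s41e_Om_nonempty (hT : s41e_Table Γ₁ Γ₂ Ω₁ Ω₂) (b : Bool) :
    (s41e_Om Ω₁ Ω₂ b).Nonempty := by
  cases b
  · exact hT.ne₂
  · exact hT.ne₁

theorem s41e_letter_pp (hT : s41e_Table Γ₁ Γ₂ Ω₁ Ω₂) (l : Γ₁ ⊕ Γ₂) (hl : s41e_notH Γ₁ Γ₂ l)
    {ω : Ω} (hω : ω ∈ s41e_Om Ω₁ Ω₂ (s41e_side Γ₁ Γ₂ l)) :
    s41e_ev Γ₁ Γ₂ l • ω ∈ s41e_Om Ω₁ Ω₂ (!s41e_side Γ₁ Γ₂ l) := by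
  cases l with
  | inl x => exact hT.h12 x x.2 hl ω hω
  | inr y => exact hT.h21 y y.2 hl ω hω

theorem s41e_letter_wit (hT : s41e_Table Γ₁ Γ₂ Ω₁ Ω₂) (l : Γ₁ ⊕ Γ₂) (hl : s41e_notH Γ₁ Γ₂ l) :
    ∃ ω ∈ s41e_Om Ω₁ Ω₂ (!s41e_side Γ₁ Γ₂ l),
      s41e_ev Γ₁ Γ₂ l • ω ∈ s41e_Om Ω₁ Ω₂ (!s41e_side Γ₁ Γ₂ l) := by
  cases l with
  | inl x => exact hT.w12 x x.2 hl
  | inr y => exact hT.w21 y y.2 hl

/-- a reduced word `l :: w` maps `Ω_{side (last)}` into `Ω_{! side l}`. -/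
theorem s41e_red_pp (hT : s41e_Table Γ₁ Γ₂ Ω₁ Ω₂) :
    ∀ (l : Γ₁ ⊕ Γ₂) (w : List (Γ₁ ⊕ Γ₂)), s41e_Red Γ₁ Γ₂ (l :: w) →
      ∀ ω ∈ s41e_Om Ω₁ Ω₂ (s41e_side Γ₁ Γ₂ ((l :: w).getLast (List.cons_ne_nil l w))),
        s41e_evW Γ₁ Γ₂ (l :: w) • ω ∈ s41e_Om Ω₁ Ω₂ (!s41e_side Γ₁ Γ₂ l)
  | l, [], hred, ω, hω => by
    simp only [List.getLast_singleton] at hω
    simpa [s41e_evW] using s41e_letter_pp hT l hred hω
  | l, l' :: t, hred, ω, hω => by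
    obtain ⟨hl, hside, hred'⟩ := hred
    have hω' : ω ∈ s41e_Om Ω₁ Ω₂ (s41e_side Γ₁ Γ₂ ((l' :: t).getLast (List.cons_ne_nil l' t))) := by
      simpa [List.getLast_cons (List.cons_ne_nil l' t)] using hω
    have h1 := s41e_red_pp hT l' t hred' ω hω'
    rw [hside, Bool.not_not] at h1
    have h2 := s41e_letter_pp hT l hl (ω := s41e_evW Γ₁ Γ₂ (l' :: t) • ω) h1
    rw [s41e_evW_cons (l := l), mul_smul]
    exact h2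

/-- **ping-pong**: a non-empty reduced word is non-trivial in `G`. -/
theorem s41e_red_ne_one (hT : s41e_Table Γ₁ Γ₂ Ω₁ Ω₂) (l : Γ₁ ⊕ Γ₂) (w : List (Γ₁ ⊕ Γ₂))
    (hred : s41e_Red Γ₁ Γ₂ (l :: w)) : s41e_evW Γ₁ Γ₂ (l :: w) ≠ 1 := by
  intro h1
  by_cases hs : s41e_side Γ₁ Γ₂ ((l :: w).getLast (List.cons_ne_nil l w)) = s41e_side Γ₁ Γ₂ l
  · obtain ⟨ω, hω⟩ := s41e_Om_nonempty hT (s41e_side Γ₁ Γ₂ l)
    have h2 := s41e_red_pp hT l w hred ω (by rw [hs]; exact hω)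
    rw [h1, one_smul] at h2
    exact s41e_Om_disj hT _ hω h2
  · -- head and last on opposite sides: `w` is non-empty
    cases w with
    | nil => exact hs (by simp)
    | cons l' t =>
      obtain ⟨hl, hside, hred'⟩ := hred
      have hlast : s41e_side Γ₁ Γ₂ ((l' :: t).getLast (List.cons_ne_nil l' t)) =
          !s41e_side Γ₁ Γ₂ l := by
        have : s41e_side Γ₁ Γ₂ ((l :: l' :: t).getLast (List.cons_ne_nil l (l' :: t))) =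
            s41e_side Γ₁ Γ₂ ((l' :: t).getLast (List.cons_ne_nil l' t)) := by
          rw [List.getLast_cons (List.cons_ne_nil l' t)]
        rw [this] at hs
        cases hb : s41e_side Γ₁ Γ₂ l <;>
          cases hb' : s41e_side Γ₁ Γ₂ ((l' :: t).getLast (List.cons_ne_nil l' t)) <;>
          simp_all
      -- `evW (l' :: t) = (ev l)⁻¹`
      have hinv : s41e_evW Γ₁ Γ₂ (l' :: t) = (s41e_ev Γ₁ Γ₂ l)⁻¹ := by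
        rw [s41e_evW_cons] at h1
        exact eq_inv_of_mul_eq_one_right h1
      obtain ⟨ω, hω, hω'⟩ := s41e_letter_wit hT (s41e_inv Γ₁ Γ₂ l) (s41e_notH_inv hl)
      rw [s41e_side_inv] at hω hω'
      rw [s41e_ev_inv] at hω'
      have h2 := s41e_red_pp hT l' t hred' ω (by rw [hlast]; exact hω)
      rw [hinv, hside, Bool.not_not] at h2
      exact s41e_Om_disj hT _ h2 hω'

/-- **the kernel lemma**: a word which is trivial in `G` is trivial in `A`. -/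
theorem s41e_valW_eq_one (hT : s41e_Table Γ₁ Γ₂ Ω₁ Ω₂)
    (hc : ∀ (x : G) (h1 : x ∈ Γ₁) (h2 : x ∈ Γ₂), φ₁ ⟨x, h1⟩ = φ₂ ⟨x, h2⟩) :
    ∀ (n : ℕ) (w : List (Γ₁ ⊕ Γ₂)), w.length = n → s41e_evW Γ₁ Γ₂ w = 1 →
      s41e_valW Γ₁ Γ₂ φ₁ φ₂ w = 1 := by
  intro n
  induction n using Nat.strong_induction_on with
  | _ n ih =>
    intro w hlen hev
    match w, hlen, hev with
    | [], _, _ => rfl
    | [l], _, hev =>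
      cases l with
      | inl x =>
        have : x = 1 := by
          apply Subtype.ext
          simpa [s41e_evW, s41e_ev] using hev
        simp [s41e_valW, s41e_val, this]
      | inr y =>
        have : y = 1 := by
          apply Subtype.ext
          simpa [s41e_evW, s41e_ev] using hev
        simp [s41e_valW, s41e_val, this]
    | l :: l' :: t, hlen, hev =>
      by_cases hred : s41e_Red Γ₁ Γ₂ (l :: l' :: t)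
      · exact absurd hev (s41e_red_ne_one hT l (l' :: t) hred)
      · obtain ⟨w', hlt, hev', hval'⟩ := s41e_shorten hc (l :: l' :: t) (by simp) hred
        rw [← hval']
        exact ih w'.length (by rw [← hlen]; exact hlt) w' rfl (by rw [hev', hev])

/-- every element of `Γ₁ ⊔ Γ₂` is the value of a word. -/
theorem s41e_exists_word_of_mem {g : G} (hg : g ∈ Γ₁ ⊔ Γ₂) :
    ∃ w : List (Γ₁ ⊕ Γ₂), s41e_evW Γ₁ Γ₂ w = g := by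
  rw [Subgroup.sup_eq_closure] at hg
  induction hg using Subgroup.closure_induction with
  | mem x hx =>
    rcases hx with hx | hx
    · exact ⟨[Sum.inl ⟨x, hx⟩], by simp [s41e_evW, s41e_ev]⟩
    · exact ⟨[Sum.inr ⟨x, hx⟩], by simp [s41e_evW, s41e_ev]⟩
  | one => exact ⟨[], rfl⟩
  | mul x y _ _ hx hy =>
    obtain ⟨w, hw⟩ := hx
    obtain ⟨w', hw'⟩ := hy
    exact ⟨w ++ w', by rw [s41e_evW_append, hw, hw']⟩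
  | inv x _ hx =>
    obtain ⟨w, hw⟩ := hx
    exact ⟨s41e_invW w, by rw [s41e_evW_invW, hw]⟩

theorem s41e_exists_word (hgen : Γ₁ ⊔ Γ₂ = ⊤) (g : G) :
    ∃ w : List (Γ₁ ⊕ Γ₂), s41e_evW Γ₁ Γ₂ w = g :=
  s41e_exists_word_of_mem (by rw [hgen]; trivial)

/-- well-definedness of the value of a word. -/
theorem s41e_valW_congr (hT : s41e_Table Γ₁ Γ₂ Ω₁ Ω₂)
    (hc : ∀ (x : G) (h1 : x ∈ Γ₁) (h2 : x ∈ Γ₂), φ₁ ⟨x, h1⟩ = φ₂ ⟨x, h2⟩)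
    (w w' : List (Γ₁ ⊕ Γ₂)) (h : s41e_evW Γ₁ Γ₂ w = s41e_evW Γ₁ Γ₂ w') :
    s41e_valW Γ₁ Γ₂ φ₁ φ₂ w = s41e_valW Γ₁ Γ₂ φ₁ φ₂ w' := by
  have h1 : s41e_evW Γ₁ Γ₂ (w ++ s41e_invW w') = 1 := by
    rw [s41e_evW_append, s41e_evW_invW, h, mul_inv_cancel]
  have h2 := s41e_valW_eq_one hT hc _ _ rfl h1
  rw [s41e_valW_append, s41e_valW_invW] at h2
  exact eq_of_mul_inv_eq_one h2

/-- **GLUING on `Γ₁ ⊔ Γ₂`** (no generation hypothesis). -/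
theorem s41e_glue_sup (hT : s41e_Table Γ₁ Γ₂ Ω₁ Ω₂)
    (hc : ∀ (x : G) (h1 : x ∈ Γ₁) (h2 : x ∈ Γ₂), φ₁ ⟨x, h1⟩ = φ₂ ⟨x, h2⟩) :
    ∃ φ : ↥(Γ₁ ⊔ Γ₂) →* A,
      (∀ (x : G) (hx : x ∈ Γ₁), φ ⟨x, (le_sup_left : Γ₁ ≤ Γ₁ ⊔ Γ₂) hx⟩ = φ₁ ⟨x, hx⟩) ∧
      (∀ (y : G) (hy : y ∈ Γ₂), φ ⟨y, (le_sup_right : Γ₂ ≤ Γ₁ ⊔ Γ₂) hy⟩ = φ₂ ⟨y, hy⟩) := by
  classical
  have hwd := s41e_valW_congr (φ₁ := φ₁) (φ₂ := φ₂) hT hc
  have hex : ∀ k : ↥(Γ₁ ⊔ Γ₂), ∃ w : List (Γ₁ ⊕ Γ₂), s41e_evW Γ₁ Γ₂ w = (k : G) :=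
    fun k => s41e_exists_word_of_mem k.2
  choose W hW using hex
  refine ⟨{ toFun := fun k => s41e_valW Γ₁ Γ₂ φ₁ φ₂ (W k)
            map_one' := ?_
            map_mul' := ?_ }, ?_, ?_⟩
  · exact hwd (W 1) [] (by rw [hW]; rfl)
  · intro k k'
    rw [← s41e_valW_append]
    exact hwd _ _ (by rw [hW, s41e_evW_append, hW, hW]; rfl)
  · intro x hx
    show s41e_valW Γ₁ Γ₂ φ₁ φ₂ (W _) = φ₁ ⟨x, hx⟩
    rw [hwd (W _) [Sum.inl ⟨x, hx⟩] (by rw [hW]; simp [s41e_evW, s41e_ev])]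
    simp [s41e_valW, s41e_val]
  · intro y hy
    show s41e_valW Γ₁ Γ₂ φ₁ φ₂ (W _) = φ₂ ⟨y, hy⟩
    rw [hwd (W _) [Sum.inr ⟨y, hy⟩] (by rw [hW]; simp [s41e_evW, s41e_ev])]
    simp [s41e_valW, s41e_val]

/-- **GLUING (universal property of the amalgam) from a ping-pong table.** -/
theorem s41e_glue_abs (hT : s41e_Table Γ₁ Γ₂ Ω₁ Ω₂) (hgen : Γ₁ ⊔ Γ₂ = ⊤)
    (hc : ∀ (x : G) (h1 : x ∈ Γ₁) (h2 : x ∈ Γ₂), φ₁ ⟨x, h1⟩ = φ₂ ⟨x, h2⟩) :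
    ∃ φ : G →* A, (∀ x : Γ₁, φ x = φ₁ x) ∧ (∀ y : Γ₂, φ y = φ₂ y) := by
  classical
  -- well-definedness
  have hwd : ∀ w w' : List (Γ₁ ⊕ Γ₂), s41e_evW Γ₁ Γ₂ w = s41e_evW Γ₁ Γ₂ w' →
      s41e_valW Γ₁ Γ₂ φ₁ φ₂ w = s41e_valW Γ₁ Γ₂ φ₁ φ₂ w' := by
    intro w w' h
    have h1 : s41e_evW Γ₁ Γ₂ (w ++ s41e_invW w') = 1 := by
      rw [s41e_evW_append, s41e_evW_invW, h, mul_inv_cancel]
    have h2 := s41e_valW_eq_one hT hc _ _ rfl h1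
    rw [s41e_valW_append, s41e_valW_invW] at h2
    exact eq_of_mul_inv_eq_one h2
  choose W hW using s41e_exists_word (Γ₁ := Γ₁) (Γ₂ := Γ₂) hgen
  refine ⟨{ toFun := fun g => s41e_valW Γ₁ Γ₂ φ₁ φ₂ (W g)
            map_one' := ?_
            map_mul' := ?_ }, ?_, ?_⟩
  · exact hwd (W 1) [] (by rw [hW]; rfl)
  · intro g g'
    rw [← s41e_valW_append]
    exact hwd _ _ (by rw [hW, s41e_evW_append, hW, hW])
  · intro x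
    show s41e_valW Γ₁ Γ₂ φ₁ φ₂ (W x) = φ₁ x
    rw [hwd (W x) [Sum.inl x] (by rw [hW]; simp [s41e_evW, s41e_ev])]
    simp [s41e_valW, s41e_val]
  · intro y
    show s41e_valW Γ₁ Γ₂ φ₁ φ₂ (W y) = φ₂ y
    rw [hwd (W y) [Sum.inr y] (by rw [hW]; simp [s41e_evW, s41e_ev])]
    simp [s41e_valW, s41e_val]

end Abs

end Fermat.Agent.Lib.S41
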