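/-
S41 project, module family [E] (amalgam), the concrete PING-PONG TABLE (helper6).

`Γ := ι(Γ₀(N))`, `Γ' := δ Γ δ⁻¹` (`δ = diag(q, 1)`) inside `SL(2, ℚ)`, acting on `Ω := ℚ²`;
`Ω₁ := {(x, y) | |x|_q < |y|_q}`, `Ω₂ := {(x, y) | |y|_q ≤ |x|_q, x ≠ 0}`.
Then `(Γ ∖ Γ') Ω₁ ⊆ Ω₂`, `(Γ' ∖ Γ) Ω₂ ⊆ Ω₁` (+ witnesses): `s41e_table`.
-/
import Fermat.Agent.Lib.S41.EDefs
import Fermat.Agent.Lib.S41.EAbs

set_option autoImplicit false

open Matrix MatrixGroups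

namespace Fermat.Agent.Lib.S41

/-- `Γ = ι(Γ₀(N)) ≤ SL(2, ℚ)`. -/
def s41e_Gam (N : ℕ) : Subgroup SL(2, ℚ) := (CongruenceSubgroup.Gamma0 N).map s41e_iota

/-- `Γ' = δ Γ δ⁻¹`. -/
def s41e_Gam' (N q : ℕ) (hq : q ≠ 0) : Subgroup SL(2, ℚ) := (s41e_Gam N).map (s41e_conj q hq)

theorem s41e_mem_Gam {N : ℕ} {g : SL(2, ℚ)} :
    g ∈ s41e_Gam N ↔ ∃ γ ∈ CongruenceSubgroup.Gamma0 N, s41e_iota γ = g := Subgroup.mem_map

theorem s41e_mem_Gam' {N q : ℕ} {hq : q ≠ 0} {g : SL(2, ℚ)} :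
    g ∈ s41e_Gam' N q hq ↔
      ∃ γ ∈ CongruenceSubgroup.Gamma0 N, s41e_conj q hq (s41e_iota γ) = g := by
  constructor
  · rintro ⟨h, hh, rfl⟩
    obtain ⟨γ, hγ, rfl⟩ := s41e_mem_Gam.mp hh
    exact ⟨γ, hγ, rfl⟩
  · rintro ⟨γ, hγ, rfl⟩
    exact ⟨s41e_iota γ, s41e_mem_Gam.mpr ⟨γ, hγ, rfl⟩, rfl⟩

theorem s41e_Gam_le_G (N q : ℕ) : s41e_Gam N ≤ s41e_G N q := by
  rintro g hg
  obtain ⟨γ, hγ, rfl⟩ := s41e_mem_Gam.mp hg
  exact s41e_iota_mem_G q hγ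

theorem s41e_Gam'_le_G (N q : ℕ) (hq : q ≠ 0) : s41e_Gam' N q hq ≤ s41e_G N q := by
  rintro g hg
  obtain ⟨γ, hγ, rfl⟩ := s41e_mem_Gam'.mp hg
  exact s41e_conj_mem_G hq (s41e_iota_mem_G q hγ)

/-- an element of `Γ` whose upper right entry is divisible by `q` lies in `Γ'`. -/
theorem s41e_iota_mem_Gam' {N q : ℕ} (hq : q ≠ 0) {γ : SL(2, ℤ)}
    (hγ : γ ∈ CongruenceSubgroup.Gamma0 N) (hb : (q : ℤ) ∣ γ.1 0 1) :
    s41e_iota γ ∈ s41e_Gam' N q hq := by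
  obtain ⟨b', hb'⟩ := hb
  have hdet := γ.2
  rw [Matrix.det_fin_two] at hdet
  let γ₂ : SL(2, ℤ) := ⟨!![γ.1 0 0, b'; (q : ℤ) * γ.1 1 0, γ.1 1 1], by
    rw [Matrix.det_fin_two_of]
    rw [hb'] at hdet
    linarith⟩
  have hγ₂ : γ₂ ∈ CongruenceSubgroup.Gamma0 N := by
    rw [CongruenceSubgroup.Gamma0_mem] at hγ ⊢
    show (((q : ℤ) * γ.1 1 0 : ℤ) : ZMod N) = 0
    push_cast
    rw [hγ, mul_zero]
  refine s41e_mem_Gam'.mpr ⟨γ₂, hγ₂, ?_⟩
  have hq' : (q : ℚ) ≠ 0 := by exact_mod_cast hq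
  ext i j
  rw [s41e_conj_apply]
  fin_cases i <;> fin_cases j
  · simp [s41e_iota_apply, γ₂]
  · simp [s41e_iota_apply, γ₂, hb']
  · simp [s41e_iota_apply, γ₂]
    field_simp
  · simp [s41e_iota_apply, γ₂]

/-- an element of `Γ'` whose (integral) lower left numerator is divisible by `q` lies in `Γ`. -/
theorem s41e_conj_mem_Gam {N q : ℕ} (hq : q ≠ 0) (hqN : Nat.Coprime q N) {γ : SL(2, ℤ)}
    (hγ : γ ∈ CongruenceSubgroup.Gamma0 N) (hc : (q : ℤ) ∣ γ.1 1 0) :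
    s41e_conj q hq (s41e_iota γ) ∈ s41e_Gam N := by
  obtain ⟨c', hc'⟩ := hc
  have hdet := γ.2
  rw [Matrix.det_fin_two] at hdet
  let γ₁ : SL(2, ℤ) := ⟨!![γ.1 0 0, (q : ℤ) * γ.1 0 1; c', γ.1 1 1], by
    rw [Matrix.det_fin_two_of]
    rw [hc'] at hdet
    linarith⟩
  have hγ₁ : γ₁ ∈ CongruenceSubgroup.Gamma0 N := by
    rw [CongruenceSubgroup.Gamma0_mem] at hγ ⊢
    show ((c' : ℤ) : ZMod N) = 0
    have h1 : (N : ℤ) ∣ (q : ℤ) * c' := by
      rw [← hc']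
      exact (ZMod.intCast_zmod_eq_zero_iff_dvd _ _).mp hγ
    have h2 : IsCoprime (N : ℤ) (q : ℤ) := by
      have := Nat.isCoprime_iff_coprime.mpr hqN.symm
      exact_mod_cast this
    exact (ZMod.intCast_zmod_eq_zero_iff_dvd _ _).mpr (h2.dvd_of_dvd_mul_left h1)
  refine s41e_mem_Gam.mpr ⟨γ₁, hγ₁, ?_⟩
  have hq' : (q : ℚ) ≠ 0 := by exact_mod_cast hq
  ext i j
  rw [s41e_conj_apply]
  fin_cases i <;> fin_cases j
  · simp [s41e_iota_apply, γ₁]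
  · simp [s41e_iota_apply, γ₁]
  · simp [s41e_iota_apply, γ₁, hc']
    field_simp
  · simp [s41e_iota_apply, γ₁]

/-! ### the action on `ℚ²` -/

theorem s41e_smul_zero_apply (g : SL(2, ℚ)) (v : Fin 2 → ℚ) :
    (g • v) 0 = g.1 0 0 * v 0 + g.1 0 1 * v 1 := by
  rw [Matrix.SpecialLinearGroup.smul_def, Matrix.smul_eq_mulVec, Matrix.mulVec, dotProduct,
    Fin.sum_univ_two]

theorem s41e_smul_one_apply (g : SL(2, ℚ)) (v : Fin 2 → ℚ) :
    (g • v) 1 = g.1 1 0 * v 0 + g.1 1 1 * v 1 := by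
  rw [Matrix.SpecialLinearGroup.smul_def, Matrix.smul_eq_mulVec, Matrix.mulVec, dotProduct,
    Fin.sum_univ_two]

/-- `Ω₁ = {|x| < |y|}`. -/
def s41e_Om1 (q : ℕ) : Set (Fin 2 → ℚ) := {v | padicNorm q (v 0) < padicNorm q (v 1)}

/-- `Ω₂ = {|y| ≤ |x|, x ≠ 0}`. -/
def s41e_Om2 (q : ℕ) : Set (Fin 2 → ℚ) := {v | padicNorm q (v 1) ≤ padicNorm q (v 0) ∧ v 0 ≠ 0}

section Norm

variable {q : ℕ} [hq : Fact q.Prime]

theorem s41e_norm_int_mul_le (m : ℤ) (x : ℚ) : padicNorm q ((m : ℚ) * x) ≤ padicNorm q x := by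
  rw [padicNorm.mul]
  calc padicNorm q m * padicNorm q x ≤ 1 * padicNorm q x :=
        mul_le_mul_of_nonneg_right (padicNorm.of_int m) (padicNorm.nonneg x)
    _ = padicNorm q x := one_mul _

theorem s41e_norm_int_mul_eq {m : ℤ} (hm : ¬ (q : ℤ) ∣ m) (x : ℚ) :
    padicNorm q ((m : ℚ) * x) = padicNorm q x := by
  rw [padicNorm.mul, (padicNorm.int_eq_one_iff m).mpr hm, one_mul]

theorem s41e_norm_q : padicNorm q (q : ℚ) = (q : ℚ)⁻¹ := padicNorm.padicNorm_p_of_prime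

theorem s41e_q_gt_one : (1 : ℚ) < q := by exact_mod_cast hq.out.one_lt

theorem s41e_norm_pos {x : ℚ} (hx : x ≠ 0) : 0 < padicNorm q x :=
  lt_of_le_of_ne (padicNorm.nonneg x) (Ne.symm (padicNorm.nonzero hx))

omit hq in
theorem s41e_ne_zero_of_norm_pos {x : ℚ} (hx : 0 < padicNorm q x) : x ≠ 0 := by
  rintro rfl
  simp at hx

/-- `(Γ ∖ Γ') Ω₁ ⊆ Ω₂`, matrix form. -/
theorem s41e_pp12 (a b c d : ℤ) (hb : ¬ (q : ℤ) ∣ b) (x y : ℚ)
    (hxy : padicNorm q x < padicNorm q y) :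
    padicNorm q ((c : ℚ) * x + d * y) ≤ padicNorm q ((a : ℚ) * x + b * y) ∧
      (a : ℚ) * x + b * y ≠ 0 := by
  have h1 : padicNorm q ((b : ℚ) * y) = padicNorm q y := s41e_norm_int_mul_eq hb y
  have h2 : padicNorm q ((a : ℚ) * x) < padicNorm q ((b : ℚ) * y) := by
    rw [h1]
    exact lt_of_le_of_lt (s41e_norm_int_mul_le a x) hxy
  have h3 : padicNorm q ((a : ℚ) * x + b * y) = padicNorm q y := by
    rw [padicNorm.add_eq_max_of_ne (ne_of_lt h2), max_eq_right (le_of_lt h2), h1]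
  have hy : 0 < padicNorm q y := lt_of_le_of_lt (padicNorm.nonneg x) hxy
  refine ⟨?_, s41e_ne_zero_of_norm_pos (by rw [h3]; exact hy)⟩
  rw [h3]
  refine le_trans padicNorm.nonarchimedean (max_le ?_ ?_)
  · exact le_trans (s41e_norm_int_mul_le c x) (le_of_lt hxy)
  · exact s41e_norm_int_mul_le d y

/-- `(Γ' ∖ Γ) Ω₂ ⊆ Ω₁`, matrix form. -/
theorem s41e_pp21 (a b c d : ℤ) (hc : ¬ (q : ℤ) ∣ c) (x y : ℚ)
    (hyx : padicNorm q y ≤ padicNorm q x) (hx : x ≠ 0) :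
    padicNorm q ((a : ℚ) * x + (q : ℚ) * b * y) < padicNorm q ((c : ℚ) / q * x + d * y) := by
  have hq1 := s41e_q_gt_one (q := q)
  have hq0 : (0 : ℚ) < q := lt_trans zero_lt_one hq1
  have hxpos : 0 < padicNorm q x := s41e_norm_pos hx
  have h1 : padicNorm q ((c : ℚ) / q * x) = (q : ℚ) * padicNorm q x := by
    rw [padicNorm.mul, padicNorm.div, (padicNorm.int_eq_one_iff c).mpr hc, s41e_norm_q]
    field_simp
  have h2 : padicNorm q ((d : ℚ) * y) < padicNorm q ((c : ℚ) / q * x) := by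
    rw [h1]
    calc padicNorm q ((d : ℚ) * y) ≤ padicNorm q y := s41e_norm_int_mul_le d y
      _ ≤ padicNorm q x := hyx
      _ = 1 * padicNorm q x := (one_mul _).symm
      _ < (q : ℚ) * padicNorm q x := mul_lt_mul_of_pos_right hq1 hxpos
  have h3 : padicNorm q ((c : ℚ) / q * x + d * y) = (q : ℚ) * padicNorm q x := by
    rw [padicNorm.add_eq_max_of_ne (ne_of_gt h2), max_eq_left (le_of_lt h2), h1]
  rw [h3]
  have h4 : padicNorm q ((a : ℚ) * x + (q : ℚ) * b * y) ≤ padicNorm q x := by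
    refine le_trans padicNorm.nonarchimedean (max_le (s41e_norm_int_mul_le a x) ?_)
    have : (q : ℚ) * b * y = ((q * b : ℤ) : ℚ) * y := by push_cast; ring
    rw [this]
    exact le_trans (s41e_norm_int_mul_le _ y) hyx
  calc padicNorm q ((a : ℚ) * x + (q : ℚ) * b * y) ≤ padicNorm q x := h4
    _ = 1 * padicNorm q x := (one_mul _).symm
    _ < (q : ℚ) * padicNorm q x := mul_lt_mul_of_pos_right hq1 hxpos

end Norm

/-- **THE PING-PONG TABLE** of `Γ = ι Γ₀(N)` and `Γ' = δ Γ δ⁻¹` on `ℚ²`. -/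
theorem s41e_table (N q : ℕ) (hq : q.Prime) (hqN : ¬ q ∣ N) :
    s41e_Table (s41e_Gam N) (s41e_Gam' N q hq.ne_zero) (s41e_Om1 q) (s41e_Om2 q) := by
  have : Fact q.Prime := ⟨hq⟩
  have hcop : Nat.Coprime q N := (Nat.Prime.coprime_iff_not_dvd hq).mpr hqN
  have hq1 := s41e_q_gt_one (q := q)
  have hq0 : (0 : ℚ) < q := lt_trans zero_lt_one hq1
  have hqinv : ((q : ℚ))⁻¹ < 1 := inv_lt_one_of_one_lt₀ hq1
  -- the entries of an element of `Γ ∖ Γ'`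
  have key12 : ∀ g ∈ s41e_Gam N, g ∉ s41e_Gam' N q hq.ne_zero →
      ∃ γ : SL(2, ℤ), s41e_iota γ = g ∧ ¬ (q : ℤ) ∣ γ.1 0 1 := by
    intro g hg hg'
    obtain ⟨γ, hγ, rfl⟩ := s41e_mem_Gam.mp hg
    exact ⟨γ, rfl, fun hb => hg' (s41e_iota_mem_Gam' hq.ne_zero hγ hb)⟩
  have key21 : ∀ g ∈ s41e_Gam' N q hq.ne_zero, g ∉ s41e_Gam N →
      ∃ γ : SL(2, ℤ), s41e_conj q hq.ne_zero (s41e_iota γ) = g ∧ ¬ (q : ℤ) ∣ γ.1 1 0 := by
    intro g hg hg'
    obtain ⟨γ, hγ, rfl⟩ := s41e_mem_Gam'.mp hg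
    exact ⟨γ, rfl, fun hc => hg' (s41e_conj_mem_Gam hq.ne_zero hcop hγ hc)⟩
  refine ⟨?_, ?_, ?_, ?_, ?_, ?_, ?_⟩
  · -- disjoint
    rw [Set.disjoint_left]
    intro v h1 h2
    exact absurd h2.1 (not_le.mpr h1)
  · exact ⟨![0, 1], by simp [s41e_Om1]⟩
  · exact ⟨![1, 0], by simp [s41e_Om2]⟩
  · -- h12
    intro g hg hg' v hv
    obtain ⟨γ, rfl, hb⟩ := key12 g hg hg'
    have := s41e_pp12 (γ.1 0 0) (γ.1 0 1) (γ.1 1 0) (γ.1 1 1) hb (v 0) (v 1) hv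
    refine ⟨?_, ?_⟩
    · rw [s41e_smul_zero_apply, s41e_smul_one_apply]
      simpa [s41e_iota_apply] using this.1
    · rw [s41e_smul_zero_apply]
      simpa [s41e_iota_apply] using this.2
  · -- h21
    intro g hg hg' v hv
    obtain ⟨γ, rfl, hc⟩ := key21 g hg hg'
    have := s41e_pp21 (γ.1 0 0) (γ.1 0 1) (γ.1 1 0) (γ.1 1 1) hc (v 0) (v 1) hv.1 hv.2
    show padicNorm q ((s41e_conj q hq.ne_zero (s41e_iota γ) • v) 0) <
      padicNorm q ((s41e_conj q hq.ne_zero (s41e_iota γ) • v) 1)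
    rw [s41e_smul_zero_apply, s41e_smul_one_apply, s41e_conj_apply]
    simpa [s41e_iota_apply] using this
  · -- w12
    intro g hg hg'
    obtain ⟨γ, rfl, hb⟩ := key12 g hg hg'
    by_cases ha : (q : ℤ) ∣ γ.1 0 0
    · -- ω = (1, 1)
      have hab : ¬ (q : ℤ) ∣ γ.1 0 0 + γ.1 0 1 := fun h => hb ((dvd_add_right ha).mp h)
      refine ⟨![1, 1], by simp [s41e_Om2], ?_, ?_⟩
      · rw [s41e_smul_zero_apply, s41e_smul_one_apply]
        simp only [s41e_iota_apply, Matrix.cons_val_zero, Matrix.cons_val_one, mul_one]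
        have h1 : padicNorm q (((γ.1 0 0 + γ.1 0 1 : ℤ)) : ℚ) = 1 :=
          (padicNorm.int_eq_one_iff _).mpr hab
        have h2 : padicNorm q (((γ.1 1 0 + γ.1 1 1 : ℤ)) : ℚ) ≤ 1 := padicNorm.of_int _
        push_cast at h1 h2
        rw [h1]
        exact h2
      · rw [s41e_smul_zero_apply]
        simp only [s41e_iota_apply, Matrix.cons_val_zero, Matrix.cons_val_one, mul_one]
        intro h0
        apply hab
        have : γ.1 0 0 + γ.1 0 1 = 0 := by exact_mod_cast h0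
        rw [this]
        exact dvd_zero _
    · -- ω = (1, 0)
      refine ⟨![1, 0], by simp [s41e_Om2], ?_, ?_⟩
      · rw [s41e_smul_zero_apply, s41e_smul_one_apply]
        simp only [s41e_iota_apply, Matrix.cons_val_zero, Matrix.cons_val_one, mul_one, mul_zero,
          add_zero]
        rw [(padicNorm.int_eq_one_iff _).mpr ha]
        exact padicNorm.of_int _
      · rw [s41e_smul_zero_apply]
        simp only [s41e_iota_apply, Matrix.cons_val_zero, Matrix.cons_val_one, mul_one, mul_zero,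
          add_zero]
        intro h0
        apply ha
        have : γ.1 0 0 = 0 := by exact_mod_cast h0
        rw [this]
        exact dvd_zero _
  · -- w21
    intro g hg hg'
    obtain ⟨γ, rfl, hc⟩ := key21 g hg hg'
    by_cases hd : (q : ℤ) ∣ γ.1 1 1
    · -- ω = (q, 1)
      have hcd : ¬ (q : ℤ) ∣ γ.1 1 0 + γ.1 1 1 := fun h => hc ((dvd_add_left hd).mp h)
      refine ⟨![(q : ℚ), 1], ?_, ?_⟩
      · show padicNorm q (![(q : ℚ), 1] 0) < padicNorm q (![(q : ℚ), 1] 1)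
        simp only [Matrix.cons_val_zero, Matrix.cons_val_one]
        rw [s41e_norm_q, padicNorm.one]
        exact hqinv
      · show padicNorm q ((s41e_conj q hq.ne_zero (s41e_iota γ) • ![(q : ℚ), 1]) 0) <
          padicNorm q ((s41e_conj q hq.ne_zero (s41e_iota γ) • ![(q : ℚ), 1]) 1)
        rw [s41e_smul_zero_apply, s41e_smul_one_apply, s41e_conj_apply]
        simp only [s41e_iota_apply, Matrix.cons_val_zero, Matrix.cons_val_one, Matrix.of_apply,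
          Matrix.cons_val', Matrix.cons_val_fin_one, mul_one]
        have e1 : ((γ.1 0 0 : ℤ) : ℚ) * q + (q : ℚ) * ((γ.1 0 1 : ℤ) : ℚ) =
            (q : ℚ) * (((γ.1 0 0 + γ.1 0 1 : ℤ)) : ℚ) := by push_cast; ring
        have e2 : ((γ.1 1 0 : ℤ) : ℚ) / q * q + ((γ.1 1 1 : ℤ) : ℚ) =
            (((γ.1 1 0 + γ.1 1 1 : ℤ)) : ℚ) := by
          push_cast
          field_simp
        rw [e1, e2, (padicNorm.int_eq_one_iff _).mpr hcd, padicNorm.mul, s41e_norm_q]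
        calc (q : ℚ)⁻¹ * padicNorm q (((γ.1 0 0 + γ.1 0 1 : ℤ)) : ℚ)
            ≤ (q : ℚ)⁻¹ * 1 :=
              mul_le_mul_of_nonneg_left (padicNorm.of_int _) (le_of_lt (inv_pos.mpr hq0))
          _ < 1 := by rw [mul_one]; exact hqinv
    · -- ω = (0, 1)
      refine ⟨![0, 1], by simp [s41e_Om1], ?_⟩
      show padicNorm q ((s41e_conj q hq.ne_zero (s41e_iota γ) • ![(0 : ℚ), 1]) 0) <
        padicNorm q ((s41e_conj q hq.ne_zero (s41e_iota γ) • ![(0 : ℚ), 1]) 1)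
      rw [s41e_smul_zero_apply, s41e_smul_one_apply, s41e_conj_apply]
      simp only [s41e_iota_apply, Matrix.cons_val_zero, Matrix.cons_val_one, Matrix.of_apply,
        Matrix.cons_val', Matrix.cons_val_fin_one, mul_one, mul_zero, zero_add]
      rw [(padicNorm.int_eq_one_iff _).mpr hd, padicNorm.mul, s41e_norm_q]
      calc (q : ℚ)⁻¹ * padicNorm q ((γ.1 0 1 : ℤ) : ℚ)
          ≤ (q : ℚ)⁻¹ * 1 :=
            mul_le_mul_of_nonneg_left (padicNorm.of_int _) (le_of_lt (inv_pos.mpr hq0))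
        _ < 1 := by rw [mul_one]; exact hqinv

end Fermat.Agent.Lib.S41
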