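/-
S41 project, module family [E] (amalgam), FINAL ASSEMBLY (helper6).

`Γ₀(N)[1/q] = Γ₀(N) *_{Γ₀(Nq)} δ Γ₀(N) δ⁻¹` (`δ = diag(q, 1)`) in the gluing-of-homomorphisms form:
two homomorphisms `ψ₁ ψ₂ : Γ₀(N) → A` with `ψ₁ γ₁ = ψ₂ γ₂` whenever `ι γ₁ = δ (ι γ₂) δ⁻¹` come from
ONE homomorphism `φ` on `Γ₀(N)[1/q] = s41e_G N q`: `φ (ι γ) = ψ₁ γ`, `φ (δ (ι γ) δ⁻¹) = ψ₂ γ`
(`s41e_glue_mul` for a group `A`, `s41e_glue` in additive form).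

Inputs: helper8's generation `s41e_gen` (EGen.lean), the ping-pong table `s41e_table` (ETable.lean) and
the abstract gluing `s41e_glue_sup` (EAbs.lean).
-/
import Fermat.Agent.Lib.S41.ETable
import Fermat.Agent.Lib.S41.EGen

set_option autoImplicit false

open Matrix MatrixGroups

namespace Fermat.Agent.Lib.S41

/-- `Γ₀(N) ≃* Γ`. -/
noncomputable def s41e_eGam (N : ℕ) : ↥(CongruenceSubgroup.Gamma0 N) ≃* ↥(s41e_Gam N) :=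
  Subgroup.equivMapOfInjective _ s41e_iota s41e_iota_injective

/-- `Γ ≃* Γ'`. -/
noncomputable def s41e_eGam' (N q : ℕ) (hq : q ≠ 0) : ↥(s41e_Gam N) ≃* ↥(s41e_Gam' N q hq) :=
  Subgroup.equivMapOfInjective _ (s41e_conj q hq) (s41e_conj_injective q hq)

theorem s41e_eGam_symm_apply {N : ℕ} (γ : CongruenceSubgroup.Gamma0 N) (h : s41e_iota γ ∈ s41e_Gam N) :
    (s41e_eGam N).symm ⟨s41e_iota γ, h⟩ = γ := by
  rw [MulEquiv.symm_apply_eq]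
  apply Subtype.ext
  rfl

theorem s41e_eGam'_symm_apply {N q : ℕ} {hq : q ≠ 0} (g : s41e_Gam N)
    (h : s41e_conj q hq g ∈ s41e_Gam' N q hq) :
    (s41e_eGam' N q hq).symm ⟨s41e_conj q hq g, h⟩ = g := by
  rw [MulEquiv.symm_apply_eq]
  apply Subtype.ext
  rfl

/-- **[E] AMALGAM, gluing form (multiplicative).** -/
theorem s41e_glue_mul (N q : ℕ) (hq : q.Prime) (hqN : ¬ q ∣ N) {A : Type*} [Group A]
    (ψ₁ ψ₂ : ↥(CongruenceSubgroup.Gamma0 N) →* A)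
    (hc : ∀ γ₁ γ₂ : CongruenceSubgroup.Gamma0 N,
      s41e_iota γ₁ = s41e_conj q hq.ne_zero (s41e_iota γ₂) → ψ₁ γ₁ = ψ₂ γ₂) :
    ∃ φ : ↥(s41e_G N q) →* A,
      (∀ γ : CongruenceSubgroup.Gamma0 N, φ ⟨s41e_iota γ, s41e_iota_mem_G q γ.2⟩ = ψ₁ γ) ∧
      (∀ γ : CongruenceSubgroup.Gamma0 N,
        φ ⟨s41e_conj q hq.ne_zero (s41e_iota γ),
          s41e_conj_mem_G hq.ne_zero (s41e_iota_mem_G q γ.2)⟩ = ψ₂ γ) := by
  classical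
  let φ₁ : ↥(s41e_Gam N) →* A := ψ₁.comp (s41e_eGam N).symm.toMonoidHom
  let φ₂ : ↥(s41e_Gam' N q hq.ne_zero) →* A :=
    (ψ₂.comp (s41e_eGam N).symm.toMonoidHom).comp (s41e_eGam' N q hq.ne_zero).symm.toMonoidHom
  have hφ₁ : ∀ (γ : CongruenceSubgroup.Gamma0 N) (h : s41e_iota γ ∈ s41e_Gam N),
      φ₁ ⟨s41e_iota γ, h⟩ = ψ₁ γ := by
    intro γ h
    show ψ₁ ((s41e_eGam N).symm ⟨s41e_iota γ, h⟩) = ψ₁ γ
    rw [s41e_eGam_symm_apply]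
  have hφ₂ : ∀ (γ : CongruenceSubgroup.Gamma0 N)
      (h : s41e_conj q hq.ne_zero (s41e_iota γ) ∈ s41e_Gam' N q hq.ne_zero),
      φ₂ ⟨s41e_conj q hq.ne_zero (s41e_iota γ), h⟩ = ψ₂ γ := by
    intro γ h
    have hγ : s41e_iota γ ∈ s41e_Gam N := s41e_mem_Gam.mpr ⟨γ, γ.2, rfl⟩
    show ψ₂ ((s41e_eGam N).symm ((s41e_eGam' N q hq.ne_zero).symm
      ⟨s41e_conj q hq.ne_zero ((⟨s41e_iota γ, hγ⟩ : s41e_Gam N) : SL(2, ℚ)), h⟩)) = ψ₂ γ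
    rw [s41e_eGam'_symm_apply, s41e_eGam_symm_apply]
  have hcompat : ∀ (x : SL(2, ℚ)) (h1 : x ∈ s41e_Gam N) (h2 : x ∈ s41e_Gam' N q hq.ne_zero),
      φ₁ ⟨x, h1⟩ = φ₂ ⟨x, h2⟩ := by
    intro x h1 h2
    obtain ⟨γ₁, hγ₁, rfl⟩ := s41e_mem_Gam.mp h1
    obtain ⟨γ₂, hγ₂, h⟩ := s41e_mem_Gam'.mp h2
    have e2 : (⟨s41e_iota γ₁, h2⟩ : s41e_Gam' N q hq.ne_zero) =
        ⟨s41e_conj q hq.ne_zero (s41e_iota γ₂), by rw [h]; exact h2⟩ := Subtype.ext h.symm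
    rw [hφ₁ ⟨γ₁, hγ₁⟩ h1, e2, hφ₂ ⟨γ₂, hγ₂⟩]
    exact hc ⟨γ₁, hγ₁⟩ ⟨γ₂, hγ₂⟩ h.symm
  obtain ⟨φ, hφ1, hφ2⟩ := s41e_glue_sup (φ₁ := φ₁) (φ₂ := φ₂) (s41e_table N q hq hqN) hcompat
  have hgen : s41e_Gam N ⊔ s41e_Gam' N q hq.ne_zero = s41e_G N q := s41e_gen N q hq hqN
  refine ⟨φ.comp (MulEquiv.subgroupCongr hgen.symm).toMonoidHom, ?_, ?_⟩
  · intro γ
    have hγ : s41e_iota (γ : SL(2, ℤ)) ∈ s41e_Gam N := s41e_mem_Gam.mpr ⟨γ, γ.2, rfl⟩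
    have := hφ1 (s41e_iota γ) hγ
    rw [hφ₁ γ hγ] at this
    rw [← this]
    rfl
  · intro γ
    have hγ : s41e_conj q hq.ne_zero (s41e_iota (γ : SL(2, ℤ))) ∈ s41e_Gam' N q hq.ne_zero :=
      s41e_mem_Gam'.mpr ⟨γ, γ.2, rfl⟩
    have := hφ2 (s41e_conj q hq.ne_zero (s41e_iota γ)) hγ
    rw [hφ₂ γ hγ] at this
    rw [← this]
    rfl

/-- **[E] AMALGAM, gluing form (additive)**: the only form used by [D] + Ihara. -/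
theorem s41e_glue (N q : ℕ) (hq : q.Prime) (hqN : ¬ q ∣ N) {A : Type*} [AddCommGroup A]
    (φ₁ φ₂ : Additive ↥(CongruenceSubgroup.Gamma0 N) →+ A)
    (hc : ∀ γ₁ γ₂ : CongruenceSubgroup.Gamma0 N,
      s41e_iota γ₁ = s41e_conj q hq.ne_zero (s41e_iota γ₂) →
        φ₁ (Additive.ofMul γ₁) = φ₂ (Additive.ofMul γ₂)) :
    ∃ φ : Additive ↥(s41e_G N q) →+ A,
      (∀ γ : CongruenceSubgroup.Gamma0 N,
        φ (Additive.ofMul ⟨s41e_iota γ, s41e_iota_mem_G q γ.2⟩) = φ₁ (Additive.ofMul γ)) ∧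
      (∀ γ : CongruenceSubgroup.Gamma0 N,
        φ (Additive.ofMul ⟨s41e_conj q hq.ne_zero (s41e_iota γ),
          s41e_conj_mem_G hq.ne_zero (s41e_iota_mem_G q γ.2)⟩) = φ₂ (Additive.ofMul γ)) := by
  obtain ⟨φ, h1, h2⟩ := s41e_glue_mul N q hq hqN (A := Multiplicative A)
    (AddMonoidHom.toMultiplicativeRight φ₁) (AddMonoidHom.toMultiplicativeRight φ₂)
    (fun γ₁ γ₂ h => congrArg Multiplicative.ofAdd (hc γ₁ γ₂ h))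
  refine ⟨MonoidHom.toAdditiveLeft φ, ?_, ?_⟩
  · intro γ
    have := congrArg Multiplicative.toAdd (h1 γ)
    simpa using this
  · intro γ
    have := congrArg Multiplicative.toAdd (h2 γ)
    simpa using this

end Fermat.Agent.Lib.S41
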