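/-
S41 project, [G] (helper5): the **Ihara contract** in the shape consumed by the final glue.

`s41_Ihara`: for `x, y ∈ H(N, 𝔽_p)` with `res_A x + res_B y = 0` on `Γ₀(N q')`, the class `x` is
Eisenstein at every prime `ℓ₀ ∤ N q' p`: `T_ℓ₀ x = (ℓ₀ + 1) x`.  ([D] + [E]: glue `x` and
`-y ∘ c_δ⁻¹` to a homomorphism on `Γ₀(N)[1/q']` killing the unipotents, then the congruence
subgroup property.)
-/
import Mathlib
import Fermat.Agent.Lib.S41.LVFam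
import Fermat.Agent.Lib.S29.HStab

set_option autoImplicit false

open scoped CongruenceSubgroup

namespace Fermat.Agent.Lib.S41

open Fermat.Agent.Lib.S29 CongruenceSubgroup

/-- **Ihara's lemma**, abelian form, as consumed by [G]. -/
def s41_Ihara : Prop :=
  ∀ (N : ℕ) [NeZero N] (q' : ℕ) [Fact q'.Prime] (hq'N : ¬ q' ∣ N) (p : ℕ) [Fact p.Prime],
    p ≠ 2 → q' ≠ p →
    ∀ (ℓ₀ : ℕ) [Fact ℓ₀.Prime], ¬ ℓ₀ ∣ N * q' * p →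
    ∀ x ∈ s29h_Hp N p, ∀ y ∈ s29h_Hp N p,
      s41l_resA N q' (ZMod p) x + s41l_resB N q' hq'N (ZMod p) y = 0 →
      s29h_heckeHom N ℓ₀ (ZMod p) x = ((ℓ₀ : ZMod p) + 1) • x

/-- **Ihara's lemma, weak form** ([K] route): same binders as `s41_Ihara`, conclusion
`(T² - s²)² x = 0` with `T = T_ℓ₀`, `s = ℓ₀ + 1`, spelled out as
`T (T (T (T x))) - (2 s²) • T (T x) + s⁴ • x = 0`. -/
def s41_Ihara2 : Prop :=
  ∀ (N : ℕ) [NeZero N] (q' : ℕ) [Fact q'.Prime] (hq'N : ¬ q' ∣ N) (p : ℕ) [Fact p.Prime],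
    p ≠ 2 → q' ≠ p →
    ∀ (ℓ₀ : ℕ) [Fact ℓ₀.Prime], ¬ ℓ₀ ∣ N * q' * p →
    ∀ x ∈ s29h_Hp N p, ∀ y ∈ s29h_Hp N p,
      s41l_resA N q' (ZMod p) x + s41l_resB N q' hq'N (ZMod p) y = 0 →
      s29h_heckeHom N ℓ₀ (ZMod p) (s29h_heckeHom N ℓ₀ (ZMod p)
          (s29h_heckeHom N ℓ₀ (ZMod p) (s29h_heckeHom N ℓ₀ (ZMod p) x))) -
        (2 * ((ℓ₀ : ZMod p) + 1) ^ 2) • s29h_heckeHom N ℓ₀ (ZMod p) (s29h_heckeHom N ℓ₀ (ZMod p) x) +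
        (((ℓ₀ : ZMod p) + 1) ^ 4) • x = 0

end Fermat.Agent.Lib.S41
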