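/-
S41 project, [D] + [E] ⇒ Ihara contract (helper6, work order Q5).

`s41_ihara_of_ms2 : (∀ N q, s41d_MS2 N q) → s41_Ihara`.

Given `x, y ∈ H(N, 𝔽_p)` with `res_A x + res_B y = 0` on `Γ₀(N q')`: the homomorphisms `y` on `Γ₀(N)` and
`-x` on `δ Γ₀(N) δ⁻¹` agree on the intersection, hence glue (`s41e_glue`) to `φ` on `Γ₀(N)[1/q']`.
Composing with the automorphism `c_δ` of `Γ₀(N)[1/q']` and changing the sign gives `φ'` with
`φ' ∘ ι = x`, killing `[[1, 1], [0, 1]]` and `[[1, 0], [N, 1]]` (`x` is parabolic), and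
`s41d_ihara_of_ms2` applies.
-/
import Mathlib
import Fermat.Agent.Lib.S41.GDefs
import Fermat.Agent.Lib.S41.EGlue
import Fermat.Agent.Lib.S41.DMain

set_option autoImplicit false
set_option linter.unusedSectionVars false
set_option linter.style.haveILetI false

open Matrix MatrixGroups CongruenceSubgroup

namespace Fermat.Agent.Lib.S41

open Fermat.Agent.Lib.S29 Fermat.Agent.Lib.ES ModularCurve.Period

/-- the automorphism `c_δ` of `Γ₀(N)[1/q]` (as an endomorphism). -/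
def s41d_cG (N q : ℕ) (hq : q ≠ 0) : ↥(s41e_G N q) →* ↥(s41e_G N q) :=
  ((s41e_conj q hq).comp (s41e_G N q).subtype).codRestrict (s41e_G N q)
    (fun g => s41e_conj_mem_G hq g.2)

theorem s41d_cG_coe (N q : ℕ) (hq : q ≠ 0) (g : ↥(s41e_G N q)) :
    ((s41d_cG N q hq g : ↥(s41e_G N q)) : SL(2, ℚ)) = s41e_conj q hq g := rfl

/-- `ι γ₁ = δ (ι γ₂) δ⁻¹` in entries. -/
theorem s41d_iota_eq_conj_entries {q : ℕ} (hq : q ≠ 0) {γ₁ γ₂ : SL(2, ℤ)}
    (h : s41e_iota γ₁ = s41e_conj q hq (s41e_iota γ₂)) :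
    γ₁.1 0 0 = γ₂.1 0 0 ∧ γ₁.1 0 1 = (q : ℤ) * γ₂.1 0 1 ∧ γ₁.1 1 0 * (q : ℤ) = γ₂.1 1 0 ∧
      γ₁.1 1 1 = γ₂.1 1 1 := by
  have hq' : (q : ℚ) ≠ 0 := by exact_mod_cast hq
  have h2 := congrArg (fun x : SL(2, ℚ) => x.1) h
  simp only [s41e_conj_apply] at h2
  have e00 := congrFun (congrFun h2 0) 0
  have e01 := congrFun (congrFun h2 0) 1
  have e10 := congrFun (congrFun h2 1) 0
  have e11 := congrFun (congrFun h2 1) 1
  simp only [s41e_iota_apply, Matrix.of_apply, Matrix.cons_val_zero, Matrix.cons_val_one,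
    Matrix.cons_val', Matrix.cons_val_fin_one] at e00 e01 e10 e11
  refine ⟨by exact_mod_cast e00, by exact_mod_cast e01, ?_, by exact_mod_cast e11⟩
  have : ((γ₁.1 1 0 : ℤ) : ℚ) * (q : ℚ) = ((γ₂.1 1 0 : ℤ) : ℚ) := by
    rw [e10]; field_simp
  exact_mod_cast this

/-- **[D] + [E] ⇒ the Ihara contract.** -/
theorem s41_ihara_of_ms2 (hms : ∀ N q : ℕ, s41d_MS2.{0} N q) : s41_Ihara := by
  intro N _ q' hq'F hq'N p hpF hp2 hq'p ℓ₀ hℓ₀F hℓ₀ x hx y hy hxy
  have hq' : q'.Prime := hq'F.out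
  have hp : p.Prime := hpF.out
  have hq0 : q' ≠ 0 := hq'.ne_zero
  -- the two homomorphisms to glue: `y` on `Γ₀(N)`, `-x` on the conjugate
  have hc : ∀ γ₁ γ₂ : Gamma0 N,
      s41e_iota γ₁ = s41e_conj q' hq'.ne_zero (s41e_iota γ₂) →
        y (Additive.ofMul γ₁) = (-x) (Additive.ofMul γ₂) := by
    intro γ₁ γ₂ h
    obtain ⟨e00, e01, e10, e11⟩ := s41d_iota_eq_conj_entries hq0 h
    -- `γ₂ ∈ Γ₀(N q')`
    have hN1 : (N : ℤ) ∣ (γ₁ : SL(2, ℤ)).1 1 0 := s41l_dvd_c γ₁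
    have hmem : (γ₂ : SL(2, ℤ)) ∈ Gamma0 (N * q') := by
      rw [Gamma0_mem, ZMod.intCast_zmod_eq_zero_iff_dvd, ← e10]
      push_cast
      exact mul_dvd_mul_right hN1 _
    let γ' : Gamma0 (N * q') := ⟨(γ₂ : SL(2, ℤ)), hmem⟩
    have hincl : s41l_incl N q' γ' = γ₂ := by
      apply Subtype.ext
      rw [s41l_incl_coe]
    have hcd : s41l_cdelta N q' hq'N γ' = γ₁ := by
      apply s41l_Fam.unitHom_eq
      show heckeDiagZ q' * s41l_i (N * q') γ' = s41l_i N γ₁ * heckeDiagZ q'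
      rw [s41l_i_apply, s41l_i_apply]
      ext i j
      fin_cases i <;> fin_cases j <;>
        simp [heckeDiagZ, Matrix.mul_apply, Fin.sum_univ_two, γ'] <;>
        first
          | linear_combination (-(q' : ℤ)) * e00
          | linear_combination (-1 : ℤ) * e01
          | linear_combination (-1 : ℤ) * e10
          | linear_combination (-1 : ℤ) * e11
    have h0 := congrArg (fun f : Additive (Gamma0 (N * q')) →+ ZMod p => f (Additive.ofMul γ')) hxy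
    simp only [AddMonoidHom.add_apply, AddMonoidHom.zero_apply] at h0
    rw [s41l_resA_apply, s41l_resB_apply, hincl, hcd] at h0
    rw [AddMonoidHom.neg_apply]
    exact eq_neg_of_add_eq_zero_right h0
  obtain ⟨φ, -, hφ2⟩ := s41e_glue N q' hq' hq'N y (-x) hc
  -- twist by the automorphism `c_δ` and change the sign
  let φ' : Additive ↥(s41e_G N q') →+ ZMod p :=
    -(φ.comp (MonoidHom.toAdditive (s41d_cG N q' hq0)))
  have hφ' : ∀ γ : Gamma0 N, φ' (Additive.ofMul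
      (⟨s41e_iota γ, s41e_iota_mem_G q' γ.2⟩ : ↥(s41e_G N q'))) = x (Additive.ofMul γ) := by
    intro γ
    show -(φ (Additive.ofMul (s41d_cG N q' hq0 ⟨s41e_iota γ, s41e_iota_mem_G q' γ.2⟩))) = _
    have : s41d_cG N q' hq0 ⟨s41e_iota γ, s41e_iota_mem_G q' γ.2⟩ =
        ⟨s41e_conj q' hq'.ne_zero (s41e_iota γ),
          s41e_conj_mem_G hq'.ne_zero (s41e_iota_mem_G q' γ.2)⟩ := Subtype.ext rfl
    rw [this, hφ2 γ, AddMonoidHom.neg_apply, neg_neg]
  have hxpar : IsParabolicHom (Gamma0 N) x := hx.1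
  -- `φ'` kills `[[1, 1], [0, 1]]`
  have hT : φ' (Additive.ofMul
      (⟨s41d_up 1, s41d_up_mem (s41e_R q').one_mem⟩ : ↥(s41e_G N q'))) = 0 := by
    let T : Gamma0 N := s41l_mk N 1 1 0 1 (by ring) (dvd_zero _)
    have hT' : (⟨s41d_up 1, s41d_up_mem (s41e_R q').one_mem⟩ : ↥(s41e_G N q')) =
        ⟨s41e_iota T, s41e_iota_mem_G q' T.2⟩ := by
      apply Subtype.ext
      apply s41d_ext <;> simp [s41e_iota_apply, T, s41l_mk, s41e_gen_mk]
    rw [hT', hφ' T]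
    apply hxpar
    simp [T, s41l_mk, s41e_gen_mk, Matrix.trace_fin_two]
  -- `φ'` kills `[[1, 0], [N, 1]]`
  have hL : φ' (Additive.ofMul
      (⟨s41d_lo ((N : ℚ) * 1), s41d_lo_mem (s41e_R q').one_mem⟩ : ↥(s41e_G N q'))) = 0 := by
    let L : Gamma0 N := s41l_mk N 1 0 N 1 (by ring) (dvd_refl _)
    have hL' : (⟨s41d_lo ((N : ℚ) * 1), s41d_lo_mem (s41e_R q').one_mem⟩ : ↥(s41e_G N q')) =
        ⟨s41e_iota L, s41e_iota_mem_G q' L.2⟩ := by
      apply Subtype.ext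
      apply s41d_ext <;> simp [s41e_iota_apply, L, s41l_mk, s41e_gen_mk]
    rw [hL', hφ' L]
    apply hxpar
    simp [L, s41l_mk, s41e_gen_mk, Matrix.trace_fin_two]
  have hℓN : ¬ ℓ₀ ∣ N := fun h => hℓ₀ (Dvd.dvd.mul_right (Dvd.dvd.mul_right h q') p)
  have hA : ∀ a : ZMod p, p • a = 0 := by
    intro a
    rw [nsmul_eq_mul, ZMod.natCast_self, zero_mul]
  have key := s41d_ihara_of_ms2 (hms N q') hq' hp hp2 (fun h => hq'p h.symm) hA φ' hT hL x hφ' hℓN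
  rw [key]
  ext γ
  simp [nsmul_eq_mul]

end Fermat.Agent.Lib.S41
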