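/-
S41 project, module [K] (lead): shared definitions for the "commutator-trace" proof of centrality
which replaces the contract `s41d_MS2`.

* `s41k_LR q L x`   : `x ∈ L · ℤ[1/q]`;
* `s41k_Gam q L`    : the principal congruence subgroup of level `L` of `SL₂(ℤ[1/q])`, as a subgroup
                      of `SL(2, ℚ)`;
* `s41k_Good q L`   : `L` is a GOOD level: `q^(2e) = 1 + L m` with `m` prime to `L`;
* `s41k_Adm q L ψ`  : the FUNCTION `ψ : SL(2, ℚ) → A` is additive on `s41k_Gam q L` and kills its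
                      elements of trace `2`;
* `s41k_w`          : the Weyl element `[[0, -1], [1, 0]]`;
* `s41k_ext φ`      : extension by zero of `φ : Γ₀(N)[1/q] → A` to a function on `SL(2, ℚ)`.
-/
import Mathlib
import Fermat.Agent.Lib.S41.DSymb

set_option autoImplicit false

open Matrix MatrixGroups

namespace Fermat.Agent.Lib.S41

/-- `x ∈ L · ℤ[1/q]`. -/
def s41k_LR (q L : ℕ) (x : ℚ) : Prop := ∃ r ∈ s41e_R q, x = (L : ℚ) * r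

theorem s41k_LR_zero (q L : ℕ) : s41k_LR q L 0 := ⟨0, (s41e_R q).zero_mem, by simp⟩

theorem s41k_LR_add {q L : ℕ} {x y : ℚ} (hx : s41k_LR q L x) (hy : s41k_LR q L y) :
    s41k_LR q L (x + y) := by
  obtain ⟨r, hr, rfl⟩ := hx
  obtain ⟨s, hs, rfl⟩ := hy
  exact ⟨r + s, (s41e_R q).add_mem hr hs, by ring⟩

theorem s41k_LR_neg {q L : ℕ} {x : ℚ} (hx : s41k_LR q L x) : s41k_LR q L (-x) := by
  obtain ⟨r, hr, rfl⟩ := hx
  exact ⟨-r, (s41e_R q).neg_mem hr, by ring⟩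

theorem s41k_LR_sub {q L : ℕ} {x y : ℚ} (hx : s41k_LR q L x) (hy : s41k_LR q L y) :
    s41k_LR q L (x - y) := by
  rw [sub_eq_add_neg]
  exact s41k_LR_add hx (s41k_LR_neg hy)

theorem s41k_LR_mul_left {q L : ℕ} {x y : ℚ} (hx : x ∈ s41e_R q) (hy : s41k_LR q L y) :
    s41k_LR q L (x * y) := by
  obtain ⟨s, hs, rfl⟩ := hy
  exact ⟨x * s, (s41e_R q).mul_mem hx hs, by ring⟩

theorem s41k_LR_mul_right {q L : ℕ} {x y : ℚ} (hx : s41k_LR q L x) (hy : y ∈ s41e_R q) :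
    s41k_LR q L (x * y) := by
  rw [mul_comm]
  exact s41k_LR_mul_left hy hx

theorem s41k_LR_mem_R {q L : ℕ} {x : ℚ} (hx : s41k_LR q L x) : x ∈ s41e_R q := by
  obtain ⟨r, hr, rfl⟩ := hx
  exact (s41e_R q).mul_mem (s41e_nat_mem_R q L) hr

theorem s41k_LR_of_dvd {q L L' : ℕ} (h : L ∣ L') {x : ℚ} (hx : s41k_LR q L' x) :
    s41k_LR q L x := by
  obtain ⟨r, hr, rfl⟩ := hx
  obtain ⟨k, rfl⟩ := h
  exact ⟨(k : ℚ) * r, (s41e_R q).mul_mem (s41e_nat_mem_R q k) hr, by push_cast; ring⟩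

/-- `1 + L·R ⊂ R`. -/
theorem s41k_mem_R_of_sub_one {q L : ℕ} {x : ℚ} (hx : s41k_LR q L (x - 1)) : x ∈ s41e_R q := by
  have := (s41e_R q).add_mem (s41k_LR_mem_R hx) (s41e_R q).one_mem
  simpa using this

/-- the principal congruence subgroup of level `L` of `SL₂(ℤ[1/q])`. -/
def s41k_Gam (q L : ℕ) : Subgroup SL(2, ℚ) where
  carrier := {g | s41k_LR q L (g.1 0 0 - 1) ∧ s41k_LR q L (g.1 0 1) ∧ s41k_LR q L (g.1 1 0) ∧
    s41k_LR q L (g.1 1 1 - 1)}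
  mul_mem' := by
    rintro g h ⟨g00, g01, g10, g11⟩ ⟨h00, h01, h10, h11⟩
    have G00 := s41k_mem_R_of_sub_one g00
    have G11 := s41k_mem_R_of_sub_one g11
    have H00 := s41k_mem_R_of_sub_one h00
    have H11 := s41k_mem_R_of_sub_one h11
    refine ⟨?_, ?_, ?_, ?_⟩
    · rw [s41d_mul_00]
      have : g.1 0 0 * h.1 0 0 + g.1 0 1 * h.1 1 0 - 1 =
          (g.1 0 0 - 1) * h.1 0 0 + (h.1 0 0 - 1) + g.1 0 1 * h.1 1 0 := by ring
      rw [this]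
      exact s41k_LR_add (s41k_LR_add (s41k_LR_mul_right g00 H00) h00)
        (s41k_LR_mul_right g01 (s41k_LR_mem_R h10))
    · rw [s41d_mul_01]
      exact s41k_LR_add (s41k_LR_mul_left G00 h01) (s41k_LR_mul_right g01 H11)
    · rw [s41d_mul_10]
      exact s41k_LR_add (s41k_LR_mul_right g10 H00) (s41k_LR_mul_left G11 h10)
    · rw [s41d_mul_11]
      have : g.1 1 0 * h.1 0 1 + g.1 1 1 * h.1 1 1 - 1 =
          g.1 1 0 * h.1 0 1 + ((g.1 1 1 - 1) * h.1 1 1 + (h.1 1 1 - 1)) := by ring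
      rw [this]
      exact s41k_LR_add (s41k_LR_mul_right g10 (s41k_LR_mem_R h01))
        (s41k_LR_add (s41k_LR_mul_right g11 H11) h11)
  one_mem' := by
    refine ⟨?_, ?_, ?_, ?_⟩ <;> simp [s41k_LR_zero]
  inv_mem' := by
    rintro g ⟨g00, g01, g10, g11⟩
    refine ⟨?_, ?_, ?_, ?_⟩
    · rw [s41d_inv_00]; exact g11
    · rw [s41d_inv_01]; exact s41k_LR_neg g01
    · rw [s41d_inv_10]; exact s41k_LR_neg g10
    · rw [s41d_inv_11]; exact g00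

theorem s41k_mem_Gam {q L : ℕ} {g : SL(2, ℚ)} :
    g ∈ s41k_Gam q L ↔ s41k_LR q L (g.1 0 0 - 1) ∧ s41k_LR q L (g.1 0 1) ∧
      s41k_LR q L (g.1 1 0) ∧ s41k_LR q L (g.1 1 1 - 1) := Iff.rfl

/-- entries of elements of `Γ_L` lie in `ℤ[1/q]`. -/
theorem s41k_Gam_entries {q L : ℕ} {g : SL(2, ℚ)} (hg : g ∈ s41k_Gam q L) (i j : Fin 2) :
    g.1 i j ∈ s41e_R q := by
  obtain ⟨g00, g01, g10, g11⟩ := hg
  fin_cases i <;> fin_cases j
  · exact s41k_mem_R_of_sub_one g00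
  · exact s41k_LR_mem_R g01
  · exact s41k_LR_mem_R g10
  · exact s41k_mem_R_of_sub_one g11

/-- `Γ_{L'} ≤ Γ_L` for `L ∣ L'`. -/
theorem s41k_Gam_mono {q L L' : ℕ} (h : L ∣ L') : s41k_Gam q L' ≤ s41k_Gam q L := by
  rintro g ⟨g00, g01, g10, g11⟩
  exact ⟨s41k_LR_of_dvd h g00, s41k_LR_of_dvd h g01, s41k_LR_of_dvd h g10, s41k_LR_of_dvd h g11⟩

/-- `Γ_L ≤ Γ₀(N)[1/q]` for `N ∣ L`. -/
theorem s41k_Gam_le_G {N q L : ℕ} (h : N ∣ L) : s41k_Gam q L ≤ s41e_G N q := by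
  intro g hg
  exact ⟨fun i j => s41k_Gam_entries hg i j, s41k_LR_of_dvd h hg.2.2.1⟩

/-- `Γ_L` is normalised by `SL₂(ℤ[1/q]) = s41e_G 1 q`. -/
theorem s41k_Gam_conj {q L : ℕ} {τ g : SL(2, ℚ)} (hτ : τ ∈ s41e_G 1 q) (hg : g ∈ s41k_Gam q L) :
    τ * g * τ⁻¹ ∈ s41k_Gam q L := by
  obtain ⟨g00, g01, g10, g11⟩ := hg
  have T := hτ.1
  have hdet := s41d_det τ
  refine ⟨?_, ?_, ?_, ?_⟩
  · rw [s41d_mul_00, s41d_mul_00, s41d_mul_01, s41d_inv_00, s41d_inv_10]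
    have : (τ.1 0 0 * g.1 0 0 + τ.1 0 1 * g.1 1 0) * τ.1 1 1 +
        (τ.1 0 0 * g.1 0 1 + τ.1 0 1 * g.1 1 1) * -τ.1 1 0 - 1 =
        τ.1 0 0 * τ.1 1 1 * (g.1 0 0 - 1) + τ.1 0 1 * τ.1 1 1 * g.1 1 0
          - τ.1 0 0 * τ.1 1 0 * g.1 0 1 - τ.1 0 1 * τ.1 1 0 * (g.1 1 1 - 1) := by
      linear_combination hdet
    rw [this]
    exact s41k_LR_sub (s41k_LR_sub (s41k_LR_add
      (s41k_LR_mul_left ((s41e_R q).mul_mem (T _ _) (T _ _)) g00)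
      (s41k_LR_mul_left ((s41e_R q).mul_mem (T _ _) (T _ _)) g10))
      (s41k_LR_mul_left ((s41e_R q).mul_mem (T _ _) (T _ _)) g01))
      (s41k_LR_mul_left ((s41e_R q).mul_mem (T _ _) (T _ _)) g11)
  · rw [s41d_mul_01, s41d_mul_00, s41d_mul_01, s41d_inv_01, s41d_inv_11]
    have : (τ.1 0 0 * g.1 0 0 + τ.1 0 1 * g.1 1 0) * -τ.1 0 1 +
        (τ.1 0 0 * g.1 0 1 + τ.1 0 1 * g.1 1 1) * τ.1 0 0 =
        - (τ.1 0 0 * τ.1 0 1 * (g.1 0 0 - 1)) - τ.1 0 1 * τ.1 0 1 * g.1 1 0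
          + τ.1 0 0 * τ.1 0 0 * g.1 0 1 + τ.1 0 1 * τ.1 0 0 * (g.1 1 1 - 1) := by
      ring
    rw [this]
    exact s41k_LR_add (s41k_LR_add (s41k_LR_sub (s41k_LR_neg
      (s41k_LR_mul_left ((s41e_R q).mul_mem (T _ _) (T _ _)) g00))
      (s41k_LR_mul_left ((s41e_R q).mul_mem (T _ _) (T _ _)) g10))
      (s41k_LR_mul_left ((s41e_R q).mul_mem (T _ _) (T _ _)) g01))
      (s41k_LR_mul_left ((s41e_R q).mul_mem (T _ _) (T _ _)) g11)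
  · rw [s41d_mul_10, s41d_mul_10, s41d_mul_11, s41d_inv_00, s41d_inv_10]
    have : (τ.1 1 0 * g.1 0 0 + τ.1 1 1 * g.1 1 0) * τ.1 1 1 +
        (τ.1 1 0 * g.1 0 1 + τ.1 1 1 * g.1 1 1) * -τ.1 1 0 =
        τ.1 1 0 * τ.1 1 1 * (g.1 0 0 - 1) + τ.1 1 1 * τ.1 1 1 * g.1 1 0
          - τ.1 1 0 * τ.1 1 0 * g.1 0 1 - τ.1 1 1 * τ.1 1 0 * (g.1 1 1 - 1) := by
      ring
    rw [this]
    exact s41k_LR_sub (s41k_LR_sub (s41k_LR_add
      (s41k_LR_mul_left ((s41e_R q).mul_mem (T _ _) (T _ _)) g00)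
      (s41k_LR_mul_left ((s41e_R q).mul_mem (T _ _) (T _ _)) g10))
      (s41k_LR_mul_left ((s41e_R q).mul_mem (T _ _) (T _ _)) g01))
      (s41k_LR_mul_left ((s41e_R q).mul_mem (T _ _) (T _ _)) g11)
  · rw [s41d_mul_11, s41d_mul_10, s41d_mul_11, s41d_inv_01, s41d_inv_11]
    have : (τ.1 1 0 * g.1 0 0 + τ.1 1 1 * g.1 1 0) * -τ.1 0 1 +
        (τ.1 1 0 * g.1 0 1 + τ.1 1 1 * g.1 1 1) * τ.1 0 0 - 1 =
        - (τ.1 1 0 * τ.1 0 1 * (g.1 0 0 - 1)) - τ.1 1 1 * τ.1 0 1 * g.1 1 0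
          + τ.1 1 0 * τ.1 0 0 * g.1 0 1 + τ.1 1 1 * τ.1 0 0 * (g.1 1 1 - 1) := by
      linear_combination hdet
    rw [this]
    exact s41k_LR_add (s41k_LR_add (s41k_LR_sub (s41k_LR_neg
      (s41k_LR_mul_left ((s41e_R q).mul_mem (T _ _) (T _ _)) g00))
      (s41k_LR_mul_left ((s41e_R q).mul_mem (T _ _) (T _ _)) g10))
      (s41k_LR_mul_left ((s41e_R q).mul_mem (T _ _) (T _ _)) g01))
      (s41k_LR_mul_left ((s41e_R q).mul_mem (T _ _) (T _ _)) g11)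

/-- `ι(SL₂(ℤ)) ⊂ SL₂(ℤ[1/q]) = s41e_G 1 q`. -/
theorem s41k_iota_mem (q : ℕ) (σ : SL(2, ℤ)) : s41e_iota σ ∈ s41e_G 1 q := by
  refine ⟨fun i j => ?_, (σ.1 1 0 : ℚ), s41e_int_mem_R q _, ?_⟩
  · rw [s41e_iota_apply]
    exact s41e_int_mem_R q _
  · rw [s41e_iota_apply]
    simp

/-- conjugation by `diag(r, 1)` maps `Γ_{L₁}` into `Γ_L` when `r L ∣ L₁`. -/
theorem s41k_conj_mem_Gam {q L L₁ r : ℕ} (hr : r ≠ 0) (h : r * L ∣ L₁) {g : SL(2, ℚ)}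
    (hg : g ∈ s41k_Gam q L₁) : s41e_conj r hr g ∈ s41k_Gam q L := by
  obtain ⟨g00, g01, g10, g11⟩ := hg
  have hL : L ∣ L₁ := (Dvd.intro_left r rfl).trans h
  have hr' : (r : ℚ) ≠ 0 := by exact_mod_cast hr
  refine ⟨?_, ?_, ?_, ?_⟩
  · rw [s41e_conj_apply]
    simpa using s41k_LR_of_dvd hL g00
  · rw [s41e_conj_apply]
    simpa using s41k_LR_mul_left (s41e_nat_mem_R q r) (s41k_LR_of_dvd hL g01)
  · rw [s41e_conj_apply]
    obtain ⟨s, hs, hs'⟩ := g10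
    obtain ⟨k, rfl⟩ := h
    refine ⟨(k : ℚ) * s, (s41e_R q).mul_mem (s41e_nat_mem_R q k) hs, ?_⟩
    simp only [Matrix.of_apply, Matrix.cons_val', Matrix.cons_val_zero, Matrix.cons_val_one,
      Matrix.empty_val', Matrix.cons_val_fin_one]
    rw [hs']
    push_cast
    field_simp
  · rw [s41e_conj_apply]
    simpa using s41k_LR_of_dvd hL g11

/-- GOOD level: `q^(2e) = 1 + L m` with `m` prime to `L`. -/
def s41k_Good (q L : ℕ) : Prop :=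
  ∃ e m : ℕ, 0 < e ∧ q ^ (2 * e) = 1 + L * m ∧ Nat.Coprime m L

/-- the FUNCTION `ψ` is additive on `Γ_L` and kills the trace-`2` elements of `Γ_L`. -/
def s41k_Adm (q L : ℕ) {A : Type*} [AddCommGroup A] (ψ : SL(2, ℚ) → A) : Prop :=
  (∀ g ∈ s41k_Gam q L, ∀ h ∈ s41k_Gam q L, ψ (g * h) = ψ g + ψ h) ∧
    (∀ u ∈ s41k_Gam q L, u.1 0 0 + u.1 1 1 = 2 → ψ u = 0)

theorem s41k_Adm_mono {q L L' : ℕ} (h : L ∣ L') {A : Type*} [AddCommGroup A]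
    {ψ : SL(2, ℚ) → A} (hψ : s41k_Adm q L ψ) : s41k_Adm q L' ψ :=
  ⟨fun g hg k hk => hψ.1 g (s41k_Gam_mono h hg) k (s41k_Gam_mono h hk),
    fun u hu htr => hψ.2 u (s41k_Gam_mono h hu) htr⟩

/-- admissibility is preserved by composing with `κ_r` and raising the level. -/
theorem s41k_Adm_conj {q L L₁ r : ℕ} (hr : r ≠ 0) (h : r * L ∣ L₁) {A : Type*} [AddCommGroup A]
    {ψ : SL(2, ℚ) → A} (hψ : s41k_Adm q L ψ) :
    s41k_Adm q L₁ (fun g => ψ (s41e_conj r hr g)) := by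
  refine ⟨fun g hg k hk => ?_, fun u hu htr => ?_⟩
  · show ψ (s41e_conj r hr (g * k)) = _
    rw [map_mul]
    exact hψ.1 _ (s41k_conj_mem_Gam hr h hg) _ (s41k_conj_mem_Gam hr h hk)
  · refine hψ.2 _ (s41k_conj_mem_Gam hr h hu) ?_
    rw [s41e_conj_apply]
    simpa using htr

/-- the Weyl element `w = [[0, -1], [1, 0]]`. -/
def s41k_w : SL(2, ℚ) := s41d_mk 0 (-1) 1 0 (by ring)

@[simp] theorem s41k_w_00 : s41k_w.1 0 0 = 0 := rfl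
@[simp] theorem s41k_w_01 : s41k_w.1 0 1 = -1 := rfl
@[simp] theorem s41k_w_10 : s41k_w.1 1 0 = 1 := rfl
@[simp] theorem s41k_w_11 : s41k_w.1 1 1 = 0 := rfl

theorem s41k_w_mem (q : ℕ) : s41k_w ∈ s41e_G 1 q := by
  refine ⟨fun i j => ?_, 1, (s41e_R q).one_mem, by simp⟩
  fin_cases i <;> fin_cases j
  · exact (s41e_R q).zero_mem
  · exact (s41e_R q).neg_mem (s41e_R q).one_mem
  · exact (s41e_R q).one_mem
  · exact (s41e_R q).zero_mem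

/-- `w = up(-1) · lo(1) · up(-1)`. -/
theorem s41k_w_eq : s41k_w = s41d_up (-1) * s41d_lo 1 * s41d_up (-1) := by
  refine s41d_ext ?_ ?_ ?_ ?_ <;>
    simp [s41d_mul_00, s41d_mul_01, s41d_mul_10, s41d_mul_11]

/-- `κ_r (w⁻¹ κ_r(g) w) = w⁻¹ g w`. -/
theorem s41k_conj_w_conj {r : ℕ} (hr : r ≠ 0) (g : SL(2, ℚ)) :
    s41e_conj r hr (s41k_w⁻¹ * s41e_conj r hr g * s41k_w) = s41k_w⁻¹ * g * s41k_w := by
  have hr' : (r : ℚ) ≠ 0 := by exact_mod_cast hr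
  refine s41d_ext ?_ ?_ ?_ ?_ <;>
    simp [s41e_conj_apply, s41d_mul_00, s41d_mul_01, s41d_mul_10, s41d_mul_11, s41d_inv_00,
      s41d_inv_01, s41d_inv_10, s41d_inv_11] <;> field_simp

open Classical in
/-- extension by zero of `φ : Γ₀(N)[1/q] → A` to a function on `SL(2, ℚ)`. -/
noncomputable def s41k_ext {N q : ℕ} {A : Type*} [AddCommGroup A]
    (φ : Additive ↥(s41e_G N q) →+ A) (g : SL(2, ℚ)) : A :=
  if h : g ∈ s41e_G N q then φ (Additive.ofMul (⟨g, h⟩ : ↥(s41e_G N q))) else 0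

theorem s41k_ext_of_mem {N q : ℕ} {A : Type*} [AddCommGroup A]
    (φ : Additive ↥(s41e_G N q) →+ A) {g : SL(2, ℚ)} (h : g ∈ s41e_G N q) :
    s41k_ext φ g = φ (Additive.ofMul (⟨g, h⟩ : ↥(s41e_G N q))) := by
  rw [s41k_ext, dif_pos h]

theorem s41k_ext_mul {N q : ℕ} {A : Type*} [AddCommGroup A]
    (φ : Additive ↥(s41e_G N q) →+ A) {g h : SL(2, ℚ)} (hg : g ∈ s41e_G N q)
    (hh : h ∈ s41e_G N q) : s41k_ext φ (g * h) = s41k_ext φ g + s41k_ext φ h := by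
  rw [s41k_ext_of_mem φ hg, s41k_ext_of_mem φ hh, s41k_ext_of_mem φ ((s41e_G N q).mul_mem hg hh),
    ← map_add]
  rfl

/-- **CONTRACT (Theorem C, centrality)** in the form consumed downstream. -/
def s41k_Central : Prop :=
  ∀ (q L : ℕ) (A : Type) [AddCommGroup A] (ψ : SL(2, ℚ) → A), q.Prime → s41k_Good q L →
    s41k_Adm q L ψ → ∀ σ : SL(2, ℤ), ∀ g ∈ s41k_Gam q L,
      ψ (s41e_iota σ * g * (s41e_iota σ)⁻¹) = ψ g

end Fermat.Agent.Lib.S41
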