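/-
S41 project, module [K] (helper9): the contract **K-MAIN** as produced by `KMain.lean` and consumed by
`DIhara2.lean`.

`s41ki_KMain`: for `φ : Γ₀(N)[1/q] → A` (`p A = 0`, `p ≠ q` primes, `N` prime to `q`) whose
restriction `φ₁` to `Γ₀(N)` is parabolic, and primes `ℓ ∤ N`, `r ∤ N q`, the class
`χ = T_r (T_r φ₁) - (r + 1) • (r + 1) • φ₁` satisfies `T_ℓ χ = (ℓ + 1) • χ`
(same spelling of `χ` as in `s41kg_kills_deep`).
-/
import Mathlib
import Fermat.Prelude.Def_ModularCurve_PeriodMap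
import Fermat.Agent.Lib.S29.HDefs
import Fermat.Agent.Lib.S41.KDefs

set_option autoImplicit false

open Matrix MatrixGroups CongruenceSubgroup

namespace Fermat.Agent.Lib.S41

open Fermat.Agent.Lib.S29 ModularCurve.Period

/-- **CONTRACT K-MAIN**: `(T_ℓ - (ℓ + 1)) (T_r² - (r + 1)²) φ₁ = 0`. -/
def s41ki_KMain : Prop :=
  ∀ (N q : ℕ) [NeZero N], q.Prime → Nat.Coprime N q → ∀ (p : ℕ), p.Prime → p ≠ q →
    ∀ (A : Type) [AddCommGroup A], (∀ a : A, p • a = 0) →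
    ∀ (φ : Additive ↥(s41e_G N q) →+ A) (φ₁ : Additive (Gamma0 N) →+ A),
      (∀ γ : Gamma0 N, φ (Additive.ofMul
        (⟨s41e_iota γ, s41e_iota_mem_G q γ.2⟩ : ↥(s41e_G N q))) = φ₁ (Additive.ofMul γ)) →
      IsParabolicHom (Gamma0 N) φ₁ →
      ∀ (ℓ r : ℕ) [Fact ℓ.Prime] [Fact r.Prime], ¬ ℓ ∣ N → ¬ r ∣ N → r ≠ q →
        s29h_heckeHom N ℓ A
            (s29h_heckeHom N r A (s29h_heckeHom N r A φ₁) - (r + 1) • (r + 1) • φ₁) =
          (ℓ + 1) • (s29h_heckeHom N r A (s29h_heckeHom N r A φ₁) - (r + 1) • (r + 1) • φ₁)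

end Fermat.Agent.Lib.S41
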