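/-
S41 project, [K] + [E] ⇒ the weak Ihara contract (helper9; the gluing part is helper6's `DIhara`).

`s41_ihara2_of_kmain : s41ki_KMain → s41_Ihara2`.

Given `x, y ∈ H(N, 𝔽_p)` with `res_A x + res_B y = 0` on `Γ₀(N q')`: the homomorphisms `y` on `Γ₀(N)`
and `-x` on `δ Γ₀(N) δ⁻¹` agree on the intersection, hence glue (`s41e_glue`) to `φ` on
`Γ₀(N)[1/q']`.  Composing with the automorphism `c_δ` of `Γ₀(N)[1/q']` and changing the sign gives
`φ'` with `φ' ∘ ι = x` (`s41ki_glue_x`).  K-MAIN with `ℓ = r = ℓ₀` gives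
`(T - s)(T² - s²) x = 0`, `s = ℓ₀ + 1`, hence `(T² - s²)² x = 0`.
-/
import Mathlib
import Fermat.Agent.Lib.S41.GDefs
import Fermat.Agent.Lib.S41.EGlue
import Fermat.Agent.Lib.S41.DIhara
import Fermat.Agent.Lib.S41.KMainDef

set_option autoImplicit false
set_option linter.unusedSectionVars false
set_option linter.style.haveILetI false

open Matrix MatrixGroups CongruenceSubgroup

namespace Fermat.Agent.Lib.S41

open Fermat.Agent.Lib.S29 Fermat.Agent.Lib.ES ModularCurve.Period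

/-- **the gluing step**: if `res_A x + res_B y = 0` then `x` extends to `Γ₀(N)[1/q']`. -/
theorem s41ki_glue_x (N : ℕ) [NeZero N] (q' : ℕ) [Fact q'.Prime] (hq'N : ¬ q' ∣ N)
    {A : Type*} [AddCommGroup A] (x y : Additive (Gamma0 N) →+ A)
    (hxy : s41l_resA N q' A x + s41l_resB N q' hq'N A y = 0) :
    ∃ φ' : Additive ↥(s41e_G N q') →+ A, ∀ γ : Gamma0 N, φ' (Additive.ofMul
      (⟨s41e_iota γ, s41e_iota_mem_G q' γ.2⟩ : ↥(s41e_G N q'))) = x (Additive.ofMul γ) := by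
  have hq' : q'.Prime := Fact.out
  have hq0 : q' ≠ 0 := hq'.ne_zero
  have hc : ∀ γ₁ γ₂ : Gamma0 N,
      s41e_iota γ₁ = s41e_conj q' hq'.ne_zero (s41e_iota γ₂) →
        y (Additive.ofMul γ₁) = (-x) (Additive.ofMul γ₂) := by
    intro γ₁ γ₂ h
    obtain ⟨e00, e01, e10, e11⟩ := s41d_iota_eq_conj_entries hq0 h
    have hN1 : (N : ℤ) ∣ (γ₁ : SL(2, ℤ)).1 1 0 := s41l_dvd_c γ₁
    have hmem : (γ₂ : SL(2, ℤ)) ∈ Gamma0 (N * q') := by
      rw [Gamma0_mem, ZMod.intCast_zmod_eq_zero_iff_dvd, ← e10]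
      push_cast
      exact mul_dvd_mul_right hN1 _
    let γ' : Gamma0 (N * q') := ⟨(γ₂ : SL(2, ℤ)), hmem⟩
    have hincl : s41l_incl N q' γ' = γ₂ := by
      apply Subtype.ext
      rw [s41l_incl_coe]
    have hcd : s41l_cdelta N q' hq'N γ' = γ₁ := by
      apply s41l_Fam.unitHom_eq
      show heckeDiagZ q' * s41l_i (N * q') γ' = s41l_i N γ₁ * heckeDiagZ q'
      rw [s41l_i_apply, s41l_i_apply]
      ext i j
      fin_cases i <;> fin_cases j <;>
        simp [heckeDiagZ, Matrix.mul_apply, Fin.sum_univ_two, γ'] <;>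
        first
          | linear_combination (-(q' : ℤ)) * e00
          | linear_combination (-1 : ℤ) * e01
          | linear_combination (-1 : ℤ) * e10
          | linear_combination (-1 : ℤ) * e11
    have h0 := congrArg (fun f : Additive (Gamma0 (N * q')) →+ A => f (Additive.ofMul γ')) hxy
    simp only [AddMonoidHom.add_apply, AddMonoidHom.zero_apply] at h0
    rw [s41l_resA_apply, s41l_resB_apply, hincl, hcd] at h0
    rw [AddMonoidHom.neg_apply]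
    exact eq_neg_of_add_eq_zero_right h0
  obtain ⟨φ, -, hφ2⟩ := s41e_glue N q' hq' hq'N y (-x) hc
  refine ⟨-(φ.comp (MonoidHom.toAdditive (s41d_cG N q' hq0))), fun γ => ?_⟩
  show -(φ (Additive.ofMul (s41d_cG N q' hq0 ⟨s41e_iota γ, s41e_iota_mem_G q' γ.2⟩))) = _
  have : s41d_cG N q' hq0 ⟨s41e_iota γ, s41e_iota_mem_G q' γ.2⟩ =
      ⟨s41e_conj q' hq'.ne_zero (s41e_iota γ),
        s41e_conj_mem_G hq'.ne_zero (s41e_iota_mem_G q' γ.2)⟩ := Subtype.ext rfl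
  rw [this, hφ2 γ, AddMonoidHom.neg_apply, neg_neg]

/-- the algebra: `T χ = n χ` for `χ = T² x - n² x` implies `T⁴ x - 2 n² T² x + n⁴ x = 0`. -/
theorem s41ki_square {H : Type*} [AddCommGroup H] (T : H →+ H) (n : ℕ) (x : H)
    (h : T (T (T x) - n • n • x) = n • (T (T x) - n • n • x)) :
    T (T (T (T x))) - (2 * n ^ 2) • T (T x) + (n ^ 4) • x = 0 := by
  have h2 : T (T (T (T x) - n • n • x)) = n • n • (T (T x) - n • n • x) := by
    rw [h, map_nsmul, h]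
  simp only [map_sub, map_nsmul] at h2
  have e1 : (2 * n ^ 2) • T (T x) = n • n • T (T x) + n • n • T (T x) := by
    rw [smul_smul, ← add_smul]; congr 1; ring
  have e2 : (n ^ 4) • x = n • n • n • n • x := by
    simp only [smul_smul]; congr 1; ring
  rw [e1, e2]
  have h3 : T (T (T (T x))) = n • n • (T (T x) - n • n • x) + n • n • T (T x) := by
    rw [← h2]; abel
  rw [h3, smul_sub, smul_sub]
  abel

/-- **[K] + [E] ⇒ the weak Ihara contract.** -/
theorem s41_ihara2_of_kmain (hK : s41ki_KMain) : s41_Ihara2 := by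
  intro N _ q' hq'F hq'N p hpF hp2 hq'p ℓ₀ hℓ₀F hℓ₀ x hx y hy hxy
  have hq' : q'.Prime := hq'F.out
  have hp : p.Prime := hpF.out
  obtain ⟨φ', hφ'⟩ := s41ki_glue_x N q' hq'N x y hxy
  have hxpar : IsParabolicHom (Gamma0 N) x := hx.1
  have hℓN : ¬ ℓ₀ ∣ N := fun h => hℓ₀ (Dvd.dvd.mul_right (Dvd.dvd.mul_right h q') p)
  have hℓq : ℓ₀ ≠ q' := fun h => hℓ₀ (Dvd.dvd.mul_right (h ▸ Dvd.intro_left N rfl) p)
  have hA : ∀ a : ZMod p, p • a = 0 := by
    intro a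
    rw [nsmul_eq_mul, ZMod.natCast_self, zero_mul]
  have hNq : Nat.Coprime N q' := ((Nat.Prime.coprime_iff_not_dvd hq').mpr hq'N).symm
  have key := hK N q' hq' hNq p hp (fun h => hq'p h.symm) (ZMod p) hA φ' x hφ' hxpar ℓ₀ ℓ₀ hℓN hℓN hℓq
  have sq := s41ki_square (s29h_heckeHom N ℓ₀ (ZMod p)) (ℓ₀ + 1) x key
  have e1 : (2 * ((ℓ₀ : ZMod p) + 1) ^ 2) •
      s29h_heckeHom N ℓ₀ (ZMod p) (s29h_heckeHom N ℓ₀ (ZMod p) x) =
      (2 * (ℓ₀ + 1) ^ 2 : ℕ) • s29h_heckeHom N ℓ₀ (ZMod p) (s29h_heckeHom N ℓ₀ (ZMod p) x) := by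
    ext γ
    simp [nsmul_eq_mul]
  have e2 : (((ℓ₀ : ZMod p) + 1) ^ 4) • x = ((ℓ₀ + 1) ^ 4 : ℕ) • x := by
    ext γ
    simp [nsmul_eq_mul]
  rw [e1, e2]
  exact sq

end Fermat.Agent.Lib.S41
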