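/-
S41 project, module [D], file 2 (helper1): a homomorphism `φ : Γ₀(N)[1/q] → A` (abelian `A`) which
kills `[[1, 1], [0, 1]]` and `[[1, 0], [N, 1]]` kills all upper unipotents `[[1, x], [0, 1]]`
(`x ∈ ℤ[1/q]`) and all lower unipotents `[[1, 0], [N r, 1]]` (`r ∈ ℤ[1/q]`): conjugate by
`diag(q^k, q^{-k})`.
-/
import Mathlib
import Fermat.Agent.Lib.S41.DSymb

set_option autoImplicit false

open Matrix MatrixGroups

namespace Fermat.Agent.Lib.S41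

/-- `[[u⁻¹, 0], [0, u]]`. -/
def s41d_dg (u : ℚ) (hu : u ≠ 0) : SL(2, ℚ) :=
  s41d_mk u⁻¹ 0 0 u (by rw [inv_mul_cancel₀ hu]; ring)

@[simp] theorem s41d_dg_00 (u : ℚ) (hu : u ≠ 0) : (s41d_dg u hu).1 0 0 = u⁻¹ := rfl
@[simp] theorem s41d_dg_01 (u : ℚ) (hu : u ≠ 0) : (s41d_dg u hu).1 0 1 = 0 := rfl
@[simp] theorem s41d_dg_10 (u : ℚ) (hu : u ≠ 0) : (s41d_dg u hu).1 1 0 = 0 := rfl
@[simp] theorem s41d_dg_11 (u : ℚ) (hu : u ≠ 0) : (s41d_dg u hu).1 1 1 = u := rfl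

theorem s41d_dg_mem {N q : ℕ} {u : ℚ} (hu : u ≠ 0) (h1 : u ∈ s41e_R q) (h2 : u⁻¹ ∈ s41e_R q) :
    s41d_dg u hu ∈ s41e_G N q :=
  s41d_mk_mem _ h2 (s41e_R q).zero_mem h1 (s41e_R q).zero_mem (by simp)

theorem s41d_qpow_mem {q : ℕ} (k : ℕ) : ((q : ℚ)) ^ k ∈ s41e_R q :=
  (s41e_R q).pow_mem (s41e_nat_mem_R q q) k

theorem s41d_qpow_inv_mem {q : ℕ} (hq : q ≠ 0) (k : ℕ) : (((q : ℚ)) ^ k)⁻¹ ∈ s41e_R q := by
  rw [← inv_pow]
  exact (s41e_R q).pow_mem (s41e_inv_mem_R hq) k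

section

variable {N q : ℕ} {A : Type*} [AddCommGroup A] (φ : Additive ↥(s41e_G N q) →+ A)

theorem s41d_phi_conj (g h : ↥(s41e_G N q)) :
    φ (Additive.ofMul (h * g * h⁻¹)) = φ (Additive.ofMul g) := by
  rw [s41d_phi_mul, s41d_phi_mul, s41d_phi_inv]
  abel

theorem s41d_up_add (x y : ℚ) : s41d_up (x + y) = s41d_up x * s41d_up y := by
  apply s41d_ext
  · rw [s41d_mul_00]; simp
  · rw [s41d_mul_01]; simp; ring
  · rw [s41d_mul_10]; simp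
  · rw [s41d_mul_11]; simp

theorem s41d_lo_add (x y : ℚ) : s41d_lo (x + y) = s41d_lo x * s41d_lo y := by
  apply s41d_ext
  · rw [s41d_mul_00]; simp
  · rw [s41d_mul_01]; simp
  · rw [s41d_mul_10]; simp
  · rw [s41d_mul_11]; simp

/-- `x ↦ φ [[1, x], [0, 1]]` on `ℤ[1/q]` (and `0` outside). -/
noncomputable def s41d_fU (x : ℚ) : A := by
  classical
  exact if hx : x ∈ s41e_R q then φ (Additive.ofMul (⟨s41d_up x, s41d_up_mem hx⟩ : ↥(s41e_G N q)))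
    else 0

theorem s41d_fU_eq {x : ℚ} (hx : x ∈ s41e_R q) :
    s41d_fU φ x = φ (Additive.ofMul (⟨s41d_up x, s41d_up_mem hx⟩ : ↥(s41e_G N q))) := by
  rw [s41d_fU, dif_pos hx]

theorem s41d_fU_add {x y : ℚ} (hx : x ∈ s41e_R q) (hy : y ∈ s41e_R q) :
    s41d_fU φ (x + y) = s41d_fU φ x + s41d_fU φ y := by
  rw [s41d_fU_eq φ hx, s41d_fU_eq φ hy, s41d_fU_eq φ ((s41e_R q).add_mem hx hy), ← s41d_phi_mul]
  congr 2
  exact Subtype.ext (s41d_up_add x y)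

/-- `r ↦ φ [[1, 0], [N r, 1]]` on `ℤ[1/q]` (and `0` outside). -/
noncomputable def s41d_fL (r : ℚ) : A := by
  classical
  exact if hr : r ∈ s41e_R q then
    φ (Additive.ofMul (⟨s41d_lo ((N : ℚ) * r), s41d_lo_mem hr⟩ : ↥(s41e_G N q))) else 0

theorem s41d_fL_eq {r : ℚ} (hr : r ∈ s41e_R q) :
    s41d_fL φ r = φ (Additive.ofMul (⟨s41d_lo ((N : ℚ) * r), s41d_lo_mem hr⟩ : ↥(s41e_G N q))) := by
  rw [s41d_fL, dif_pos hr]

theorem s41d_fL_add {x y : ℚ} (hx : x ∈ s41e_R q) (hy : y ∈ s41e_R q) :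
    s41d_fL φ (x + y) = s41d_fL φ x + s41d_fL φ y := by
  rw [s41d_fL_eq φ hx, s41d_fL_eq φ hy, s41d_fL_eq φ ((s41e_R q).add_mem hx hy), ← s41d_phi_mul]
  congr 2
  apply Subtype.ext
  show s41d_lo _ = s41d_lo _ * s41d_lo _
  rw [← s41d_lo_add, mul_add]

theorem s41d_fU_nat (h1 : s41d_fU φ 1 = 0) (n : ℕ) : s41d_fU φ (n : ℚ) = 0 := by
  induction n with
  | zero =>
    have h := s41d_fU_add φ (s41e_R q).zero_mem (s41e_R q).zero_mem
    rw [add_zero] at h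
    simpa using h
  | succ n ih =>
    rw [Nat.cast_succ, s41d_fU_add φ (s41e_nat_mem_R q n) (s41e_R q).one_mem, ih, h1, add_zero]

theorem s41d_fL_nat (h1 : s41d_fL φ 1 = 0) (n : ℕ) : s41d_fL φ (n : ℚ) = 0 := by
  induction n with
  | zero =>
    have h := s41d_fL_add φ (s41e_R q).zero_mem (s41e_R q).zero_mem
    rw [add_zero] at h
    simpa using h
  | succ n ih =>
    rw [Nat.cast_succ, s41d_fL_add φ (s41e_nat_mem_R q n) (s41e_R q).one_mem, ih, h1, add_zero]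

theorem s41d_fU_neg {x : ℚ} (hx : x ∈ s41e_R q) : s41d_fU φ (-x) = - s41d_fU φ x := by
  have h := s41d_fU_add φ hx ((s41e_R q).neg_mem hx)
  have h0 := s41d_fU_add φ (s41e_R q).zero_mem (s41e_R q).zero_mem
  rw [add_zero] at h0
  have h00 : s41d_fU φ 0 = 0 := by simpa using h0
  rw [add_neg_cancel, h00] at h
  exact (neg_eq_of_add_eq_zero_right h.symm).symm

theorem s41d_fL_neg {x : ℚ} (hx : x ∈ s41e_R q) : s41d_fL φ (-x) = - s41d_fL φ x := by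
  have h := s41d_fL_add φ hx ((s41e_R q).neg_mem hx)
  have h0 := s41d_fL_add φ (s41e_R q).zero_mem (s41e_R q).zero_mem
  rw [add_zero] at h0
  have h00 : s41d_fL φ 0 = 0 := by simpa using h0
  rw [add_neg_cancel, h00] at h
  exact (neg_eq_of_add_eq_zero_right h.symm).symm

theorem s41d_fU_int (h1 : s41d_fU φ 1 = 0) (m : ℤ) : s41d_fU φ (m : ℚ) = 0 := by
  obtain ⟨n, rfl | rfl⟩ := m.eq_nat_or_neg
  · exact_mod_cast s41d_fU_nat φ h1 n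
  · rw [Int.cast_neg, Int.cast_natCast, s41d_fU_neg φ (s41e_nat_mem_R q n), s41d_fU_nat φ h1,
      neg_zero]

theorem s41d_fL_int (h1 : s41d_fL φ 1 = 0) (m : ℤ) : s41d_fL φ (m : ℚ) = 0 := by
  obtain ⟨n, rfl | rfl⟩ := m.eq_nat_or_neg
  · exact_mod_cast s41d_fL_nat φ h1 n
  · rw [Int.cast_neg, Int.cast_natCast, s41d_fL_neg φ (s41e_nat_mem_R q n), s41d_fL_nat φ h1,
      neg_zero]

/-- conjugation by `diag(u⁻¹, u)`: `φ [[1, x], [0, 1]] = φ [[1, x / u²], [0, 1]]`. -/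
theorem s41d_fU_conj {u : ℚ} (hu : u ≠ 0) (h1 : u ∈ s41e_R q) (h2 : u⁻¹ ∈ s41e_R q) {x : ℚ}
    (hx : x ∈ s41e_R q) : s41d_fU φ (u⁻¹ * u⁻¹ * x) = s41d_fU φ x := by
  have hx' : u⁻¹ * u⁻¹ * x ∈ s41e_R q := (s41e_R q).mul_mem ((s41e_R q).mul_mem h2 h2) hx
  rw [s41d_fU_eq φ hx', s41d_fU_eq φ hx,
    ← s41d_phi_conj φ ⟨s41d_up x, s41d_up_mem hx⟩ ⟨s41d_dg u hu, s41d_dg_mem (N := N) hu h1 h2⟩]
  congr 2
  apply Subtype.ext
  show s41d_up _ = s41d_dg u hu * s41d_up x * (s41d_dg u hu)⁻¹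
  apply s41d_ext
  · rw [s41d_mul_00, s41d_mul_00, s41d_mul_01, s41d_inv_00, s41d_inv_10]
    simp; field_simp
  · rw [s41d_mul_01, s41d_mul_00, s41d_mul_01, s41d_inv_01, s41d_inv_11]
    simp; field_simp
  · rw [s41d_mul_10, s41d_mul_10, s41d_mul_11, s41d_inv_00, s41d_inv_10]
    simp
  · rw [s41d_mul_11, s41d_mul_10, s41d_mul_11, s41d_inv_01, s41d_inv_11]
    simp; field_simp

/-- conjugation by `diag(u⁻¹, u)`: `φ [[1, 0], [N r, 1]] = φ [[1, 0], [N u² r, 1]]`. -/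
theorem s41d_fL_conj {u : ℚ} (hu : u ≠ 0) (h1 : u ∈ s41e_R q) (h2 : u⁻¹ ∈ s41e_R q) {r : ℚ}
    (hr : r ∈ s41e_R q) : s41d_fL φ (u * u * r) = s41d_fL φ r := by
  have hr' : u * u * r ∈ s41e_R q := (s41e_R q).mul_mem ((s41e_R q).mul_mem h1 h1) hr
  rw [s41d_fL_eq φ hr', s41d_fL_eq φ hr,
    ← s41d_phi_conj φ ⟨s41d_lo ((N : ℚ) * r), s41d_lo_mem hr⟩
      ⟨s41d_dg u hu, s41d_dg_mem (N := N) hu h1 h2⟩]
  congr 2
  apply Subtype.ext
  show s41d_lo _ = s41d_dg u hu * s41d_lo _ * (s41d_dg u hu)⁻¹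
  apply s41d_ext
  · rw [s41d_mul_00, s41d_mul_00, s41d_mul_01, s41d_inv_00, s41d_inv_10]
    simp; field_simp
  · rw [s41d_mul_01, s41d_mul_00, s41d_mul_01, s41d_inv_01, s41d_inv_11]
    simp
  · rw [s41d_mul_10, s41d_mul_10, s41d_mul_11, s41d_inv_00, s41d_inv_10]
    simp; ring
  · rw [s41d_mul_11, s41d_mul_10, s41d_mul_11, s41d_inv_01, s41d_inv_11]
    simp; field_simp

/-- **A homomorphism killing `[[1, 1], [0, 1]]` and `[[1, 0], [N, 1]]` kills all the unipotents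
`[[1, x], [0, 1]]`, `[[1, 0], [N r, 1]]` of `Γ₀(N)[1/q]`.** -/
theorem s41d_kills_of_gen (hq : q ≠ 0)
    (hT : φ (Additive.ofMul (⟨s41d_up 1, s41d_up_mem (s41e_R q).one_mem⟩ : ↥(s41e_G N q))) = 0)
    (hL : φ (Additive.ofMul
      (⟨s41d_lo ((N : ℚ) * 1), s41d_lo_mem (s41e_R q).one_mem⟩ : ↥(s41e_G N q))) = 0) :
    s41d_Kills N q φ := by
  have hq' : (q : ℚ) ≠ 0 := by exact_mod_cast hq
  have hT' : s41d_fU φ 1 = 0 := by rw [s41d_fU_eq φ (s41e_R q).one_mem]; exact hT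
  have hL' : s41d_fL φ 1 = 0 := by rw [s41d_fL_eq φ (s41e_R q).one_mem]; exact hL
  have hU : ∀ x ∈ s41e_R q, s41d_fU φ x = 0 := by
    intro x hx
    obtain ⟨k, m, hkm⟩ := hx
    have hu : ((q : ℚ) ^ k)⁻¹ ≠ 0 := inv_ne_zero (pow_ne_zero _ hq')
    have h := s41d_fU_conj φ hu (s41d_qpow_inv_mem hq k) (by rw [inv_inv]; exact s41d_qpow_mem k)
      (x := x) ⟨k, m, hkm⟩
    rw [← h, inv_inv]
    have : (q : ℚ) ^ k * (q : ℚ) ^ k * x = ((m * (q : ℤ) ^ k : ℤ) : ℚ) := by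
      push_cast
      rw [← hkm]; ring
    rw [this]
    exact s41d_fU_int φ hT' _
  have hLo : ∀ r ∈ s41e_R q, s41d_fL φ r = 0 := by
    intro r hr
    obtain ⟨k, m, hkm⟩ := hr
    have hu : ((q : ℚ) ^ k) ≠ 0 := pow_ne_zero _ hq'
    have h := s41d_fL_conj φ hu (s41d_qpow_mem k) (s41d_qpow_inv_mem hq k) (r := r) ⟨k, m, hkm⟩
    rw [← h]
    have : (q : ℚ) ^ k * (q : ℚ) ^ k * r = ((m * (q : ℤ) ^ k : ℤ) : ℚ) := by
      push_cast
      rw [← hkm]; ring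
    rw [this]
    exact s41d_fL_int φ hL' _
  constructor
  · intro g h0 h1
    have ha : g.1.1 0 0 = 1 := by
      have := s41d_det g.1
      rw [h0, h1] at this
      linarith
    have hb : g.1.1 0 1 ∈ s41e_R q := g.2.1 0 1
    have := hU _ hb
    rw [s41d_fU_eq φ hb] at this
    rw [← this]
    congr 2
    apply Subtype.ext
    apply s41d_ext <;> simp [ha, h0, h1]
  · intro g h0 h1
    have ha : g.1.1 0 0 = 1 := by
      have := s41d_det g.1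
      rw [h0, h1] at this
      linarith
    obtain ⟨r, hr, hc⟩ := g.2.2
    have := hLo _ hr
    rw [s41d_fL_eq φ hr] at this
    rw [← this]
    congr 2
    apply Subtype.ext
    apply s41d_ext <;> simp [ha, h0, h1, hc]

end

end Fermat.Agent.Lib.S41
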