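/-
S41 project, package [E] (amalgam), part (E2') (helper8): generation INSIDE the group
`↥(s41e_G N q)` — the hypothesis `Γ₁ ⊔ Γ₂ = ⊤` of helper6's `s41e_glue_abs` for
`Γ₁ = Γ.subgroupOf G`, `Γ₂ = Γ'.subgroupOf G` (`Γ = ι Γ₀(N)`, `Γ' = δ Γ δ⁻¹`, `G = s41e_G N q`).
-/
import Fermat.Agent.Lib.S41.EGen

set_option autoImplicit false

open Matrix MatrixGroups

namespace Fermat.Agent.Lib.S41

/-- `Γ = ι Γ₀(N)` as a subgroup of `SL(2, ℚ)`. -/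
def s41e_gen_Gam (N : ℕ) : Subgroup SL(2, ℚ) := (CongruenceSubgroup.Gamma0 N).map s41e_iota

/-- `Γ' = δ Γ δ⁻¹`. -/
def s41e_gen_Gam' (N q : ℕ) (hq : q ≠ 0) : Subgroup SL(2, ℚ) :=
  (s41e_gen_Gam N).map (s41e_conj q hq)

theorem s41e_gen_Gam_le (N q : ℕ) : s41e_gen_Gam N ≤ s41e_G N q := by
  rintro _ ⟨γ, hγ, rfl⟩
  exact s41e_iota_mem_G q hγ

theorem s41e_gen_Gam'_le (N q : ℕ) (hq : q ≠ 0) : s41e_gen_Gam' N q hq ≤ s41e_G N q := by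
  rintro _ ⟨_, ⟨γ, hγ, rfl⟩, rfl⟩
  exact s41e_conj_mem_G hq (s41e_iota_mem_G q hγ)

/-- **Generation inside `↥(s41e_G N q)`.** -/
theorem s41e_gen_top (N q : ℕ) (hq : q.Prime) (hqN : ¬ q ∣ N) :
    (s41e_gen_Gam N).subgroupOf (s41e_G N q) ⊔
      (s41e_gen_Gam' N q hq.ne_zero).subgroupOf (s41e_G N q) = ⊤ := by
  rw [← Subgroup.subgroupOf_sup (s41e_gen_Gam_le N q) (s41e_gen_Gam'_le N q hq.ne_zero)]
  have h : s41e_gen_Gam N ⊔ s41e_gen_Gam' N q hq.ne_zero = s41e_G N q := s41e_gen N q hq hqN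
  rw [h]
  exact Subgroup.subgroupOf_self (H := s41e_G N q)

end Fermat.Agent.Lib.S41
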