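/-
S41, [F] part 2 (helper3): **from a joint eigenvector of the good Hecke operators with `U_q² = 1` to a
normalised eigenform with `a_q² = 1`** (twin of `s35c_exists_eigenform`, B3Form).
-/
import Fermat.Agent.Lib.S35.B3Form

set_option autoImplicit false
set_option linter.unusedSectionVars false

open ModularFormClass

namespace Fermat.Agent.Lib.S41

open Fermat.Agent.Lib.QCoeff Fermat.Agent.Lib.Eigenform Fermat.Agent.Lib.Lifting
  Fermat.Agent.Lib.CommEigen Fermat.Agent.Lib.S35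

variable {M : ℕ} [NeZero M]

local notation "Γ₀(" N ")" => CongruenceSubgroup.Gamma0 N

/-- The joint eigenspace of the good `T_ℓ`, intersected with `ker (U_q² − 1)`. -/
noncomputable def s41f_newEigenspace (M : ℕ) [NeZero M] {q : ℕ} (hqM : q ∣ M) (S : Set ℕ) (c : ℕ → ℂ) :
    Submodule ℂ (CuspForm Γ₀(M) 2) :=
  s35c_eigenspace M S c ⊓
    LinearMap.ker (CuspForm.heckeULin 2 hqM * CuspForm.heckeULin 2 hqM - 1)

theorem s41f_mem_newEigenspace {q : ℕ} {hqM : q ∣ M} {S : Set ℕ} {c : ℕ → ℂ}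
    {f : CuspForm Γ₀(M) 2} :
    f ∈ s41f_newEigenspace M hqM S c ↔ f ∈ s35c_eigenspace M S c ∧
      CuspForm.heckeULin 2 hqM (CuspForm.heckeULin 2 hqM f) = f := by
  rw [s41f_newEigenspace, Submodule.mem_inf, LinearMap.mem_ker, LinearMap.sub_apply,
    Module.End.mul_apply, Module.End.one_apply, sub_eq_zero]

theorem s41f_newEigenspace_stable {q : ℕ} (hq : q.Prime) (hqM : q ∣ M) (S : Set ℕ) (c : ℕ → ℂ)
    (a : TT M) (f : CuspForm Γ₀(M) 2) (hf : f ∈ s41f_newEigenspace M hqM S c) :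
    (a : Module.End ℂ (CuspForm Γ₀(M) 2)) f ∈ s41f_newEigenspace M hqM S c := by
  rw [s41f_mem_newEigenspace] at hf ⊢
  refine ⟨s35c_eigenspace_stable S c a f hf.1, ?_⟩
  set U : TT M := CuspForm.heckeAlgebra.U hq hqM (Set.notMem_empty q) with hU
  have hcomm : U * U * a = a * (U * U) := mul_comm _ _
  have h1 := congrArg (fun t : TT M => (t : Module.End ℂ (CuspForm Γ₀(M) 2)) f) hcomm
  simp only [MulMemClass.coe_mul, hU, CuspForm.heckeAlgebra.coe_U, Module.End.mul_apply] at h1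
  rw [h1, hf.2]

/-- **From a joint eigenvector of the good Hecke operators with `U_q² = 1` to a normalised
eigenform with `a_q² = 1`.** -/
theorem s41f_exists_eigenform {q : ℕ} (hq : q.Prime) (hqM : q ∣ M) (S : Set ℕ) (c : ℕ → ℂ)
    (h : CuspForm Γ₀(M) 2) (hh : h ≠ 0)
    (heig : ∀ (ℓ : ℕ) (hℓ : ℓ.Prime) (hℓM : ¬ ℓ ∣ M), ℓ ∉ S →
      CuspForm.heckeTLin 2 hℓ hℓM h = c ℓ • h)
    (hU : CuspForm.heckeULin 2 hqM (CuspForm.heckeULin 2 hqM h) = h) :
    ∃ g' : CuspForm Γ₀(M) 2, g'.IsNormalizedEigenform ∧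
      (∀ ℓ : ℕ, ℓ.Prime → ¬ ℓ ∣ M → ℓ ∉ S → qCoeff ⇑g' ℓ = c ℓ) ∧ qCoeff ⇑g' q ^ 2 = 1 := by
  have hfd : FiniteDimensional ℂ (CuspForm Γ₀(M) 2) := finiteDimensional
  set W := s41f_newEigenspace M hqM S c with hW
  have hhW : h ∈ W := s41f_mem_newEigenspace.mpr ⟨heig, hU⟩
  have : Nontrivial W := ⟨⟨⟨h, hhW⟩, 0, fun h0 => hh (congrArg Subtype.val h0)⟩⟩
  set ρ : TT M →+* Module.End ℂ (CuspForm Γ₀(M) 2) := (TT M).val.toRingHom with hρ
  have hρa : ∀ a : TT M, ρ a = (a : Module.End ℂ (CuspForm Γ₀(M) 2)) := fun a => rfl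
  have hstab : ∀ (a : TT M) (w : CuspForm Γ₀(M) 2), w ∈ W → ρ a w ∈ W := fun a w hw =>
    s41f_newEigenspace_stable hq hqM S c a w hw
  obtain ⟨v, hv0, hv⟩ := exists_common_eigenvector (restrictHom ρ W hstab)
  have hv' : ∀ a : TT M, ∃ e : ℂ, ρ a (v : CuspForm Γ₀(M) 2) = e • (v : CuspForm Γ₀(M) 2) := by
    intro a
    obtain ⟨e, he⟩ := hv a
    refine ⟨e, ?_⟩
    have := congrArg (fun x : W => (x : CuspForm Γ₀(M) 2)) he
    simpa using this
  have hv0' : (v : CuspForm Γ₀(M) 2) ≠ 0 := fun h0 => hv0 (Subtype.ext h0)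
  obtain ⟨ψ, hψ⟩ := exists_eigencharacter ρ (v : CuspForm Γ₀(M) 2) hv0' hv'
  have hev : IsEigenvector (v : CuspForm Γ₀(M) 2) (lamOf M ψ) := by
    constructor
    · intro p hp hpN
      have := hψ (CuspForm.heckeAlgebra.T hp hpN (Set.notMem_empty p))
      simp only [lamOf, dif_pos hp, dif_neg hpN]
      exact this
    · intro p hp hpN
      have := hψ (CuspForm.heckeAlgebra.U hp hpN (Set.notMem_empty p))
      simp only [lamOf, dif_pos hp, dif_pos hpN]
      exact this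
  obtain ⟨g', hg', -, hgl⟩ := exists_normalized hev hv0'
  have hvW := s41f_mem_newEigenspace.mp v.2
  refine ⟨g', hg', fun ℓ hℓ hℓN hℓS => ?_, ?_⟩
  · rw [hgl ℓ hℓ]
    have h1 := hev.heckeT ℓ hℓ hℓN
    have h2 := hvW.1 ℓ hℓ hℓN hℓS
    rw [h1] at h2
    exact smul_left_injective ℂ hv0' h2
  · rw [hgl q hq]
    have h1 := hev.heckeU q hq hqM
    have h2 := hvW.2
    rw [h1, map_smul, h1, smul_smul] at h2
    have h3 : (lamOf M ψ q * lamOf M ψ q) • (v : CuspForm Γ₀(M) 2) =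
        (1 : ℂ) • (v : CuspForm Γ₀(M) 2) := by rw [h2, one_smul]
    have h4 := smul_left_injective ℂ hv0' h3
    rw [sq]
    exact h4

end Fermat.Agent.Lib.S41
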