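/-
S41, [F] part 1 (helper3): **Deligne–Serre lifting for a commuting family of integer matrices.**

`s41f_lift` : `t i ∈ M_r(ℤ)` pairwise commuting, `k` a field of characteristic `p`, `0 ≠ v ∈ k^r` with
`(t i mod p) v = e i • v`.  Then there are algebraic integers `ψ i ∈ ℤ̄ = integralClosure ℤ ℂ`,
`0 ≠ c ∈ ℂ^r` with `(t i) c = ψ i • c`, and a maximal ideal `𝔪' ∋ p` of `ℤ̄` with
`ψ i ≡ n mod 𝔪'` whenever `e i = (n : k)`, `n ∈ ℤ`.
-/
import Mathlib
import Fermat.Agent.Lib.Hecke.CommEigen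
import Fermat.Agent.Lib.S35.ConvAbs

set_option autoImplicit false
set_option linter.unusedSectionVars false
set_option linter.style.haveILetI false

namespace Fermat.Agent.Lib.S41

open Fermat.Agent.Lib.S35 Fermat.Agent.Lib.CommEigen

noncomputable section

variable {r : ℕ} {I : Type*}

/-- **Deligne–Serre lifting**, abstract form: `E` a ring, finite over `ℤ`, with ring homomorphisms to
`M_r(k)` and (injectively) to `M_r(ℂ)`. -/
theorem s41f_lift_abs {E : Type*} [Ring E] (hfinE : Module.Finite ℤ E) (t : I → E)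
    (hcomm : ∀ i j, t i * t j = t j * t i)
    (p : ℕ) [Fact p.Prime] (k : Type*) [Field k] [CharP k p]
    (Φk : E →+* Matrix (Fin r) (Fin r) k) (Φc : E →+* Matrix (Fin r) (Fin r) ℂ)
    (hΦc : Function.Injective Φc) (e : I → k) (v : Fin r → k)
    (hv : v ≠ 0) (hveig : ∀ i, (Φk (t i)).mulVec v = e i • v) :
    ∃ (ψ : I → integralClosure ℤ ℂ) (c : Fin r → ℂ) (𝔪' : Ideal (integralClosure ℤ ℂ)),
      c ≠ 0 ∧
      (∀ i, (Φc (t i)).mulVec c = ((ψ i : integralClosure ℤ ℂ) : ℂ) • c) ∧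
      𝔪'.IsMaximal ∧ ((p : ℕ) : integralClosure ℤ ℂ) ∈ 𝔪' ∧
      ∀ (i : I) (n : ℤ), e i = (n : k) → ψ i - ((n : ℤ) : integralClosure ℤ ℂ) ∈ 𝔪' := by
  classical
  obtain ⟨s, hs⟩ : ∃ s : Set E, s = Set.range t := ⟨_, rfl⟩
  have hts : ∀ i, t i ∈ s := fun i => hs ▸ ⟨i, rfl⟩
  have hscomm : ∀ a ∈ s, ∀ b ∈ s, a * b = b * a := by
    intro a ha b hb
    rw [hs] at ha hb
    obtain ⟨i, rfl⟩ := ha
    obtain ⟨j, rfl⟩ := hb
    exact hcomm i j
  -- the generators as elements of the algebra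
  let τ : I → Algebra.adjoin ℤ s := fun i => ⟨t i, Algebra.subset_adjoin (hts i)⟩
  -- the action on `k^r`
  let Θk : Algebra.adjoin ℤ s →+* Matrix (Fin r) (Fin r) k :=
    Φk.comp (Algebra.adjoin ℤ s).val.toRingHom
  have hΘτ : ∀ i, (Θk (τ i)).mulVec v = e i • v := fun i => hveig i
  obtain ⟨ebar, hebar⟩ := s35cv_exists_char s Θk v hv (by
    intro x hx
    have hx' := hx
    rw [hs] at hx'
    obtain ⟨i, rfl⟩ := hx'
    exact ⟨e i, hΘτ i⟩)
  have hebar_τ : ∀ i, ebar (τ i) = e i := by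
    intro i
    apply s35cv_smul_right_injective hv
    rw [← hebar (τ i)]
    exact hΘτ i
  have hebar_p : ebar ((p : ℕ) : Algebra.adjoin ℤ s) = 0 := by
    rw [map_natCast]
    exact CharP.cast_eq_zero k p
  have hebar_sub : ∀ (i : I) (n : ℤ), e i = (n : k) →
      ebar (τ i - ((n : ℤ) : Algebra.adjoin ℤ s)) = 0 := by
    intro i n hn
    rw [map_sub, map_intCast, hebar_τ, hn, sub_self]
  -- integrality over `ℤ`
  have hfin : Module.Finite ℤ (Algebra.adjoin ℤ s) :=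
    Module.Finite.of_injective (Algebra.adjoin ℤ s).val.toLinearMap Subtype.val_injective
  have hintA : ∀ a : Algebra.adjoin ℤ s, IsIntegral ℤ a := fun a => IsIntegral.of_finite ℤ a
  -- now the commutative ring structure
  letI : CommRing (Algebra.adjoin ℤ s) :=
    { (Algebra.adjoin ℤ s).toRing with
      mul_comm := fun a b => (Algebra.isMulCommutative_adjoin ℤ hscomm).is_comm.comm a b }
  -- the prime ideal
  set 𝔫 : Ideal (Algebra.adjoin ℤ s) := RingHom.ker ebar with h𝔫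
  have h𝔫prime : 𝔫.IsPrime := RingHom.ker_isPrime ebar
  -- the action on `ℂ^r`
  let ρ : Algebra.adjoin ℤ s →+* Module.End ℂ (Fin r → ℂ) :=
    ((Matrix.toLinAlgEquiv' : Matrix (Fin r) (Fin r) ℂ ≃ₐ[ℂ] _) : _ →+* _).comp
      (Φc.comp (Algebra.adjoin ℤ s).val.toRingHom)
  have hρ : ∀ (a : Algebra.adjoin ℤ s) (x : Fin r → ℂ),
      ρ a x = (Φc (a : E)).mulVec x := by
    intro a x
    show Matrix.toLinAlgEquiv' (Φc (a : E)) x = _
    rw [Matrix.toLinAlgEquiv'_apply]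
  have hρinj : Function.Injective ρ := by
    intro a a' h
    have h1 : Φc (a : E) = Φc (a' : E) :=
      (Matrix.toLinAlgEquiv' : Matrix (Fin r) (Fin r) ℂ ≃ₐ[ℂ] _).injective h
    exact Subtype.ext (hΦc h1)
  have hker : RingHom.ker ρ ≤ 𝔫 := by
    intro x hx
    rw [RingHom.mem_ker] at hx
    have : x = 0 := hρinj (hx.trans (map_zero ρ).symm)
    rw [this]
    exact Ideal.zero_mem _
  obtain ⟨ψ, c, hc0, hc, hψker⟩ := exists_eigencharacter_ker_le ρ 𝔫 hker
  -- integrality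
  have hint : ∀ a : Algebra.adjoin ℤ s, ψ a ∈ integralClosure ℤ ℂ := by
    intro a
    exact (hintA a).map ψ.toIntAlgHom
  set ψ' : Algebra.adjoin ℤ s →+* integralClosure ℤ ℂ :=
    ψ.codRestrict (integralClosure ℤ ℂ) hint with hψ'
  have hψ'coe : ∀ a, ((ψ' a : integralClosure ℤ ℂ) : ℂ) = ψ a := fun a => rfl
  letI : Algebra (Algebra.adjoin ℤ s) (integralClosure ℤ ℂ) := ψ'.toAlgebra
  have halg : ∀ a, algebraMap (Algebra.adjoin ℤ s) (integralClosure ℤ ℂ) a = ψ' a := fun a => rfl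
  have hII : Algebra.IsIntegral (Algebra.adjoin ℤ s) (integralClosure ℤ ℂ) := by
    refine ⟨fun x => ?_⟩
    have hx : IsIntegral ℤ x := integralClosure.isIntegral x
    exact hx.tower_top
  have hker' : Ideal.comap (algebraMap (Algebra.adjoin ℤ s) (integralClosure ℤ ℂ)) ⊥ ≤ 𝔫 := by
    intro x hx
    apply hψker
    rw [Ideal.mem_comap, Ideal.mem_bot, halg] at hx
    rw [RingHom.mem_ker, ← hψ'coe, hx]
    rfl
  obtain ⟨Q, -, hQprime, hQ⟩ := Ideal.exists_ideal_over_prime_of_isIntegral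
    (S := integralClosure ℤ ℂ) 𝔫 ⊥ hker'
  obtain ⟨𝔪', hmax, hQle⟩ := Ideal.exists_le_maximal Q hQprime.ne_top
  have hmem : ∀ a : Algebra.adjoin ℤ s, a ∈ 𝔫 → ψ' a ∈ 𝔪' := by
    intro a ha
    rw [← hQ] at ha
    exact hQle (Ideal.mem_comap.mp ha)
  refine ⟨fun i => ψ' (τ i), c, 𝔪', hc0, fun i => ?_, hmax, ?_, fun i n hn => ?_⟩
  · rw [hψ'coe, ← hc (τ i), hρ]
  · have h1 : ((p : ℕ) : Algebra.adjoin ℤ s) ∈ 𝔫 := hebar_p
    have h2 := hmem _ h1
    rwa [map_natCast] at h2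
  · have h1 : τ i - ((n : ℤ) : Algebra.adjoin ℤ s) ∈ 𝔫 := hebar_sub i n hn
    have h2 := hmem _ h1
    rwa [map_sub, map_intCast] at h2

/-- **Deligne–Serre lifting** for a commuting family of integer matrices. -/
theorem s41f_lift (t : I → Matrix (Fin r) (Fin r) ℤ) (hcomm : ∀ i j, t i * t j = t j * t i)
    (p : ℕ) [Fact p.Prime] (k : Type*) [Field k] [CharP k p] (e : I → k) (v : Fin r → k)
    (hv : v ≠ 0) (hveig : ∀ i, ((t i).map (Int.cast : ℤ → k)).mulVec v = e i • v) :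
    ∃ (ψ : I → integralClosure ℤ ℂ) (c : Fin r → ℂ) (𝔪' : Ideal (integralClosure ℤ ℂ)),
      c ≠ 0 ∧
      (∀ i, ((t i).map (Int.cast : ℤ → ℂ)).mulVec c = ((ψ i : integralClosure ℤ ℂ) : ℂ) • c) ∧
      𝔪'.IsMaximal ∧ ((p : ℕ) : integralClosure ℤ ℂ) ∈ 𝔪' ∧
      ∀ (i : I) (n : ℤ), e i = (n : k) → ψ i - ((n : ℤ) : integralClosure ℤ ℂ) ∈ 𝔪' := by
  have hinj : Function.Injective ((Int.castRingHom ℂ).mapMatrix (m := Fin r)) := by
    intro A B hAB
    rw [RingHom.mapMatrix_apply, RingHom.mapMatrix_apply] at hAB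
    exact Matrix.map_injective Int.cast_injective hAB
  exact s41f_lift_abs (Module.Finite.of_surjective LinearMap.id Function.surjective_id) t hcomm p k
    ((Int.castRingHom k).mapMatrix) ((Int.castRingHom ℂ).mapMatrix) hinj e v hv hveig

end

end Fermat.Agent.Lib.S41
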