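/-
S41, [F] part 3 (helper3): **`s41f_form : s41_Form`** — from a mod-`p` eigenvector in a `q`-new,
Hecke-stable sublattice of `H(M, ℤ)` to a normalised eigenform of level `M` with `a_q² = 1`.

Chain: the matrices `t ℓ` commute (the `T_ℓ^H` commute on `H(M, ℤ)`, by S21 and
`CuspForm.heckeTLin_comm`); Deligne–Serre lifting `s41f_lift` gives `0 ≠ c ∈ ℂ^r`, `ψ_ℓ ∈ ℤ̄`, `𝔪'`;
`χ_c = ∑ c_j cast(b_j)` is a non-zero parabolic class with `T_ℓ^H χ_c = ψ_ℓ χ_c`; by S21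
`χ_c = periodHomPair (f, g)` with `T_ℓ f = ψ_ℓ f`, `T_ℓ g = ψ_ℓ g`, `U_q² f = f`, `U_q² g = g`
(`s41_NewClass`, linearity); `s41f_exists_eigenform` finishes.
-/
import Fermat.Agent.Lib.S41.Top
import Fermat.Agent.Lib.S41.FormLift
import Fermat.Agent.Lib.S41.FormEig
import Fermat.Agent.Lib.S30.EigLattice

set_option autoImplicit false
set_option linter.unusedSectionVars false
set_option linter.style.haveILetI false

namespace Fermat.Agent.Lib.S41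

open Fermat.Agent.Lib.S29 Fermat.Agent.Lib.S30 CongruenceSubgroup ModularCurve ModularCurve.Period
  ModularFormClass

noncomputable section

/-! ### Linear algebra -/

/-- The action of a linear map on a combination of a family on which it has matrix `m`. -/
theorem s41f_apply_sum {R A : Type*} [CommRing R] [AddCommGroup A] [Module R A] (T : A →ₗ[R] A)
    {r : ℕ} (b : Fin r → A) (m : Matrix (Fin r) (Fin r) R)
    (hm : ∀ j, T (b j) = ∑ i, m i j • b i) (x : Fin r → R) :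
    T (∑ j, x j • b j) = ∑ i, (m.mulVec x) i • b i := by
  rw [map_sum]
  simp only [map_smul, hm, Finset.smul_sum, smul_smul]
  rw [Finset.sum_comm]
  refine Finset.sum_congr rfl fun i _ => ?_
  rw [← Finset.sum_smul]
  congr 1
  rw [Matrix.mulVec, dotProduct]
  exact Finset.sum_congr rfl fun j _ => mul_comm _ _

variable {M : ℕ} [NeZero M]

/-! ### S21 in the form used here -/

theorem s41f_exists_pair (χ : Additive (Gamma0 M) →+ ℂ) (hχ : IsParabolicHom (Gamma0 M) χ) :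
    ∃ x : CuspForm (Gamma0 M) 2 × CuspForm (Gamma0 M) 2, periodHomPair M x = χ := by
  obtain ⟨x, hx⟩ := (s30e_Phi M).surjective ⟨χ, mem_parabolicHoms_iff.mpr hχ⟩
  refine ⟨x, ?_⟩
  rw [← s30e_Phi_coe, hx]

theorem s41f_pair_injective : Function.Injective (periodHomPair M) := by
  intro x y h
  apply (s30e_Phi M).injective
  exact Subtype.ext h

theorem s41f_cast_injective : Function.Injective (s29s_cast (N := M) ℂ) := by
  intro χ χ' h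
  refine AddMonoidHom.ext fun γ => ?_
  have h1 := DFunLike.congr_fun h γ
  rw [s29s_cast_apply, s29s_cast_apply] at h1
  exact Int.cast_injective h1

/-! ### The `T_ℓ^H` commute on parabolic classes -/

theorem s41f_heckeHom_comm_C (ℓ ℓ' : ℕ) [Fact ℓ.Prime] [Fact ℓ'.Prime] (hℓ : ¬ ℓ ∣ M)
    (hℓ' : ¬ ℓ' ∣ M) (χ : Additive (Gamma0 M) →+ ℂ) (hχ : IsParabolicHom (Gamma0 M) χ) :
    s29h_heckeHom M ℓ ℂ (s29h_heckeHom M ℓ' ℂ χ) =
      s29h_heckeHom M ℓ' ℂ (s29h_heckeHom M ℓ ℂ χ) := by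
  obtain ⟨⟨f, g⟩, rfl⟩ := s41f_exists_pair χ hχ
  have hp : ℓ.Prime := Fact.out
  have hp' : ℓ'.Prime := Fact.out
  rw [s30e_heckeHom_periodHomPair hp' hℓ', s30e_heckeHom_periodHomPair hp hℓ,
    s30e_heckeHom_periodHomPair hp hℓ, s30e_heckeHom_periodHomPair hp' hℓ']
  have hc := CuspForm.heckeTLin_comm (N := M) 2 hp hℓ hp' hℓ'
  have h1 : ∀ x : CuspForm (Gamma0 M) 2,
      CuspForm.heckeTLin 2 hp hℓ (CuspForm.heckeTLin 2 hp' hℓ' x) =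
        CuspForm.heckeTLin 2 hp' hℓ' (CuspForm.heckeTLin 2 hp hℓ x) := fun x => by
    have := congrArg (fun T : Module.End ℂ (CuspForm (Gamma0 M) 2) => T x) hc.eq
    simpa [Module.End.mul_apply] using this
  rw [h1 f, h1 g]

theorem s41f_TlZ_comm (ℓ ℓ' : Nat.Primes) (hℓ : ¬ (ℓ : ℕ) ∣ M) (hℓ' : ¬ (ℓ' : ℕ) ∣ M)
    (χ : Additive (Gamma0 M) →+ ℤ) (hχ : χ ∈ s29s_M M) :
    s41_TlZ M ℓ (s41_TlZ M ℓ' χ) = s41_TlZ M ℓ' (s41_TlZ M ℓ χ) := by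
  haveI : Fact (ℓ : ℕ).Prime := ⟨ℓ.2⟩
  haveI : Fact (ℓ' : ℕ).Prime := ⟨ℓ'.2⟩
  apply s41f_cast_injective
  show s29s_cast ℂ (s29h_heckeHom M ℓ ℤ (s29h_heckeHom M ℓ' ℤ χ)) =
    s29s_cast ℂ (s29h_heckeHom M ℓ' ℤ (s29h_heckeHom M ℓ ℤ χ))
  rw [← s29s_heckeHom_cast, ← s29s_heckeHom_cast, ← s29s_heckeHom_cast, ← s29s_heckeHom_cast]
  exact s41f_heckeHom_comm_C ℓ ℓ' hℓ hℓ' _ (s29s_cast_isParabolic ℂ hχ.1)

/-- `T_ℓ^H` on `Hom(Γ₀(M), ℤ)` as a `ℤ`-linear map. -/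
def s41f_TlZLin (M : ℕ) (ℓ : Nat.Primes) :
    (Additive (Gamma0 M) →+ ℤ) →ₗ[ℤ] (Additive (Gamma0 M) →+ ℤ) :=
  (s41_TlZ M ℓ).toIntLinearMap

theorem s41f_TlZLin_apply (ℓ : Nat.Primes) (χ : Additive (Gamma0 M) →+ ℤ) :
    s41f_TlZLin M ℓ χ = s41_TlZ M ℓ χ := rfl

/-- The matrices of commuting Hecke operators on a linearly independent family commute. -/
theorem s41f_mat_comm {r : ℕ} (b : Fin r → (Additive (Gamma0 M) →+ ℤ))
    (hb : LinearIndependent ℤ b) (hbM : ∀ j, b j ∈ s29s_M M) (ℓ ℓ' : Nat.Primes)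
    (hℓ : ¬ (ℓ : ℕ) ∣ M) (hℓ' : ¬ (ℓ' : ℕ) ∣ M) (t t' : Matrix (Fin r) (Fin r) ℤ)
    (ht : ∀ j, s41_TlZ M ℓ (b j) = ∑ i, t i j • b i)
    (ht' : ∀ j, s41_TlZ M ℓ' (b j) = ∑ i, t' i j • b i) : t * t' = t' * t := by
  have key : ∀ (ℓ₁ ℓ₂ : Nat.Primes) (t₁ t₂ : Matrix (Fin r) (Fin r) ℤ),
      (∀ j, s41_TlZ M ℓ₁ (b j) = ∑ i, t₁ i j • b i) →
      (∀ j, s41_TlZ M ℓ₂ (b j) = ∑ i, t₂ i j • b i) →
      ∀ j, s41_TlZ M ℓ₁ (s41_TlZ M ℓ₂ (b j)) = ∑ i, (t₁ * t₂) i j • b i := by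
    intro ℓ₁ ℓ₂ t₁ t₂ h₁ h₂ j
    rw [h₂ j]
    have h := s41f_apply_sum (s41f_TlZLin M ℓ₁) b t₁ h₁ (fun i => t₂ i j)
    rw [s41f_TlZLin_apply] at h
    rw [h]
    refine Finset.sum_congr rfl fun i _ => ?_
    rw [Matrix.mul_apply, Matrix.mulVec, dotProduct]
  ext i j
  have h1 := key ℓ ℓ' t t' ht ht' j
  have h2 := key ℓ' ℓ t' t ht' ht j
  rw [s41f_TlZ_comm ℓ ℓ' hℓ hℓ' (b j) (hbM j), h2] at h1
  have h3 : ∑ i, ((t' * t) i j - (t * t') i j) • b i = 0 := by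
    simp only [sub_smul, Finset.sum_sub_distrib]
    rw [h1, sub_self]
  have h4 := Fintype.linearIndependent_iff.mp hb (fun i => (t' * t) i j - (t * t') i j) h3 i
  exact (sub_eq_zero.mp h4).symm

/-! ### The complex class of a coefficient vector -/

/-- `χ_c = ∑ c_j • cast (b_j)`. -/
def s41f_chi {r : ℕ} (b : Fin r → (Additive (Gamma0 M) →+ ℤ)) (c : Fin r → ℂ) :
    Additive (Gamma0 M) →+ ℂ :=
  ∑ j, c j • s29s_cast ℂ (b j)

theorem s41f_chi_ne_zero {r : ℕ} (b : Fin r → (Additive (Gamma0 M) →+ ℤ))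
    (hb : LinearIndependent ℤ b) (c : Fin r → ℂ) (hc : c ≠ 0) : s41f_chi b c ≠ 0 := by
  intro h0
  -- the family as integer valued functions
  let coeZ : (Additive (Gamma0 M) →+ ℤ) →ₗ[ℤ] (Additive (Gamma0 M) → ℤ) :=
    { toFun := fun χ => (χ : Additive (Gamma0 M) → ℤ)
      map_add' := fun _ _ => rfl
      map_smul' := fun _ _ => rfl }
  have hker : LinearMap.ker coeZ = ⊥ := by
    rw [LinearMap.ker_eq_bot]
    intro f g h
    exact DFunLike.coe_injective h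
  have hu : LinearIndependent ℤ (fun j => (b j : Additive (Gamma0 M) → ℤ)) :=
    hb.map' coeZ hker
  have huC := s29s_linearIndependent_complex_of_int _ hu
  have h1 : ∑ j, c j • (fun x => (((b j : Additive (Gamma0 M) → ℤ) x : ℤ) : ℂ)) = 0 := by
    funext x
    have h2 := DFunLike.congr_fun h0 x
    rw [s41f_chi, AddMonoidHom.finsetSum_apply] at h2
    simp only [Finset.sum_apply, Pi.smul_apply, Pi.zero_apply]
    simpa [s29s_cast_apply] using h2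
  have h3 := Fintype.linearIndependent_iff.mp huC c h1
  exact hc (funext h3)

theorem s41f_chi_parabolic {r : ℕ} (b : Fin r → (Additive (Gamma0 M) →+ ℤ))
    (hbM : ∀ j, b j ∈ s29s_M M) (c : Fin r → ℂ) : IsParabolicHom (Gamma0 M) (s41f_chi b c) := by
  rw [← mem_parabolicHoms_iff (R := ℂ)]
  exact Submodule.sum_mem _ fun j _ => Submodule.smul_mem _ _
    (mem_parabolicHoms_iff.mpr (s29s_cast_isParabolic ℂ (hbM j).1))

theorem s41f_hecke_chi {r : ℕ} (b : Fin r → (Additive (Gamma0 M) →+ ℤ)) (ℓ : Nat.Primes)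
    (t : Matrix (Fin r) (Fin r) ℤ) (ht : ∀ j, s41_TlZ M ℓ (b j) = ∑ i, t i j • b i)
    (c : Fin r → ℂ) :
    (haveI : Fact (ℓ : ℕ).Prime := ⟨ℓ.2⟩
     s29h_heckeHom M (ℓ : ℕ) ℂ (s41f_chi b c)) =
      s41f_chi b ((t.map (Int.cast : ℤ → ℂ)).mulVec c) := by
  haveI : Fact (ℓ : ℕ).Prime := ⟨ℓ.2⟩
  have hm : ∀ j, s29h_heckeLin M (ℓ : ℕ) ℂ ℂ (s29s_cast ℂ (b j)) =
      ∑ i, (t.map (Int.cast : ℤ → ℂ)) i j • s29s_cast ℂ (b i) := by
    intro j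
    rw [s29h_heckeLin_apply, s29s_heckeHom_cast]
    have h1 : s29h_heckeHom M (ℓ : ℕ) ℤ (b j) = ∑ i, t i j • b i := ht j
    rw [h1, map_sum]
    refine Finset.sum_congr rfl fun i _ => ?_
    rw [s29s_cast_zsmul, Matrix.map_apply]
  have h := s41f_apply_sum (s29h_heckeLin M (ℓ : ℕ) ℂ ℂ) (fun j => s29s_cast ℂ (b j))
    (t.map (Int.cast : ℤ → ℂ)) hm c
  rw [s29h_heckeLin_apply] at h
  exact h

/-! ### The assembly -/

/-- **[F]** : `s41_Form`. -/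
theorem s41f_form : s41_Form := by
  intro M _ q hq hqM p _ k _ _ e r b t hbli hbM hbt hbnew v hv0 hveig
  classical
  have hchar : CharP k p :=
    charP_of_injective_algebraMap (algebraMap (ZMod p) k).injective p
  -- the index set of good primes
  let I : Type := {ℓ : Nat.Primes // ¬ (ℓ : ℕ) ∣ M * p}
  have hIM : ∀ i : I, ¬ ((i.1 : Nat.Primes) : ℕ) ∣ M := fun i h => i.2 (Dvd.dvd.mul_right h p)
  have hcomm : ∀ i j : I, t i.1 * t j.1 = t j.1 * t i.1 := fun i j =>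
    s41f_mat_comm b hbli hbM i.1 j.1 (hIM i) (hIM j) (t i.1) (t j.1) (hbt i.1 (hIM i))
      (hbt j.1 (hIM j))
  obtain ⟨ψ, c, 𝔪', hc0, hceig, hmax, hpm, hcong⟩ :=
    s41f_lift (fun i : I => t i.1) hcomm p k (fun i => e i.1) v hv0 (fun i => hveig i.1 i.2)
  -- preimages of the basis classes under the period pairing
  have hpre : ∀ j, ∃ x : CuspForm (Gamma0 M) 2 × CuspForm (Gamma0 M) 2,
      periodHomPair M x = s29s_cast ℂ (b j) := fun j =>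
    s41f_exists_pair _ (s29s_cast_isParabolic ℂ (hbM j).1)
  choose x hx using hpre
  set X : CuspForm (Gamma0 M) 2 × CuspForm (Gamma0 M) 2 := ∑ j, c j • x j with hX
  have hPX : periodHomPair M X = s41f_chi b c := by
    rw [hX, map_sum, s41f_chi]
    refine Finset.sum_congr rfl fun j _ => ?_
    rw [map_smul, hx j]
  have hX0 : X ≠ 0 := by
    intro h0
    apply s41f_chi_ne_zero b hbli c hc0
    rw [← hPX, h0, map_zero]
  -- `U_q² X = X`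
  set U := CuspForm.heckeULin 2 hqM with hU
  have hUx : ∀ j, U (U (x j).1) = (x j).1 ∧ U (U (x j).2) = (x j).2 := fun j =>
    hbnew j (x j).1 (x j).2 (hx j)
  have hX1 : X.1 = ∑ j, c j • (x j).1 := by
    rw [hX, Prod.fst_sum]
    rfl
  have hX2 : X.2 = ∑ j, c j • (x j).2 := by
    rw [hX, Prod.snd_sum]
    rfl
  have hUX1 : U (U X.1) = X.1 := by
    rw [hX1, map_sum, map_sum]
    refine Finset.sum_congr rfl fun j _ => ?_
    rw [map_smul, map_smul, (hUx j).1]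
  have hUX2 : U (U X.2) = X.2 := by
    rw [hX2, map_sum, map_sum]
    refine Finset.sum_congr rfl fun j _ => ?_
    rw [map_smul, map_smul, (hUx j).2]
  -- `T_ℓ X = ψ_ℓ X`
  have hTX : ∀ i : I,
      CuspForm.heckeTLin 2 (i.1 : Nat.Primes).2 (hIM i) X.1 = ((ψ i : integralClosure ℤ ℂ) : ℂ) • X.1 ∧
      CuspForm.heckeTLin 2 (i.1 : Nat.Primes).2 (hIM i) X.2 = ((ψ i : integralClosure ℤ ℂ) : ℂ) • X.2 := by
    intro i
    haveI : Fact ((i.1 : Nat.Primes) : ℕ).Prime := ⟨(i.1 : Nat.Primes).2⟩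
    have h1 := s30e_heckeHom_periodHomPair (i.1 : Nat.Primes).2 (hIM i) X.1 X.2
    have h2 : periodHomPair M (X.1, X.2) = s41f_chi b c := hPX
    rw [h2, s41f_hecke_chi b i.1 (t i.1) (hbt i.1 (hIM i)) c, hceig i] at h1
    have h3 : s41f_chi b (((ψ i : integralClosure ℤ ℂ) : ℂ) • c) =
        periodHomPair M ((((ψ i : integralClosure ℤ ℂ) : ℂ) • X.1,
          ((ψ i : integralClosure ℤ ℂ) : ℂ) • X.2)) := by
      have h4 : ((((ψ i : integralClosure ℤ ℂ) : ℂ) • X.1, ((ψ i : integralClosure ℤ ℂ) : ℂ) • X.2) :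
          CuspForm (Gamma0 M) 2 × CuspForm (Gamma0 M) 2) =
          ((ψ i : integralClosure ℤ ℂ) : ℂ) • X := rfl
      rw [h4, map_smul, hPX, s41f_chi, s41f_chi, Finset.smul_sum]
      refine Finset.sum_congr rfl fun j _ => ?_
      rw [Pi.smul_apply, smul_eq_mul, mul_smul]
    rw [h3] at h1
    have h5 := s41f_pair_injective h1
    exact ⟨(congrArg Prod.fst h5).symm, (congrArg Prod.snd h5).symm⟩
  -- the eigenvalue function
  let cfun : ℕ → ℂ := fun ℓ =>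
    if h : ∃ hℓ : ℓ.Prime, ¬ ℓ ∣ M * p then
      ((ψ ⟨⟨ℓ, h.choose⟩, h.choose_spec⟩ : integralClosure ℤ ℂ) : ℂ) else 0
  have hcfun : ∀ i : I, cfun ((i.1 : Nat.Primes) : ℕ) = ((ψ i : integralClosure ℤ ℂ) : ℂ) := by
    intro i
    have h : ∃ hℓ : ((i.1 : Nat.Primes) : ℕ).Prime, ¬ ((i.1 : Nat.Primes) : ℕ) ∣ M * p :=
      ⟨(i.1 : Nat.Primes).2, i.2⟩
    show (if h : ∃ hℓ : ((i.1 : Nat.Primes) : ℕ).Prime, ¬ ((i.1 : Nat.Primes) : ℕ) ∣ M * p then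
      ((ψ ⟨⟨_, h.choose⟩, h.choose_spec⟩ : integralClosure ℤ ℂ) : ℂ) else 0) = _
    rw [dif_pos h]
    rfl
  -- the set of excluded primes
  let S : Set ℕ := {ℓ | ℓ ∣ p}
  have hgood : ∀ (ℓ : ℕ) (hℓ : ℓ.Prime), ¬ ℓ ∣ M → ℓ ∉ S → ¬ ℓ ∣ M * p := by
    intro ℓ hℓ hℓM hℓS h
    rcases (Nat.Prime.dvd_mul hℓ).mp h with h | h
    · exact hℓM h
    · exact hℓS h
  -- a non-zero component
  have hex : ∃ h : CuspForm (Gamma0 M) 2, h ≠ 0 ∧
      (∀ (ℓ : ℕ) (hℓ : ℓ.Prime) (hℓM : ¬ ℓ ∣ M), ℓ ∉ S →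
        CuspForm.heckeTLin 2 hℓ hℓM h = cfun ℓ • h) ∧ U (U h) = h := by
    by_cases h1 : X.1 = 0
    · have h2 : X.2 ≠ 0 := fun h2 => hX0 (Prod.ext h1 h2)
      refine ⟨X.2, h2, fun ℓ hℓ hℓM hℓS => ?_, hUX2⟩
      have := (hTX ⟨⟨ℓ, hℓ⟩, hgood ℓ hℓ hℓM hℓS⟩).2
      rw [hcfun ⟨⟨ℓ, hℓ⟩, hgood ℓ hℓ hℓM hℓS⟩]
      exact this
    · refine ⟨X.1, h1, fun ℓ hℓ hℓM hℓS => ?_, hUX1⟩
      have := (hTX ⟨⟨ℓ, hℓ⟩, hgood ℓ hℓ hℓM hℓS⟩).1
      rw [hcfun ⟨⟨ℓ, hℓ⟩, hgood ℓ hℓ hℓM hℓS⟩]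
      exact this
  obtain ⟨h, hh0, hheig, hhU⟩ := hex
  obtain ⟨g, hg, hgc, hgq⟩ := s41f_exists_eigenform hq hqM S cfun h hh0 hheig hhU
  refine ⟨g, 𝔪', hg, hmax, hpm, hgq, fun ℓ hℓ n hn => ?_⟩
  have hℓM : ¬ (ℓ : ℕ) ∣ M := fun h' => hℓ (Dvd.dvd.mul_right h' p)
  have hℓS : (ℓ : ℕ) ∉ S := fun h' => hℓ (Dvd.dvd.mul_left h' M)
  refine ⟨ψ ⟨ℓ, hℓ⟩, ?_, hcong ⟨ℓ, hℓ⟩ n hn⟩
  rw [hgc ℓ ℓ.2 hℓM hℓS]
  exact (hcfun ⟨ℓ, hℓ⟩).symm

end

end Fermat.Agent.Lib.S41
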