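/-
S41 [G], work order G1 (pure algebra, Mathlib only): the "θ is nilpotent on the p-power torsion of
the cokernel" argument.  `π : L' → L₂` a map of lattices commuting with operators `θ'`, `θ₂`,
reductions `r' : L' ↠ V'`, `r₂ : L₂ → V₂` (kernel inside `p L₂`), `θ₂ L₂ ⊆ π L' + p L₂`.  Then an
eigenvector `u ∈ k ⊗ V'` of `θ̄` with non-zero eigenvalue killed by `π̄` lies in
`k ⊗ span (r' (ker π))`.
-/
import Mathlib

set_option autoImplicit false
set_option linter.unusedSectionVars false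

namespace Fermat.Agent.Lib.S41

open scoped TensorProduct

section lattice

variable {p : ℕ} {L' L₂ : Type*} [AddCommGroup L'] [AddCommGroup L₂] [Module.Finite ℤ L₂]
  (π : L' →+ L₂) (θ' : L' →+ L') (θ₂ : L₂ →+ L₂) (hcomm : ∀ x, π (θ' x) = θ₂ (π x))
  (hθ : ∀ y : L₂, ∃ (z : L') (y' : L₂), θ₂ y = π z + p • y')

/-- The chain `S_m = {y | p^m y ∈ π L'}`. -/
def s41g_chain (p : ℕ) (π : L' →+ L₂) : ℕ →o Submodule ℤ L₂ where
  toFun m :=
    { carrier := {y | ∃ x, (p ^ m) • y = π x}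
      add_mem' := by
        rintro a b ⟨x, hx⟩ ⟨x', hx'⟩
        exact ⟨x + x', by rw [smul_add, hx, hx', map_add]⟩
      zero_mem' := ⟨0, by rw [smul_zero, map_zero]⟩
      smul_mem' := by
        rintro c a ⟨x, hx⟩
        exact ⟨c • x, by rw [smul_comm, hx, map_zsmul]⟩ }
  monotone' := by
    intro m m' hmm' y
    rintro ⟨x, hx⟩
    obtain ⟨d, rfl⟩ := Nat.exists_eq_add_of_le hmm'
    refine ⟨(p ^ d) • x, ?_⟩
    rw [pow_add, mul_comm, mul_smul, hx, map_nsmul]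

theorem s41g_mem_chain {m : ℕ} {y : L₂} :
    y ∈ s41g_chain p π m ↔ ∃ x, (p ^ m) • y = π x := Iff.rfl

include hcomm hθ in
/-- There is `n₀` such that `θ₂^n₀` maps the `p`-saturation of `π L'` into `π L'`. -/
theorem s41g_exists_n₀ :
    ∃ n₀ : ℕ, ∀ y : L₂, (∃ m x, (p ^ m) • y = π x) → ∃ z, (⇑θ₂)^[n₀] y = π z := by
  have hnoeth : IsNoetherian ℤ L₂ := isNoetherian_of_isNoetherianRing_of_finite ℤ L₂
  obtain ⟨n₀, hn₀⟩ := monotone_stabilizes_iff_noetherian.mpr hnoeth (s41g_chain p π)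
  -- `S = S_{n₀}` is the saturation
  have hS : ∀ y : L₂, (∃ m x, (p ^ m) • y = π x) → y ∈ s41g_chain p π n₀ := by
    rintro y ⟨m, x, hx⟩
    have h1 : y ∈ s41g_chain p π m := ⟨x, hx⟩
    have h2 : y ∈ s41g_chain p π (max m n₀) :=
      (s41g_chain p π).monotone (le_max_left m n₀) h1
    rw [← hn₀ (max m n₀) (le_max_right m n₀)] at h2
    exact h2
  -- one step
  have hstep : ∀ y ∈ s41g_chain p π n₀, ∃ z, ∃ y' ∈ s41g_chain p π n₀,
      θ₂ y = π z + p • y' := by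
    rintro y ⟨x, hx⟩
    obtain ⟨z, y', hy'⟩ := hθ y
    refine ⟨z, y', hS y' ⟨n₀ + 1, θ' x - (p ^ n₀) • z, ?_⟩, hy'⟩
    have : p • y' = θ₂ y - π z := by rw [hy']; abel
    rw [pow_succ, mul_smul, this, smul_sub, ← map_nsmul θ₂, hx, ← hcomm, map_sub, map_nsmul π]
  -- iterate
  have hiter : ∀ n : ℕ, ∀ y ∈ s41g_chain p π n₀, ∃ z, ∃ y' ∈ s41g_chain p π n₀,
      (⇑θ₂)^[n] y = π z + (p ^ n) • y' := by
    intro n
    induction n with
    | zero =>
      intro y hy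
      exact ⟨0, y, hy, by simp⟩
    | succ n ih =>
      intro y hy
      obtain ⟨z, y', hy', e⟩ := ih y hy
      obtain ⟨z₁, y₁, hy₁, e₁⟩ := hstep y' hy'
      refine ⟨θ' z + (p ^ n) • z₁, y₁, hy₁, ?_⟩
      rw [Function.iterate_succ_apply', e, map_add, map_nsmul θ₂, e₁, ← hcomm, map_add,
        map_nsmul π, smul_add, pow_succ, mul_smul]
      abel
  refine ⟨n₀, fun y hy => ?_⟩
  obtain ⟨z, y', ⟨x', hx'⟩, e⟩ := hiter n₀ y (hS y hy)
  exact ⟨z + x', by rw [e, hx', map_add]⟩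

end lattice

section main

variable {p : ℕ} [Fact p.Prime] {k : Type*} [Field k] [Algebra (ZMod p) k]
  {L' L₂ : Type*} [AddCommGroup L'] [AddCommGroup L₂] [Module.Finite ℤ L₂]
  {V' V₂ : Type*} [AddCommGroup V'] [Module (ZMod p) V'] [AddCommGroup V₂] [Module (ZMod p) V₂]

theorem s41g_nsmul_eq_zero (v : V') : p • v = 0 := by
  rw [← Nat.cast_smul_eq_nsmul (ZMod p), ZMod.natCast_self, zero_smul]

theorem s41g_iterate_comm (r' : L' →+ V') (θ' : L' →+ L') (θb : V' →ₗ[ZMod p] V')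
    (hθb : ∀ x, θb (r' x) = r' (θ' x)) (n : ℕ) (x : L') :
    (θb ^ n) (r' x) = r' ((⇑θ')^[n] x) := by
  induction n generalizing x with
  | zero => simp
  | succ n ih =>
    rw [pow_succ, Module.End.mul_apply, hθb, ih, Function.iterate_succ_apply]

theorem s41g_iterate_comm₂ (π : L' →+ L₂) (θ' : L' →+ L') (θ₂ : L₂ →+ L₂)
    (hcomm : ∀ x, π (θ' x) = θ₂ (π x)) (n : ℕ) (x : L') :
    π ((⇑θ')^[n] x) = (⇑θ₂)^[n] (π x) := by
  induction n generalizing x with
  | zero => simp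
  | succ n ih =>
    rw [Function.iterate_succ_apply, ih, hcomm, Function.iterate_succ_apply]

theorem s41g_baseChange_pow (θb : V' →ₗ[ZMod p] V') (u : k ⊗[ZMod p] V') (lam : k)
    (hθu : θb.baseChange k u = lam • u) (n : ℕ) :
    (θb ^ n).baseChange k u = lam ^ n • u := by
  induction n with
  | zero =>
    rw [pow_zero, pow_zero, one_smul, Module.End.one_eq_id, LinearMap.baseChange_id]
    rfl
  | succ n ih =>
    rw [pow_succ, Module.End.mul_eq_comp, LinearMap.baseChange_comp, LinearMap.comp_apply, hθu,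
      map_smul, ih, smul_smul, pow_succ, mul_comm]

/-- **G1.** -/
theorem s41g_alg
    (r' : L' →+ V') (r₂ : L₂ →+ V₂) (hr' : Function.Surjective r')
    (hk₂ : ∀ x, r₂ x = 0 → ∃ y, x = p • y)
    (π : L' →+ L₂) (θ' : L' →+ L') (θ₂ : L₂ →+ L₂) (hcomm : ∀ x, π (θ' x) = θ₂ (π x))
    (πb : V' →ₗ[ZMod p] V₂) (θb : V' →ₗ[ZMod p] V') (hπb : ∀ x, πb (r' x) = r₂ (π x))
    (hθb : ∀ x, θb (r' x) = r' (θ' x))
    (hθ : ∀ y : L₂, ∃ (z : L') (y' : L₂), θ₂ y = π z + p • y')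
    (u : k ⊗[ZMod p] V') (hu : πb.baseChange k u = 0) (lam : k) (hlam : lam ≠ 0)
    (hθu : θb.baseChange k u = lam • u) :
    u ∈ LinearMap.range
      ((Submodule.span (ZMod p) (r' '' {x | π x = 0})).subtype.baseChange k) := by
  obtain ⟨n₀, hn₀⟩ := s41g_exists_n₀ (p := p) π θ' θ₂ hcomm hθ
  set Kb : Submodule (ZMod p) V' := Submodule.span (ZMod p) (r' '' {x | π x = 0}) with hKb
  -- `θb^n₀` maps `ker πb` into `Kb`
  have hmaps : ∀ v ∈ LinearMap.ker πb, (θb ^ n₀) v ∈ Kb := by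
    intro v hv
    obtain ⟨x, rfl⟩ := hr' v
    have h1 : r₂ (π x) = 0 := by rw [← hπb]; exact hv
    obtain ⟨y₁, hy₁⟩ := hk₂ _ h1
    obtain ⟨z, hz⟩ := hn₀ y₁ ⟨1, x, by rw [pow_one, hy₁]⟩
    have hker : π ((⇑θ')^[n₀] x - p • z) = 0 := by
      rw [map_sub, s41g_iterate_comm₂ π θ' θ₂ hcomm, hy₁, map_nsmul π, ← hz,
        iterate_map_nsmul, sub_self]
    have himg : (θb ^ n₀) (r' x) = r' ((⇑θ')^[n₀] x - p • z) := by
      rw [s41g_iterate_comm r' θ' θb hθb, map_sub, map_nsmul r', s41g_nsmul_eq_zero, sub_zero]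
    rw [himg]
    exact Submodule.subset_span ⟨_, hker, rfl⟩
  -- `u` comes from `k ⊗ ker πb`
  have hexact : Function.Exact ((LinearMap.ker πb).subtype.baseChange k) (πb.baseChange k) :=
    Module.Flat.lTensor_exact k (LinearMap.exact_subtype_ker_map πb)
  obtain ⟨u₀, hu₀⟩ := (hexact u).mp hu
  -- the restriction `ρ : ker πb → Kb` of `θb^n₀`
  set ρ : LinearMap.ker πb →ₗ[ZMod p] Kb :=
    ((θb ^ n₀).comp (LinearMap.ker πb).subtype).codRestrict Kb (fun v => hmaps v v.2) with hρ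
  have hfac : (θb ^ n₀).comp (LinearMap.ker πb).subtype = Kb.subtype.comp ρ := by
    ext v; rfl
  have h2 : (θb ^ n₀).baseChange k u = Kb.subtype.baseChange k (ρ.baseChange k u₀) := by
    rw [← hu₀, ← LinearMap.comp_apply, ← LinearMap.baseChange_comp, hfac,
      LinearMap.baseChange_comp, LinearMap.comp_apply]
  have h3 : lam ^ n₀ • u ∈ LinearMap.range (Kb.subtype.baseChange k) := by
    rw [← s41g_baseChange_pow θb u lam hθu n₀, h2]
    exact LinearMap.mem_range_self _ _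
  have h4 := Submodule.smul_mem _ ((lam ^ n₀)⁻¹) h3
  rwa [smul_smul, inv_mul_cancel₀ (pow_ne_zero _ hlam), one_smul] at h4

end main

end Fermat.Agent.Lib.S41
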