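/-
S41 project, module [G] glue, work order Q3 (helper7): **coordinates in the new lattice**.

Given a finite free `ℤ`-lattice `L'`, a reduction map `r' : L' → V'` into an `𝔽_p`-space whose
kernel is `p L'`, a saturated sublattice `K` stable under operators `T i` which reduce to operators
`Tb i` of `V'`, and an eigenvector `u ≠ 0` of the `Tb i` in `k ⊗ span r'(K)`: a `ℤ`-basis `b` of `K`,
the integral matrices `t i` of `T i` on `K` in that basis, and a non-zero vector `v ∈ k^r` which is a
simultaneous eigenvector of the reductions of the `t i`.  Mathlib only.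
-/
import Mathlib

set_option autoImplicit false

open scoped TensorProduct

namespace Fermat.Agent.Lib.S41

/-- the `ℤ`-action and the `ZMod p`-action agree after an additive map into a `ZMod p`-module. -/
theorem s41g_map_zsmul_cast {p : ℕ} {L' V' : Type*} [AddCommGroup L'] [AddCommGroup V']
    [Module (ZMod p) V'] (r' : L' →+ V') (n : ℤ) (x : L') :
    r' (n • x) = ((n : ZMod p)) • r' x := by
  rw [map_zsmul, Int.cast_smul_eq_zsmul]

/-- **the reductions of a `ℤ`-basis of a saturated sublattice are `𝔽_p`-independent.** -/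
theorem s41g_linearIndependent_red {p : ℕ} [Fact p.Prime]
    {L' : Type*} [AddCommGroup L'] {V' : Type*} [AddCommGroup V'] [Module (ZMod p) V']
    (r' : L' →+ V') (hker : ∀ x, r' x = 0 → ∃ y, x = p • y)
    (K : Submodule ℤ L') (hsat : ∀ x : L', (p : ℤ) • x ∈ K → x ∈ K)
    {r : ℕ} (bK : Module.Basis (Fin r) ℤ K) :
    LinearIndependent (ZMod p) (fun j => r' ((bK j : K) : L')) := by
  classical
  rw [Fintype.linearIndependent_iff]
  intro g hg j
  -- lift the coefficients
  set c : Fin r → ℤ := fun j => ((g j).cast : ℤ) with hc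
  have hcg : ∀ j, ((c j : ℤ) : ZMod p) = g j := fun j => ZMod.intCast_zmod_cast (g j)
  set z : K := ∑ j, c j • bK j with hz
  have hrz : r' (z : L') = 0 := by
    rw [hz, Submodule.coe_sum, map_sum, ← hg]
    refine Finset.sum_congr rfl fun j _ => ?_
    rw [Submodule.coe_smul, s41g_map_zsmul_cast (p := p), hcg]
  obtain ⟨y, hy⟩ := hker _ hrz
  have hyK : y ∈ K := by
    apply hsat
    have : (p : ℤ) • y = (z : L') := by rw [hy, natCast_zsmul]
    rw [this]
    exact z.2
  -- coordinates of `y`
  have hzy : z = (p : ℤ) • (⟨y, hyK⟩ : K) := by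
    apply Subtype.ext
    rw [Submodule.coe_smul, Submodule.coe_mk, hy, natCast_zsmul]
  have hrepr : bK.repr z j = c j := by
    rw [hz, map_sum]
    simp [Finsupp.single_apply]
  have h2 : bK.repr z j = (p : ℤ) * bK.repr (⟨y, hyK⟩ : K) j := by
    rw [hzy, map_smul, Finsupp.smul_apply, smul_eq_mul]
  rw [← hcg j, ← hrepr, h2]
  push_cast
  rw [ZMod.natCast_self, zero_mul]

/-- **Q3: coordinates in the new lattice.** -/
theorem s41g_coord {p : ℕ} [Fact p.Prime] {k : Type*} [Field k] [Algebra (ZMod p) k]
    {L' : Type*} [AddCommGroup L'] [Module.Finite ℤ L'] [Module.Free ℤ L']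
    {V' : Type*} [AddCommGroup V'] [Module (ZMod p) V']
    (r' : L' →+ V') (hker : ∀ x, r' x = 0 → ∃ y, x = p • y)
    (K : Submodule ℤ L') (hsat : ∀ x : L', (p : ℤ) • x ∈ K → x ∈ K)
    {I : Type*} (J : I → Prop) (T : I → L' →ₗ[ℤ] L') (hTK : ∀ i, ∀ x ∈ K, T i x ∈ K)
    (Tb : I → V' →ₗ[ZMod p] V') (hTb : ∀ i x, Tb i (r' x) = r' (T i x))
    (e : I → k) (u : k ⊗[ZMod p] V') (hu0 : u ≠ 0)
    (hu : u ∈ LinearMap.range
      ((Submodule.span (ZMod p) (r' '' (K : Set L'))).subtype.baseChange k))
    (heig : ∀ i, J i → (Tb i).baseChange k u = e i • u) :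
    ∃ (r : ℕ) (b : Fin r → L') (t : I → Matrix (Fin r) (Fin r) ℤ),
      LinearIndependent ℤ b ∧ (∀ j, b j ∈ K) ∧ (∀ i j, T i (b j) = ∑ i', t i i' j • b i') ∧
      ∃ v : Fin r → k, v ≠ 0 ∧
        ∀ i, J i → ((t i).map (Int.cast : ℤ → k)).mulVec v = e i • v := by
  classical
  -- `K` is finite free
  have : IsNoetherian ℤ L' := inferInstance
  have : Module.Finite ℤ K := inferInstance
  have : Module.Free ℤ K := inferInstance
  set r := Module.finrank ℤ K with hr
  let bK : Module.Basis (Fin r) ℤ K := Module.finBasis ℤ K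
  set b : Fin r → L' := fun j => ((bK j : K) : L') with hb
  have hbli : LinearIndependent ℤ b := by
    have := bK.linearIndependent.map' K.subtype (Submodule.ker_subtype K)
    exact this
  have hbK : ∀ j, b j ∈ K := fun j => (bK j).2
  -- matrices of the operators
  let TK : I → K →ₗ[ℤ] K := fun i => (T i).restrict (hTK i)
  set t : I → Matrix (Fin r) (Fin r) ℤ := fun i => LinearMap.toMatrix bK bK (TK i) with ht
  have htij : ∀ i i' j, t i i' j = bK.repr (TK i (bK j)) i' :=
    fun i i' j => LinearMap.toMatrix_apply bK bK (TK i) i' j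
  have htT : ∀ i j, T i (b j) = ∑ i', t i i' j • b i' := by
    intro i j
    have h1 : TK i (bK j) = ∑ i', t i i' j • bK i' := by
      have := bK.sum_repr (TK i (bK j))
      rw [← this]
      refine Finset.sum_congr rfl fun i' _ => ?_
      rw [htij]
    have h2 := congrArg (fun z : K => (z : L')) h1
    simp only [Submodule.coe_sum, Submodule.coe_smul] at h2
    exact h2
  -- the reductions
  set x : Fin r → V' := fun j => r' (b j) with hx
  have hxli : LinearIndependent (ZMod p) x := s41g_linearIndependent_red r' hker K hsat bK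
  set y : Fin r → k ⊗[ZMod p] V' := fun j => (1 : k) ⊗ₜ[ZMod p] x j with hy
  have hyli : LinearIndependent k y := Module.Flat.linearIndependent_one_tmul hxli
  -- `1 ⊗ r'(n • z) = n • (1 ⊗ r' z)`
  have hone : ∀ (n : ℤ) (z : L'), (1 : k) ⊗ₜ[ZMod p] r' (n • z) = (n : k) • ((1 : k) ⊗ₜ[ZMod p] r' z) := by
    intro n z
    rw [map_zsmul]
    have h1 : (n : k) • ((1 : k) ⊗ₜ[ZMod p] r' z) = n • ((1 : k) ⊗ₜ[ZMod p] r' z) :=
      Int.cast_smul_eq_zsmul k n ((1 : k) ⊗ₜ[ZMod p] r' z)
    rw [h1]
    exact map_zsmul (TensorProduct.mk (ZMod p) k V' 1) n (r' z)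
  -- the span of `r'(K)` is inside the span of the `x j`
  have hspan : Submodule.span (ZMod p) (r' '' (K : Set L')) ≤ Submodule.span (ZMod p) (Set.range x) := by
    rw [Submodule.span_le]
    rintro _ ⟨z, hz, rfl⟩
    have hzr := bK.sum_repr ⟨z, hz⟩
    have hz' : z = ∑ j, bK.repr ⟨z, hz⟩ j • b j := by
      have := congrArg (fun w : K => (w : L')) hzr
      simp only [Submodule.coe_sum, Submodule.coe_smul] at this
      exact this.symm
    rw [hz', map_sum]
    refine Submodule.sum_mem _ fun j _ => ?_
    rw [s41g_map_zsmul_cast (p := p)]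
    exact Submodule.smul_mem _ _ (Submodule.subset_span ⟨j, rfl⟩)
  -- `u` is a combination of the `y j`
  have hkey : ∀ u₀ : k ⊗[ZMod p] ↥(Submodule.span (ZMod p) (r' '' (K : Set L'))),
      (Submodule.span (ZMod p) (r' '' (K : Set L'))).subtype.baseChange k u₀ ∈
        Submodule.span k (Set.range y) := by
    intro u₀
    induction u₀ using TensorProduct.induction_on with
    | zero => rw [map_zero]; exact Submodule.zero_mem _
    | add a b ha hb => rw [map_add]; exact Submodule.add_mem _ ha hb
    | tmul a w =>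
      rw [LinearMap.baseChange_tmul, Submodule.subtype_apply]
      have hw : (w : V') ∈ Submodule.span (ZMod p) (Set.range x) := hspan w.2
      have h1 : (1 : k) ⊗ₜ[ZMod p] (w : V') ∈ Submodule.span k (Set.range y) := by
        refine Submodule.span_induction (p := fun v _ => (1 : k) ⊗ₜ[ZMod p] v ∈
          Submodule.span k (Set.range y)) ?_ ?_ ?_ ?_ hw
        · rintro _ ⟨j, rfl⟩
          exact Submodule.subset_span ⟨j, rfl⟩
        · rw [TensorProduct.tmul_zero]; exact Submodule.zero_mem _
        · intro v₁ v₂ _ _ h₁ h₂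
          rw [TensorProduct.tmul_add]; exact Submodule.add_mem _ h₁ h₂
        · intro a' v₁ _ h₁
          rw [TensorProduct.tmul_smul]
          rw [← algebraMap_smul k a' ((1 : k) ⊗ₜ[ZMod p] v₁)]
          exact Submodule.smul_mem _ _ h₁
      have h2 : a ⊗ₜ[ZMod p] (w : V') = a • ((1 : k) ⊗ₜ[ZMod p] (w : V')) := by
        rw [TensorProduct.smul_tmul', smul_eq_mul, mul_one]
      rw [h2]
      exact Submodule.smul_mem _ _ h1
  have huy : u ∈ Submodule.span k (Set.range y) := by
    obtain ⟨u₀, rfl⟩ := hu
    exact hkey u₀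
  obtain ⟨v, hv⟩ := (Submodule.mem_span_range_iff_exists_fun k).mp huy
  refine ⟨r, b, t, hbli, hbK, htT, v, ?_, ?_⟩
  · rintro rfl
    apply hu0
    rw [← hv]
    simp
  · intro i hi
    have h1 := heig i hi
    -- the left hand side
    have hL : (Tb i).baseChange k u = ∑ i', (((t i).map (Int.cast : ℤ → k)).mulVec v i') • y i' := by
      rw [← hv, map_sum]
      have : ∀ j, (Tb i).baseChange k (v j • y j) = ∑ i', (v j * (t i i' j : k)) • y i' := by
        intro j
        rw [map_smul, hy]
        simp only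
        rw [LinearMap.baseChange_tmul, hx]
        simp only
        rw [hTb, htT, map_sum, TensorProduct.tmul_sum, Finset.smul_sum]
        refine Finset.sum_congr rfl fun i' _ => ?_
        rw [hone, smul_smul]
      rw [Finset.sum_congr rfl fun j _ => this j]
      rw [Finset.sum_comm]
      refine Finset.sum_congr rfl fun i' _ => ?_
      rw [← Finset.sum_smul]
      congr 1
      rw [Matrix.mulVec, dotProduct]
      refine Finset.sum_congr rfl fun j _ => ?_
      rw [Matrix.map_apply, mul_comm]
    have hR : e i • u = ∑ i', (e i * v i') • y i' := by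
      rw [← hv, Finset.smul_sum]
      refine Finset.sum_congr rfl fun i' _ => ?_
      rw [smul_smul]
    rw [hL, hR] at h1
    have h2 : ∑ i', ((((t i).map (Int.cast : ℤ → k)).mulVec v i') - e i * v i') • y i' = 0 := by
      have h2' : ∀ i', ((((t i).map (Int.cast : ℤ → k)).mulVec v i') - e i * v i') • y i' =
          (((t i).map (Int.cast : ℤ → k)).mulVec v i') • y i' - (e i * v i') • y i' :=
        fun i' => sub_smul (((t i).map (Int.cast : ℤ → k)).mulVec v i') (e i * v i') (y i')
      rw [Finset.sum_congr rfl fun i' _ => h2' i', Finset.sum_sub_distrib, h1, sub_self]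
    have h3 := Fintype.linearIndependent_iff.mp hyli _ h2
    funext i'
    have := h3 i'
    rw [Pi.smul_apply, smul_eq_mul]
    exact sub_eq_zero.mp this

end Fermat.Agent.Lib.S41
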