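/-
S41 project, [G] (helper5): the final glue in ABSTRACT form (Mathlib + `s41g_alg` + `s41g_coord`).

Lattices `L = H(N, ℤ)`, `L' = H(N q', ℤ)`, reductions `r : L → V`, `r' : L' ↠ V'`, level maps
`cA, cB : L' → L`, `rAp, rBp : V → V'`, Hecke operators indexed by `I`.  From an eigenclass
`0 ≠ w ∈ k ⊗ V` with `e q = ε (q' + 1)`, Ihara's lemma at `i₀` and the `θ`-hypothesis, we get
coordinates of an eigenclass in the lattice `ker cA ∩ ker cB`.
-/
import Mathlib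
import Fermat.Agent.Lib.S41.GAlg
import Fermat.Agent.Lib.S41.GCoord

set_option autoImplicit false
set_option linter.unusedSectionVars false

namespace Fermat.Agent.Lib.S41

open scoped TensorProduct

section BC

variable {p : ℕ} [Fact p.Prime] {k : Type*} [Field k] [Algebra (ZMod p) k]
  {V V' V'' : Type*} [AddCommGroup V] [Module (ZMod p) V] [AddCommGroup V'] [Module (ZMod p) V']
  [AddCommGroup V''] [Module (ZMod p) V'']

theorem s41g_bc_comp_apply (f : V →ₗ[ZMod p] V') (g : V' →ₗ[ZMod p] V'') (w : k ⊗[ZMod p] V) :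
    g.baseChange k (f.baseChange k w) = (g ∘ₗ f).baseChange k w := by
  rw [LinearMap.baseChange_comp]
  rfl

theorem s41g_bc_smul_id (a : ZMod p) (w : k ⊗[ZMod p] V) :
    (a • (LinearMap.id : V →ₗ[ZMod p] V)).baseChange k w = algebraMap (ZMod p) k a • w := by
  rw [LinearMap.baseChange_smul, LinearMap.baseChange_id, LinearMap.smul_apply, LinearMap.id_apply,
    algebraMap_smul]

/-- eigen-equation for `T - a`. -/
theorem s41g_bc_sub_smul (T : V →ₗ[ZMod p] V) (a : ZMod p) (u : k ⊗[ZMod p] V) (e : k)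
    (h : T.baseChange k u = e • u) :
    (T - a • LinearMap.id).baseChange k u = (e - algebraMap (ZMod p) k a) • u := by
  rw [LinearMap.baseChange_sub, LinearMap.sub_apply, h, s41g_bc_smul_id]
  exact (sub_smul _ _ _).symm

/-- flatness: `ker f ⊆ ker h ⇒ ker (f ⊗ k) ⊆ ker (h ⊗ k)`. -/
theorem s41g_bc_ker_le (f : V →ₗ[ZMod p] V') (h : V →ₗ[ZMod p] V'')
    (hle : ∀ x, f x = 0 → h x = 0) (w : k ⊗[ZMod p] V) (hw : f.baseChange k w = 0) :
    h.baseChange k w = 0 := by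
  have hexact : Function.Exact ((LinearMap.ker f).subtype.baseChange k) (f.baseChange k) :=
    Module.Flat.lTensor_exact k (LinearMap.exact_subtype_ker_map f)
  obtain ⟨w₀, hw₀⟩ := (hexact w).mp hw
  have h0 : h ∘ₗ (LinearMap.ker f).subtype = 0 := by
    ext x
    exact hle x.1 x.2
  rw [← hw₀, s41g_bc_comp_apply, h0, LinearMap.baseChange_zero]
  rfl

end BC

section Main

variable {p : ℕ} [Fact p.Prime] {k : Type*} [Field k] [Algebra (ZMod p) k]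
  {L L' : Type*} [AddCommGroup L] [Module.Finite ℤ L]
  [AddCommGroup L'] [Module.Finite ℤ L'] [Module.Free ℤ L']
  {V V' : Type*} [AddCommGroup V] [Module (ZMod p) V] [AddCommGroup V'] [Module (ZMod p) V']

/-- `(cor_A, cor_B) ∘ (res_A - ε res_B) = (-ε, 1) ∘ (T_q - ε c)`. -/
theorem s41g_abs_pi_g (cAp cBp : V' →ₗ[ZMod p] V) (rAp rBp : V →ₗ[ZMod p] V')
    (Tq : V →ₗ[ZMod p] V) (c ε : ZMod p) (hε : ε * ε = 1)
    (hAA : ∀ x, cAp (rAp x) = c • x) (hBA : ∀ x, cBp (rAp x) = Tq x)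
    (hAB : ∀ x, cAp (rBp x) = Tq x) (hBB : ∀ x, cBp (rBp x) = c • x) :
    (LinearMap.prod cAp cBp) ∘ₗ (rAp - ε • rBp) =
      (LinearMap.prod ((-ε) • LinearMap.id) LinearMap.id) ∘ₗ (Tq - (ε * c) • LinearMap.id) := by
  refine LinearMap.ext fun x => Prod.ext ?_ ?_
  · show cAp (rAp x - ε • rBp x) = (-ε) • (Tq x - (ε * c) • x)
    rw [map_sub, map_smul, hAA, hAB, smul_sub, smul_smul, neg_mul, ← mul_assoc, hε, one_mul,
      neg_smul, neg_smul]
    abel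
  · show cBp (rAp x - ε • rBp x) = Tq x - (ε * c) • x
    rw [map_sub, map_smul, hBA, hBB, smul_smul]

/-- **The abstract final glue.** -/
theorem s41g_abs_main
    (r : L →+ V) (r' : L' →+ V') (hr' : Function.Surjective r')
    (hk : ∀ x, r x = 0 → ∃ y, x = p • y) (hk' : ∀ x, r' x = 0 → ∃ y, x = p • y)
    (htf : ∀ x : L, (p : ℤ) • x = 0 → x = 0)
    (cA cB : L' →ₗ[ℤ] L) (cAp cBp : V' →ₗ[ZMod p] V)
    (hcA : ∀ x, cAp (r' x) = r (cA x)) (hcB : ∀ x, cBp (r' x) = r (cB x))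
    (rAp rBp : V →ₗ[ZMod p] V')
    {I : Type*} (J : I → Prop)
    (T' : I → L' →ₗ[ℤ] L') (T : I → L →ₗ[ℤ] L)
    (Tp' : I → V' →ₗ[ZMod p] V') (Tp : I → V →ₗ[ZMod p] V)
    (hTp' : ∀ i x, Tp' i (r' x) = r' (T' i x))
    (hTK : ∀ i x, cA x = 0 → cB x = 0 → cA (T' i x) = 0 ∧ cB (T' i x) = 0)
    (i₀ q : I) (hJ₀ : J i₀)
    (hcAT : ∀ x, cA (T' i₀ x) = T i₀ (cA x)) (hcBT : ∀ x, cB (T' i₀ x) = T i₀ (cB x))
    (c : ZMod p)
    (hAA : ∀ x, cAp (rAp x) = c • x) (hBA : ∀ x, cBp (rAp x) = Tp q x)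
    (hAB : ∀ x, cAp (rBp x) = Tp q x) (hBB : ∀ x, cBp (rBp x) = c • x)
    (hTA : ∀ i, J i → ∀ x, Tp' i (rAp x) = rAp (Tp i x))
    (hTB : ∀ i, J i → ∀ x, Tp' i (rBp x) = rBp (Tp i x))
    (e : I → k) (w : k ⊗[ZMod p] V) (hw0 : w ≠ 0)
    (hw : ∀ i, J i → (Tp i).baseChange k w = e i • w)
    (hwq : (Tp q).baseChange k w = e q • w)
    (ε : ZMod p) (hε : ε * ε = 1) (he : e q = algebraMap (ZMod p) k (ε * c))
    (s₀ : ZMod p) (hI : ∀ x y : V, rAp x + rBp y = 0 → Tp i₀ x = s₀ • x)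
    (he₀ : e i₀ ≠ algebraMap (ZMod p) k s₀)
    (sθ : ℤ) (hθ : ∀ y₁ y₂ : L, ∃ (z : L') (y₁' y₂' : L),
      T i₀ y₁ - sθ • y₁ = cA z + p • y₁' ∧ T i₀ y₂ - sθ • y₂ = cB z + p • y₂')
    (heθ : e i₀ ≠ algebraMap (ZMod p) k ((sθ : ℤ) : ZMod p)) :
    ∃ (n : ℕ) (b : Fin n → L') (t : I → Matrix (Fin n) (Fin n) ℤ),
      LinearIndependent ℤ b ∧ (∀ j, cA (b j) = 0 ∧ cB (b j) = 0) ∧
      (∀ i j, T' i (b j) = ∑ i', t i i' j • b i') ∧
      ∃ v : Fin n → k, v ≠ 0 ∧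
        ∀ i, J i → ((t i).map (Int.cast : ℤ → k)).mulVec v = e i • v := by
  classical
  -- the class `u`
  set g : V →ₗ[ZMod p] V' := rAp - ε • rBp with hg
  set u : k ⊗[ZMod p] V' := g.baseChange k w with hu
  set πb : V' →ₗ[ZMod p] V × V := LinearMap.prod cAp cBp with hπb
  have hπg := s41g_abs_pi_g cAp cBp rAp rBp (Tp q) c ε hε hAA hBA hAB hBB
  -- (A1)
  have hA1 : πb.baseChange k u = 0 := by
    have h3 : (Tp q - (ε * c) • LinearMap.id).baseChange k w = 0 := by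
      have := s41g_bc_sub_smul (k := k) (Tp q) (ε * c) w (e q) hwq
      rw [he, sub_self, zero_smul] at this
      exact this
    rw [hu, s41g_bc_comp_apply, hπg, ← s41g_bc_comp_apply, h3, map_zero]
  -- (A2)
  have hA2 : ∀ i, J i → (Tp' i).baseChange k u = e i • u := by
    intro i hi
    have hc : Tp' i ∘ₗ g = g ∘ₗ Tp i := by
      refine LinearMap.ext fun x => ?_
      simp only [hg, LinearMap.comp_apply, LinearMap.sub_apply, LinearMap.smul_apply, map_sub,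
        map_smul, hTA i hi, hTB i hi]
    rw [hu, s41g_bc_comp_apply, hc, ← s41g_bc_comp_apply, hw i hi, map_smul]
  -- (A3)
  have hA3 : u ≠ 0 := by
    intro hu0
    have hle : ∀ x : V, g x = 0 → (Tp i₀ - s₀ • (LinearMap.id : V →ₗ[ZMod p] V)) x = 0 := by
      intro x hx
      have h1 : rAp x + rBp ((-ε) • x) = 0 := by
        rw [map_smul, neg_smul, ← sub_eq_add_neg]
        exact hx
      rw [LinearMap.sub_apply, LinearMap.smul_apply, LinearMap.id_apply, sub_eq_zero]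
      exact hI x _ h1
    have h4 := s41g_bc_ker_le (k := k) g _ hle w hu0
    rw [s41g_bc_sub_smul _ _ _ _ (hw i₀ hJ₀)] at h4
    rcases smul_eq_zero.mp h4 with h5 | h5
    · exact he₀ (sub_eq_zero.mp h5)
    · exact hw0 h5
  -- lattice maps
  set π : L' →ₗ[ℤ] L × L := LinearMap.prod cA cB with hπ
  set θN : L →ₗ[ℤ] L := T i₀ - sθ • LinearMap.id with hθN
  set θ' : L' →ₗ[ℤ] L' := T' i₀ - sθ • LinearMap.id with hθ'
  set θ₂ : L × L →ₗ[ℤ] L × L := LinearMap.prodMap θN θN with hθ₂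
  set θb : V' →ₗ[ZMod p] V' := Tp' i₀ - ((sθ : ℤ) : ZMod p) • LinearMap.id with hθb
  set r₂ : L × L →+ V × V := r.prodMap r with hr₂
  have hk₂ : ∀ x : L × L, r₂ x = 0 → ∃ y, x = p • y := by
    rintro ⟨x₁, x₂⟩ hx
    have h1 : r x₁ = 0 := congrArg Prod.fst hx
    have h2 : r x₂ = 0 := congrArg Prod.snd hx
    obtain ⟨y₁, hy₁⟩ := hk x₁ h1
    obtain ⟨y₂, hy₂⟩ := hk x₂ h2
    exact ⟨(y₁, y₂), Prod.ext hy₁ hy₂⟩
  have hcomm : ∀ x, π.toAddMonoidHom (θ'.toAddMonoidHom x) =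
      θ₂.toAddMonoidHom (π.toAddMonoidHom x) := by
    intro x
    show π (θ' x) = θ₂ (π x)
    refine Prod.ext ?_ ?_
    · show cA (T' i₀ x - sθ • x) = T i₀ (cA x) - sθ • cA x
      rw [map_sub, map_zsmul, hcAT]
    · show cB (T' i₀ x - sθ • x) = T i₀ (cB x) - sθ • cB x
      rw [map_sub, map_zsmul, hcBT]
  have hπbr : ∀ x, πb (r' x) = r₂ (π.toAddMonoidHom x) := fun x => Prod.ext (hcA x) (hcB x)
  have hθbr : ∀ x, θb (r' x) = r' (θ'.toAddMonoidHom x) := by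
    intro x
    show Tp' i₀ (r' x) - ((sθ : ℤ) : ZMod p) • r' x = r' (T' i₀ x - sθ • x)
    rw [map_sub, map_zsmul, hTp', Int.cast_smul_eq_zsmul]
  have hθ₂' : ∀ y : L × L, ∃ (z : L') (y' : L × L),
      θ₂.toAddMonoidHom y = π.toAddMonoidHom z + p • y' := by
    rintro ⟨y₁, y₂⟩
    obtain ⟨z, y₁', y₂', h1, h2⟩ := hθ y₁ y₂
    refine ⟨z, (y₁', y₂'), ?_⟩
    show θ₂ (y₁, y₂) = π z + p • (y₁', y₂')
    refine Prod.ext ?_ ?_
    · exact h1
    · exact h2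
  have hlam : e i₀ - algebraMap (ZMod p) k ((sθ : ℤ) : ZMod p) ≠ 0 := sub_ne_zero.mpr heθ
  have hθu : θb.baseChange k u = (e i₀ - algebraMap (ZMod p) k ((sθ : ℤ) : ZMod p)) • u :=
    s41g_bc_sub_smul _ _ _ _ (hA2 i₀ hJ₀)
  have hrange := s41g_alg (p := p) (k := k) (L₂ := L × L) (V₂ := V × V) r' r₂ hr' hk₂
    π.toAddMonoidHom θ'.toAddMonoidHom θ₂.toAddMonoidHom hcomm πb θb hπbr hθbr hθ₂' u hA1 _ hlam hθu
  -- coordinates
  set K : Submodule ℤ L' := LinearMap.ker π with hK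
  have hKmem : ∀ x, x ∈ K ↔ cA x = 0 ∧ cB x = 0 := by
    intro x
    rw [hK, LinearMap.mem_ker]
    exact Prod.mk_eq_zero
  have hKset : (K : Set L') = {x | π.toAddMonoidHom x = 0} := by
    ext x
    exact LinearMap.mem_ker
  rw [← hKset] at hrange
  have hsat : ∀ x : L', (p : ℤ) • x ∈ K → x ∈ K := by
    intro x hx
    rw [hKmem] at hx ⊢
    rw [map_zsmul, map_zsmul] at hx
    exact ⟨htf _ hx.1, htf _ hx.2⟩
  have hTK' : ∀ i, ∀ x ∈ K, T' i x ∈ K := by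
    intro i x hx
    rw [hKmem] at hx ⊢
    exact hTK i x hx.1 hx.2
  obtain ⟨n, b, t, hb, hbK, hT, v, hv, hvT⟩ :=
    s41g_coord (p := p) (k := k) r' hk' K hsat J T' hTK' Tp' hTp' e u hA3 hrange hA2
  exact ⟨n, b, t, hb, fun j => (hKmem _).mp (hbK j), hT, v, hv, hvT⟩

end Main

end Fermat.Agent.Lib.S41
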