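/-
S41 project, [G] (helper5): the abstract final glue with a GENERAL operator `θ` ([K] route:
`θ = (T_ℓ₀² - (ℓ₀+1)²)²`).  Also the generic quartic `s41g_P T a = (T² - a)²` and its calculus.
-/
import Mathlib
import Fermat.Agent.Lib.S41.GAbs

set_option autoImplicit false
set_option linter.unusedSectionVars false

namespace Fermat.Agent.Lib.S41

open scoped TensorProduct

/-! ### The quartic `(T² - a)²` -/

section Quartic

variable {R : Type*} [CommRing R] {M M' : Type*} [AddCommGroup M] [Module R M]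
  [AddCommGroup M'] [Module R M']

/-- `T² - a`. -/
def s41g_Q (T : M →ₗ[R] M) (a : R) : M →ₗ[R] M := T ∘ₗ T - a • LinearMap.id

/-- `(T² - a)²`. -/
def s41g_P (T : M →ₗ[R] M) (a : R) : M →ₗ[R] M := s41g_Q T a ∘ₗ s41g_Q T a

theorem s41g_Q_apply (T : M →ₗ[R] M) (a : R) (x : M) : s41g_Q T a x = T (T x) - a • x := rfl

theorem s41g_P_apply (T : M →ₗ[R] M) (a : R) (x : M) :
    s41g_P T a x = s41g_Q T a (s41g_Q T a x) := rfl

theorem s41g_P_expand (T : M →ₗ[R] M) (a : R) (x : M) :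
    s41g_P T a x = T (T (T (T x))) - (2 * a) • T (T x) + (a * a) • x := by
  rw [s41g_P_apply, s41g_Q_apply, s41g_Q_apply, map_sub, map_sub, map_smul, map_smul, smul_sub,
    smul_smul, two_mul, add_smul]
  abel

theorem s41g_Q_comm (c : M' →ₗ[R] M) (T' : M' →ₗ[R] M') (T : M →ₗ[R] M)
    (h : ∀ x, c (T' x) = T (c x)) (a : R) (x : M') : c (s41g_Q T' a x) = s41g_Q T a (c x) := by
  rw [s41g_Q_apply, s41g_Q_apply, map_sub, map_smul, h, h]

theorem s41g_P_comm (c : M' →ₗ[R] M) (T' : M' →ₗ[R] M') (T : M →ₗ[R] M)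
    (h : ∀ x, c (T' x) = T (c x)) (a : R) (x : M') : c (s41g_P T' a x) = s41g_P T a (c x) := by
  rw [s41g_P_apply, s41g_P_apply, s41g_Q_comm c T' T h, s41g_Q_comm c T' T h]

end Quartic

section QuarticRed

variable {p : ℕ} {L' V' : Type*} [AddCommGroup L'] [AddCommGroup V'] [Module (ZMod p) V']

theorem s41g_Q_red (r' : L' →+ V') (T : L' →ₗ[ℤ] L') (Tb : V' →ₗ[ZMod p] V')
    (h : ∀ x, Tb (r' x) = r' (T x)) (a : ℤ) (x : L') :
    s41g_Q Tb ((a : ℤ) : ZMod p) (r' x) = r' (s41g_Q T a x) := by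
  rw [s41g_Q_apply, s41g_Q_apply, map_sub, map_zsmul, h, h, Int.cast_smul_eq_zsmul]

theorem s41g_P_red (r' : L' →+ V') (T : L' →ₗ[ℤ] L') (Tb : V' →ₗ[ZMod p] V')
    (h : ∀ x, Tb (r' x) = r' (T x)) (a : ℤ) (x : L') :
    s41g_P Tb ((a : ℤ) : ZMod p) (r' x) = r' (s41g_P T a x) := by
  rw [s41g_P_apply, s41g_P_apply, s41g_Q_red r' T Tb h, s41g_Q_red r' T Tb h]

end QuarticRed

section QuarticBC

variable {p : ℕ} [Fact p.Prime] {k : Type*} [Field k] [Algebra (ZMod p) k]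
  {V : Type*} [AddCommGroup V] [Module (ZMod p) V]

theorem s41g_bc_Q (T : V →ₗ[ZMod p] V) (a : ZMod p) (u : k ⊗[ZMod p] V) (e : k)
    (h : T.baseChange k u = e • u) :
    (s41g_Q T a).baseChange k u = (e * e - algebraMap (ZMod p) k a) • u := by
  have h1 : (T ∘ₗ T).baseChange k u = (e * e) • u := by
    rw [← s41g_bc_comp_apply, h, map_smul, h, smul_smul]
  rw [s41g_Q, LinearMap.baseChange_sub, LinearMap.sub_apply, h1, s41g_bc_smul_id]
  exact (sub_smul _ _ _).symm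

theorem s41g_bc_P (T : V →ₗ[ZMod p] V) (a : ZMod p) (u : k ⊗[ZMod p] V) (e : k)
    (h : T.baseChange k u = e • u) :
    (s41g_P T a).baseChange k u =
      ((e * e - algebraMap (ZMod p) k a) * (e * e - algebraMap (ZMod p) k a)) • u := by
  rw [s41g_P, ← s41g_bc_comp_apply, s41g_bc_Q T a u e h, map_smul, s41g_bc_Q T a u e h, smul_smul]

end QuarticBC

/-! ### The abstract glue with a general `θ` -/

section Main2

variable {p : ℕ} [Fact p.Prime] {k : Type*} [Field k] [Algebra (ZMod p) k]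
  {L L' : Type*} [AddCommGroup L] [Module.Finite ℤ L]
  [AddCommGroup L'] [Module.Finite ℤ L'] [Module.Free ℤ L']
  {V V' : Type*} [AddCommGroup V] [Module (ZMod p) V] [AddCommGroup V'] [Module (ZMod p) V']

/-- **The abstract final glue, general `θ`.** -/
theorem s41g_abs_main2
    (r : L →+ V) (r' : L' →+ V') (hr' : Function.Surjective r')
    (hk : ∀ x, r x = 0 → ∃ y, x = p • y) (hk' : ∀ x, r' x = 0 → ∃ y, x = p • y)
    (htf : ∀ x : L, (p : ℤ) • x = 0 → x = 0)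
    (cA cB : L' →ₗ[ℤ] L) (cAp cBp : V' →ₗ[ZMod p] V)
    (hcA : ∀ x, cAp (r' x) = r (cA x)) (hcB : ∀ x, cBp (r' x) = r (cB x))
    (rAp rBp : V →ₗ[ZMod p] V')
    {I : Type*} (J : I → Prop)
    (T' : I → L' →ₗ[ℤ] L')
    (Tp' : I → V' →ₗ[ZMod p] V') (Tp : I → V →ₗ[ZMod p] V)
    (hTp' : ∀ i x, Tp' i (r' x) = r' (T' i x))
    (hTK : ∀ i x, cA x = 0 → cB x = 0 → cA (T' i x) = 0 ∧ cB (T' i x) = 0)
    (q : I) (c : ZMod p)
    (hAA : ∀ x, cAp (rAp x) = c • x) (hBA : ∀ x, cBp (rAp x) = Tp q x)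
    (hAB : ∀ x, cAp (rBp x) = Tp q x) (hBB : ∀ x, cBp (rBp x) = c • x)
    (hTA : ∀ i, J i → ∀ x, Tp' i (rAp x) = rAp (Tp i x))
    (hTB : ∀ i, J i → ∀ x, Tp' i (rBp x) = rBp (Tp i x))
    (e : I → k) (w : k ⊗[ZMod p] V) (hw0 : w ≠ 0)
    (hw : ∀ i, J i → (Tp i).baseChange k w = e i • w)
    (hwq : (Tp q).baseChange k w = e q • w)
    (ε : ZMod p) (hε : ε * ε = 1) (he : e q = algebraMap (ZMod p) k (ε * c))
    (θ' : L' →ₗ[ℤ] L') (θN : L →ₗ[ℤ] L) (θb : V' →ₗ[ZMod p] V') (θp : V →ₗ[ZMod p] V)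
    (lam : k) (hlam : lam ≠ 0)
    (hcAθ : ∀ x, cA (θ' x) = θN (cA x)) (hcBθ : ∀ x, cB (θ' x) = θN (cB x))
    (hθbr : ∀ x, θb (r' x) = r' (θ' x))
    (hθpw : θp.baseChange k w = lam • w)
    (hθbu : ∀ u : k ⊗[ZMod p] V', (∀ i, J i → (Tp' i).baseChange k u = e i • u) →
      θb.baseChange k u = lam • u)
    (hI : ∀ x y : V, rAp x + rBp y = 0 → θp x = 0)
    (hθ : ∀ y₁ y₂ : L, ∃ (z : L') (y₁' y₂' : L),
      θN y₁ = cA z + p • y₁' ∧ θN y₂ = cB z + p • y₂') :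
    ∃ (n : ℕ) (b : Fin n → L') (t : I → Matrix (Fin n) (Fin n) ℤ),
      LinearIndependent ℤ b ∧ (∀ j, cA (b j) = 0 ∧ cB (b j) = 0) ∧
      (∀ i j, T' i (b j) = ∑ i', t i i' j • b i') ∧
      ∃ v : Fin n → k, v ≠ 0 ∧
        ∀ i, J i → ((t i).map (Int.cast : ℤ → k)).mulVec v = e i • v := by
  classical
  -- the class `u`
  set g : V →ₗ[ZMod p] V' := rAp - ε • rBp with hg
  set u : k ⊗[ZMod p] V' := g.baseChange k w with hu
  set πb : V' →ₗ[ZMod p] V × V := LinearMap.prod cAp cBp with hπb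
  have hπg := s41g_abs_pi_g cAp cBp rAp rBp (Tp q) c ε hε hAA hBA hAB hBB
  -- (A1)
  have hA1 : πb.baseChange k u = 0 := by
    have h3 : (Tp q - (ε * c) • LinearMap.id).baseChange k w = 0 := by
      have := s41g_bc_sub_smul (k := k) (Tp q) (ε * c) w (e q) hwq
      rw [he, sub_self, zero_smul] at this
      exact this
    rw [hu, s41g_bc_comp_apply, hπg, ← s41g_bc_comp_apply, h3, map_zero]
  -- (A2)
  have hA2 : ∀ i, J i → (Tp' i).baseChange k u = e i • u := by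
    intro i hi
    have hc : Tp' i ∘ₗ g = g ∘ₗ Tp i := by
      refine LinearMap.ext fun x => ?_
      simp only [hg, LinearMap.comp_apply, LinearMap.sub_apply, LinearMap.smul_apply, map_sub,
        map_smul, hTA i hi, hTB i hi]
    rw [hu, s41g_bc_comp_apply, hc, ← s41g_bc_comp_apply, hw i hi, map_smul]
  -- (A3)
  have hA3 : u ≠ 0 := by
    intro hu0
    have hle : ∀ x : V, g x = 0 → θp x = 0 := by
      intro x hx
      have h1 : rAp x + rBp ((-ε) • x) = 0 := by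
        rw [map_smul, neg_smul, ← sub_eq_add_neg]
        exact hx
      exact hI x _ h1
    have h4 := s41g_bc_ker_le (k := k) g _ hle w hu0
    rw [hθpw] at h4
    rcases smul_eq_zero.mp h4 with h5 | h5
    · exact hlam h5
    · exact hw0 h5
  -- lattice maps
  set π : L' →ₗ[ℤ] L × L := LinearMap.prod cA cB with hπ
  set θ₂ : L × L →ₗ[ℤ] L × L := LinearMap.prodMap θN θN with hθ₂
  set r₂ : L × L →+ V × V := r.prodMap r with hr₂
  have hk₂ : ∀ x : L × L, r₂ x = 0 → ∃ y, x = p • y := by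
    rintro ⟨x₁, x₂⟩ hx
    have h1 : r x₁ = 0 := congrArg Prod.fst hx
    have h2 : r x₂ = 0 := congrArg Prod.snd hx
    obtain ⟨y₁, hy₁⟩ := hk x₁ h1
    obtain ⟨y₂, hy₂⟩ := hk x₂ h2
    exact ⟨(y₁, y₂), Prod.ext hy₁ hy₂⟩
  have hcomm : ∀ x, π.toAddMonoidHom (θ'.toAddMonoidHom x) =
      θ₂.toAddMonoidHom (π.toAddMonoidHom x) := fun x => Prod.ext (hcAθ x) (hcBθ x)
  have hπbr : ∀ x, πb (r' x) = r₂ (π.toAddMonoidHom x) := fun x => Prod.ext (hcA x) (hcB x)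
  have hθbr' : ∀ x, θb (r' x) = r' (θ'.toAddMonoidHom x) := hθbr
  have hθ₂' : ∀ y : L × L, ∃ (z : L') (y' : L × L),
      θ₂.toAddMonoidHom y = π.toAddMonoidHom z + p • y' := by
    rintro ⟨y₁, y₂⟩
    obtain ⟨z, y₁', y₂', h1, h2⟩ := hθ y₁ y₂
    refine ⟨z, (y₁', y₂'), ?_⟩
    show θ₂ (y₁, y₂) = π z + p • (y₁', y₂')
    refine Prod.ext ?_ ?_
    · exact h1
    · exact h2
  have hθu : θb.baseChange k u = lam • u := hθbu u hA2
  have hrange := s41g_alg (p := p) (k := k) (L₂ := L × L) (V₂ := V × V) r' r₂ hr' hk₂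
    π.toAddMonoidHom θ'.toAddMonoidHom θ₂.toAddMonoidHom hcomm πb θb hπbr hθbr' hθ₂' u hA1 lam
    hlam hθu
  -- coordinates
  set K : Submodule ℤ L' := LinearMap.ker π with hK
  have hKmem : ∀ x, x ∈ K ↔ cA x = 0 ∧ cB x = 0 := by
    intro x
    rw [hK, LinearMap.mem_ker]
    exact Prod.mk_eq_zero
  have hKset : (K : Set L') = {x | π.toAddMonoidHom x = 0} := by
    ext x
    exact LinearMap.mem_ker
  rw [← hKset] at hrange
  have hsat : ∀ x : L', (p : ℤ) • x ∈ K → x ∈ K := by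
    intro x hx
    rw [hKmem] at hx ⊢
    rw [map_zsmul, map_zsmul] at hx
    exact ⟨htf _ hx.1, htf _ hx.2⟩
  have hTK' : ∀ i, ∀ x ∈ K, T' i x ∈ K := by
    intro i x hx
    rw [hKmem] at hx ⊢
    exact hTK i x hx.1 hx.2
  obtain ⟨n, b, t, hb, hbK, hT, v, hv, hvT⟩ :=
    s41g_coord (p := p) (k := k) r' hk' K hsat J T' hTK' Tp' hTp' e u hA3 hrange hA2
  exact ⟨n, b, t, hb, fun j => (hKmem _).mp (hbK j), hT, v, hv, hvT⟩

end Main2

end Fermat.Agent.Lib.S41
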