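/-
S41 project, module [LV] (level maps on `Hom(Γ, A)`), abstract part (helper8), Mathlib only.

**Coset-family operators on `Hom`.**  `𝕄` a monoid (in the application: `2 × 2` integer matrices),
`G₁, G₂` groups with monoid homs `i₁ : G₁ →* 𝕄`, `i₂ : G₂ →* 𝕄`, `i₁` injective.  A *coset family*
`F : s41l_Fam i₁ i₂ ι` is a family `g : ι → 𝕄` of right-cancellable elements with pairwise distinct
cosets `i₁(G₁) g_i`, whose union is stable under right multiplication by `i₂(G₂)`:
  `g_i · i₂ γ = i₁ (F.fam γ i) · g_{F.perm γ i}`  (`s41l_Fam.spec`, unique: `s41l_Fam.uniq`).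
It defines the operator
  `F.op A : Hom(G₁, A) → Hom(G₂, A)`,  `(F.op A ψ)(γ) = ∑_i ψ (F.fam γ i)`
(the double-coset operator `[i₁G₁ \ ⋃ i₁G₁ g_i / i₂G₂]` on `H¹` with trivial coefficients).

* `s41l_Fam.op_apply_of_family` : the sum may be computed with ANY valid system `(σ, γ')`;
* `s41l_Fam.op_eq_of_rep` : changing the representatives `g_i ↦ i₁(h_i) g_i`, reindexing along a
  bijection and multiplying by a central cancellable element `z` do not change the operator;
* `s41l_Fam.op_comp` : composition = the product family `(i, k) ↦ g_i h_k` (when it is a family);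
* `s41l_Fam.op_natural` : naturality in the coefficient group;
* `s41l_Fam.fam_pow`, `s41l_Fam.op_eq_zero_of_cycles` : the cycle decomposition used to show that
  `F.op` preserves parabolic / finite-order-trivial homomorphisms.
-/
import Mathlib

set_option autoImplicit false
set_option linter.unusedSectionVars false

namespace Fermat.Agent.Lib.S41

/-- If all sums of `f` over the closed `σ`-paths vanish, so does the total sum. -/
theorem s41l_sum_eq_zero_of_cycle_sums {X A : Type*} [Fintype X]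
    [AddCommMonoid A] (σ : Equiv.Perm X) (f : X → A)
    (h : ∀ (x : X) (m : ℕ), 0 < m → (σ ^ m) x = x →
      ∑ i ∈ Finset.range m, f ((σ ^ i) x) = 0) :
    ∑ x, f x = 0 := by
  classical
  have key : ∀ n : ℕ, ∀ S : Finset X, S.card ≤ n → (∀ x ∈ S, σ x ∈ S) →
      ∑ x ∈ S, f x = 0 := by
    intro n
    induction n with
    | zero =>
      intro S hS _
      rw [Finset.card_eq_zero.mp (Nat.le_zero.mp hS), Finset.sum_empty]
    | succ n ih =>
      intro S hS hσ
      rcases S.eq_empty_or_nonempty with rfl | ⟨x₀, hx₀⟩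
      · rw [Finset.sum_empty]
      -- a positive period exists
      have hex : ∃ m : ℕ, 0 < m ∧ (σ ^ m) x₀ = x₀ :=
        ⟨orderOf σ, orderOf_pos σ, by rw [pow_orderOf_eq_one]; rfl⟩
      set m := Nat.find hex with hm
      obtain ⟨hmpos, hmx⟩ := Nat.find_spec hex
      have hmin : ∀ j, 0 < j → j < m → (σ ^ j) x₀ ≠ x₀ := fun j hj hjm hjx =>
        Nat.find_min hex hjm ⟨hj, hjx⟩
      -- the orbit of `x₀`
      have hpowS : ∀ i : ℕ, (σ ^ i) x₀ ∈ S := by
        intro i
        induction i with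
        | zero => simpa using hx₀
        | succ i ihi =>
          rw [pow_succ', Equiv.Perm.mul_apply]
          exact hσ _ ihi
      have hinj : Set.InjOn (fun i : ℕ => (σ ^ i) x₀) (Finset.range m : Set ℕ) := by
        have aux : ∀ i j : ℕ, i < j → j < m → (σ ^ i) x₀ ≠ (σ ^ j) x₀ := by
          intro i j hij hjm heq
          have h1 : (σ ^ j) x₀ = (σ ^ i) ((σ ^ (j - i)) x₀) := by
            rw [← Equiv.Perm.mul_apply, ← pow_add, Nat.add_sub_cancel' hij.le]
          rw [h1] at heq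
          exact hmin (j - i) (by omega) (by omega) ((σ ^ i).injective heq).symm
        intro i hi j hj heq
        simp only [Finset.coe_range, Set.mem_Iio] at hi hj
        rcases lt_trichotomy i j with hlt | heq' | hgt
        · exact absurd heq (aux i j hlt hj)
        · exact heq'
        · exact absurd heq.symm (aux j i hgt hi)
      set O : Finset X := (Finset.range m).image (fun i : ℕ => (σ ^ i) x₀) with hO
      have hOS : O ⊆ S := by
        intro y hy
        obtain ⟨i, -, rfl⟩ := Finset.mem_image.mp hy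
        exact hpowS i
      have hx₀O : x₀ ∈ O := Finset.mem_image.mpr ⟨0, Finset.mem_range.mpr hmpos, by simp⟩
      -- the complement is stable
      have hstab : ∀ x ∈ S \ O, σ x ∈ S \ O := by
        intro x hx
        obtain ⟨hxS, hxO⟩ := Finset.mem_sdiff.mp hx
        refine Finset.mem_sdiff.mpr ⟨hσ x hxS, fun hσx => hxO ?_⟩
        obtain ⟨i, hi, hix⟩ := Finset.mem_image.mp hσx
        have hi' := Finset.mem_range.mp hi
        rcases Nat.eq_zero_or_pos i with rfl | hipos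
        · -- `σ x = x₀ = σ^m x₀`
          refine Finset.mem_image.mpr ⟨m - 1, Finset.mem_range.mpr (by omega), ?_⟩
          apply σ.injective
          show σ ((σ ^ (m - 1)) x₀) = σ x
          rw [← Equiv.Perm.mul_apply, ← pow_succ', Nat.sub_add_cancel hmpos, hmx, ← hix]
          simp
        · refine Finset.mem_image.mpr ⟨i - 1, Finset.mem_range.mpr (by omega), ?_⟩
          apply σ.injective
          show σ ((σ ^ (i - 1)) x₀) = σ x
          rw [← Equiv.Perm.mul_apply, ← pow_succ', Nat.sub_add_cancel hipos]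
          exact hix
      have hcard : (S \ O).card ≤ n := by
        have h1 : (S \ O).card < S.card :=
          Finset.card_lt_card (Finset.sdiff_ssubset hOS ⟨x₀, hx₀O⟩)
        omega
      rw [← Finset.sum_sdiff hOS, ih (S \ O) hcard hstab, zero_add, hO,
        Finset.sum_image hinj]
      exact h x₀ m hmpos hmx
  simpa using key (Finset.univ : Finset X).card Finset.univ le_rfl (fun x _ => Finset.mem_univ _)


section Abs

variable {𝕄 : Type*} [Monoid 𝕄] {G₁ G₂ G₃ : Type*} [Group G₁] [Group G₂] [Group G₃]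

/-- A coset family from `G₁` to `G₂` inside the monoid `𝕄`. -/
structure s41l_Fam (i₁ : G₁ →* 𝕄) (i₂ : G₂ →* 𝕄) (ι : Type*) where
  /-- the representatives -/
  g : ι → 𝕄
  /-- `i₁` is injective -/
  inj₁ : Function.Injective i₁
  /-- the representatives are right-cancellable -/
  canc : ∀ (j : ι) (a b : 𝕄), a * g j = b * g j → a = b
  /-- the cosets `i₁(G₁) g_i` are pairwise distinct -/
  inj : ∀ (i j : ι) (h : G₁), g i = i₁ h * g j → i = j
  /-- the union of the cosets is right `G₂`-stable -/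
  stable : ∀ (i : ι) (γ : G₂), ∃ (j : ι) (γ' : G₁), g i * i₂ γ = i₁ γ' * g j

namespace s41l_Fam

variable {i₁ : G₁ →* 𝕄} {i₂ : G₂ →* 𝕄} {i₃ : G₃ →* 𝕄} {ι κ : Type*}

/-- the index permutation `σ_γ`. -/
noncomputable def perm (F : s41l_Fam i₁ i₂ ι) (γ : G₂) (i : ι) : ι :=
  Classical.choose (F.stable i γ)

/-- the coset family `γ'_i ∈ G₁`. -/
noncomputable def fam (F : s41l_Fam i₁ i₂ ι) (γ : G₂) (i : ι) : G₁ :=
  Classical.choose (Classical.choose_spec (F.stable i γ))

theorem spec (F : s41l_Fam i₁ i₂ ι) (γ : G₂) (i : ι) :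
    F.g i * i₂ γ = i₁ (F.fam γ i) * F.g (F.perm γ i) :=
  Classical.choose_spec (Classical.choose_spec (F.stable i γ))

/-- uniqueness of `(σ_γ i, γ'_i)`. -/
theorem uniq (F : s41l_Fam i₁ i₂ ι) (γ : G₂) (i j : ι) (h : G₁)
    (e : F.g i * i₂ γ = i₁ h * F.g j) : j = F.perm γ i ∧ h = F.fam γ i := by
  have e2 : i₁ h * F.g j = i₁ (F.fam γ i) * F.g (F.perm γ i) := e.symm.trans (F.spec γ i)
  have e3 : F.g j = i₁ (h⁻¹ * F.fam γ i) * F.g (F.perm γ i) := by
    calc F.g j = i₁ (h⁻¹ * h) * F.g j := by rw [inv_mul_cancel, map_one, one_mul]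
      _ = i₁ h⁻¹ * (i₁ h * F.g j) := by rw [map_mul, mul_assoc]
      _ = i₁ (h⁻¹ * F.fam γ i) * F.g (F.perm γ i) := by rw [e2, map_mul, mul_assoc]
  have hj : j = F.perm γ i := F.inj _ _ _ e3
  refine ⟨hj, ?_⟩
  subst hj
  exact F.inj₁ (F.canc _ _ _ e2)

theorem perm_one (F : s41l_Fam i₁ i₂ ι) (i : ι) : F.perm 1 i = i :=
  ((F.uniq 1 i i 1 (by rw [map_one, map_one, mul_one, one_mul])).1).symm

theorem fam_one (F : s41l_Fam i₁ i₂ ι) (i : ι) : F.fam 1 i = 1 :=
  ((F.uniq 1 i i 1 (by rw [map_one, map_one, mul_one, one_mul])).2).symm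

theorem mul_aux (F : s41l_Fam i₁ i₂ ι) (γ δ : G₂) (i : ι) :
    F.g i * i₂ (γ * δ) =
      i₁ (F.fam γ i * F.fam δ (F.perm γ i)) * F.g (F.perm δ (F.perm γ i)) := by
  rw [map_mul, ← mul_assoc, F.spec γ i, mul_assoc, F.spec δ, ← mul_assoc, ← map_mul]

theorem perm_mul (F : s41l_Fam i₁ i₂ ι) (γ δ : G₂) (i : ι) :
    F.perm (γ * δ) i = F.perm δ (F.perm γ i) :=
  ((F.uniq (γ * δ) i _ _ (F.mul_aux γ δ i)).1).symm

/-- the cocycle rule. -/
theorem fam_mul (F : s41l_Fam i₁ i₂ ι) (γ δ : G₂) (i : ι) :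
    F.fam (γ * δ) i = F.fam γ i * F.fam δ (F.perm γ i) :=
  ((F.uniq (γ * δ) i _ _ (F.mul_aux γ δ i)).2).symm

/-- `σ_γ` as a permutation. -/
noncomputable def permEquiv (F : s41l_Fam i₁ i₂ ι) (γ : G₂) : Equiv.Perm ι where
  toFun := F.perm γ
  invFun := F.perm γ⁻¹
  left_inv i := by rw [← F.perm_mul, mul_inv_cancel, F.perm_one]
  right_inv i := by rw [← F.perm_mul, inv_mul_cancel, F.perm_one]

@[simp] theorem permEquiv_apply (F : s41l_Fam i₁ i₂ ι) (γ : G₂) (i : ι) :
    F.permEquiv γ i = F.perm γ i := rfl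

section Op

variable [Fintype ι] (A : Type*) [AddCommGroup A]

/-- `F.op A ψ` as a homomorphism. -/
noncomputable def opAux (F : s41l_Fam i₁ i₂ ι) (ψ : Additive G₁ →+ A) : Additive G₂ →+ A where
  toFun γ := ∑ i : ι, ψ (Additive.ofMul (F.fam (Additive.toMul γ) i))
  map_zero' := by
    refine Finset.sum_eq_zero fun i _ => ?_
    rw [toMul_zero, F.fam_one, ofMul_one, map_zero]
  map_add' γ δ := by
    rw [← Equiv.sum_comp (F.permEquiv (Additive.toMul γ))
      (fun i => ψ (Additive.ofMul (F.fam (Additive.toMul δ) i))), ← Finset.sum_add_distrib]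
    refine Finset.sum_congr rfl fun i _ => ?_
    rw [toMul_add, F.fam_mul, ofMul_mul, map_add, permEquiv_apply]

/-- **The operator of a coset family** on `Hom(·, A)`. -/
noncomputable def op (F : s41l_Fam i₁ i₂ ι) : (Additive G₁ →+ A) →+ (Additive G₂ →+ A) where
  toFun := F.opAux A
  map_zero' := by
    refine AddMonoidHom.ext fun γ => ?_
    exact Finset.sum_eq_zero fun i _ => rfl
  map_add' ψ χ := by
    refine AddMonoidHom.ext fun γ => ?_
    exact Finset.sum_add_distrib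

variable {A}

theorem op_apply (F : s41l_Fam i₁ i₂ ι) (ψ : Additive G₁ →+ A) (γ : G₂) :
    F.op A ψ (Additive.ofMul γ) = ∑ i : ι, ψ (Additive.ofMul (F.fam γ i)) := rfl

/-- the sum may be computed with ANY valid system `(σ, γ')`. -/
theorem op_apply_of_family (F : s41l_Fam i₁ i₂ ι) (ψ : Additive G₁ →+ A) (γ : G₂)
    (σ : ι → ι) (γ' : ι → G₁) (h : ∀ i, F.g i * i₂ γ = i₁ (γ' i) * F.g (σ i)) :
    F.op A ψ (Additive.ofMul γ) = ∑ i : ι, ψ (Additive.ofMul (γ' i)) := by
  rw [op_apply]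
  refine Finset.sum_congr rfl fun i _ => ?_
  rw [(F.uniq γ i _ _ (h i)).2]

/-- naturality in the coefficient group. -/
theorem op_natural (F : s41l_Fam i₁ i₂ ι) {B : Type*} [AddCommGroup B] (f : A →+ B)
    (ψ : Additive G₁ →+ A) : F.op B (f.comp ψ) = f.comp (F.op A ψ) := by
  refine AddMonoidHom.ext fun γ => ?_
  obtain ⟨γ, rfl⟩ := Additive.ofMul.surjective γ
  rw [AddMonoidHom.comp_apply, op_apply, op_apply, map_sum]
  rfl

end Op

section Rep

variable [Fintype ι] [Fintype κ] {A : Type*} [AddCommGroup A]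

/-- **Independence of the representatives**: reindexing along a bijection `e`, changing the
representatives by elements of `G₁` and multiplying by a central left-cancellable `z` do not
change the operator. -/
theorem op_eq_of_rep (F : s41l_Fam i₁ i₂ ι) (F' : s41l_Fam i₁ i₂ κ) (e : ι ≃ κ) (z : 𝕄)
    (hz : ∀ m : 𝕄, z * m = m * z) (hzc : ∀ a b : 𝕄, z * a = z * b → a = b) (h : ι → G₁)
    (hrel : ∀ i, z * F'.g (e i) = i₁ (h i) * F.g i) : F'.op A = F.op A := by
  refine AddMonoidHom.ext fun ψ => AddMonoidHom.ext fun γ => ?_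
  obtain ⟨γ, rfl⟩ := Additive.ofMul.surjective γ
  have key : ∀ i, F'.fam γ (e i) = h i * F.fam γ i * (h (F.perm γ i))⁻¹ := by
    intro i
    refine ((F'.uniq γ (e i) (e (F.perm γ i)) _ ?_).2).symm
    apply hzc
    calc z * (F'.g (e i) * i₂ γ) = i₁ (h i) * (F.g i * i₂ γ) := by
          rw [← mul_assoc, hrel, mul_assoc]
      _ = i₁ (h i * F.fam γ i * (h (F.perm γ i))⁻¹) *
            (i₁ (h (F.perm γ i)) * F.g (F.perm γ i)) := by
          rw [F.spec, ← mul_assoc, ← mul_assoc, ← map_mul, ← map_mul, inv_mul_cancel_right]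
      _ = i₁ (h i * F.fam γ i * (h (F.perm γ i))⁻¹) * (z * F'.g (e (F.perm γ i))) := by
          rw [hrel]
      _ = z * (i₁ (h i * F.fam γ i * (h (F.perm γ i))⁻¹) * F'.g (e (F.perm γ i))) := by
          rw [← mul_assoc, ← hz, mul_assoc]
  rw [op_apply, op_apply, ← Equiv.sum_comp e]
  have e1 : ∀ i, ψ (Additive.ofMul (F'.fam γ (e i))) =
      ψ (Additive.ofMul (F.fam γ i)) + (ψ (Additive.ofMul (h i)) -
        ψ (Additive.ofMul (h (F.permEquiv γ i)))) := by
    intro i
    rw [key i, ofMul_mul, ofMul_mul, map_add, map_add, ofMul_inv, map_neg, permEquiv_apply]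
    abel
  rw [Finset.sum_congr rfl fun i _ => e1 i, Finset.sum_add_distrib, Finset.sum_sub_distrib,
    Equiv.sum_comp (F.permEquiv γ) (fun i => ψ (Additive.ofMul (h i))), sub_self, add_zero]

end Rep

section Comp

variable [Fintype ι] [Fintype κ] {A : Type*} [AddCommGroup A]

/-- **Composition**: if the product family `(i, k) ↦ g_i h_k` is a coset family `P`, its operator
is the composite. -/
theorem op_comp (F : s41l_Fam i₁ i₂ ι) (H : s41l_Fam i₂ i₃ κ) (P : s41l_Fam i₁ i₃ (ι × κ))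
    (hP : ∀ i k, P.g (i, k) = F.g i * H.g k) (ψ : Additive G₁ →+ A) :
    P.op A ψ = H.op A (F.op A ψ) := by
  refine AddMonoidHom.ext fun γ => ?_
  obtain ⟨γ, rfl⟩ := Additive.ofMul.surjective γ
  rw [P.op_apply_of_family ψ γ
    (fun x => (F.perm (H.fam γ x.2) x.1, H.perm γ x.2)) (fun x => F.fam (H.fam γ x.2) x.1) ?_,
    Fintype.sum_prod_type, Finset.sum_comm, op_apply]
  · rfl
  · rintro ⟨i, k⟩
    show P.g (i, k) * i₃ γ = i₁ (F.fam (H.fam γ k) i) * P.g (F.perm (H.fam γ k) i, H.perm γ k)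
    rw [hP, hP, mul_assoc, H.spec γ k, ← mul_assoc, F.spec, mul_assoc]

/-- the product family, given that its cosets are pairwise distinct. -/
def prod (F : s41l_Fam i₁ i₂ ι) (H : s41l_Fam i₂ i₃ κ)
    (hinj : ∀ (i i' : ι) (k k' : κ) (h : G₁),
      F.g i * H.g k = i₁ h * (F.g i' * H.g k') → i = i' ∧ k = k') : s41l_Fam i₁ i₃ (ι × κ) where
  g x := F.g x.1 * H.g x.2
  inj₁ := F.inj₁
  canc x a b hab := by
    apply F.canc x.1
    apply H.canc x.2
    rw [mul_assoc, mul_assoc]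
    exact hab
  inj x y h hxy := by
    obtain ⟨h1, h2⟩ := hinj x.1 y.1 x.2 y.2 h hxy
    exact Prod.ext h1 h2
  stable x γ := by
    refine ⟨(F.perm (H.fam γ x.2) x.1, H.perm γ x.2), F.fam (H.fam γ x.2) x.1, ?_⟩
    show F.g x.1 * H.g x.2 * i₃ γ = i₁ (F.fam (H.fam γ x.2) x.1) *
      (F.g (F.perm (H.fam γ x.2) x.1) * H.g (H.perm γ x.2))
    rw [mul_assoc, H.spec γ x.2, ← mul_assoc, F.spec, mul_assoc]

theorem prod_g (F : s41l_Fam i₁ i₂ ι) (H : s41l_Fam i₂ i₃ κ)
    (hinj : ∀ (i i' : ι) (k k' : κ) (h : G₁),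
      F.g i * H.g k = i₁ h * (F.g i' * H.g k') → i = i' ∧ k = k') (i : ι) (k : κ) :
    (F.prod H hinj).g (i, k) = F.g i * H.g k := rfl

theorem op_prod (F : s41l_Fam i₁ i₂ ι) (H : s41l_Fam i₂ i₃ κ)
    (hinj : ∀ (i i' : ι) (k k' : κ) (h : G₁),
      F.g i * H.g k = i₁ h * (F.g i' * H.g k') → i = i' ∧ k = k') (ψ : Additive G₁ →+ A) :
    (F.prod H hinj).op A ψ = H.op A (F.op A ψ) :=
  op_comp F H _ (fun _ _ => rfl) ψ

end Comp

section Cycles

variable [Fintype ι] {A : Type*} [AddCommGroup A]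

theorem perm_pow (F : s41l_Fam i₁ i₂ ι) (γ : G₂) (m : ℕ) (i : ι) :
    F.perm (γ ^ m) i = ((F.permEquiv γ) ^ m) i := by
  induction m with
  | zero => rw [pow_zero, F.perm_one, pow_zero, Equiv.Perm.one_apply]
  | succ m ih => rw [pow_succ, F.perm_mul, ih, pow_succ', Equiv.Perm.mul_apply, permEquiv_apply]

theorem map_fam_pow (F : s41l_Fam i₁ i₂ ι) (ψ : Additive G₁ →+ A) (γ : G₂) (m : ℕ) (i : ι) :
    ψ (Additive.ofMul (F.fam (γ ^ m) i)) =
      ∑ t ∈ Finset.range m, ψ (Additive.ofMul (F.fam γ (((F.permEquiv γ) ^ t) i))) := by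
  induction m with
  | zero => rw [pow_zero, F.fam_one, ofMul_one, map_zero, Finset.sum_range_zero]
  | succ m ih =>
    rw [pow_succ, F.fam_mul, ofMul_mul, map_add, ih, Finset.sum_range_succ, F.perm_pow]

/-- for a period `m` of `i` under `σ_γ`: `g_i γ^m = (γ^m)'_i g_i`. -/
theorem fam_pow_spec (F : s41l_Fam i₁ i₂ ι) (γ : G₂) (m : ℕ) (i : ι)
    (hi : ((F.permEquiv γ) ^ m) i = i) :
    F.g i * i₂ γ ^ m = i₁ (F.fam (γ ^ m) i) * F.g i := by
  have h := F.spec (γ ^ m) i
  rw [F.perm_pow, hi, map_pow] at h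
  exact h

/-- **Vanishing criterion**: `(F.op ψ)(γ) = 0` as soon as `ψ` kills `(γ^m)'_i` for every period
`m` of every index `i`. -/
theorem op_eq_zero_of_cycles (F : s41l_Fam i₁ i₂ ι) (ψ : Additive G₁ →+ A) (γ : G₂)
    (h : ∀ (i : ι) (m : ℕ), 0 < m → ((F.permEquiv γ) ^ m) i = i →
      ψ (Additive.ofMul (F.fam (γ ^ m) i)) = 0) :
    F.op A ψ (Additive.ofMul γ) = 0 := by
  rw [op_apply]
  refine s41l_sum_eq_zero_of_cycle_sums (F.permEquiv γ)
    (fun i => ψ (Additive.ofMul (F.fam γ i))) (fun i m hm hi => ?_)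
  rw [← F.map_fam_pow ψ γ m i]
  exact h i m hm hi

end Cycles

section Cosets

variable [Fintype ι] [Fintype κ] {A : Type*} [AddCommGroup A]

/-- **Two families with the same cosets (up to a central factor) have the same operator.** -/
theorem op_eq_of_cosets (F : s41l_Fam i₁ i₂ ι) (F' : s41l_Fam i₁ i₂ κ) (z : 𝕄)
    (hz : ∀ m : 𝕄, z * m = m * z) (hzc : ∀ a b : 𝕄, z * a = z * b → a = b)
    (hcard : Fintype.card ι = Fintype.card κ)
    (hex : ∀ i, ∃ (k : κ) (h : G₁), z * F'.g k = i₁ h * F.g i) : F'.op A = F.op A := by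
  choose e h hrel using hex
  have hinj : Function.Injective e := by
    intro i i' hii
    have e1 : i₁ (h i) * F.g i = i₁ (h i') * F.g i' := by rw [← hrel i, ← hrel i', hii]
    refine F.inj i i' ((h i)⁻¹ * h i') ?_
    calc F.g i = i₁ ((h i)⁻¹ * h i) * F.g i := by rw [inv_mul_cancel, map_one, one_mul]
      _ = i₁ (h i)⁻¹ * (i₁ (h i) * F.g i) := by rw [map_mul, mul_assoc]
      _ = i₁ ((h i)⁻¹ * h i') * F.g i' := by rw [e1, map_mul, mul_assoc]
  have hbij : Function.Bijective e :=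
    (Fintype.bijective_iff_injective_and_card e).mpr ⟨hinj, hcard⟩
  exact op_eq_of_rep F F' (Equiv.ofBijective e hbij) z hz hzc h (fun i => hrel i)

end Cosets

/-- a family from a decomposition `𝒟 = ⊔ i₁(G₁) g_i` of a right-`G₂`-stable set `𝒟`. -/
def ofDecomp (inj₁ : Function.Injective i₁) (g : ι → 𝕄)
    (canc : ∀ (j : ι) (a b : 𝕄), a * g j = b * g j → a = b)
    (inj : ∀ (i j : ι) (h : G₁), g i = i₁ h * g j → i = j) (𝒟 : Set 𝕄) (hg : ∀ i, g i ∈ 𝒟)
    (hstab : ∀ m ∈ 𝒟, ∀ γ : G₂, m * i₂ γ ∈ 𝒟)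
    (hdec : ∀ m ∈ 𝒟, ∃ (j : ι) (h : G₁), m = i₁ h * g j) : s41l_Fam i₁ i₂ ι where
  g := g
  inj₁ := inj₁
  canc := canc
  inj := inj
  stable i γ := hdec _ (hstab _ (hg i) γ)

@[simp] theorem ofDecomp_g (inj₁ : Function.Injective i₁) (g : ι → 𝕄)
    (canc : ∀ (j : ι) (a b : 𝕄), a * g j = b * g j → a = b)
    (inj : ∀ (i j : ι) (h : G₁), g i = i₁ h * g j → i = j) (𝒟 : Set 𝕄) (hg : ∀ i, g i ∈ 𝒟)
    (hstab : ∀ m ∈ 𝒟, ∀ γ : G₂, m * i₂ γ ∈ 𝒟)
    (hdec : ∀ m ∈ 𝒟, ∃ (j : ι) (h : G₁), m = i₁ h * g j) :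
    (ofDecomp inj₁ g canc inj 𝒟 hg hstab hdec).g = g := rfl

end s41l_Fam

end Abs

end Fermat.Agent.Lib.S41
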