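/-
S41 project, module [LV] (level maps on `Hom(Γ, A)`), concrete part 1 (helper8): the integer-matrix
toolkit and the coset decompositions behind the level maps between `Γ = Γ₀(M)` and
`Γ' = Γ₀(M ℓ)` (`ℓ` prime, `ℓ ∤ M`).

* `s41l_i M : Γ₀(M) →* Mat2` (injective), `s41l_mk` (elements of `Γ₀(M)` from entries);
* `s41l_dec_T` : `{m : det m = ℓ, M ∣ m₁₀} = ⊔_y Γ α_y` (`α_y = heckeRepZ ℓ y`);
* `s41l_dec_A` : `Γ = ⊔_x Γ' r_x` (`s41l_rA`);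
* `s41l_dec_B` : `{m : det m = ℓ, M ℓ ∣ m₁₀, ℓ ∣ m₁₁} = ⊔_x Γ' g_x` (`s41l_rB`: `g_j = [[1, j], [0, ℓ]]`,
  `g_∞ = W = s41l_W`).
-/
import Fermat.Agent.Lib.S29.HDefs
import Fermat.Agent.Lib.S41.LVAbs
import Fermat.Agent.Lib.S41.EGen

set_option autoImplicit false
set_option linter.unusedSectionVars false
set_option linter.style.haveILetI false

noncomputable section

namespace Fermat.Agent.Lib.S41

open CongruenceSubgroup Fermat.Agent.Lib.ES Fermat.Agent.Lib.S29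
open scoped MatrixGroups

local notation "Mat2" => Matrix (Fin 2) (Fin 2) ℤ

/-! ### Integer matrices -/

/-- the embedding `Γ₀(M) → M₂(ℤ)`. -/
def s41l_i (M : ℕ) : ↥(Gamma0 M) →* Mat2 where
  toFun γ := ((γ : SL(2, ℤ)) : Mat2)
  map_one' := rfl
  map_mul' _ _ := rfl

theorem s41l_i_apply (M : ℕ) (γ : Gamma0 M) : s41l_i M γ = ((γ : SL(2, ℤ)) : Mat2) := rfl

theorem s41l_i_injective (M : ℕ) : Function.Injective (s41l_i M) :=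
  fun _ _ h => Subtype.ext (Subtype.ext h)

/-- an element of `Γ₀(M)` from its entries. -/
def s41l_mk (M : ℕ) (a b c d : ℤ) (h : a * d - b * c = 1) (hc : (M : ℤ) ∣ c) : Gamma0 M :=
  ⟨s41e_gen_mk a b c d h, s41e_gen_mk_mem M a b c d h hc⟩

theorem s41l_i_mk (M : ℕ) (a b c d : ℤ) (h : a * d - b * c = 1) (hc : (M : ℤ) ∣ c) :
    s41l_i M (s41l_mk M a b c d h hc) = !![a, b; c, d] := rfl

theorem s41l_dvd_c {M : ℕ} (γ : Gamma0 M) : (M : ℤ) ∣ ((γ : SL(2, ℤ)) : Mat2) 1 0 :=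
  (ZMod.intCast_zmod_eq_zero_iff_dvd _ _).mp (Gamma0_mem.mp γ.2)

theorem s41l_det_eq {M : ℕ} (γ : Gamma0 M) :
    ((γ : SL(2, ℤ)) : Mat2) 0 0 * ((γ : SL(2, ℤ)) : Mat2) 1 1 -
      ((γ : SL(2, ℤ)) : Mat2) 0 1 * ((γ : SL(2, ℤ)) : Mat2) 1 0 = 1 := by
  have := (γ : SL(2, ℤ)).2
  rwa [Matrix.det_fin_two] at this

/-- `m = [[a, b], [c, d]] · g` entrywise. -/
theorem s41l_eq_mul_iff (m g : Mat2) (a b c d : ℤ) :
    m = !![a, b; c, d] * g ↔ m 0 0 = a * g 0 0 + b * g 1 0 ∧ m 0 1 = a * g 0 1 + b * g 1 1 ∧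
      m 1 0 = c * g 0 0 + d * g 1 0 ∧ m 1 1 = c * g 0 1 + d * g 1 1 := by
  constructor
  · rintro rfl
    simp [Matrix.mul_apply, Fin.sum_univ_two]
  · rintro ⟨h00, h01, h10, h11⟩
    ext i j
    fin_cases i <;> fin_cases j <;> simp [Matrix.mul_apply, Fin.sum_univ_two, *]

/-- `m · [[a, b], [c, d]]` entrywise. -/
theorem s41l_mul_entries (m : Mat2) (a b c d : ℤ) :
    (m * !![a, b; c, d]) 0 0 = m 0 0 * a + m 0 1 * c ∧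
    (m * !![a, b; c, d]) 0 1 = m 0 0 * b + m 0 1 * d ∧
    (m * !![a, b; c, d]) 1 0 = m 1 0 * a + m 1 1 * c ∧
    (m * !![a, b; c, d]) 1 1 = m 1 0 * b + m 1 1 * d := by
  simp [Matrix.mul_apply, Fin.sum_univ_two]

/-- `m = [[a, b], [c, d]] · [[p, q], [r, s]]` entrywise. -/
theorem s41l_eq_mul_lit (m : Mat2) (a b c d p q r s : ℤ) :
    m = !![a, b; c, d] * !![p, q; r, s] ↔ m 0 0 = a * p + b * r ∧ m 0 1 = a * q + b * s ∧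
      m 1 0 = c * p + d * r ∧ m 1 1 = c * q + d * s := by
  rw [s41l_eq_mul_iff]
  exact Iff.rfl

theorem s41l_eta (γ : SL(2, ℤ)) :
    (γ : Mat2) = !![(γ : Mat2) 0 0, (γ : Mat2) 0 1; (γ : Mat2) 1 0, (γ : Mat2) 1 1] :=
  Matrix.eta_fin_two _

/-! ### The decomposition for `T_ℓ` -/

section Dec

variable (M ℓ : ℕ) [hℓ : Fact ℓ.Prime]

theorem s41l_heckeRepZ_infty : heckeRepZ ℓ (OnePoint.infty) = !![(ℓ : ℤ), 0; 0, 1] := rfl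

theorem s41l_heckeRepZ_coe (j : ZMod ℓ) :
    heckeRepZ ℓ ((j : ZMod ℓ) : OnePoint (ZMod ℓ)) = !![1, (j.val : ℤ); 0, (ℓ : ℤ)] := rfl

theorem s41l_coprime (hℓM : ¬ ℓ ∣ M) : IsCoprime (M : ℤ) (ℓ : ℤ) := by
  obtain ⟨s, t, hst⟩ := s41e_gen_bezout M ℓ hℓ.out hℓM
  exact ⟨s, t, hst⟩

/-- a residue `j : ZMod ℓ` with `j.val ≡ μ`. -/
theorem s41l_exists_val (μ : ℤ) : ∃ j : ZMod ℓ, (ℓ : ℤ) ∣ μ - (j.val : ℤ) := by
  haveI : NeZero ℓ := ⟨hℓ.out.ne_zero⟩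
  refine ⟨(μ : ZMod ℓ), ?_⟩
  have h : (((μ : ZMod ℓ).val : ℤ) : ZMod ℓ) = (μ : ZMod ℓ) := by
    rw [Int.cast_natCast, ZMod.natCast_val, ZMod.cast_id', id]
  exact (ZMod.intCast_eq_intCast_iff_dvd_sub _ _ _).mp h

/-- **`{m : det m = ℓ, M ∣ m₁₀} = ⊔_y Γ₀(M) α_y`.** -/
theorem s41l_dec_T (hℓM : ¬ ℓ ∣ M) (m : Mat2) (hdet : m.det = ℓ) (hM : (M : ℤ) ∣ m 1 0) :
    ∃ (y : OnePoint (ZMod ℓ)) (h : Gamma0 M), m = s41l_i M h * heckeRepZ ℓ y := by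
  have hℓ0 : (ℓ : ℤ) ≠ 0 := by exact_mod_cast hℓ.out.ne_zero
  rw [Matrix.det_fin_two] at hdet
  by_cases hAC : (ℓ : ℤ) ∣ m 0 0 ∧ (ℓ : ℤ) ∣ m 1 0
  · obtain ⟨⟨A', hA'⟩, ⟨C', hC'⟩⟩ := hAC
    have hd : A' * m 1 1 - m 0 1 * C' = 1 := by
      apply mul_left_cancel₀ hℓ0
      rw [hA', hC'] at hdet
      linear_combination hdet
    have hMC : (M : ℤ) ∣ C' := by
      rw [hC'] at hM
      exact (s41l_coprime M ℓ hℓM).dvd_of_dvd_mul_left hM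
    refine ⟨OnePoint.infty, s41l_mk M A' (m 0 1) C' (m 1 1) hd hMC, ?_⟩
    rw [s41l_i_mk, s41l_heckeRepZ_infty, s41l_eq_mul_lit]
    refine ⟨?_, ?_, ?_, ?_⟩ <;> linarith
  · obtain ⟨μ, ⟨B₁, hB₁⟩, ⟨D₁, hD₁⟩⟩ := s41e_gen_prop_col_int ℓ hℓ.out (m 0 0) (m 0 1) (m 1 0)
      (m 1 1) ⟨1, by rw [hdet, mul_one]⟩ hAC
    obtain ⟨j, ⟨e, he⟩⟩ := s41l_exists_val ℓ μ
    -- `B - j A = ℓ B'`, `D - j C = ℓ D'`
    set B' : ℤ := B₁ + e * m 0 0 with hB'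
    set D' : ℤ := D₁ + e * m 1 0 with hD'
    have hB : m 0 1 - (j.val : ℤ) * m 0 0 = ℓ * B' := by
      rw [hB']; linear_combination hB₁ + m 0 0 * he
    have hD : m 1 1 - (j.val : ℤ) * m 1 0 = ℓ * D' := by
      rw [hD']; linear_combination hD₁ + m 1 0 * he
    have hd : m 0 0 * D' - B' * m 1 0 = 1 := by
      apply mul_left_cancel₀ hℓ0
      linear_combination hdet - m 0 0 * hD + m 1 0 * hB
    refine ⟨((j : ZMod ℓ) : OnePoint (ZMod ℓ)), s41l_mk M (m 0 0) B' (m 1 0) D' hd hM, ?_⟩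
    rw [s41l_i_mk, s41l_heckeRepZ_coe, s41l_eq_mul_lit]
    refine ⟨?_, ?_, ?_, ?_⟩ <;> linarith

end Dec

/-! ### Bezout data, the representatives `r_x`, `g_x` and the matrix `W` -/

section Reps

variable (M ℓ : ℕ) [hℓ : Fact ℓ.Prime] (hℓM : ¬ ℓ ∣ M)

/-- `s` with `s M + t ℓ = 1`. -/
def s41l_s : ℤ := Classical.choose (s41e_gen_bezout M ℓ hℓ.out hℓM)

/-- `t` with `s M + t ℓ = 1`. -/
def s41l_t : ℤ := Classical.choose (Classical.choose_spec (s41e_gen_bezout M ℓ hℓ.out hℓM))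

theorem s41l_st : s41l_s M ℓ hℓM * (M : ℤ) + s41l_t M ℓ hℓM * (ℓ : ℤ) = 1 :=
  Classical.choose_spec (Classical.choose_spec (s41e_gen_bezout M ℓ hℓ.out hℓM))

/-- **The Atkin–Lehner matrix** `W = [[ℓ t, -s], [ℓ M, ℓ]]` of determinant `ℓ`. -/
def s41l_W : Mat2 :=
  !![(ℓ : ℤ) * s41l_t M ℓ hℓM, -s41l_s M ℓ hℓM; (ℓ : ℤ) * (M : ℤ), (ℓ : ℤ)]

theorem s41l_W_det : (s41l_W M ℓ hℓM).det = ℓ := by
  rw [s41l_W, Matrix.det_fin_two_of]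
  linear_combination (ℓ : ℤ) * s41l_st M ℓ hℓM

/-- the representatives of `Γ₀(M ℓ) \ Γ₀(M)`: `r_j = [[1, 0], [M j, 1]]`, `r_∞ = [[t, -s], [M, ℓ]]`. -/
def s41l_rA (x : OnePoint (ZMod ℓ)) : Mat2 :=
  x.elim !![s41l_t M ℓ hℓM, -s41l_s M ℓ hℓM; (M : ℤ), (ℓ : ℤ)]
    (fun j => !![1, 0; (M : ℤ) * (j.val : ℤ), 1])

theorem s41l_rA_infty : s41l_rA M ℓ hℓM OnePoint.infty =
    !![s41l_t M ℓ hℓM, -s41l_s M ℓ hℓM; (M : ℤ), (ℓ : ℤ)] := rfl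

theorem s41l_rA_coe (j : ZMod ℓ) : s41l_rA M ℓ hℓM ((j : ZMod ℓ) : OnePoint (ZMod ℓ)) =
    !![1, 0; (M : ℤ) * (j.val : ℤ), 1] := rfl

theorem s41l_rA_det (x : OnePoint (ZMod ℓ)) : (s41l_rA M ℓ hℓM x).det = 1 := by
  induction x using OnePoint.rec with
  | infty =>
    rw [s41l_rA_infty, Matrix.det_fin_two_of]
    linear_combination s41l_st M ℓ hℓM
  | coe j =>
    rw [s41l_rA_coe, Matrix.det_fin_two_of]
    ring

/-- the representatives for `cor_B`: `g_j = [[1, j], [0, ℓ]]`, `g_∞ = W`. -/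
def s41l_rB (x : OnePoint (ZMod ℓ)) : Mat2 :=
  x.elim (s41l_W M ℓ hℓM) (fun j => heckeMatZ ℓ j.val)

theorem s41l_rB_infty : s41l_rB M ℓ hℓM OnePoint.infty = s41l_W M ℓ hℓM := rfl

theorem s41l_rB_coe (j : ZMod ℓ) : s41l_rB M ℓ hℓM ((j : ZMod ℓ) : OnePoint (ZMod ℓ)) =
    !![1, (j.val : ℤ); 0, (ℓ : ℤ)] := rfl

theorem s41l_rB_det (x : OnePoint (ZMod ℓ)) : (s41l_rB M ℓ hℓM x).det = ℓ := by
  induction x using OnePoint.rec with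
  | infty => exact s41l_W_det M ℓ hℓM
  | coe j => exact det_heckeMatZ ℓ j.val

end Reps

end Fermat.Agent.Lib.S41
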