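/-
S41 project, module [LV] (level maps on `Hom(Γ, A)`), concrete part 2 (helper8): the coset
decompositions `Γ₀(M) = ⊔_x Γ₀(M ℓ) r_x` and
`{m : det m = ℓ, M ℓ ∣ m₁₀, ℓ ∣ m₁₁} = ⊔_x Γ₀(M ℓ) g_x`, and the disjointness of the cosets.
-/
import Fermat.Agent.Lib.S41.LVDefs

set_option autoImplicit false
set_option linter.unusedSectionVars false
set_option linter.style.haveILetI false

noncomputable section

namespace Fermat.Agent.Lib.S41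

open CongruenceSubgroup Fermat.Agent.Lib.ES Fermat.Agent.Lib.S29
open scoped MatrixGroups

local notation "Mat2" => Matrix (Fin 2) (Fin 2) ℤ

section Dec

variable (M ℓ : ℕ) [hℓ : Fact ℓ.Prime] (hℓM : ¬ ℓ ∣ M)

include hℓM in
theorem s41l_Ml_dvd {c : ℤ} (h1 : (M : ℤ) ∣ c) (h2 : (ℓ : ℤ) ∣ c) : ((M * ℓ : ℕ) : ℤ) ∣ c := by
  rw [Nat.cast_mul]
  exact (s41l_coprime M ℓ hℓM).mul_dvd h1 h2

theorem s41l_dvd_of_Ml_dvd {c : ℤ} (h : ((M * ℓ : ℕ) : ℤ) ∣ c) : (M : ℤ) ∣ c ∧ (ℓ : ℤ) ∣ c := by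
  rw [Nat.cast_mul] at h
  exact ⟨dvd_trans (dvd_mul_right _ _) h, dvd_trans (dvd_mul_left _ _) h⟩

/-- a residue `j` with `ℓ ∣ c - j d` when `ℓ ∤ d`. -/
theorem s41l_exists_quot (c d : ℤ) (hd : ¬ (ℓ : ℤ) ∣ d) :
    ∃ j : ZMod ℓ, (ℓ : ℤ) ∣ c - (j.val : ℤ) * d := by
  obtain ⟨μ, ⟨e₁, he₁⟩, -⟩ := s41e_gen_prop_col_int ℓ hℓ.out d c 0 0 ⟨0, by ring⟩
    (fun h => hd h.1)
  obtain ⟨j, ⟨e, he⟩⟩ := s41l_exists_val ℓ μ
  exact ⟨j, ⟨e₁ + e * d, by linear_combination he₁ + d * he⟩⟩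

/-- **`Γ₀(M) = ⊔_x Γ₀(M ℓ) r_x`.** -/
theorem s41l_dec_A (m : Mat2) (hdet : m.det = 1) (hM : (M : ℤ) ∣ m 1 0) :
    ∃ (x : OnePoint (ZMod ℓ)) (h : Gamma0 (M * ℓ)), m = s41l_i (M * ℓ) h * s41l_rA M ℓ hℓM x := by
  rw [Matrix.det_fin_two] at hdet
  have hst := s41l_st M ℓ hℓM
  by_cases hd : (ℓ : ℤ) ∣ m 1 1
  · -- the coset of `r_∞`
    obtain ⟨d', hd'⟩ := hd
    obtain ⟨c', hc'⟩ := hM
    have hdvd : ((M * ℓ : ℕ) : ℤ) ∣ m 1 0 * ℓ - m 1 1 * M :=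
      s41l_Ml_dvd M ℓ hℓM ⟨c' * ℓ - m 1 1, by rw [hc']; ring⟩ ⟨m 1 0 - d' * M, by rw [hd']; ring⟩
    have hdet' : (m 0 0 * ℓ - m 0 1 * M) * (m 1 0 * s41l_s M ℓ hℓM + m 1 1 * s41l_t M ℓ hℓM) -
        (m 0 0 * s41l_s M ℓ hℓM + m 0 1 * s41l_t M ℓ hℓM) * (m 1 0 * ℓ - m 1 1 * M) = 1 := by
      linear_combination (s41l_s M ℓ hℓM * M + s41l_t M ℓ hℓM * ℓ) * hdet + hst
    refine ⟨OnePoint.infty, s41l_mk (M * ℓ) _ _ _ _ hdet' hdvd, ?_⟩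
    rw [s41l_i_mk, s41l_rA_infty, s41l_eq_mul_lit]
    refine ⟨?_, ?_, ?_, ?_⟩
    · linear_combination (-m 0 0) * hst
    · linear_combination (-m 0 1) * hst
    · linear_combination (-m 1 0) * hst
    · linear_combination (-m 1 1) * hst
  · obtain ⟨c', hc'⟩ := hM
    obtain ⟨j, ⟨e, he⟩⟩ := s41l_exists_quot ℓ c' (m 1 1) hd
    have hdvd : ((M * ℓ : ℕ) : ℤ) ∣ m 1 0 - m 1 1 * ((M : ℤ) * (j.val : ℤ)) := by
      rw [Nat.cast_mul]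
      exact ⟨e, by rw [hc']; linear_combination (M : ℤ) * he⟩
    have hdet' : (m 0 0 - m 0 1 * ((M : ℤ) * (j.val : ℤ))) * m 1 1 -
        m 0 1 * (m 1 0 - m 1 1 * ((M : ℤ) * (j.val : ℤ))) = 1 := by
      linear_combination hdet
    refine ⟨((j : ZMod ℓ) : OnePoint (ZMod ℓ)), s41l_mk (M * ℓ) _ _ _ _ hdet' hdvd, ?_⟩
    rw [s41l_i_mk, s41l_rA_coe, s41l_eq_mul_lit]
    refine ⟨?_, ?_, ?_, ?_⟩ <;> ring

/-- the coset of `W`: `{m : det m = ℓ, M ℓ ∣ m₁₀, ℓ ∣ m₁₁, ℓ ∣ m₀₀} = Γ₀(M ℓ) W`. -/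
theorem s41l_dec_W (m : Mat2) (hdet : m.det = ℓ) (hC : ((M * ℓ : ℕ) : ℤ) ∣ m 1 0)
    (hD : (ℓ : ℤ) ∣ m 1 1) (hA : (ℓ : ℤ) ∣ m 0 0) :
    ∃ h : Gamma0 (M * ℓ), m = s41l_i (M * ℓ) h * s41l_W M ℓ hℓM := by
  have hℓ0 : (ℓ : ℤ) ≠ 0 := by exact_mod_cast hℓ.out.ne_zero
  rw [Matrix.det_fin_two] at hdet
  have hst := s41l_st M ℓ hℓM
  obtain ⟨D', hD'⟩ := hD
  obtain ⟨C'', hC''⟩ := hC
  rw [Nat.cast_mul] at hC''
  obtain ⟨A', hA'⟩ := hA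
  have hdvd : ((M * ℓ : ℕ) : ℤ) ∣ m 1 0 - m 1 1 * M := by
    rw [Nat.cast_mul]
    exact ⟨C'' - D', by rw [hC'', hD']; ring⟩
  have hdet' : (m 0 0 - m 0 1 * M) * ((M : ℤ) * C'' * s41l_s M ℓ hℓM + m 1 1 * s41l_t M ℓ hℓM) -
      (A' * s41l_s M ℓ hℓM + m 0 1 * s41l_t M ℓ hℓM) * (m 1 0 - m 1 1 * M) = 1 := by
    apply mul_left_cancel₀ hℓ0
    rw [hA', hC'', hD'] at hdet
    rw [hA', hC'', hD']
    linear_combination ((s41l_s M ℓ hℓM) * M + (s41l_t M ℓ hℓM) * ℓ) * hdet + (ℓ : ℤ) * hst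
  refine ⟨s41l_mk (M * ℓ) _ _ _ _ hdet' hdvd, ?_⟩
  rw [s41l_i_mk, s41l_W, s41l_eq_mul_lit]
  refine ⟨?_, ?_, ?_, ?_⟩
  · rw [hA']; linear_combination (-(ℓ : ℤ) * A') * hst
  · linear_combination (-m 0 1) * hst + s41l_s M ℓ hℓM * hA'
  · rw [hC'']; linear_combination (-(M : ℤ) * ℓ * C'') * hst
  · linear_combination (-m 1 1) * hst + s41l_s M ℓ hℓM * hC''

/-- the cosets of `U_ℓ`: `{m : det m = ℓ, M ℓ ∣ m₁₀, ℓ ∣ m₁₁, ℓ ∤ m₀₀} = ⊔_j Γ₀(M ℓ) β_j`. -/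
theorem s41l_dec_U (m : Mat2) (hdet : m.det = ℓ) (hC : ((M * ℓ : ℕ) : ℤ) ∣ m 1 0)
    (hD : (ℓ : ℤ) ∣ m 1 1) (hA : ¬ (ℓ : ℤ) ∣ m 0 0) :
    ∃ (j : ZMod ℓ) (h : Gamma0 (M * ℓ)), m = s41l_i (M * ℓ) h * heckeMatZ ℓ j.val := by
  have hℓ0 : (ℓ : ℤ) ≠ 0 := by exact_mod_cast hℓ.out.ne_zero
  rw [Matrix.det_fin_two] at hdet
  obtain ⟨D', hD'⟩ := hD
  obtain ⟨C'', hC''⟩ := hC
  obtain ⟨j, ⟨e, he⟩⟩ := s41l_exists_quot ℓ (m 0 1) (m 0 0) hA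
  -- `B - j A = ℓ e`, `D - j C = ℓ (D' - j M C'')`
  have hdvd : ((M * ℓ : ℕ) : ℤ) ∣ m 1 0 := ⟨C'', hC''⟩
  rw [Nat.cast_mul] at hC''
  have hdet' : m 0 0 * (D' - (j.val : ℤ) * M * C'') - e * m 1 0 = 1 := by
    apply mul_left_cancel₀ hℓ0
    rw [hC'', hD'] at hdet
    rw [hC'']
    linear_combination hdet + (M : ℤ) * ℓ * C'' * he
  refine ⟨j, s41l_mk (M * ℓ) _ _ _ _ hdet' hdvd, ?_⟩
  rw [s41l_i_mk, heckeMatZ, s41l_eq_mul_lit]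
  refine ⟨?_, ?_, ?_, ?_⟩
  · ring
  · linear_combination he
  · ring
  · rw [hD', hC'']; ring

/-- **`{m : det m = ℓ, M ℓ ∣ m₁₀, ℓ ∣ m₁₁} = ⊔_x Γ₀(M ℓ) g_x`.** -/
theorem s41l_dec_B (m : Mat2) (hdet : m.det = ℓ) (hC : ((M * ℓ : ℕ) : ℤ) ∣ m 1 0)
    (hD : (ℓ : ℤ) ∣ m 1 1) :
    ∃ (x : OnePoint (ZMod ℓ)) (h : Gamma0 (M * ℓ)), m = s41l_i (M * ℓ) h * s41l_rB M ℓ hℓM x := by
  by_cases hA : (ℓ : ℤ) ∣ m 0 0
  · obtain ⟨h, hh⟩ := s41l_dec_W M ℓ hℓM m hdet hC hD hA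
    exact ⟨OnePoint.infty, h, hh⟩
  · obtain ⟨j, h, hh⟩ := s41l_dec_U M ℓ m hdet hC hD hA
    exact ⟨((j : ZMod ℓ) : OnePoint (ZMod ℓ)), h, hh⟩

/-! ### Disjointness of the cosets -/

theorem s41l_val_inj {j j' : ZMod ℓ} (h : (ℓ : ℤ) ∣ (j.val : ℤ) - (j'.val : ℤ)) : j = j' := by
  haveI : NeZero ℓ := ⟨hℓ.out.ne_zero⟩
  have h1 : (((j'.val : ℤ)) : ZMod ℓ) = (((j.val : ℤ)) : ZMod ℓ) :=
    (ZMod.intCast_eq_intCast_iff_dvd_sub _ _ _).mpr h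
  rw [Int.cast_natCast, Int.cast_natCast, ZMod.natCast_zmod_val, ZMod.natCast_zmod_val] at h1
  exact h1.symm

theorem s41l_not_dvd_one : ¬ (ℓ : ℤ) ∣ 1 := by
  intro h
  have := Int.natCast_dvd_natCast.mp (by simpa using h : ((ℓ : ℕ) : ℤ) ∣ ((1 : ℕ) : ℤ))
  exact hℓ.out.one_lt.ne' (Nat.dvd_one.mp this)

/-- `(h g)₁₀ g₁₁ - (h g)₁₁ g₁₀ = h₁₀ det g`. -/
theorem s41l_cross_bot (h g : Mat2) :
    (h * g) 1 0 * g 1 1 - (h * g) 1 1 * g 1 0 = h 1 0 * g.det := by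
  rw [Matrix.det_fin_two]
  simp only [Matrix.mul_apply, Fin.sum_univ_two]
  ring

/-- `(h g)₀₀ g₁₁ - (h g)₀₁ g₁₀ = h₀₀ det g`. -/
theorem s41l_cross_top (h g : Mat2) :
    (h * g) 0 0 * g 1 1 - (h * g) 0 1 * g 1 0 = h 0 0 * g.det := by
  rw [Matrix.det_fin_two]
  simp only [Matrix.mul_apply, Fin.sum_univ_two]
  ring

theorem s41l_l_dvd_c (h : Gamma0 (M * ℓ)) : (ℓ : ℤ) ∣ (s41l_i (M * ℓ) h) 1 0 :=
  (s41l_dvd_of_Ml_dvd M ℓ (s41l_dvd_c h)).2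

/-- the bottom rows of `r_x`, `r_x'` are proportional mod `ℓ` only if `x = x'`. -/
theorem s41l_rA_inj_of_dvd (x x' : OnePoint (ZMod ℓ))
    (hdvd : (ℓ : ℤ) ∣ (s41l_rA M ℓ hℓM x) 1 0 * (s41l_rA M ℓ hℓM x') 1 1 -
      (s41l_rA M ℓ hℓM x) 1 1 * (s41l_rA M ℓ hℓM x') 1 0) : x = x' := by
  have hcop : IsCoprime (ℓ : ℤ) (M : ℤ) := (s41l_coprime M ℓ hℓM).symm
  induction x using OnePoint.rec with
  | infty =>
    induction x' using OnePoint.rec with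
    | infty => rfl
    | coe j' =>
      exfalso
      rw [s41l_rA_infty, s41l_rA_coe] at hdvd
      simp only [Matrix.of_apply, Matrix.cons_val_zero, Matrix.cons_val_one,
        Matrix.cons_val', Matrix.empty_val', Matrix.cons_val_fin_one] at hdvd
      -- `ℓ ∣ M - ℓ M j'`
      have h1 : (ℓ : ℤ) ∣ (M : ℤ) := by
        have := dvd_add hdvd (Dvd.intro ((M : ℤ) * (j'.val : ℤ)) rfl)
        have e : (M : ℤ) * 1 - (ℓ : ℤ) * ((M : ℤ) * (j'.val : ℤ)) +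
            (ℓ : ℤ) * ((M : ℤ) * (j'.val : ℤ)) = (M : ℤ) := by ring
        rwa [e] at this
      exact s41l_not_dvd_one ℓ (hcop.dvd_of_dvd_mul_right (by simpa using h1))
  | coe j =>
    induction x' using OnePoint.rec with
    | infty =>
      exfalso
      rw [s41l_rA_infty, s41l_rA_coe] at hdvd
      simp only [Matrix.of_apply, Matrix.cons_val_zero, Matrix.cons_val_one,
        Matrix.cons_val', Matrix.empty_val', Matrix.cons_val_fin_one] at hdvd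
      have h1 : (ℓ : ℤ) ∣ (M : ℤ) := by
        have := dvd_sub (Dvd.intro ((M : ℤ) * (j.val : ℤ)) rfl) hdvd
        have e : (ℓ : ℤ) * ((M : ℤ) * (j.val : ℤ)) -
            ((M : ℤ) * (j.val : ℤ) * (ℓ : ℤ) - 1 * (M : ℤ)) = (M : ℤ) := by ring
        rwa [e] at this
      exact s41l_not_dvd_one ℓ (hcop.dvd_of_dvd_mul_right (by simpa using h1))
    | coe j' =>
      rw [s41l_rA_coe, s41l_rA_coe] at hdvd
      simp only [Matrix.of_apply, Matrix.cons_val_zero, Matrix.cons_val_one,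
        Matrix.cons_val', Matrix.empty_val', Matrix.cons_val_fin_one] at hdvd
      have h1 : (ℓ : ℤ) ∣ (M : ℤ) * ((j.val : ℤ) - (j'.val : ℤ)) := by
        convert hdvd using 1
        ring
      rw [s41l_val_inj ℓ (hcop.dvd_of_dvd_mul_left h1)]

/-- the cosets `Γ₀(M ℓ) r_x` are pairwise distinct. -/
theorem s41l_rA_inj (x x' : OnePoint (ZMod ℓ)) (h : Gamma0 (M * ℓ))
    (hx : s41l_rA M ℓ hℓM x = s41l_i (M * ℓ) h * s41l_rA M ℓ hℓM x') : x = x' := by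
  have hc := s41l_cross_bot (s41l_i (M * ℓ) h) (s41l_rA M ℓ hℓM x')
  rw [← hx, s41l_rA_det, mul_one] at hc
  exact s41l_rA_inj_of_dvd M ℓ hℓM x x' (hc ▸ s41l_l_dvd_c M ℓ h)

/-- entries of a product. -/
theorem s41l_mul_apply (h g : Mat2) :
    (h * g) 0 0 = h 0 0 * g 0 0 + h 0 1 * g 1 0 ∧ (h * g) 0 1 = h 0 0 * g 0 1 + h 0 1 * g 1 1 ∧
    (h * g) 1 0 = h 1 0 * g 0 0 + h 1 1 * g 1 0 ∧ (h * g) 1 1 = h 1 0 * g 0 1 + h 1 1 * g 1 1 := by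
  simp [Matrix.mul_apply, Fin.sum_univ_two]

theorem s41l_i_det {N : ℕ} (h : Gamma0 N) :
    (s41l_i N h) 0 0 * (s41l_i N h) 1 1 - (s41l_i N h) 0 1 * (s41l_i N h) 1 0 = 1 :=
  s41l_det_eq h

/-- the cosets `Γ β_j` are pairwise distinct (`Γ` any `Γ₀(N)`). -/
theorem s41l_beta_inj {N : ℕ} (j j' : ZMod ℓ) (h : Gamma0 N)
    (hx : heckeMatZ ℓ j.val = s41l_i N h * heckeMatZ ℓ j'.val) : j = j' := by
  obtain ⟨h00, h01, -, -⟩ := s41l_mul_apply (s41l_i N h) (heckeMatZ ℓ j'.val)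
  rw [← hx] at h00 h01
  simp only [heckeMatZ, Matrix.of_apply, Matrix.cons_val_zero, Matrix.cons_val_one,
    Matrix.cons_val', Matrix.empty_val', Matrix.cons_val_fin_one] at h00 h01
  refine s41l_val_inj ℓ ⟨(s41l_i N h) 0 1, ?_⟩
  have e : (s41l_i N h) 0 0 = 1 := by linarith
  rw [e] at h01
  linarith

/-- the cosets `Γ₀(M) α_x` are pairwise distinct. -/
theorem s41l_alpha_inj {N : ℕ} (x x' : OnePoint (ZMod ℓ)) (h : Gamma0 N)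
    (hx : heckeRepZ ℓ x = s41l_i N h * heckeRepZ ℓ x') : x = x' := by
  obtain ⟨h00, h01, h10, h11⟩ := s41l_mul_apply (s41l_i N h) (heckeRepZ ℓ x')
  have hdet := s41l_i_det h
  rw [← hx] at h00 h01 h10 h11
  induction x using OnePoint.rec with
  | infty =>
    induction x' using OnePoint.rec with
    | infty => rfl
    | coe j' =>
      exfalso
      rw [s41l_heckeRepZ_infty, s41l_heckeRepZ_coe] at h00 h10
      simp only [Matrix.of_apply, Matrix.cons_val_zero, Matrix.cons_val_one,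
        Matrix.cons_val', Matrix.empty_val', Matrix.cons_val_fin_one] at h00 h10
      have e0 : (s41l_i N h) 0 0 = ℓ := by linarith
      have e1 : (s41l_i N h) 1 0 = 0 := by linarith
      rw [e0, e1] at hdet
      exact s41l_not_dvd_one ℓ ⟨(s41l_i N h) 1 1, by linarith⟩
  | coe j =>
    induction x' using OnePoint.rec with
    | infty =>
      exfalso
      rw [s41l_heckeRepZ_infty, s41l_heckeRepZ_coe] at h00
      simp only [Matrix.of_apply, Matrix.cons_val_zero, Matrix.cons_val_one,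
        Matrix.cons_val', Matrix.empty_val', Matrix.cons_val_fin_one] at h00
      exact s41l_not_dvd_one ℓ ⟨(s41l_i N h) 0 0, by linarith⟩
    | coe j' =>
      rw [s41l_beta_inj ℓ j j' h hx]

/-- the cosets `Γ₀(M ℓ) g_x` are pairwise distinct. -/
theorem s41l_rB_inj {N : ℕ} (x x' : OnePoint (ZMod ℓ)) (h : Gamma0 N)
    (hx : s41l_rB M ℓ hℓM x = s41l_i N h * s41l_rB M ℓ hℓM x') : x = x' := by
  obtain ⟨h00, h01, h10, h11⟩ := s41l_mul_apply (s41l_i N h) (s41l_rB M ℓ hℓM x')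
  have hdet := s41l_i_det h
  rw [← hx] at h00 h01 h10 h11
  induction x using OnePoint.rec with
  | infty =>
    induction x' using OnePoint.rec with
    | infty => rfl
    | coe j' =>
      exfalso
      rw [s41l_rB_infty, s41l_W, s41l_rB_coe] at h00 h10
      simp only [Matrix.of_apply, Matrix.cons_val_zero, Matrix.cons_val_one,
        Matrix.cons_val', Matrix.empty_val', Matrix.cons_val_fin_one] at h00 h10
      have e0 : (s41l_i N h) 0 0 = ℓ * s41l_t M ℓ hℓM := by linarith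
      have e1 : (s41l_i N h) 1 0 = ℓ * M := by linarith
      rw [e0, e1] at hdet
      exact s41l_not_dvd_one ℓ ⟨s41l_t M ℓ hℓM * (s41l_i N h) 1 1 -
        (s41l_i N h) 0 1 * M, by linear_combination -hdet⟩
  | coe j =>
    induction x' using OnePoint.rec with
    | infty =>
      exfalso
      rw [s41l_rB_infty, s41l_W, s41l_rB_coe] at h00
      simp only [Matrix.of_apply, Matrix.cons_val_zero, Matrix.cons_val_one,
        Matrix.cons_val', Matrix.empty_val', Matrix.cons_val_fin_one] at h00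
      exact s41l_not_dvd_one ℓ ⟨(s41l_i N h) 0 0 * s41l_t M ℓ hℓM +
        (s41l_i N h) 0 1 * M, by linear_combination h00⟩
    | coe j' =>
      rw [s41l_beta_inj ℓ j j' h hx]

end Dec

end Fermat.Agent.Lib.S41
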