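/-
S41 project, module [LV] (level maps on `Hom(Γ, A)`), concrete part 3 (helper8): the coset
families of the level maps between `Γ = Γ₀(M)` and `Γ' = Γ₀(M ℓ)` and THE SIX OPERATORS

* `s41l_resA, s41l_resB : Hom(Γ, A) → Hom(Γ', A)`, `s41l_corA, s41l_corB : Hom(Γ', A) → Hom(Γ, A)`,
* `s41l_w, s41l_U : Hom(Γ', A) → Hom(Γ', A)`,

all of the form `F.op A` for a coset family `F` (Lib/S41/LVAbs), plus the family `s41l_famT` of
`T_ℓ` with `s41l_famT_op : (s41l_famT M ℓ hℓM).op A = s29h_heckeHom M ℓ A`.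
Generic facts on families between `Γ₀(N₁)` and `Γ₀(N₂)`: they preserve `s29h_Hpar`.
-/
import Fermat.Agent.Lib.S29.HStab
import Fermat.Agent.Lib.S41.LVDec

set_option autoImplicit false
set_option linter.unusedSectionVars false
set_option linter.style.haveILetI false

noncomputable section

namespace Fermat.Agent.Lib.S41

open CongruenceSubgroup Fermat.Agent.Lib.ES Fermat.Agent.Lib.S29 ModularCurve.Period
open scoped MatrixGroups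

local notation "Mat2" => Matrix (Fin 2) (Fin 2) ℤ

/-! ### Families between `Γ₀(N₁)` and `Γ₀(N₂)` preserve `H(A)` -/

section Hpar

variable {N₁ N₂ : ℕ} {ι : Type*} [Fintype ι] {A : Type*} [AddCommGroup A]

theorem s41l_i_pow {N : ℕ} (γ : Gamma0 N) (m : ℕ) :
    s41l_i N γ ^ m = (((γ : SL(2, ℤ)) : Mat2)) ^ m := rfl

/-- a coset family with representatives of non-zero determinant preserves parabolic
homomorphisms. -/
theorem s41l_op_isParabolic (F : s41l_Fam (s41l_i N₁) (s41l_i N₂) ι) (hdet : ∀ i, (F.g i).det ≠ 0)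
    {ψ : Additive (Gamma0 N₁) →+ A} (hψ : IsParabolicHom (Gamma0 N₁) ψ) :
    IsParabolicHom (Gamma0 N₂) (F.op A ψ) := by
  intro γ hγ
  refine F.op_eq_zero_of_cycles ψ γ (fun i m _ hi => ?_)
  refine hψ _ ?_
  have hspec := F.fam_pow_spec γ m i hi
  have h1 : (s41l_i N₁ (F.fam (γ ^ m) i)).trace = ((((γ : SL(2, ℤ)) : Mat2)) ^ m).trace :=
    s29h_trace_eq_of_conj (hdet i) hspec
  rw [s41l_i_apply] at h1
  rw [h1]
  exact s29h_trace_pow_sq (γ : SL(2, ℤ)) hγ m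

/-- a coset family with representatives of non-zero determinant preserves the vanishing on
elements of finite order. -/
theorem s41l_op_finOrd (F : s41l_Fam (s41l_i N₁) (s41l_i N₂) ι) (hdet : ∀ i, (F.g i).det ≠ 0)
    {ψ : Additive (Gamma0 N₁) →+ A}
    (hψ : ∀ γ : Gamma0 N₁, IsOfFinOrder γ → ψ (Additive.ofMul γ) = 0) (γ : Gamma0 N₂)
    (hγ : IsOfFinOrder γ) : F.op A ψ (Additive.ofMul γ) = 0 := by
  refine F.op_eq_zero_of_cycles ψ γ (fun i m _ hi => ?_)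
  refine hψ _ ?_
  obtain ⟨n, hn, hγn⟩ := hγ.exists_pow_eq_one
  refine isOfFinOrder_iff_pow_eq_one.mpr ⟨n, hn, ?_⟩
  have hspec := F.fam_pow_spec γ m i hi
  have h1 := s29h_pow_conj hspec n
  have h2 : (s41l_i N₂ γ ^ m) ^ n = 1 := by
    rw [← pow_mul, mul_comm, pow_mul, ← map_pow, hγn, map_one, one_pow]
  rw [h2, Matrix.mul_one] at h1
  have h3 : (s41l_i N₁ (F.fam (γ ^ m) i)) ^ n = 1 := by
    refine s29h_mul_right_cancel (hdet i) ?_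
    rw [← h1, Matrix.one_mul]
  apply s41l_i_injective N₁
  rw [map_pow, h3, map_one]

/-- **a coset family with representatives of non-zero determinant preserves `H(A)`.** -/
theorem s41l_op_mem_Hpar (R : Type*) [Semiring R] [Module R A]
    (F : s41l_Fam (s41l_i N₁) (s41l_i N₂) ι) (hdet : ∀ i, (F.g i).det ≠ 0)
    {ψ : Additive (Gamma0 N₁) →+ A} (hψ : ψ ∈ s29h_Hpar R N₁ A) :
    F.op A ψ ∈ s29h_Hpar R N₂ A :=
  ⟨s41l_op_isParabolic F hdet hψ.1, s41l_op_finOrd F hdet hψ.2⟩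

end Hpar

/-! ### The coset families -/

section Fam

variable (M ℓ : ℕ) [hℓ : Fact ℓ.Prime] (hℓM : ¬ ℓ ∣ M)

theorem s41l_det_mul_i (m : Mat2) {N : ℕ} (γ : Gamma0 N) : (m * s41l_i N γ).det = m.det := by
  rw [Matrix.det_mul, s41l_i_apply, (γ : SL(2, ℤ)).det_coe, mul_one]

theorem s41l_l_ne_zero : ((ℓ : ℕ) : ℤ) ≠ 0 := by exact_mod_cast hℓ.out.ne_zero

theorem s41l_prime_int : Prime ((ℓ : ℕ) : ℤ) := Nat.prime_iff_prime_int.mp hℓ.out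

theorem s41l_i_dvd {N : ℕ} (γ : Gamma0 N) : (N : ℤ) ∣ (s41l_i N γ) 1 0 := s41l_dvd_c γ

/-- `ℓ ∤ γ₀₀` for `γ ∈ Γ₀(M ℓ)`. -/
theorem s41l_not_dvd_a (γ : Gamma0 (M * ℓ)) : ¬ (ℓ : ℤ) ∣ (s41l_i (M * ℓ) γ) 0 0 := by
  intro h
  have h1 := s41l_l_dvd_c M ℓ γ
  have hdet := s41l_i_det γ
  refine s41l_not_dvd_one ℓ ?_
  rw [← hdet]
  exact dvd_sub (Dvd.dvd.mul_right h _) (Dvd.dvd.mul_left h1 _)

/-- **the family of `T_ℓ`** on `Γ₀(M)`, `ℓ ∤ M`: representatives `α_x = heckeRepZ ℓ x`. -/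
def s41l_famT : s41l_Fam (s41l_i M) (s41l_i M) (OnePoint (ZMod ℓ)) :=
  s41l_Fam.ofDecomp (s41l_i_injective M) (heckeRepZ ℓ)
    (fun j _ _ h => s29h_mul_right_cancel (s29h_det_heckeRepZ_ne_zero j) h)
    (fun x x' h hx => s41l_alpha_inj ℓ x x' h hx)
    {m : Mat2 | m.det = ℓ ∧ (M : ℤ) ∣ m 1 0}
    (fun x => ⟨det_heckeRepZ ℓ x, by rw [heckeRepZ_apply_one_zero]; exact dvd_zero _⟩)
    (fun m hm γ => by
      obtain ⟨-, -, h10, -⟩ := s41l_mul_apply m (s41l_i M γ)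
      refine ⟨by rw [s41l_det_mul_i]; exact hm.1, ?_⟩
      rw [h10]
      exact dvd_add (Dvd.dvd.mul_right hm.2 _) (Dvd.dvd.mul_left (s41l_i_dvd γ) _))
    (fun m hm => s41l_dec_T M ℓ hℓM m hm.1 hm.2)

theorem s41l_famT_g (x : OnePoint (ZMod ℓ)) : (s41l_famT M ℓ hℓM).g x = heckeRepZ ℓ x := rfl

/-- **`s41l_famT` computes `T_ℓ^H`.** -/
theorem s41l_famT_op (A : Type*) [AddCommGroup A] :
    (s41l_famT M ℓ hℓM).op A = s29h_heckeHom M ℓ A := by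
  refine AddMonoidHom.ext fun ψ => AddMonoidHom.ext fun γ => ?_
  have key : ∀ g : Gamma0 M, (s41l_famT M ℓ hℓM).op A ψ (Additive.ofMul g) =
      s29h_heckeHom M ℓ A ψ (Additive.ofMul g) := by
    intro g
    rw [s29h_heckeHom_apply hℓM]
    exact (s41l_famT M ℓ hℓM).op_apply_of_family ψ g (heckePermT ℓ (g : SL(2, ℤ)))
      (s29h_fam hℓM g) (fun x => s29h_fam_spec hℓM g x)
  exact key (Additive.toMul γ)

/-- the family of `res_A` (restriction): one representative `1`. -/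
def s41l_famResA : s41l_Fam (s41l_i M) (s41l_i (M * ℓ)) Unit :=
  s41l_Fam.ofDecomp (s41l_i_injective M) (fun _ => (1 : Mat2))
    (fun _ a b h => by simpa using h)
    (fun _ _ _ _ => rfl)
    {m : Mat2 | m.det = 1 ∧ (M : ℤ) ∣ m 1 0}
    (fun _ => ⟨Matrix.det_one, by simp⟩)
    (fun m hm γ => by
      obtain ⟨-, -, h10, -⟩ := s41l_mul_apply m (s41l_i (M * ℓ) γ)
      refine ⟨by rw [s41l_det_mul_i]; exact hm.1, ?_⟩
      rw [h10]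
      exact dvd_add (Dvd.dvd.mul_right hm.2 _)
        (Dvd.dvd.mul_left (s41l_dvd_of_Ml_dvd M ℓ (s41l_i_dvd γ)).1 _))
    (fun m hm => by
      have hdet := hm.1
      rw [Matrix.det_fin_two] at hdet
      refine ⟨(), s41l_mk M (m 0 0) (m 0 1) (m 1 0) (m 1 1) hdet hm.2, ?_⟩
      rw [s41l_i_mk, Matrix.mul_one]
      exact Matrix.eta_fin_two m)

/-- the family of `res_B`: one representative `δ = diag(ℓ, 1)`. -/
def s41l_famResB : s41l_Fam (s41l_i M) (s41l_i (M * ℓ)) Unit :=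
  s41l_Fam.ofDecomp (s41l_i_injective M) (fun _ => heckeDiagZ ℓ)
    (fun _ _ _ h => s29h_mul_right_cancel
      (by rw [det_heckeDiagZ]; exact s41l_l_ne_zero ℓ) h)
    (fun _ _ _ _ => rfl)
    {m : Mat2 | m.det = ℓ ∧ (M : ℤ) ∣ m 1 0 ∧ (ℓ : ℤ) ∣ m 0 0 ∧ (ℓ : ℤ) ∣ m 1 0}
    (fun _ => ⟨det_heckeDiagZ ℓ, by simp [heckeDiagZ], by simp [heckeDiagZ], by simp [heckeDiagZ]⟩)
    (fun m hm γ => by
      obtain ⟨h00, -, h10, -⟩ := s41l_mul_apply m (s41l_i (M * ℓ) γ)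
      obtain ⟨hγM, hγℓ⟩ := s41l_dvd_of_Ml_dvd M ℓ (s41l_i_dvd γ)
      refine ⟨by rw [s41l_det_mul_i]; exact hm.1, ?_, ?_, ?_⟩
      · rw [h10]
        exact dvd_add (Dvd.dvd.mul_right hm.2.1 _) (Dvd.dvd.mul_left hγM _)
      · rw [h00]
        exact dvd_add (Dvd.dvd.mul_right hm.2.2.1 _) (Dvd.dvd.mul_left hγℓ _)
      · rw [h10]
        exact dvd_add (Dvd.dvd.mul_right hm.2.2.2 _) (Dvd.dvd.mul_left hγℓ _))
    (fun m hm => by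
      obtain ⟨hdet, hM, ⟨A', hA'⟩, ⟨C', hC'⟩⟩ := hm
      rw [Matrix.det_fin_two] at hdet
      have hMC : (M : ℤ) ∣ C' := by
        rw [hC'] at hM
        exact (s41l_coprime M ℓ hℓM).dvd_of_dvd_mul_left hM
      have hd : A' * m 1 1 - m 0 1 * C' = 1 := by
        apply mul_left_cancel₀ (s41l_l_ne_zero ℓ)
        rw [hA', hC'] at hdet
        linear_combination hdet
      refine ⟨(), s41l_mk M A' (m 0 1) C' (m 1 1) hd hMC, ?_⟩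
      rw [s41l_i_mk, heckeDiagZ, s41l_eq_mul_lit]
      refine ⟨?_, ?_, ?_, ?_⟩ <;> linarith)

/-- the family of `cor_A` (transfer): representatives `r_x = s41l_rA`. -/
def s41l_famCorA : s41l_Fam (s41l_i (M * ℓ)) (s41l_i M) (OnePoint (ZMod ℓ)) :=
  s41l_Fam.ofDecomp (s41l_i_injective (M * ℓ)) (s41l_rA M ℓ hℓM)
    (fun x _ _ h => s29h_mul_right_cancel (by rw [s41l_rA_det]; exact one_ne_zero) h)
    (fun x x' h hx => s41l_rA_inj M ℓ hℓM x x' h hx)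
    {m : Mat2 | m.det = 1 ∧ (M : ℤ) ∣ m 1 0}
    (fun x => ⟨s41l_rA_det M ℓ hℓM x, by
      induction x using OnePoint.rec with
      | infty => rw [s41l_rA_infty]; simp
      | coe j => rw [s41l_rA_coe]; simp⟩)
    (fun m hm γ => by
      obtain ⟨-, -, h10, -⟩ := s41l_mul_apply m (s41l_i M γ)
      refine ⟨by rw [s41l_det_mul_i]; exact hm.1, ?_⟩
      rw [h10]
      exact dvd_add (Dvd.dvd.mul_right hm.2 _) (Dvd.dvd.mul_left (s41l_i_dvd γ) _))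
    (fun m hm => s41l_dec_A M ℓ hℓM m hm.1 hm.2)

/-- the family of `cor_B`: representatives `g_x = s41l_rB` (`β_j`, `W`). -/
def s41l_famCorB : s41l_Fam (s41l_i (M * ℓ)) (s41l_i M) (OnePoint (ZMod ℓ)) :=
  s41l_Fam.ofDecomp (s41l_i_injective (M * ℓ)) (s41l_rB M ℓ hℓM)
    (fun x _ _ h => s29h_mul_right_cancel (by rw [s41l_rB_det]; exact s41l_l_ne_zero ℓ) h)
    (fun x x' h hx => s41l_rB_inj M ℓ hℓM x x' h hx)
    {m : Mat2 | m.det = ℓ ∧ ((M * ℓ : ℕ) : ℤ) ∣ m 1 0 ∧ (ℓ : ℤ) ∣ m 1 1}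
    (fun x => ⟨s41l_rB_det M ℓ hℓM x, by
      induction x using OnePoint.rec with
      | infty =>
        rw [s41l_rB_infty, s41l_W]
        refine ⟨⟨1, ?_⟩, ?_⟩
        · simp [mul_comm]
        · simp
      | coe j => rw [s41l_rB_coe]; simp⟩)
    (fun m hm γ => by
      obtain ⟨-, -, h10, h11⟩ := s41l_mul_apply m (s41l_i M γ)
      obtain ⟨hmM, hmℓ⟩ := s41l_dvd_of_Ml_dvd M ℓ hm.2.1
      refine ⟨by rw [s41l_det_mul_i]; exact hm.1, ?_, ?_⟩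
      · rw [h10]
        refine dvd_add (Dvd.dvd.mul_right hm.2.1 _) ?_
        rw [Nat.cast_mul, mul_comm (M : ℤ)]
        exact mul_dvd_mul hm.2.2 (s41l_i_dvd γ)
      · rw [h11]
        exact dvd_add (Dvd.dvd.mul_right hmℓ _) (Dvd.dvd.mul_right hm.2.2 _))
    (fun m hm => s41l_dec_B M ℓ hℓM m hm.1 hm.2.1 hm.2.2)

/-- the family of the Atkin–Lehner involution `w`: one representative `W = s41l_W`. -/
def s41l_famW : s41l_Fam (s41l_i (M * ℓ)) (s41l_i (M * ℓ)) Unit :=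
  s41l_Fam.ofDecomp (s41l_i_injective (M * ℓ)) (fun _ => s41l_W M ℓ hℓM)
    (fun _ _ _ h => s29h_mul_right_cancel (by rw [s41l_W_det]; exact s41l_l_ne_zero ℓ) h)
    (fun _ _ _ _ => rfl)
    {m : Mat2 | m.det = ℓ ∧ ((M * ℓ : ℕ) : ℤ) ∣ m 1 0 ∧ (ℓ : ℤ) ∣ m 1 1 ∧ (ℓ : ℤ) ∣ m 0 0}
    (fun _ => ⟨s41l_W_det M ℓ hℓM, by
      rw [s41l_W]
      refine ⟨⟨1, ?_⟩, ?_, ?_⟩
      · simp [mul_comm]
      · simp
      · simp⟩)
    (fun m hm γ => by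
      obtain ⟨h00, -, h10, h11⟩ := s41l_mul_apply m (s41l_i (M * ℓ) γ)
      obtain ⟨hmM, hmℓ⟩ := s41l_dvd_of_Ml_dvd M ℓ hm.2.1
      obtain ⟨hγM, hγℓ⟩ := s41l_dvd_of_Ml_dvd M ℓ (s41l_i_dvd γ)
      refine ⟨by rw [s41l_det_mul_i]; exact hm.1, ?_, ?_, ?_⟩
      · rw [h10]
        refine dvd_add (Dvd.dvd.mul_right hm.2.1 _) (Dvd.dvd.mul_left (s41l_i_dvd γ) _)
      · rw [h11]
        exact dvd_add (Dvd.dvd.mul_right hmℓ _) (Dvd.dvd.mul_right hm.2.2.1 _)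
      · rw [h00]
        exact dvd_add (Dvd.dvd.mul_right hm.2.2.2 _) (Dvd.dvd.mul_left hγℓ _))
    (fun m hm => by
      obtain ⟨h, hh⟩ := s41l_dec_W M ℓ hℓM m hm.1 hm.2.1 hm.2.2.1 hm.2.2.2
      exact ⟨(), h, hh⟩)

/-- the family of `U_ℓ` on `Γ₀(M ℓ)`: representatives `β_j = heckeMatZ ℓ j`. -/
def s41l_famU : s41l_Fam (s41l_i (M * ℓ)) (s41l_i (M * ℓ)) (ZMod ℓ) :=
  s41l_Fam.ofDecomp (s41l_i_injective (M * ℓ)) (fun j : ZMod ℓ => heckeMatZ ℓ j.val)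
    (fun _ _ _ h => s29h_mul_right_cancel (by rw [det_heckeMatZ]; exact s41l_l_ne_zero ℓ) h)
    (fun j j' h hx => s41l_beta_inj ℓ j j' h hx)
    {m : Mat2 | m.det = ℓ ∧ ((M * ℓ : ℕ) : ℤ) ∣ m 1 0 ∧ (ℓ : ℤ) ∣ m 1 1 ∧ ¬ (ℓ : ℤ) ∣ m 0 0}
    (fun j => ⟨det_heckeMatZ ℓ j.val, by
      rw [heckeMatZ]
      refine ⟨by simp, by simp, ?_⟩
      simpa using s41l_not_dvd_one ℓ⟩)
    (fun m hm γ => by
      obtain ⟨h00, -, h10, h11⟩ := s41l_mul_apply m (s41l_i (M * ℓ) γ)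
      obtain ⟨hmM, hmℓ⟩ := s41l_dvd_of_Ml_dvd M ℓ hm.2.1
      obtain ⟨hγM, hγℓ⟩ := s41l_dvd_of_Ml_dvd M ℓ (s41l_i_dvd γ)
      refine ⟨by rw [s41l_det_mul_i]; exact hm.1, ?_, ?_, ?_⟩
      · rw [h10]
        refine dvd_add (Dvd.dvd.mul_right hm.2.1 _) (Dvd.dvd.mul_left (s41l_i_dvd γ) _)
      · rw [h11]
        exact dvd_add (Dvd.dvd.mul_right hmℓ _) (Dvd.dvd.mul_right hm.2.2.1 _)
      · rw [h00]
        intro hdvd
        have h1 : (ℓ : ℤ) ∣ m 0 0 * (s41l_i (M * ℓ) γ) 0 0 :=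
          (dvd_add_left (Dvd.dvd.mul_left hγℓ _)).mp hdvd
        rcases (s41l_prime_int ℓ).dvd_or_dvd h1 with h2 | h2
        · exact hm.2.2.2 h2
        · exact s41l_not_dvd_a M ℓ γ h2)
    (fun m hm => s41l_dec_U M ℓ m hm.1 hm.2.1 hm.2.2.1 hm.2.2.2)

end Fam

/-! ### One-coset families are compositions with a homomorphism -/

namespace s41l_Fam

variable {𝕄 : Type*} [Monoid 𝕄] {G₁ G₂ : Type*} [Group G₁] [Group G₂]
  {i₁ : G₁ →* 𝕄} {i₂ : G₂ →* 𝕄}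

/-- the homomorphism `G₂ → G₁`, `g γ = (c γ) g`, of a one-coset family. -/
def unitHom (F : s41l_Fam i₁ i₂ Unit) : G₂ →* G₁ where
  toFun γ := F.fam γ ()
  map_one' := F.fam_one ()
  map_mul' γ δ := F.fam_mul γ δ ()

theorem unitHom_spec (F : s41l_Fam i₁ i₂ Unit) (γ : G₂) :
    F.g () * i₂ γ = i₁ (F.unitHom γ) * F.g () := F.spec γ ()

theorem unitHom_eq (F : s41l_Fam i₁ i₂ Unit) (γ : G₂) (h : G₁)
    (e : F.g () * i₂ γ = i₁ h * F.g ()) : F.unitHom γ = h :=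
  ((F.uniq γ () () h e).2).symm

theorem op_unit {A : Type*} [AddCommGroup A] (F : s41l_Fam i₁ i₂ Unit) (ψ : Additive G₁ →+ A)
    (γ : G₂) : F.op A ψ (Additive.ofMul γ) = ψ (Additive.ofMul (F.unitHom γ)) := by
  rw [F.op_apply]
  exact Fintype.sum_unique _

end s41l_Fam

/-! ### The six operators -/

section Ops

variable (M ℓ : ℕ) [hℓ : Fact ℓ.Prime] (hℓM : ¬ ℓ ∣ M) (A : Type*) [AddCommGroup A]

/-- `res_A : Hom(Γ₀(M), A) → Hom(Γ₀(M ℓ), A)`, restriction. -/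
def s41l_resA : (Additive (Gamma0 M) →+ A) →+ (Additive (Gamma0 (M * ℓ)) →+ A) :=
  (s41l_famResA M ℓ).op A

/-- `res_B : Hom(Γ₀(M), A) → Hom(Γ₀(M ℓ), A)`, `φ ↦ φ ∘ c_δ`, `c_δ γ = δ γ δ⁻¹`,
`δ = diag(ℓ, 1)`. -/
def s41l_resB : (Additive (Gamma0 M) →+ A) →+ (Additive (Gamma0 (M * ℓ)) →+ A) :=
  (s41l_famResB M ℓ hℓM).op A

/-- `cor_A : Hom(Γ₀(M ℓ), A) → Hom(Γ₀(M), A)`, the transfer. -/
def s41l_corA : (Additive (Gamma0 (M * ℓ)) →+ A) →+ (Additive (Gamma0 M) →+ A) :=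
  (s41l_famCorA M ℓ hℓM).op A

/-- `cor_B : Hom(Γ₀(M ℓ), A) → Hom(Γ₀(M), A)`, the transfer along `c_δ`. -/
def s41l_corB : (Additive (Gamma0 (M * ℓ)) →+ A) →+ (Additive (Gamma0 M) →+ A) :=
  (s41l_famCorB M ℓ hℓM).op A

/-- the Atkin–Lehner involution `w : Hom(Γ₀(M ℓ), A) → Hom(Γ₀(M ℓ), A)`, `ψ ↦ ψ ∘ c_W`. -/
def s41l_w : (Additive (Gamma0 (M * ℓ)) →+ A) →+ (Additive (Gamma0 (M * ℓ)) →+ A) :=
  (s41l_famW M ℓ hℓM).op A

/-- `U_ℓ^H : Hom(Γ₀(M ℓ), A) → Hom(Γ₀(M ℓ), A)`. -/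
def s41l_U : (Additive (Gamma0 (M * ℓ)) →+ A) →+ (Additive (Gamma0 (M * ℓ)) →+ A) :=
  (s41l_famU M ℓ).op A

/-- the inclusion `Γ₀(M ℓ) → Γ₀(M)`. -/
def s41l_incl : Gamma0 (M * ℓ) →* Gamma0 M := (s41l_famResA M ℓ).unitHom

/-- `c_δ : Γ₀(M ℓ) → Γ₀(M)`, `δ γ = (c_δ γ) δ`. -/
def s41l_cdelta : Gamma0 (M * ℓ) →* Gamma0 M := (s41l_famResB M ℓ hℓM).unitHom

/-- `c_W : Γ₀(M ℓ) → Γ₀(M ℓ)`, `W γ = (c_W γ) W`. -/
def s41l_cW : Gamma0 (M * ℓ) →* Gamma0 (M * ℓ) := (s41l_famW M ℓ hℓM).unitHom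

theorem s41l_incl_coe (γ : Gamma0 (M * ℓ)) :
    ((s41l_incl M ℓ γ : Gamma0 M) : SL(2, ℤ)) = (γ : SL(2, ℤ)) := by
  have h := (s41l_famResA M ℓ).unitHom_spec γ
  apply Subtype.ext
  have h' : (1 : Mat2) * s41l_i (M * ℓ) γ = s41l_i M (s41l_incl M ℓ γ) * 1 := h
  rw [Matrix.one_mul, Matrix.mul_one] at h'
  exact h'.symm

theorem s41l_cdelta_spec (γ : Gamma0 (M * ℓ)) :
    heckeDiagZ ℓ * s41l_i (M * ℓ) γ = s41l_i M (s41l_cdelta M ℓ hℓM γ) * heckeDiagZ ℓ :=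
  (s41l_famResB M ℓ hℓM).unitHom_spec γ

theorem s41l_cW_spec (γ : Gamma0 (M * ℓ)) :
    s41l_W M ℓ hℓM * s41l_i (M * ℓ) γ = s41l_i (M * ℓ) (s41l_cW M ℓ hℓM γ) * s41l_W M ℓ hℓM :=
  (s41l_famW M ℓ hℓM).unitHom_spec γ

variable {A}

theorem s41l_resA_apply (φ : Additive (Gamma0 M) →+ A) (γ : Gamma0 (M * ℓ)) :
    s41l_resA M ℓ A φ (Additive.ofMul γ) = φ (Additive.ofMul (s41l_incl M ℓ γ)) :=
  (s41l_famResA M ℓ).op_unit φ γ

theorem s41l_resB_apply (φ : Additive (Gamma0 M) →+ A) (γ : Gamma0 (M * ℓ)) :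
    s41l_resB M ℓ hℓM A φ (Additive.ofMul γ) = φ (Additive.ofMul (s41l_cdelta M ℓ hℓM γ)) :=
  (s41l_famResB M ℓ hℓM).op_unit φ γ

theorem s41l_w_apply (ψ : Additive (Gamma0 (M * ℓ)) →+ A) (γ : Gamma0 (M * ℓ)) :
    s41l_w M ℓ hℓM A ψ (Additive.ofMul γ) = ψ (Additive.ofMul (s41l_cW M ℓ hℓM γ)) :=
  (s41l_famW M ℓ hℓM).op_unit ψ γ

theorem s41l_corA_apply (ψ : Additive (Gamma0 (M * ℓ)) →+ A) (γ : Gamma0 M) :
    s41l_corA M ℓ hℓM A ψ (Additive.ofMul γ) =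
      ∑ x : OnePoint (ZMod ℓ), ψ (Additive.ofMul ((s41l_famCorA M ℓ hℓM).fam γ x)) := rfl

theorem s41l_corB_apply (ψ : Additive (Gamma0 (M * ℓ)) →+ A) (γ : Gamma0 M) :
    s41l_corB M ℓ hℓM A ψ (Additive.ofMul γ) =
      ∑ x : OnePoint (ZMod ℓ), ψ (Additive.ofMul ((s41l_famCorB M ℓ hℓM).fam γ x)) := rfl

theorem s41l_U_apply (ψ : Additive (Gamma0 (M * ℓ)) →+ A) (γ : Gamma0 (M * ℓ)) :
    s41l_U M ℓ A ψ (Additive.ofMul γ) =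
      ∑ j : ZMod ℓ, ψ (Additive.ofMul ((s41l_famU M ℓ).fam γ j)) := rfl

/-- `(U_ℓ^H ψ)(γ)` may be computed with ANY valid coset system `β_j γ = γ'_j β_{σ j}`
(e.g. that of `exists_family_heckeMatZ`). -/
theorem s41l_U_apply_of_family (ψ : Additive (Gamma0 (M * ℓ)) →+ A) (γ : Gamma0 (M * ℓ))
    (σ : ZMod ℓ → ZMod ℓ) (γ' : ZMod ℓ → Gamma0 (M * ℓ))
    (h : ∀ j : ZMod ℓ, heckeMatZ ℓ j.val * (((γ : Gamma0 (M * ℓ)) : SL(2, ℤ)) : Mat2) =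
      (((γ' j : Gamma0 (M * ℓ)) : SL(2, ℤ)) : Mat2) * heckeMatZ ℓ (σ j).val) :
    s41l_U M ℓ A ψ (Additive.ofMul γ) = ∑ j : ZMod ℓ, ψ (Additive.ofMul (γ' j)) :=
  (s41l_famU M ℓ).op_apply_of_family ψ γ σ γ' h

/-! ### all six preserve `H(A)` and are natural in `A` -/

variable (R : Type*) [Semiring R] [Module R A]

theorem s41l_resA_mem_Hpar {φ : Additive (Gamma0 M) →+ A} (hφ : φ ∈ s29h_Hpar R M A) :
    s41l_resA M ℓ A φ ∈ s29h_Hpar R (M * ℓ) A :=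
  s41l_op_mem_Hpar R _ (fun _ => by
    show (1 : Mat2).det ≠ 0
    rw [Matrix.det_one]; exact one_ne_zero) hφ

theorem s41l_resB_mem_Hpar {φ : Additive (Gamma0 M) →+ A} (hφ : φ ∈ s29h_Hpar R M A) :
    s41l_resB M ℓ hℓM A φ ∈ s29h_Hpar R (M * ℓ) A :=
  s41l_op_mem_Hpar R _ (fun _ => by
    show (heckeDiagZ ℓ).det ≠ 0
    rw [det_heckeDiagZ]; exact s41l_l_ne_zero ℓ) hφ

theorem s41l_corA_mem_Hpar {ψ : Additive (Gamma0 (M * ℓ)) →+ A}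
    (hψ : ψ ∈ s29h_Hpar R (M * ℓ) A) : s41l_corA M ℓ hℓM A ψ ∈ s29h_Hpar R M A :=
  s41l_op_mem_Hpar R _ (fun x => by
    show (s41l_rA M ℓ hℓM x).det ≠ 0
    rw [s41l_rA_det]; exact one_ne_zero) hψ

theorem s41l_corB_mem_Hpar {ψ : Additive (Gamma0 (M * ℓ)) →+ A}
    (hψ : ψ ∈ s29h_Hpar R (M * ℓ) A) : s41l_corB M ℓ hℓM A ψ ∈ s29h_Hpar R M A :=
  s41l_op_mem_Hpar R _ (fun x => by
    show (s41l_rB M ℓ hℓM x).det ≠ 0
    rw [s41l_rB_det]; exact s41l_l_ne_zero ℓ) hψ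

theorem s41l_w_mem_Hpar {ψ : Additive (Gamma0 (M * ℓ)) →+ A}
    (hψ : ψ ∈ s29h_Hpar R (M * ℓ) A) : s41l_w M ℓ hℓM A ψ ∈ s29h_Hpar R (M * ℓ) A :=
  s41l_op_mem_Hpar R _ (fun _ => by
    show (s41l_W M ℓ hℓM).det ≠ 0
    rw [s41l_W_det]; exact s41l_l_ne_zero ℓ) hψ

theorem s41l_U_mem_Hpar {ψ : Additive (Gamma0 (M * ℓ)) →+ A}
    (hψ : ψ ∈ s29h_Hpar R (M * ℓ) A) : s41l_U M ℓ A ψ ∈ s29h_Hpar R (M * ℓ) A :=
  s41l_op_mem_Hpar R _ (fun j => by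
    show (heckeMatZ ℓ j.val).det ≠ 0
    rw [det_heckeMatZ]; exact s41l_l_ne_zero ℓ) hψ

end Ops

end Fermat.Agent.Lib.S41
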