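/-
S41 project, module [LV] (level maps on `Hom(Γ, A)`), part 4 (helper8): the Atkin–Lehner element.

* `s41l_gW` with `W * W = ℓ • γ_W` (`s41l_W_sq`), `s41l_cW_cW : c_W (c_W γ) = γ_W γ γ_W⁻¹`,
  `s41l_kW : Γ₀(M ℓ) ≃* Γ₀(M ℓ)` (`= c_W`), `s41l_WQ : GL (Fin 2) ℚ` with
  `s41l_WQ_spec : W_ℚ * mapGL ℚ γ = mapGL ℚ (κ_W γ) * W_ℚ`;
* **(iii)** `s41l_w_w : w (w ψ) = ψ`, `s41l_resB_eq : res_B = w ∘ res_A`,
  `s41l_corB_eq : cor_B = cor_A ∘ w`.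
-/
import Fermat.Agent.Lib.S41.LVFam

set_option autoImplicit false
set_option linter.unusedSectionVars false
set_option linter.style.haveILetI false

noncomputable section

namespace Fermat.Agent.Lib.S41

open CongruenceSubgroup Fermat.Agent.Lib.ES Fermat.Agent.Lib.S29 ModularCurve.Period
open scoped MatrixGroups

local notation "Mat2" => Matrix (Fin 2) (Fin 2) ℤ

/-! ### Scalar matrices -/

section Scalar

/-- `ℓ • X = ℓ • Y → X = Y` for `ℓ ≠ 0`. -/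
theorem s41l_smul_cancel {c : ℤ} (hc : c ≠ 0) {X Y : Mat2} (h : c • X = c • Y) : X = Y :=
  smul_right_injective _ hc h

/-- the scalar matrix `c`. -/
def s41l_z (c : ℤ) : Mat2 := c • (1 : Mat2)

theorem s41l_z_mul (c : ℤ) (m : Mat2) : s41l_z c * m = c • m := by
  rw [s41l_z, Matrix.smul_mul, Matrix.one_mul]

theorem s41l_mul_z (c : ℤ) (m : Mat2) : m * s41l_z c = c • m := by
  rw [s41l_z, Matrix.mul_smul, Matrix.mul_one]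

theorem s41l_z_comm (c : ℤ) (m : Mat2) : s41l_z c * m = m * s41l_z c := by
  rw [s41l_z_mul, s41l_mul_z]

theorem s41l_z_cancel {c : ℤ} (hc : c ≠ 0) (a b : Mat2) (h : s41l_z c * a = s41l_z c * b) :
    a = b := by
  rw [s41l_z_mul, s41l_z_mul] at h
  exact s41l_smul_cancel hc h

end Scalar

section W

variable (M ℓ : ℕ) [hℓ : Fact ℓ.Prime] (hℓM : ¬ ℓ ∣ M)

/-- `γ_W ∈ Γ₀(M ℓ)` with `W² = ℓ γ_W`. -/
def s41l_gW : Gamma0 (M * ℓ) :=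
  s41l_mk (M * ℓ) ((ℓ : ℤ) * s41l_t M ℓ hℓM ^ 2 - s41l_s M ℓ hℓM * M)
    (-s41l_s M ℓ hℓM * (s41l_t M ℓ hℓM + 1)) ((ℓ : ℤ) * M * (s41l_t M ℓ hℓM + 1))
    ((ℓ : ℤ) - M * s41l_s M ℓ hℓM)
    (by
      have hst := s41l_st M ℓ hℓM
      linear_combination (s41l_s M ℓ hℓM * M + s41l_t M ℓ hℓM * ℓ + 1) * hst)
    (by
      rw [Nat.cast_mul]
      exact ⟨s41l_t M ℓ hℓM + 1, by ring⟩)

theorem s41l_W_sq : s41l_W M ℓ hℓM * s41l_W M ℓ hℓM =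
    (ℓ : ℤ) • s41l_i (M * ℓ) (s41l_gW M ℓ hℓM) := by
  have hst := s41l_st M ℓ hℓM
  rw [s41l_gW, s41l_i_mk, s41l_W]
  ext i j
  fin_cases i <;> fin_cases j <;>
    simp [Matrix.mul_apply, Fin.sum_univ_two] <;> ring

/-- `c_W ∘ c_W` is the conjugation by `γ_W`. -/
theorem s41l_cW_cW (γ : Gamma0 (M * ℓ)) : s41l_cW M ℓ hℓM (s41l_cW M ℓ hℓM γ) =
    s41l_gW M ℓ hℓM * γ * (s41l_gW M ℓ hℓM)⁻¹ := by
  have h1 := s41l_cW_spec M ℓ hℓM γ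
  have h2 := s41l_cW_spec M ℓ hℓM (s41l_cW M ℓ hℓM γ)
  have h3 : s41l_W M ℓ hℓM * s41l_W M ℓ hℓM * s41l_i (M * ℓ) γ =
      s41l_i (M * ℓ) (s41l_cW M ℓ hℓM (s41l_cW M ℓ hℓM γ)) *
        (s41l_W M ℓ hℓM * s41l_W M ℓ hℓM) := by
    rw [Matrix.mul_assoc, h1, ← Matrix.mul_assoc, h2, Matrix.mul_assoc]
  rw [s41l_W_sq, Matrix.smul_mul, Matrix.mul_smul, ← map_mul, ← map_mul] at h3
  have h4 := s41l_i_injective (M * ℓ) (s41l_smul_cancel (s41l_l_ne_zero ℓ) h3)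
  rw [h4, mul_inv_cancel_right]

/-- `c_W γ_W = γ_W`. -/
theorem s41l_cW_gW : s41l_cW M ℓ hℓM (s41l_gW M ℓ hℓM) = s41l_gW M ℓ hℓM := by
  refine (s41l_famW M ℓ hℓM).unitHom_eq _ _ ?_
  show s41l_W M ℓ hℓM * s41l_i (M * ℓ) (s41l_gW M ℓ hℓM) =
    s41l_i (M * ℓ) (s41l_gW M ℓ hℓM) * s41l_W M ℓ hℓM
  apply s41l_smul_cancel (s41l_l_ne_zero ℓ)
  rw [← Matrix.mul_smul, ← Matrix.smul_mul, ← s41l_W_sq, Matrix.mul_assoc]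

/-- **`κ_W = c_W` as an automorphism of `Γ₀(M ℓ)`.** -/
def s41l_kW : Gamma0 (M * ℓ) ≃* Gamma0 (M * ℓ) where
  toFun := s41l_cW M ℓ hℓM
  invFun h := (s41l_gW M ℓ hℓM)⁻¹ * s41l_cW M ℓ hℓM h * s41l_gW M ℓ hℓM
  left_inv γ := by
    show (s41l_gW M ℓ hℓM)⁻¹ * s41l_cW M ℓ hℓM (s41l_cW M ℓ hℓM γ) * s41l_gW M ℓ hℓM = γ
    rw [s41l_cW_cW]
    group
  right_inv h := by
    show s41l_cW M ℓ hℓM ((s41l_gW M ℓ hℓM)⁻¹ * s41l_cW M ℓ hℓM h * s41l_gW M ℓ hℓM) = h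
    rw [map_mul, map_mul, map_inv, s41l_cW_gW, s41l_cW_cW]
    group
  map_mul' := map_mul _

theorem s41l_kW_apply (γ : Gamma0 (M * ℓ)) : s41l_kW M ℓ hℓM γ = s41l_cW M ℓ hℓM γ := rfl

theorem s41l_kW_toMonoidHom : (s41l_kW M ℓ hℓM).toMonoidHom = s41l_cW M ℓ hℓM := rfl

theorem s41l_kW_kW (γ : Gamma0 (M * ℓ)) :
    ∃ γ₀ : Gamma0 (M * ℓ), s41l_kW M ℓ hℓM (s41l_kW M ℓ hℓM γ) = γ₀ * γ * γ₀⁻¹ :=
  ⟨s41l_gW M ℓ hℓM, s41l_cW_cW M ℓ hℓM γ⟩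

variable {A : Type*} [AddCommGroup A]

/-- `w ψ = ψ ∘ κ_W`. -/
theorem s41l_w_eq_comp (ψ : Additive (Gamma0 (M * ℓ)) →+ A) :
    s41l_w M ℓ hℓM A ψ = ψ.comp (MonoidHom.toAdditive (s41l_kW M ℓ hℓM).toMonoidHom) := by
  refine AddMonoidHom.ext fun γ => ?_
  exact s41l_w_apply M ℓ hℓM ψ (Additive.toMul γ)

/-- **(iii) `w ∘ w = id`.** -/
theorem s41l_w_w (ψ : Additive (Gamma0 (M * ℓ)) →+ A) :
    s41l_w M ℓ hℓM A (s41l_w M ℓ hℓM A ψ) = ψ := by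
  refine AddMonoidHom.ext fun γ => ?_
  have key : ∀ g : Gamma0 (M * ℓ), s41l_w M ℓ hℓM A (s41l_w M ℓ hℓM A ψ) (Additive.ofMul g) =
      ψ (Additive.ofMul g) := by
    intro g
    rw [s41l_w_apply, s41l_w_apply, s41l_cW_cW, ofMul_mul, ofMul_mul, map_add, map_add,
      ofMul_inv, map_neg]
    abel
  exact key (Additive.toMul γ)

end W

/-! ### (iii): `res_B = w ∘ res_A`, `cor_B = cor_A ∘ w` -/

section Three

variable (M ℓ : ℕ) [hℓ : Fact ℓ.Prime] (hℓM : ¬ ℓ ∣ M)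

theorem s41l_rA_dvd (x : OnePoint (ZMod ℓ)) : (M : ℤ) ∣ (s41l_rA M ℓ hℓM x) 1 0 := by
  induction x using OnePoint.rec with
  | infty => rw [s41l_rA_infty]; simp
  | coe j => rw [s41l_rA_coe]; simp

/-- `r_x` as an element of `Γ₀(M)`. -/
def s41l_rhoA (x : OnePoint (ZMod ℓ)) : Gamma0 M :=
  s41l_mk M ((s41l_rA M ℓ hℓM x) 0 0) ((s41l_rA M ℓ hℓM x) 0 1) ((s41l_rA M ℓ hℓM x) 1 0)
    ((s41l_rA M ℓ hℓM x) 1 1)
    (by have h := s41l_rA_det M ℓ hℓM x; rwa [Matrix.det_fin_two] at h) (s41l_rA_dvd M ℓ hℓM x)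

theorem s41l_i_rhoA (x : OnePoint (ZMod ℓ)) :
    s41l_i M (s41l_rhoA M ℓ hℓM x) = s41l_rA M ℓ hℓM x := by
  rw [s41l_rhoA, s41l_i_mk]
  exact (Matrix.eta_fin_two _).symm

theorem s41l_i_incl (γ : Gamma0 (M * ℓ)) :
    s41l_i M (s41l_incl M ℓ γ) = s41l_i (M * ℓ) γ := by
  rw [s41l_i_apply, s41l_i_apply, s41l_incl_coe]

/-- `W = r_∞ δ`. -/
theorem s41l_W_eq : s41l_W M ℓ hℓM = s41l_rA M ℓ hℓM OnePoint.infty * heckeDiagZ ℓ := by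
  rw [s41l_W, s41l_rA_infty, heckeDiagZ, s41l_eq_mul_lit]
  refine ⟨?_, ?_, ?_, ?_⟩ <;> simp [mul_comm]

/-- `r_∞ c_δ(γ) = c_W(γ) r_∞` in `Γ₀(M)`. -/
theorem s41l_rho_cdelta (γ : Gamma0 (M * ℓ)) :
    s41l_rhoA M ℓ hℓM OnePoint.infty * s41l_cdelta M ℓ hℓM γ =
      s41l_incl M ℓ (s41l_cW M ℓ hℓM γ) * s41l_rhoA M ℓ hℓM OnePoint.infty := by
  apply s41l_i_injective M
  have hδ : (heckeDiagZ ℓ).det ≠ 0 := by rw [det_heckeDiagZ]; exact s41l_l_ne_zero ℓ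
  refine s29h_mul_right_cancel hδ ?_
  rw [map_mul, map_mul, s41l_i_rhoA, s41l_i_incl, Matrix.mul_assoc, ← s41l_cdelta_spec,
    ← Matrix.mul_assoc, ← s41l_W_eq, s41l_cW_spec, Matrix.mul_assoc, ← s41l_W_eq]

variable {A : Type*} [AddCommGroup A]

/-- **(iii) `res_B = w ∘ res_A`.** -/
theorem s41l_resB_eq (φ : Additive (Gamma0 M) →+ A) :
    s41l_resB M ℓ hℓM A φ = s41l_w M ℓ hℓM A (s41l_resA M ℓ A φ) := by
  refine AddMonoidHom.ext fun γ => ?_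
  have key : ∀ g : Gamma0 (M * ℓ), s41l_resB M ℓ hℓM A φ (Additive.ofMul g) =
      s41l_w M ℓ hℓM A (s41l_resA M ℓ A φ) (Additive.ofMul g) := by
    intro g
    rw [s41l_resB_apply, s41l_w_apply, s41l_resA_apply]
    have h := congrArg (fun x => φ (Additive.ofMul x)) (s41l_rho_cdelta M ℓ hℓM g)
    simp only [ofMul_mul, map_add] at h
    rw [add_comm] at h
    exact add_right_cancel h
  exact key (Additive.toMul γ)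

/-- the cosets `Γ₀(M ℓ) W r_x` are pairwise distinct. -/
theorem s41l_W_rA_inj (x x' : OnePoint (ZMod ℓ)) (h : Gamma0 (M * ℓ))
    (hx : s41l_W M ℓ hℓM * s41l_rA M ℓ hℓM x =
      s41l_i (M * ℓ) h * (s41l_W M ℓ hℓM * s41l_rA M ℓ hℓM x')) : x = x' := by
  have h1 : s41l_W M ℓ hℓM * s41l_W M ℓ hℓM * s41l_rA M ℓ hℓM x =
      s41l_i (M * ℓ) (s41l_cW M ℓ hℓM h) * (s41l_W M ℓ hℓM * s41l_W M ℓ hℓM) *
        s41l_rA M ℓ hℓM x' := by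
    rw [Matrix.mul_assoc, hx, ← Matrix.mul_assoc, ← Matrix.mul_assoc, s41l_cW_spec]
    simp only [Matrix.mul_assoc]
  rw [s41l_W_sq, Matrix.smul_mul, Matrix.mul_smul, Matrix.smul_mul] at h1
  have h2 := s41l_smul_cancel (s41l_l_ne_zero ℓ) h1
  refine s41l_rA_inj M ℓ hℓM x x'
    ((s41l_gW M ℓ hℓM)⁻¹ * s41l_cW M ℓ hℓM h * s41l_gW M ℓ hℓM) ?_
  have h3 : s41l_i (M * ℓ) (s41l_gW M ℓ hℓM)⁻¹ *
      (s41l_i (M * ℓ) (s41l_gW M ℓ hℓM) * s41l_rA M ℓ hℓM x) = s41l_rA M ℓ hℓM x := by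
    rw [← Matrix.mul_assoc, ← map_mul, inv_mul_cancel, map_one, Matrix.one_mul]
  rw [← h3, h2, map_mul, map_mul]
  simp only [Matrix.mul_assoc]

/-- **(iii) `cor_B = cor_A ∘ w`.** -/
theorem s41l_corB_eq (ψ : Additive (Gamma0 (M * ℓ)) →+ A) :
    s41l_corB M ℓ hℓM A ψ = s41l_corA M ℓ hℓM A (s41l_w M ℓ hℓM A ψ) := by
  have hinj : ∀ (i i' : Unit) (k k' : OnePoint (ZMod ℓ)) (h : Gamma0 (M * ℓ)),
      (s41l_famW M ℓ hℓM).g i * (s41l_famCorA M ℓ hℓM).g k =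
        s41l_i (M * ℓ) h * ((s41l_famW M ℓ hℓM).g i' * (s41l_famCorA M ℓ hℓM).g k') →
      i = i' ∧ k = k' := fun _ _ k k' h hx => ⟨rfl, s41l_W_rA_inj M ℓ hℓM k k' h hx⟩
  have h1 := s41l_Fam.op_prod (s41l_famW M ℓ hℓM) (s41l_famCorA M ℓ hℓM) hinj (A := A) ψ
  have h2 : (s41l_famCorB M ℓ hℓM).op A =
      ((s41l_famW M ℓ hℓM).prod (s41l_famCorA M ℓ hℓM) hinj).op A := by
    refine s41l_Fam.op_eq_of_cosets _ _ 1 (fun m => by rw [one_mul, mul_one])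
      (fun a b hab => by rwa [one_mul, one_mul] at hab) (by simp) ?_
    rintro ⟨⟨⟩, x⟩
    obtain ⟨j, γ', hj⟩ := (s41l_famCorB M ℓ hℓM).stable OnePoint.infty (s41l_rhoA M ℓ hℓM x)
    refine ⟨j, γ'⁻¹, ?_⟩
    have hj' : s41l_W M ℓ hℓM * s41l_rA M ℓ hℓM x =
        s41l_i (M * ℓ) γ' * (s41l_famCorB M ℓ hℓM).g j := by
      rw [← s41l_i_rhoA]
      exact hj
    show 1 * (s41l_famCorB M ℓ hℓM).g j =
      s41l_i (M * ℓ) γ'⁻¹ * (s41l_W M ℓ hℓM * s41l_rA M ℓ hℓM x)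
    rw [hj', ← Matrix.mul_assoc, ← map_mul, inv_mul_cancel, map_one]
  show (s41l_famCorB M ℓ hℓM).op A ψ = _
  rw [h2, h1]
  rfl

end Three

/-! ### `W` in `GL₂(ℚ)` -/

section WQ

variable (M ℓ : ℕ) [hℓ : Fact ℓ.Prime] (hℓM : ¬ ℓ ∣ M)

open Matrix.SpecialLinearGroup in
/-- `W` as an element of `GL₂(ℚ)`. -/
def s41l_WQ : GL (Fin 2) ℚ :=
  Matrix.GeneralLinearGroup.mkOfDetNeZero ((s41l_W M ℓ hℓM).map (Int.castRingHom ℚ)) (by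
    have h := (Int.castRingHom ℚ).map_det (s41l_W M ℓ hℓM)
    rw [RingHom.mapMatrix_apply] at h
    rw [← h, s41l_W_det]
    simpa using hℓ.out.ne_zero)

theorem s41l_WQ_coe : ((s41l_WQ M ℓ hℓM : GL (Fin 2) ℚ) : Matrix (Fin 2) (Fin 2) ℚ) =
    (s41l_W M ℓ hℓM).map (Int.castRingHom ℚ) := rfl

open Matrix.SpecialLinearGroup in
/-- **`W_ℚ γ = κ_W(γ) W_ℚ` in `GL₂(ℚ)`.** -/
theorem s41l_WQ_spec (γ : Gamma0 (M * ℓ)) :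
    s41l_WQ M ℓ hℓM * mapGL ℚ ((γ : Gamma0 (M * ℓ)) : SL(2, ℤ)) =
      mapGL ℚ ((s41l_kW M ℓ hℓM γ : Gamma0 (M * ℓ)) : SL(2, ℤ)) * s41l_WQ M ℓ hℓM := by
  apply Units.ext
  rw [Units.val_mul, Units.val_mul]
  show (s41l_W M ℓ hℓM).map (Int.castRingHom ℚ) *
      (((γ : Gamma0 (M * ℓ)) : SL(2, ℤ)) : Mat2).map (Int.castRingHom ℚ) =
    (((s41l_kW M ℓ hℓM γ : Gamma0 (M * ℓ)) : SL(2, ℤ)) : Mat2).map (Int.castRingHom ℚ) *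
      (s41l_W M ℓ hℓM).map (Int.castRingHom ℚ)
  rw [← Matrix.map_mul, ← Matrix.map_mul]
  exact congrArg (fun X : Mat2 => X.map (Int.castRingHom ℚ)) (s41l_cW_spec M ℓ hℓM γ)

end WQ

end Fermat.Agent.Lib.S41
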