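/-
S41 project, module [LV] (level maps on `Hom(Γ, A)`), part 5 (helper8): the identities

* **(ii)** `s41l_corA_resB : cor_A (res_B φ) = T_ℓ φ`, `s41l_corB_resA : cor_B (res_A φ) = T_ℓ φ`
  (`T_ℓ = s29h_heckeHom M ℓ A`);
* **(i)** `s41l_corA_resA : cor_A (res_A φ) = (ℓ + 1) • φ`, `s41l_corB_resB : cor_B (res_B φ) = (ℓ + 1) • φ`;
* **(iv)** `s41l_resA_corB : res_A (cor_B ψ) = U ψ + w ψ`.
-/
import Fermat.Agent.Lib.S41.LVOps

set_option autoImplicit false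
set_option linter.unusedSectionVars false
set_option linter.style.haveILetI false

noncomputable section

namespace Fermat.Agent.Lib.S41

open CongruenceSubgroup Fermat.Agent.Lib.ES Fermat.Agent.Lib.S29 ModularCurve.Period
open scoped MatrixGroups

local notation "Mat2" => Matrix (Fin 2) (Fin 2) ℤ

/-! ### An abstract lemma: transfer after restriction -/

namespace s41l_Fam

variable {𝕄 : Type*} [Monoid 𝕄] {G₁ G₂ : Type*} [Group G₁] [Group G₂]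
  {i₁ : G₁ →* 𝕄} {i₂ : G₂ →* 𝕄} {ι : Type*} [Fintype ι] {A : Type*} [AddCommGroup A]

/-- If `d h = c(h) d` (`h ∈ G₁`, `c : G₁ → G₂`) and `d g_x = z ρ_x` with `ρ_x ∈ G₂` and `z` central
and cancellable, then `F.op (φ ∘ c) = |ι| • φ`. -/
theorem op_comp_hom (F : s41l_Fam i₁ i₂ ι) (c : G₁ →* G₂) (d z : 𝕄)
    (hz : ∀ m : 𝕄, z * m = m * z) (hzc : ∀ a b : 𝕄, z * a = z * b → a = b)
    (hi₂ : Function.Injective i₂) (hd : ∀ h : G₁, d * i₁ h = i₂ (c h) * d) (ρ : ι → G₂)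
    (hρ : ∀ x, d * F.g x = z * i₂ (ρ x)) (φ : Additive G₂ →+ A) :
    F.op A (φ.comp (MonoidHom.toAdditive c)) = Fintype.card ι • φ := by
  refine AddMonoidHom.ext fun γ => ?_
  obtain ⟨γ, rfl⟩ := Additive.ofMul.surjective γ
  have key : ∀ x, ρ x * γ = c (F.fam γ x) * ρ (F.perm γ x) := by
    intro x
    apply hi₂
    apply hzc
    rw [map_mul, map_mul, ← mul_assoc, ← hρ, mul_assoc, F.spec γ x, ← mul_assoc, hd, mul_assoc,
      hρ, ← mul_assoc, ← hz, mul_assoc]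
  have key2 : ∀ x, φ (Additive.ofMul (c (F.fam γ x))) =
      φ (Additive.ofMul (ρ x)) + φ (Additive.ofMul γ) - φ (Additive.ofMul (ρ (F.perm γ x))) := by
    intro x
    have h := congrArg (fun y => φ (Additive.ofMul y)) (key x)
    simp only [ofMul_mul, map_add] at h
    rw [h]
    abel
  rw [F.op_apply]
  have h1 : ∀ x, (φ.comp (MonoidHom.toAdditive c)) (Additive.ofMul (F.fam γ x)) =
      φ (Additive.ofMul (c (F.fam γ x))) := fun x => rfl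
  simp only [h1, key2]
  rw [Finset.sum_sub_distrib, Finset.sum_add_distrib]
  have h2 : ∑ x, φ (Additive.ofMul (ρ (F.perm γ x))) = ∑ x, φ (Additive.ofMul (ρ x)) :=
    Equiv.sum_comp (F.permEquiv γ) (fun x => φ (Additive.ofMul (ρ x)))
  rw [h2, Finset.sum_const, Finset.card_univ, AddMonoidHom.nsmul_apply]
  abel

end s41l_Fam

section Ids

variable (M ℓ : ℕ) [hℓ : Fact ℓ.Prime] (hℓM : ¬ ℓ ∣ M) {A : Type*} [AddCommGroup A]

theorem s41l_card_onePoint : Fintype.card (OnePoint (ZMod ℓ)) = ℓ + 1 := by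
  haveI : NeZero ℓ := ⟨hℓ.out.ne_zero⟩
  have h : Fintype.card (OnePoint (ZMod ℓ)) = Fintype.card (Option (ZMod ℓ)) :=
    Fintype.card_congr (Equiv.refl _)
  rw [h, Fintype.card_option, ZMod.card]

theorem s41l_resA_eq_comp (φ : Additive (Gamma0 M) →+ A) :
    s41l_resA M ℓ A φ = φ.comp (MonoidHom.toAdditive (s41l_incl M ℓ)) := by
  refine AddMonoidHom.ext fun γ => ?_
  exact s41l_resA_apply M ℓ φ (Additive.toMul γ)

theorem s41l_resB_eq_comp (φ : Additive (Gamma0 M) →+ A) :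
    s41l_resB M ℓ hℓM A φ = φ.comp (MonoidHom.toAdditive (s41l_cdelta M ℓ hℓM)) := by
  refine AddMonoidHom.ext fun γ => ?_
  exact s41l_resB_apply M ℓ hℓM φ (Additive.toMul γ)

/-- **(i) `cor_A ∘ res_A = ℓ + 1`.** -/
theorem s41l_corA_resA (φ : Additive (Gamma0 M) →+ A) :
    s41l_corA M ℓ hℓM A (s41l_resA M ℓ A φ) = (ℓ + 1) • φ := by
  rw [s41l_resA_eq_comp, ← s41l_card_onePoint ℓ]
  refine (s41l_famCorA M ℓ hℓM).op_comp_hom (s41l_incl M ℓ) 1 1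
    (fun m => by rw [one_mul, mul_one]) (fun a b hab => by rwa [one_mul, one_mul] at hab)
    (s41l_i_injective M) (fun h => ?_) (s41l_rhoA M ℓ hℓM) (fun x => ?_) φ
  · rw [one_mul, mul_one, s41l_i_incl]
  · rw [one_mul, one_mul, s41l_i_rhoA]
    rfl

/-- `ρ'_x ∈ Γ₀(M)` with `δ g_x = ℓ ρ'_x`. -/
def s41l_rhoB (x : OnePoint (ZMod ℓ)) : Gamma0 M :=
  x.elim (s41l_mk M ((ℓ : ℤ) * s41l_t M ℓ hℓM) (-s41l_s M ℓ hℓM) (M : ℤ) 1
      (by have := s41l_st M ℓ hℓM; linear_combination this) (dvd_refl (M : ℤ)))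
    (fun j => s41l_mk M 1 (j.val : ℤ) 0 1 (by ring) (dvd_zero (M : ℤ)))

theorem s41l_rhoB_infty : s41l_i M (s41l_rhoB M ℓ hℓM OnePoint.infty) =
    !![(ℓ : ℤ) * s41l_t M ℓ hℓM, -s41l_s M ℓ hℓM; (M : ℤ), 1] := rfl

theorem s41l_rhoB_coe (j : ZMod ℓ) :
    s41l_i M (s41l_rhoB M ℓ hℓM ((j : ZMod ℓ) : OnePoint (ZMod ℓ))) =
      !![1, (j.val : ℤ); 0, 1] := rfl

theorem s41l_delta_rB (x : OnePoint (ZMod ℓ)) :
    heckeDiagZ ℓ * s41l_rB M ℓ hℓM x = s41l_z ℓ * s41l_i M (s41l_rhoB M ℓ hℓM x) := by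
  rw [s41l_z_mul]
  induction x using OnePoint.rec with
  | infty =>
    rw [s41l_rhoB_infty, s41l_rB_infty, s41l_W, heckeDiagZ]
    ext i j
    fin_cases i <;> fin_cases j <;>
      simp [Matrix.mul_apply, Fin.sum_univ_two]
  | coe j =>
    rw [s41l_rhoB_coe, s41l_rB_coe, heckeDiagZ]
    ext i k
    fin_cases i <;> fin_cases k <;>
      simp [Matrix.mul_apply, Fin.sum_univ_two]

/-- **(i) `cor_B ∘ res_B = ℓ + 1`.** -/
theorem s41l_corB_resB (φ : Additive (Gamma0 M) →+ A) :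
    s41l_corB M ℓ hℓM A (s41l_resB M ℓ hℓM A φ) = (ℓ + 1) • φ := by
  rw [s41l_resB_eq_comp, ← s41l_card_onePoint ℓ]
  exact (s41l_famCorB M ℓ hℓM).op_comp_hom (s41l_cdelta M ℓ hℓM) (heckeDiagZ ℓ) (s41l_z ℓ)
    (s41l_z_comm _) (s41l_z_cancel (s41l_l_ne_zero ℓ))
    (s41l_i_injective M) (s41l_cdelta_spec M ℓ hℓM) (s41l_rhoB M ℓ hℓM)
    (s41l_delta_rB M ℓ hℓM) φ

/-! ### (ii) -/

theorem s41l_delta_mul_bot (m : Mat2) :
    (heckeDiagZ ℓ * m) 1 0 = m 1 0 ∧ (heckeDiagZ ℓ * m) 1 1 = m 1 1 := by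
  simp [heckeDiagZ, Matrix.mul_apply, Fin.sum_univ_two]

/-- the cosets `Γ₀(M) δ r_x` are pairwise distinct. -/
theorem s41l_delta_rA_inj (x x' : OnePoint (ZMod ℓ)) (h : Gamma0 M)
    (hx : heckeDiagZ ℓ * s41l_rA M ℓ hℓM x =
      s41l_i M h * (heckeDiagZ ℓ * s41l_rA M ℓ hℓM x')) : x = x' := by
  have hc := s41l_cross_bot (s41l_i M h) (heckeDiagZ ℓ * s41l_rA M ℓ hℓM x')
  rw [← hx, (s41l_delta_mul_bot ℓ _).1, (s41l_delta_mul_bot ℓ _).2, (s41l_delta_mul_bot ℓ _).1,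
    (s41l_delta_mul_bot ℓ _).2, Matrix.det_mul, det_heckeDiagZ, s41l_rA_det, mul_one] at hc
  exact s41l_rA_inj_of_dvd M ℓ hℓM x x' ⟨(s41l_i M h) 1 0, by rw [hc]; ring⟩

/-- **(ii) `cor_A ∘ res_B = T_ℓ`.** -/
theorem s41l_corA_resB (φ : Additive (Gamma0 M) →+ A) :
    s41l_corA M ℓ hℓM A (s41l_resB M ℓ hℓM A φ) = s29h_heckeHom M ℓ A φ := by
  have hinj : ∀ (i i' : Unit) (k k' : OnePoint (ZMod ℓ)) (h : Gamma0 M),
      (s41l_famResB M ℓ hℓM).g i * (s41l_famCorA M ℓ hℓM).g k =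
        s41l_i M h * ((s41l_famResB M ℓ hℓM).g i' * (s41l_famCorA M ℓ hℓM).g k') →
      i = i' ∧ k = k' := fun _ _ k k' h hx => ⟨rfl, s41l_delta_rA_inj M ℓ hℓM k k' h hx⟩
  have h1 := s41l_Fam.op_prod (s41l_famResB M ℓ hℓM) (s41l_famCorA M ℓ hℓM) hinj (A := A) φ
  have h2 : (s41l_famT M ℓ hℓM).op A =
      ((s41l_famResB M ℓ hℓM).prod (s41l_famCorA M ℓ hℓM) hinj).op A := by
    refine s41l_Fam.op_eq_of_cosets _ _ 1 (fun m => by rw [one_mul, mul_one])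
      (fun a b hab => by rwa [one_mul, one_mul] at hab) (by simp) ?_
    rintro ⟨⟨⟩, x⟩
    obtain ⟨j, γ', hj⟩ := (s41l_famT M ℓ hℓM).stable OnePoint.infty (s41l_rhoA M ℓ hℓM x)
    refine ⟨j, γ'⁻¹, ?_⟩
    have hj' : heckeDiagZ ℓ * s41l_rA M ℓ hℓM x = s41l_i M γ' * (s41l_famT M ℓ hℓM).g j := by
      rw [← s41l_i_rhoA]
      exact hj
    show 1 * (s41l_famT M ℓ hℓM).g j = s41l_i M γ'⁻¹ * (heckeDiagZ ℓ * s41l_rA M ℓ hℓM x)
    rw [hj', ← Matrix.mul_assoc, ← map_mul, inv_mul_cancel, map_one]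
  rw [← s41l_famT_op M ℓ hℓM A, h2, h1]
  rfl

theorem s41l_rB_dvd (x : OnePoint (ZMod ℓ)) : (M : ℤ) ∣ (s41l_rB M ℓ hℓM x) 1 0 := by
  induction x using OnePoint.rec with
  | infty => rw [s41l_rB_infty, s41l_W]; simp
  | coe j => rw [s41l_rB_coe]; simp

/-- **(ii) `cor_B ∘ res_A = T_ℓ`.** -/
theorem s41l_corB_resA (φ : Additive (Gamma0 M) →+ A) :
    s41l_corB M ℓ hℓM A (s41l_resA M ℓ A φ) = s29h_heckeHom M ℓ A φ := by
  have hinj : ∀ (i i' : Unit) (k k' : OnePoint (ZMod ℓ)) (h : Gamma0 M),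
      (s41l_famResA M ℓ).g i * (s41l_famCorB M ℓ hℓM).g k =
        s41l_i M h * ((s41l_famResA M ℓ).g i' * (s41l_famCorB M ℓ hℓM).g k') →
      i = i' ∧ k = k' := by
    intro _ _ k k' h hx
    refine ⟨rfl, s41l_rB_inj M ℓ hℓM k k' h ?_⟩
    have hx' : (1 : Mat2) * s41l_rB M ℓ hℓM k = s41l_i M h * (1 * s41l_rB M ℓ hℓM k') := hx
    rwa [Matrix.one_mul, Matrix.one_mul] at hx'
  have h1 := s41l_Fam.op_prod (s41l_famResA M ℓ) (s41l_famCorB M ℓ hℓM) hinj (A := A) φ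
  have h2 : (s41l_famT M ℓ hℓM).op A =
      ((s41l_famResA M ℓ).prod (s41l_famCorB M ℓ hℓM) hinj).op A := by
    refine s41l_Fam.op_eq_of_cosets _ _ 1 (fun m => by rw [one_mul, mul_one])
      (fun a b hab => by rwa [one_mul, one_mul] at hab) (by simp) ?_
    rintro ⟨⟨⟩, x⟩
    obtain ⟨y, h', hy⟩ := s41l_dec_T M ℓ hℓM (s41l_rB M ℓ hℓM x) (s41l_rB_det M ℓ hℓM x)
      (s41l_rB_dvd M ℓ hℓM x)
    refine ⟨y, h'⁻¹, ?_⟩
    show 1 * heckeRepZ ℓ y = s41l_i M h'⁻¹ * (1 * s41l_rB M ℓ hℓM x)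
    rw [Matrix.one_mul, Matrix.one_mul, hy, ← Matrix.mul_assoc, ← map_mul, inv_mul_cancel,
      map_one, Matrix.one_mul]
  rw [← s41l_famT_op M ℓ hℓM A, h2, h1]
  rfl

/-! ### (iv) -/

/-- **(iv) `res_A ∘ cor_B = U_ℓ + w`.** -/
theorem s41l_resA_corB (ψ : Additive (Gamma0 (M * ℓ)) →+ A) :
    s41l_resA M ℓ A (s41l_corB M ℓ hℓM A ψ) = s41l_U M ℓ A ψ + s41l_w M ℓ hℓM A ψ := by
  have hinj : ∀ (k k' : OnePoint (ZMod ℓ)) (i i' : Unit) (h : Gamma0 (M * ℓ)),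
      (s41l_famCorB M ℓ hℓM).g k * (s41l_famResA M ℓ).g i =
        s41l_i (M * ℓ) h * ((s41l_famCorB M ℓ hℓM).g k' * (s41l_famResA M ℓ).g i') →
      k = k' ∧ i = i' := by
    intro k k' _ _ h hx
    refine ⟨s41l_rB_inj M ℓ hℓM k k' h ?_, rfl⟩
    have hx' : s41l_rB M ℓ hℓM k * (1 : Mat2) =
      s41l_i (M * ℓ) h * (s41l_rB M ℓ hℓM k' * 1) := hx
    rwa [Matrix.mul_one, Matrix.mul_one] at hx'
  have h1 := s41l_Fam.op_prod (s41l_famCorB M ℓ hℓM) (s41l_famResA M ℓ) hinj (A := A) ψ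
  show (s41l_famResA M ℓ).op A ((s41l_famCorB M ℓ hℓM).op A ψ) = _
  rw [← h1]
  refine AddMonoidHom.ext fun γ => ?_
  obtain ⟨γ, rfl⟩ := Additive.ofMul.surjective γ
  rw [AddMonoidHom.add_apply, s41l_U_apply, s41l_w_apply]
  -- an explicit coset system for the product family
  let σ : OnePoint (ZMod ℓ) × Unit → OnePoint (ZMod ℓ) × Unit := fun p =>
    (p.1.elim OnePoint.infty (fun j => (((s41l_famU M ℓ).perm γ j : ZMod ℓ) : OnePoint (ZMod ℓ))),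
      ())
  let γ' : OnePoint (ZMod ℓ) × Unit → Gamma0 (M * ℓ) := fun p =>
    p.1.elim (s41l_cW M ℓ hℓM γ) (fun j => (s41l_famU M ℓ).fam γ j)
  rw [((s41l_famCorB M ℓ hℓM).prod (s41l_famResA M ℓ) hinj).op_apply_of_family ψ γ σ γ' ?_]
  · rw [Fintype.sum_prod_type]
    simp only [Finset.univ_unique, Finset.sum_singleton]
    have hsum : ∀ f : OnePoint (ZMod ℓ) → A,
        ∑ x : OnePoint (ZMod ℓ), f x = f OnePoint.infty + ∑ j : ZMod ℓ, f (j : OnePoint (ZMod ℓ)) :=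
      fun f => Fintype.sum_option f
    rw [hsum, add_comm]
    rfl
  · rintro ⟨x, ⟨⟩⟩
    induction x using OnePoint.rec with
    | infty =>
      show s41l_W M ℓ hℓM * 1 * s41l_i (M * ℓ) γ =
        s41l_i (M * ℓ) (s41l_cW M ℓ hℓM γ) * (s41l_W M ℓ hℓM * 1)
      rw [Matrix.mul_one, s41l_cW_spec]
    | coe j =>
      show heckeMatZ ℓ j.val * 1 * s41l_i (M * ℓ) γ =
        s41l_i (M * ℓ) ((s41l_famU M ℓ).fam γ j) * (heckeMatZ ℓ ((s41l_famU M ℓ).perm γ j).val * 1)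
      rw [Matrix.mul_one, Matrix.mul_one]
      exact (s41l_famU M ℓ).spec γ j

end Ids

end Fermat.Agent.Lib.S41
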