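/-
S41 project, module [LV], part 6 (helper8): the transfer `cor_A` in `SL(2, ℤ)`-form, in the exact
shapes consumed by `Lib/S41/CAdj.lean` (`s41c_corPot_isPotential`, `s41c_sum_triP_cor`):
representatives `g x := (s41l_rhoA M ℓ hℓM x : SL(2, ℤ)) ∈ Γ₀(M)`, `Γ₀(M) = ⊔_x Γ₀(M ℓ) g_x`.
-/
import Fermat.Agent.Lib.S41.LVIds

set_option autoImplicit false
set_option linter.unusedSectionVars false
set_option linter.style.haveILetI false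

noncomputable section

namespace Fermat.Agent.Lib.S41

open CongruenceSubgroup Fermat.Agent.Lib.ES Fermat.Agent.Lib.S29 ModularCurve.Period
open scoped MatrixGroups

local notation "Mat2" => Matrix (Fin 2) (Fin 2) ℤ

section SL

variable (M ℓ : ℕ) [hℓ : Fact ℓ.Prime] (hℓM : ¬ ℓ ∣ M)

/-- `Γ₀(M ℓ) ≤ Γ₀(M)`. -/
theorem s41l_Gamma0_le : Gamma0 (M * ℓ) ≤ Gamma0 M := by
  intro γ hγ
  have h1 : ((s41l_incl M ℓ ⟨γ, hγ⟩ : Gamma0 M) : SL(2, ℤ)) = γ := s41l_incl_coe M ℓ ⟨γ, hγ⟩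
  rw [← h1]
  exact (s41l_incl M ℓ ⟨γ, hγ⟩).2

/-- the representatives of `Γ₀(M ℓ) \ Γ₀(M)` in `SL(2, ℤ)`. -/
def s41l_gA (x : OnePoint (ZMod ℓ)) : SL(2, ℤ) := ((s41l_rhoA M ℓ hℓM x : Gamma0 M) : SL(2, ℤ))

theorem s41l_gA_mem (x : OnePoint (ZMod ℓ)) : s41l_gA M ℓ hℓM x ∈ Gamma0 M :=
  (s41l_rhoA M ℓ hℓM x).2

theorem s41l_gA_coe (x : OnePoint (ZMod ℓ)) :
    ((s41l_gA M ℓ hℓM x : SL(2, ℤ)) : Mat2) = s41l_rA M ℓ hℓM x := s41l_i_rhoA M ℓ hℓM x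

/-- the coset rule in `SL(2, ℤ)`. -/
theorem s41l_gA_spec (γ : Gamma0 M) (x : OnePoint (ZMod ℓ)) :
    s41l_gA M ℓ hℓM x * (γ : SL(2, ℤ)) =
      (((s41l_famCorA M ℓ hℓM).fam γ x : Gamma0 (M * ℓ)) : SL(2, ℤ)) *
        s41l_gA M ℓ hℓM ((s41l_famCorA M ℓ hℓM).perm γ x) := by
  apply Subtype.ext
  rw [Matrix.SpecialLinearGroup.coe_mul, Matrix.SpecialLinearGroup.coe_mul, s41l_gA_coe,
    s41l_gA_coe]
  exact (s41l_famCorA M ℓ hℓM).spec γ x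

theorem s41l_gA_perm_bijective (γ : Gamma0 M) :
    Function.Bijective ((s41l_famCorA M ℓ hℓM).perm γ) :=
  ((s41l_famCorA M ℓ hℓM).permEquiv γ).bijective

/-- the cosets `Γ₀(M ℓ) g_x` are pairwise distinct. -/
theorem s41l_gA_inj (x x' : OnePoint (ZMod ℓ))
    (h : s41l_gA M ℓ hℓM x' * (s41l_gA M ℓ hℓM x)⁻¹ ∈ Gamma0 (M * ℓ)) : x = x' := by
  refine (s41l_rA_inj M ℓ hℓM x' x ⟨_, h⟩ ?_).symm
  rw [← s41l_gA_coe, ← s41l_gA_coe]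
  show ((s41l_gA M ℓ hℓM x' : SL(2, ℤ)) : Mat2) =
    ((s41l_gA M ℓ hℓM x' * (s41l_gA M ℓ hℓM x)⁻¹ : SL(2, ℤ)) : Mat2) *
      ((s41l_gA M ℓ hℓM x : SL(2, ℤ)) : Mat2)
  rw [← Matrix.SpecialLinearGroup.coe_mul, inv_mul_cancel_right]

/-- the cosets `Γ₀(M ℓ) g_x` cover `Γ₀(M)`. -/
theorem s41l_gA_cov (γ : SL(2, ℤ)) (hγ : γ ∈ Gamma0 M) :
    ∃ x, γ * (s41l_gA M ℓ hℓM x)⁻¹ ∈ Gamma0 (M * ℓ) := by
  obtain ⟨x, h, hx⟩ := s41l_dec_A M ℓ hℓM (γ : Mat2) γ.det_coe (s41l_dvd_c ⟨γ, hγ⟩)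
  refine ⟨x, ?_⟩
  have h1 : γ = (h : SL(2, ℤ)) * s41l_gA M ℓ hℓM x := by
    apply Subtype.ext
    rw [Matrix.SpecialLinearGroup.coe_mul, s41l_gA_coe]
    exact hx
  rw [h1, mul_inv_cancel_right]
  exact h.2

variable {A : Type*} [AddCommGroup A]

/-- `cor_A` through the `SL(2, ℤ)`-coset system. -/
theorem s41l_corA_apply' (ψ : Additive (Gamma0 (M * ℓ)) →+ A) (γ : Gamma0 M) :
    s41l_corA M ℓ hℓM A ψ (Additive.ofMul γ) =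
      ∑ x : OnePoint (ZMod ℓ), ψ (Additive.ofMul ((s41l_famCorA M ℓ hℓM).fam γ x)) := rfl

theorem s41l_incl_eq_inclusion :
    s41l_incl M ℓ = Subgroup.inclusion (s41l_Gamma0_le M ℓ) := by
  refine MonoidHom.ext fun γ => Subtype.ext ?_
  rw [s41l_incl_coe]
  rfl

/-- `res_A` is the composition with `Subgroup.inclusion`. -/
theorem s41l_resA_eq_inclusion (φ : Additive (Gamma0 M) →+ A) :
    s41l_resA M ℓ A φ =
      φ.comp (MonoidHom.toAdditive (Subgroup.inclusion (s41l_Gamma0_le M ℓ))) := by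
  rw [s41l_resA_eq_comp, s41l_incl_eq_inclusion]

end SL

end Fermat.Agent.Lib.S41
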