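/-
S41 project, module [G] (helper9, work order of helper5): **adjointness** of the level maps and of
`T_ℓ` for the Poincaré pairing `B_N := s41c_pairing (Gamma0 N)` on `H(N, 𝔽_p) = s29h_Hp N p`,
from the LIFTING HYPOTHESIS `s41g_Lift` (= (DIM), `s41b_lift`).

Setting: `Γ = Γ₀(M) ≥ Γ' = Γ₀(M ℓ)`, `ℓ ∤ M` prime, `p` an odd prime, operators of helper8
(`s41l_resA/resB/corA/corB/w`).  `c := s41g_sign M ℓ hℓM = ±1` (an integer; the similitude factor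
of the Atkin–Lehner involution `w`).

* `s41g_adjA_int`, `s41g_adjA` : `B_{Mℓ}(res_A x, y) = B_M(x, cor_A y)`;
* `s41g_adjW` : `B_{Mℓ}(w y, w y') = c · B_{Mℓ}(y, y')`;
* `s41g_adjB` : `B_{Mℓ}(res_B x, y) = c · B_M(x, cor_B y)`;
* `s41g_adjT` : `B_M(T_ℓ x, x') = c · B_M(x, T_ℓ x')`;
* `s41g_skew` : `B(x', x) = - B(x, x')`;
* `s41g_adj`  : the four statements with one existentially quantified `c : ZMod p`, `c = ±1`.
-/
import Mathlib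
import Fermat.Agent.Lib.S41.CAdj
import Fermat.Agent.Lib.S41.CSim
import Fermat.Agent.Lib.S41.LVSL
import Fermat.Agent.Lib.S29.DSLattice

set_option autoImplicit false
set_option linter.unusedSectionVars false
set_option linter.style.haveILetI false

open Matrix MatrixGroups OnePoint ModularCurve.Period CongruenceSubgroup

namespace Fermat.Agent.Lib.S41

open Fermat.Agent.Lib.S29

/-- **The lifting hypothesis (DIM)**: every class of `H(M, 𝔽_p)` is the reduction of a class of the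
lattice `H(M, ℤ)`. -/
def s41g_Lift (M p : ℕ) : Prop :=
  ∀ x ∈ s29h_Hp M p, ∃ χ ∈ s29s_M M, s29s_cast (ZMod p) χ = x

theorem s41g_neg_one_mem (N : ℕ) : (-1 : SL(2, ℤ)) ∈ Gamma0 N := by
  rw [Gamma0_mem]
  simp

theorem s41g_cast_eq_bc {N : ℕ} (R : Type*) [CommRing R] (χ : Additive (Gamma0 N) →+ ℤ) :
    s29s_cast R χ = s41k_bc (Int.castRingHom R) χ := rfl

theorem s41g_inH_of_mem {N : ℕ} {A : Type*} [AddCommGroup A] (R : Type*) [Semiring R] [Module R A]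
    {φ : Additive (Gamma0 N) →+ A} (hφ : φ ∈ s29h_Hpar R N A) : s41k_InH (Gamma0 N) φ := hφ

theorem s41g_two_regular (p : ℕ) [hp : Fact p.Prime] (hp2 : p ≠ 2) :
    ∀ r : ZMod p, 2 * r = 0 → r = 0 := by
  intro r hr
  rcases mul_eq_zero.mp hr with h | h
  · exfalso
    have h2 : ((2 : ℕ) : ZMod p) = 0 := by exact_mod_cast h
    rw [ZMod.natCast_eq_zero_iff] at h2
    exact hp2 ((Nat.prime_dvd_prime_iff_eq hp.out Nat.prime_two).mp h2)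
  · exact h

/-- The pairing is skew-symmetric (no hypothesis). -/
theorem s41g_skew {Γ : Subgroup SL(2, ℤ)} {R : Type*} [CommRing R] (φ ψ : Additive Γ →+ R) :
    s41c_pairing Γ ψ φ = - s41c_pairing Γ φ ψ := by
  unfold s41c_pairing s41c_pairP
  rw [← finsum_neg_distrib]
  refine finsum_congr fun o => ?_
  unfold s41c_triP s41c_cup
  ring

section Adj

variable (M ℓ : ℕ) [NeZero M] [hℓ : Fact ℓ.Prime] (hℓM : ¬ ℓ ∣ M)

theorem s41g_neZero_mul : NeZero (M * ℓ) := ⟨Nat.mul_ne_zero (NeZero.ne M) hℓ.out.ne_zero⟩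

/-- **(adjA) over `ℤ`.** -/
theorem s41g_adjA_int (φ : Additive (Gamma0 M) →+ ℤ) (hφ : φ ∈ s29s_M M)
    (ψ : Additive (Gamma0 (M * ℓ)) →+ ℤ) (hψ : ψ ∈ s29s_M (M * ℓ)) :
    s41c_pairing (Gamma0 (M * ℓ)) (s41l_resA M ℓ ℤ φ) ψ =
      s41c_pairing (Gamma0 M) φ (s41l_corA M ℓ hℓM ℤ ψ) := by
  haveI : NeZero (M * ℓ) := s41g_neZero_mul M ℓ
  haveI : Fintype (SL(2, ℤ) ⧸ Gamma0 M) := Fintype.ofFinite _
  haveI : Fintype (SL(2, ℤ) ⧸ Gamma0 (M * ℓ)) := Fintype.ofFinite _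
  have hneg := s41g_neg_one_mem M
  have hneg' := s41g_neg_one_mem (M * ℓ)
  have h2 : ∀ r : ℤ, 2 * r = 0 → r = 0 := fun r hr => by omega
  have hle := s41l_Gamma0_le M ℓ
  have hP := s41c_potential_spec (Γ := Gamma0 M) hφ.1
  have hQ := s41c_potential_spec (Γ := Gamma0 (M * ℓ)) hψ.1
  -- the transferred potential
  have hcorQ : s41c_IsPotential (Gamma0 M) (s41l_corA M ℓ hℓM ℤ ψ)
      (s41c_corPot (s41l_gA M ℓ hℓM) (s41c_potential (Gamma0 (M * ℓ)) ψ)) :=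
    s41c_corPot_isPotential (s41l_gA M ℓ hℓM) (s41l_famCorA M ℓ hℓM).perm
      (s41l_gA_perm_bijective M ℓ hℓM) (s41l_famCorA M ℓ hℓM).fam (s41l_gA_spec M ℓ hℓM) hQ _
      (fun γ => s41l_corA_apply' M ℓ hℓM ψ γ)
  -- the restricted potential
  have hP' : s41c_IsPotential (Gamma0 (M * ℓ)) (s41l_resA M ℓ ℤ φ)
      (s41c_potential (Gamma0 M) φ) := by
    rw [s41l_resA_eq_inclusion]
    exact s41c_isPotential_of_le hle hP
  have hres : s41l_resA M ℓ ℤ φ ∈ s29h_Hpar ℤ (M * ℓ) ℤ := s41l_resA_mem_Hpar M ℓ ℤ hφ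
  have hcor : s41l_corA M ℓ hℓM ℤ ψ ∈ s29h_Hpar ℤ M ℤ := s41l_corA_mem_Hpar M ℓ hℓM ℤ hψ
  have e1 := s41k_sum_triP hneg hP hcorQ
  have e2 := s41k_sum_triP hneg' hP' hQ
  have e3 := s41c_sum_triP_cor hle (s41l_gA M ℓ hℓM) (s41l_gA_mem M ℓ hℓM)
    (s41l_gA_inj M ℓ hℓM) (s41l_gA_cov M ℓ hℓM) hP hQ
  rw [s41k_pairing_eq hneg' h2 hP' hQ hres.1 hψ.1 hres.2 hψ.2,
    s41k_pairing_eq hneg h2 hP hcorQ hφ.1 hcor.1 hφ.2 hcor.2]
  rw [e1, e2] at e3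
  omega

variable (p : ℕ) [hp : Fact p.Prime]

theorem s41g_resA_cast (χ : Additive (Gamma0 M) →+ ℤ) :
    s41l_resA M ℓ (ZMod p) (s29s_cast (ZMod p) χ) = s29s_cast (ZMod p) (s41l_resA M ℓ ℤ χ) :=
  (s41l_famResA M ℓ).op_natural (Int.castAddHom (ZMod p)) χ

theorem s41g_corA_cast (η : Additive (Gamma0 (M * ℓ)) →+ ℤ) :
    s41l_corA M ℓ hℓM (ZMod p) (s29s_cast (ZMod p) η) =
      s29s_cast (ZMod p) (s41l_corA M ℓ hℓM ℤ η) :=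
  (s41l_famCorA M ℓ hℓM).op_natural (Int.castAddHom (ZMod p)) η

/-- the pairing of two reductions is the reduction of the pairing. -/
theorem s41g_pairing_cast (N : ℕ) [NeZero N] (hp2 : p ≠ 2) {χ η : Additive (Gamma0 N) →+ ℤ}
    (hχ : χ ∈ s29s_M N) (hη : η ∈ s29s_M N) :
    s41c_pairing (Gamma0 N) (s29s_cast (ZMod p) χ) (s29s_cast (ZMod p) η) =
      ((s41c_pairing (Gamma0 N) χ η : ℤ) : ZMod p) := by
  haveI : Fintype (SL(2, ℤ) ⧸ Gamma0 N) := Fintype.ofFinite _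
  rw [s41g_cast_eq_bc, s41g_cast_eq_bc,
    s41k_pairing_bc (Int.castRingHom (ZMod p)) (s41g_neg_one_mem N) (s41g_two_regular p hp2)
      hχ hη]
  rfl

/-- **(adjA)**: `B_{Mℓ}(res_A x, y) = B_M(x, cor_A y)`. -/
theorem s41g_adjA (hp2 : p ≠ 2) (hLM : s41g_Lift M p) (hLMl : s41g_Lift (M * ℓ) p)
    (x : Additive (Gamma0 M) →+ ZMod p) (hx : x ∈ s29h_Hp M p)
    (y : Additive (Gamma0 (M * ℓ)) →+ ZMod p) (hy : y ∈ s29h_Hp (M * ℓ) p) :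
    s41c_pairing (Gamma0 (M * ℓ)) (s41l_resA M ℓ (ZMod p) x) y =
      s41c_pairing (Gamma0 M) x (s41l_corA M ℓ hℓM (ZMod p) y) := by
  haveI : NeZero (M * ℓ) := s41g_neZero_mul M ℓ
  obtain ⟨χ, hχ, rfl⟩ := hLM x hx
  obtain ⟨η, hη, rfl⟩ := hLMl y hy
  have hres : s41l_resA M ℓ ℤ χ ∈ s29h_Hpar ℤ (M * ℓ) ℤ := s41l_resA_mem_Hpar M ℓ ℤ hχ
  have hcor : s41l_corA M ℓ hℓM ℤ η ∈ s29h_Hpar ℤ M ℤ := s41l_corA_mem_Hpar M ℓ hℓM ℤ hη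
  rw [s41g_resA_cast, s41g_corA_cast, s41g_pairing_cast p (M * ℓ) hp2 hres hη,
    s41g_pairing_cast p M hp2 hχ hcor, s41g_adjA_int M ℓ hℓM χ hχ η hη]

/-! ### The Atkin–Lehner involution -/

theorem s41g_similitude_exists :
    ∃ c : ℤ, (c = 1 ∨ c = -1) ∧ ∀ (R : Type) [CommRing R], (∀ r : R, 2 * r = 0 → r = 0) →
      ∀ φ ψ : Additive (Gamma0 (M * ℓ)) →+ ℤ, s41k_InH (Gamma0 (M * ℓ)) φ →
        s41k_InH (Gamma0 (M * ℓ)) ψ →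
      s41c_pairing (Gamma0 (M * ℓ))
          (s41k_twist (s41l_kW M ℓ hℓM).toMonoidHom (s41k_bc (Int.castRingHom R) φ))
          (s41k_twist (s41l_kW M ℓ hℓM).toMonoidHom (s41k_bc (Int.castRingHom R) ψ)) =
        (c : R) * s41c_pairing (Gamma0 (M * ℓ)) (s41k_bc (Int.castRingHom R) φ)
          (s41k_bc (Int.castRingHom R) ψ) := by
  haveI : NeZero (M * ℓ) := s41g_neZero_mul M ℓ
  haveI : Fintype (SL(2, ℤ) ⧸ Gamma0 (M * ℓ)) := Fintype.ofFinite _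
  exact s41k_similitude_lift (s41g_neg_one_mem (M * ℓ)) (s41l_kW M ℓ hℓM)
    (s41l_WQ_spec M ℓ hℓM) (s41l_kW_kW M ℓ hℓM)

/-- **The similitude sign `c = ±1` of `w`** (an integer, the same for all coefficient rings). -/
noncomputable def s41g_sign : ℤ := Classical.choose (s41g_similitude_exists M ℓ hℓM)

theorem s41g_sign_eq : s41g_sign M ℓ hℓM = 1 ∨ s41g_sign M ℓ hℓM = -1 :=
  (Classical.choose_spec (s41g_similitude_exists M ℓ hℓM)).1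

theorem s41g_sign_cast_eq (R : Type*) [Ring R] :
    ((s41g_sign M ℓ hℓM : ℤ) : R) = 1 ∨ ((s41g_sign M ℓ hℓM : ℤ) : R) = -1 := by
  rcases s41g_sign_eq M ℓ hℓM with h | h
  · left; rw [h]; simp
  · right; rw [h]; simp

theorem s41g_sign_mul_self (R : Type*) [Ring R] :
    ((s41g_sign M ℓ hℓM : ℤ) : R) * ((s41g_sign M ℓ hℓM : ℤ) : R) = 1 := by
  rcases s41g_sign_cast_eq M ℓ hℓM R with h | h <;> rw [h] <;> simp

theorem s41g_w_eq_twist {A : Type*} [AddCommGroup A] (ψ : Additive (Gamma0 (M * ℓ)) →+ A) :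
    s41l_w M ℓ hℓM A ψ = s41k_twist (s41l_kW M ℓ hℓM).toMonoidHom ψ :=
  s41l_w_eq_comp M ℓ hℓM ψ

/-- **(adjW)**: `B_{Mℓ}(w y, w y') = c · B_{Mℓ}(y, y')`. -/
theorem s41g_adjW (hp2 : p ≠ 2) (hLMl : s41g_Lift (M * ℓ) p)
    (y : Additive (Gamma0 (M * ℓ)) →+ ZMod p) (hy : y ∈ s29h_Hp (M * ℓ) p)
    (y' : Additive (Gamma0 (M * ℓ)) →+ ZMod p) (hy' : y' ∈ s29h_Hp (M * ℓ) p) :
    s41c_pairing (Gamma0 (M * ℓ)) (s41l_w M ℓ hℓM (ZMod p) y) (s41l_w M ℓ hℓM (ZMod p) y') =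
      ((s41g_sign M ℓ hℓM : ℤ) : ZMod p) * s41c_pairing (Gamma0 (M * ℓ)) y y' := by
  obtain ⟨η, hη, rfl⟩ := hLMl y hy
  obtain ⟨η', hη', rfl⟩ := hLMl y' hy'
  rw [s41g_w_eq_twist, s41g_w_eq_twist, s41g_cast_eq_bc, s41g_cast_eq_bc]
  exact (Classical.choose_spec (s41g_similitude_exists M ℓ hℓM)).2 (ZMod p)
    (s41g_two_regular p hp2) η η' hη hη'

/-- **(adjB)**: `B_{Mℓ}(res_B x, y) = c · B_M(x, cor_B y)`. -/
theorem s41g_adjB (hp2 : p ≠ 2) (hLM : s41g_Lift M p) (hLMl : s41g_Lift (M * ℓ) p)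
    (x : Additive (Gamma0 M) →+ ZMod p) (hx : x ∈ s29h_Hp M p)
    (y : Additive (Gamma0 (M * ℓ)) →+ ZMod p) (hy : y ∈ s29h_Hp (M * ℓ) p) :
    s41c_pairing (Gamma0 (M * ℓ)) (s41l_resB M ℓ hℓM (ZMod p) x) y =
      ((s41g_sign M ℓ hℓM : ℤ) : ZMod p) *
        s41c_pairing (Gamma0 M) x (s41l_corB M ℓ hℓM (ZMod p) y) := by
  have hres : s41l_resA M ℓ (ZMod p) x ∈ s29h_Hp (M * ℓ) p := s41l_resA_mem_Hpar M ℓ (ZMod p) hx
  have hwy : s41l_w M ℓ hℓM (ZMod p) y ∈ s29h_Hp (M * ℓ) p :=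
    s41l_w_mem_Hpar M ℓ hℓM (ZMod p) hy
  have h1 := s41g_adjW M ℓ hℓM p hp2 hLMl _ hres _ hwy
  rw [s41l_w_w] at h1
  rw [s41l_resB_eq, h1, s41g_adjA M ℓ hℓM p hp2 hLM hLMl x hx _ hwy, s41l_corB_eq]

/-- **(adjT)**: `B_M(T_ℓ x, x') = c · B_M(x, T_ℓ x')`. -/
theorem s41g_adjT (hp2 : p ≠ 2) (hLM : s41g_Lift M p) (hLMl : s41g_Lift (M * ℓ) p)
    (x : Additive (Gamma0 M) →+ ZMod p) (hx : x ∈ s29h_Hp M p)
    (x' : Additive (Gamma0 M) →+ ZMod p) (hx' : x' ∈ s29h_Hp M p) :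
    s41c_pairing (Gamma0 M) (s29h_heckeHom M ℓ (ZMod p) x) x' =
      ((s41g_sign M ℓ hℓM : ℤ) : ZMod p) *
        s41c_pairing (Gamma0 M) x (s29h_heckeHom M ℓ (ZMod p) x') := by
  have hresB : s41l_resB M ℓ hℓM (ZMod p) x ∈ s29h_Hp (M * ℓ) p :=
    s41l_resB_mem_Hpar M ℓ hℓM (ZMod p) hx
  have hresA' : s41l_resA M ℓ (ZMod p) x' ∈ s29h_Hp (M * ℓ) p :=
    s41l_resA_mem_Hpar M ℓ (ZMod p) hx'
  have h1 := s41g_adjA M ℓ hℓM p hp2 hLM hLMl x' hx' _ hresB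
  have h2 := s41g_adjB M ℓ hℓM p hp2 hLM hLMl x hx _ hresA'
  rw [s41l_corA_resB] at h1
  rw [s41l_corB_resA] at h2
  rw [s41g_skew x' (s29h_heckeHom M ℓ (ZMod p) x), ← h1,
    s41g_skew (s41l_resB M ℓ hℓM (ZMod p) x) (s41l_resA M ℓ (ZMod p) x'), neg_neg, h2]

/-- **[G] adjointness package**: one sign `c = ±1` in `𝔽_p` for (adjW), (adjB), (adjT). -/
theorem s41g_adj (hp2 : p ≠ 2) (hLM : s41g_Lift M p) (hLMl : s41g_Lift (M * ℓ) p) :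
    ∃ c : ZMod p, (c = 1 ∨ c = -1) ∧
      (∀ y ∈ s29h_Hp (M * ℓ) p, ∀ y' ∈ s29h_Hp (M * ℓ) p,
        s41c_pairing (Gamma0 (M * ℓ)) (s41l_w M ℓ hℓM (ZMod p) y) (s41l_w M ℓ hℓM (ZMod p) y') =
          c * s41c_pairing (Gamma0 (M * ℓ)) y y') ∧
      (∀ x ∈ s29h_Hp M p, ∀ y ∈ s29h_Hp (M * ℓ) p,
        s41c_pairing (Gamma0 (M * ℓ)) (s41l_resB M ℓ hℓM (ZMod p) x) y =
          c * s41c_pairing (Gamma0 M) x (s41l_corB M ℓ hℓM (ZMod p) y)) ∧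
      (∀ x ∈ s29h_Hp M p, ∀ x' ∈ s29h_Hp M p,
        s41c_pairing (Gamma0 M) (s29h_heckeHom M ℓ (ZMod p) x) x' =
          c * s41c_pairing (Gamma0 M) x (s29h_heckeHom M ℓ (ZMod p) x')) :=
  ⟨((s41g_sign M ℓ hℓM : ℤ) : ZMod p), s41g_sign_cast_eq M ℓ hℓM (ZMod p),
    fun y hy y' hy' => s41g_adjW M ℓ hℓM p hp2 hLMl y hy y' hy',
    fun x hx y hy => s41g_adjB M ℓ hℓM p hp2 hLM hLMl x hx y hy,
    fun x hx x' hx' => s41g_adjT M ℓ hℓM p hp2 hLM hLMl x hx x' hx'⟩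

end Adj

end Fermat.Agent.Lib.S41
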