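/-
S41 project, package [G] (glue), part G2 (helper2): DUALITY.

Finite-dimensional linear algebra, Mathlib only.  For (left-)nondegenerate bilinear forms `B` on `V`,
`B'` on `V'` and an adjoint pair `f : V' → V`, `g : V → V'` (`B (f z) x = B' z (g x)`):
* `s41g_range_of_orth` : `v ⊥ ker g` (i.e. `B v n = 0` for all `n ∈ ker g`) ⇒ `v ∈ range f`;
* `s41g_sub_smul_mem_range` : if moreover `T, T'` are adjoint for `B` and `T' = s` on `ker g`, then
  `T a - s • a ∈ range f` for every `a`.
-/
import Mathlib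

set_option autoImplicit false

namespace Fermat.Agent.Lib.S41

/-- a left-separating bilinear form on a finite-dimensional space represents every functional
on the right: `lam = B · n`. -/
theorem s41g_exists_repr_right {F : Type*} [Field F] {V : Type*} [AddCommGroup V] [Module F V]
    [FiniteDimensional F V] (B : V →ₗ[F] V →ₗ[F] F) (hB : ∀ v, (∀ x, B v x = 0) → v = 0)
    (lam : V →ₗ[F] F) : ∃ n : V, ∀ a, B a n = lam a := by
  have hnd : LinearMap.BilinForm.Nondegenerate B :=
    LinearMap.BilinForm.Nondegenerate.ofSeparatingLeft hB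
  have hfl : LinearMap.BilinForm.Nondegenerate (LinearMap.flip B) :=
    LinearMap.BilinForm.Nondegenerate.flip hnd
  refine ⟨(LinearMap.BilinForm.toDual (LinearMap.flip B) hfl).symm lam, fun a => ?_⟩
  have := LinearMap.BilinForm.apply_toDual_symm_apply (B := LinearMap.flip B) (hB := hfl) lam a
  rwa [LinearMap.flip_apply] at this

/-- a left-separating bilinear form on a finite-dimensional space is right-separating. -/
theorem s41g_sep_right {F : Type*} [Field F] {V : Type*} [AddCommGroup V] [Module F V]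
    [FiniteDimensional F V] (B : V →ₗ[F] V →ₗ[F] F) (hB : ∀ v, (∀ x, B v x = 0) → v = 0)
    (y : V) (hy : ∀ z, B z y = 0) : y = 0 := by
  have hnd : LinearMap.BilinForm.Nondegenerate B :=
    LinearMap.BilinForm.Nondegenerate.ofSeparatingLeft hB
  exact hnd.2 y hy

/-- **G2.** `range f = (ker g)^⊥` for an adjoint pair between nondegenerate forms. -/
theorem s41g_range_of_orth {F : Type*} [Field F] {V V' : Type*} [AddCommGroup V] [Module F V]
    [FiniteDimensional F V] [AddCommGroup V'] [Module F V'] [FiniteDimensional F V']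
    (B : V →ₗ[F] V →ₗ[F] F) (B' : V' →ₗ[F] V' →ₗ[F] F)
    (hB : ∀ v, (∀ x, B v x = 0) → v = 0) (hB' : ∀ z, (∀ y, B' z y = 0) → z = 0)
    (f : V' →ₗ[F] V) (g : V →ₗ[F] V') (hadj : ∀ z x, B (f z) x = B' z (g x))
    (v : V) (hv : ∀ n, g n = 0 → B v n = 0) : v ∈ LinearMap.range f := by
  by_contra hvf
  obtain ⟨lam, hlam, hle⟩ := Submodule.exists_le_ker_of_notMem hvf
  obtain ⟨n, hn⟩ := s41g_exists_repr_right B hB lam
  have hgn : g n = 0 := by
    apply s41g_sep_right B' hB'
    intro z
    rw [← hadj, hn]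
    exact hle (LinearMap.mem_range_self f z)
  apply hlam
  rw [← hn]
  exact hv n hgn

/-- **G2, corollary.** If `T, T'` are adjoint for `B` and `T'` is the scalar `s` on `ker g`, then
`T - s` maps `V` into `range f`. -/
theorem s41g_sub_smul_mem_range {F : Type*} [Field F] {V V' : Type*} [AddCommGroup V] [Module F V]
    [FiniteDimensional F V] [AddCommGroup V'] [Module F V'] [FiniteDimensional F V']
    (B : V →ₗ[F] V →ₗ[F] F) (B' : V' →ₗ[F] V' →ₗ[F] F)
    (hB : ∀ v, (∀ x, B v x = 0) → v = 0) (hB' : ∀ z, (∀ y, B' z y = 0) → z = 0)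
    (f : V' →ₗ[F] V) (g : V →ₗ[F] V') (hadj : ∀ z x, B (f z) x = B' z (g x))
    (T T' : V →ₗ[F] V) (s : F) (hT : ∀ a x, B (T a) x = B a (T' x))
    (hs : ∀ n, g n = 0 → T' n = s • n) (a : V) : T a - s • a ∈ LinearMap.range f := by
  apply s41g_range_of_orth B B' hB hB' f g hadj
  intro n hn
  rw [map_sub, LinearMap.sub_apply, hT, hs n hn, map_smul, map_smul, LinearMap.smul_apply, sub_self]

/-- variant with a similitude factor: `B (T a) x = c * B a (T' x)`, `T' = s` on `ker g` ⇒
`T a - (c * s) • a ∈ range f`. -/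
theorem s41g_sub_smul_mem_range' {F : Type*} [Field F] {V V' : Type*} [AddCommGroup V] [Module F V]
    [FiniteDimensional F V] [AddCommGroup V'] [Module F V'] [FiniteDimensional F V']
    (B : V →ₗ[F] V →ₗ[F] F) (B' : V' →ₗ[F] V' →ₗ[F] F)
    (hB : ∀ v, (∀ x, B v x = 0) → v = 0) (hB' : ∀ z, (∀ y, B' z y = 0) → z = 0)
    (f : V' →ₗ[F] V) (g : V →ₗ[F] V') (hadj : ∀ z x, B (f z) x = B' z (g x))
    (T T' : V →ₗ[F] V) (c s : F) (hT : ∀ a x, B (T a) x = c * B a (T' x))
    (hs : ∀ n, g n = 0 → T' n = s • n) (a : V) : T a - (c * s) • a ∈ LinearMap.range f := by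
  apply s41g_range_of_orth B B' hB hB' f g hadj
  intro n hn
  rw [map_sub, LinearMap.sub_apply, hT, hs n hn, map_smul, map_smul, LinearMap.smul_apply,
    smul_eq_mul, smul_eq_mul, mul_assoc, sub_self]

/-- the adjunction with a similitude factor on the pair `(f, g)`: `B (f z) x = c * B' z (g x)`,
`c ≠ 0`. -/
theorem s41g_range_of_orth' {F : Type*} [Field F] {V V' : Type*} [AddCommGroup V] [Module F V]
    [FiniteDimensional F V] [AddCommGroup V'] [Module F V'] [FiniteDimensional F V']
    (B : V →ₗ[F] V →ₗ[F] F) (B' : V' →ₗ[F] V' →ₗ[F] F)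
    (hB : ∀ v, (∀ x, B v x = 0) → v = 0) (hB' : ∀ z, (∀ y, B' z y = 0) → z = 0)
    (f : V' →ₗ[F] V) (g : V →ₗ[F] V') (c : F) (hc : c ≠ 0)
    (hadj : ∀ z x, B (f z) x = c * B' z (g x))
    (v : V) (hv : ∀ n, g n = 0 → B v n = 0) : v ∈ LinearMap.range f := by
  have h := s41g_range_of_orth B (c • B') hB (fun z hz => hB' z fun y => by
      have := hz y
      rw [LinearMap.smul_apply, LinearMap.smul_apply, smul_eq_mul] at this
      exact (mul_eq_zero.mp this).resolve_left hc) f g (fun z x => by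
      rw [hadj, LinearMap.smul_apply, LinearMap.smul_apply, smul_eq_mul]) v hv
  exact h

end Fermat.Agent.Lib.S41
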