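/-
S41 project, module [LV], part 7 (helper8): **(v)** the six level maps commute with the Hecke
operators `T_ℓ' = s29h_heckeHom · ℓ' A` for primes `ℓ' ∤ M ℓ`.
-/
import Fermat.Agent.Lib.S41.LVIds

set_option autoImplicit false
set_option linter.unusedSectionVars false
set_option linter.style.haveILetI false

noncomputable section

namespace Fermat.Agent.Lib.S41

open CongruenceSubgroup Fermat.Agent.Lib.ES Fermat.Agent.Lib.S29 ModularCurve.Period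
open scoped MatrixGroups

local notation "Mat2" => Matrix (Fin 2) (Fin 2) ℤ

section Comm

variable (M ℓ : ℕ) [hℓ : Fact ℓ.Prime] (hℓM : ¬ ℓ ∣ M)
variable (ℓ' : ℕ) [hℓ' : Fact ℓ'.Prime] (hℓ'M : ¬ ℓ' ∣ M * ℓ)

include hℓ'M in
theorem s41l_not_dvd_left : ¬ ℓ' ∣ M := fun h => hℓ'M (Dvd.dvd.mul_right h ℓ)

include hℓ'M in
theorem s41l_ne_of_not_dvd : ℓ' ≠ ℓ := fun h => hℓ'M (h ▸ Dvd.intro_left M rfl)

/-- `ℓ ∤ (α'_y)₁₁` for the representatives of `T_ℓ'`, `ℓ' ≠ ℓ`. -/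
theorem s41l_not_dvd_alpha (hne : ℓ' ≠ ℓ) (y : OnePoint (ZMod ℓ')) :
    ¬ (ℓ : ℤ) ∣ (heckeRepZ ℓ' y) 1 1 := by
  intro h
  have hdet := det_heckeRepZ ℓ' y
  rw [Matrix.det_fin_two, heckeRepZ_apply_one_zero, mul_zero, sub_zero] at hdet
  have h1 : (ℓ : ℤ) ∣ (ℓ' : ℤ) := hdet ▸ Dvd.dvd.mul_left h _
  have h2 : ℓ ∣ ℓ' := Int.natCast_dvd_natCast.mp h1
  exact hne ((Nat.prime_dvd_prime_iff_eq hℓ.out hℓ'.out).mp h2).symm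

/-- bottom row of `α m` for upper triangular `α`. -/
theorem s41l_upper_mul_bot (α m : Mat2) (hα : α 1 0 = 0) :
    (α * m) 1 0 = α 1 1 * m 1 0 ∧ (α * m) 1 1 = α 1 1 * m 1 1 := by
  obtain ⟨-, -, h10, h11⟩ := s41l_mul_apply α m
  rw [h10, h11, hα]
  constructor <;> ring

variable {A : Type*} [AddCommGroup A]

/-! ### `res_A` -/

include hℓ'M in
/-- **(v) `res_A ∘ T_ℓ' = T_ℓ' ∘ res_A`.** -/
theorem s41l_resA_hecke (φ : Additive (Gamma0 M) →+ A) :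
    s41l_resA M ℓ A (s29h_heckeHom M ℓ' A φ) =
      s29h_heckeHom (M * ℓ) ℓ' A (s41l_resA M ℓ A φ) := by
  have hM := s41l_not_dvd_left M ℓ ℓ' hℓ'M
  have hinj₁ : ∀ (k k' : OnePoint (ZMod ℓ')) (i i' : Unit) (h : Gamma0 M),
      (s41l_famT M ℓ' hM).g k * (s41l_famResA M ℓ).g i =
        s41l_i M h * ((s41l_famT M ℓ' hM).g k' * (s41l_famResA M ℓ).g i') →
      k = k' ∧ i = i' := by
    intro k k' _ _ h hx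
    refine ⟨s41l_alpha_inj ℓ' k k' h ?_, rfl⟩
    have hx' : heckeRepZ ℓ' k * (1 : Mat2) = s41l_i M h * (heckeRepZ ℓ' k' * 1) := hx
    rwa [Matrix.mul_one, Matrix.mul_one] at hx'
  have hinj₂ : ∀ (i i' : Unit) (k k' : OnePoint (ZMod ℓ')) (h : Gamma0 M),
      (s41l_famResA M ℓ).g i * (s41l_famT (M * ℓ) ℓ' hℓ'M).g k =
        s41l_i M h * ((s41l_famResA M ℓ).g i' * (s41l_famT (M * ℓ) ℓ' hℓ'M).g k') →
      i = i' ∧ k = k' := by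
    intro _ _ k k' h hx
    refine ⟨rfl, s41l_alpha_inj ℓ' k k' h ?_⟩
    have hx' : (1 : Mat2) * heckeRepZ ℓ' k = s41l_i M h * (1 * heckeRepZ ℓ' k') := hx
    rwa [Matrix.one_mul, Matrix.one_mul] at hx'
  have h1 := s41l_Fam.op_prod (s41l_famT M ℓ' hM) (s41l_famResA M ℓ) hinj₁ (A := A) φ
  have h2 := s41l_Fam.op_prod (s41l_famResA M ℓ) (s41l_famT (M * ℓ) ℓ' hℓ'M) hinj₂ (A := A) φ
  have h3 : ((s41l_famResA M ℓ).prod (s41l_famT (M * ℓ) ℓ' hℓ'M) hinj₂).op A =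
      ((s41l_famT M ℓ' hM).prod (s41l_famResA M ℓ) hinj₁).op A := by
    refine s41l_Fam.op_eq_of_cosets _ _ 1 (fun m => by rw [one_mul, mul_one])
      (fun a b hab => by rwa [one_mul, one_mul] at hab)
      (by simp [Fintype.card_prod, mul_comm]) ?_
    rintro ⟨y, ⟨⟩⟩
    refine ⟨((), y), 1, ?_⟩
    show 1 * ((1 : Mat2) * heckeRepZ ℓ' y) = s41l_i M 1 * (heckeRepZ ℓ' y * 1)
    rw [map_one, Matrix.one_mul, Matrix.one_mul, Matrix.one_mul, Matrix.mul_one]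
  rw [← s41l_famT_op M ℓ' hM A, ← s41l_famT_op (M * ℓ) ℓ' hℓ'M A]
  show (s41l_famResA M ℓ).op A ((s41l_famT M ℓ' hM).op A φ) =
    (s41l_famT (M * ℓ) ℓ' hℓ'M).op A ((s41l_famResA M ℓ).op A φ)
  rw [← h1, ← h2, h3]

/-! ### `cor_A` -/

/-- the cosets `Γ₀(M ℓ) α'_y r_x` are pairwise distinct. -/
theorem s41l_alpha_rA_inj (hne : ℓ' ≠ ℓ) (y y' : OnePoint (ZMod ℓ')) (x x' : OnePoint (ZMod ℓ))
    (h : Gamma0 (M * ℓ))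
    (hx : heckeRepZ ℓ' y * s41l_rA M ℓ hℓM x =
      s41l_i (M * ℓ) h * (heckeRepZ ℓ' y' * s41l_rA M ℓ hℓM x')) : y = y' ∧ x = x' := by
  have hxx : x = x' := by
    have hc := s41l_cross_bot (s41l_i (M * ℓ) h) (heckeRepZ ℓ' y' * s41l_rA M ℓ hℓM x')
    rw [← hx, (s41l_upper_mul_bot _ _ (heckeRepZ_apply_one_zero ℓ' y)).1,
      (s41l_upper_mul_bot _ _ (heckeRepZ_apply_one_zero ℓ' y)).2,
      (s41l_upper_mul_bot _ _ (heckeRepZ_apply_one_zero ℓ' y')).1,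
      (s41l_upper_mul_bot _ _ (heckeRepZ_apply_one_zero ℓ' y')).2] at hc
    have h1 : (ℓ : ℤ) ∣ (heckeRepZ ℓ' y) 1 1 * ((heckeRepZ ℓ' y') 1 1 *
        ((s41l_rA M ℓ hℓM x) 1 0 * (s41l_rA M ℓ hℓM x') 1 1 -
          (s41l_rA M ℓ hℓM x) 1 1 * (s41l_rA M ℓ hℓM x') 1 0)) := by
      have h2 : (ℓ : ℤ) ∣ (s41l_i (M * ℓ) h) 1 0 *
          (heckeRepZ ℓ' y' * s41l_rA M ℓ hℓM x').det := Dvd.dvd.mul_right (s41l_l_dvd_c M ℓ h) _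
      rw [← hc] at h2
      convert h2 using 1
      ring
    have h3 := ((s41l_prime_int ℓ).dvd_or_dvd h1).resolve_left (s41l_not_dvd_alpha ℓ ℓ' hne y)
    have h4 := ((s41l_prime_int ℓ).dvd_or_dvd h3).resolve_left (s41l_not_dvd_alpha ℓ ℓ' hne y')
    exact s41l_rA_inj_of_dvd M ℓ hℓM x x' h4
  subst hxx
  refine ⟨s41l_alpha_inj ℓ' y y' h ?_, rfl⟩
  refine s29h_mul_right_cancel (M := s41l_rA M ℓ hℓM x)
    (by rw [s41l_rA_det]; exact one_ne_zero) ?_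
  rw [hx, Matrix.mul_assoc]

/-- the cosets `Γ₀(M ℓ) r_x α'_y` are pairwise distinct. -/
theorem s41l_rA_alpha_inj (y y' : OnePoint (ZMod ℓ')) (x x' : OnePoint (ZMod ℓ))
    (h : Gamma0 (M * ℓ))
    (hx : s41l_rA M ℓ hℓM x * heckeRepZ ℓ' y =
      s41l_i (M * ℓ) h * (s41l_rA M ℓ hℓM x' * heckeRepZ ℓ' y')) : x = x' ∧ y = y' := by
  have hyy : y = y' := by
    refine s41l_alpha_inj ℓ' y y'
      ((s41l_rhoA M ℓ hℓM x)⁻¹ * s41l_incl M ℓ h * s41l_rhoA M ℓ hℓM x') ?_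
    calc heckeRepZ ℓ' y
        = s41l_i M (s41l_rhoA M ℓ hℓM x)⁻¹ * (s41l_i M (s41l_rhoA M ℓ hℓM x) * heckeRepZ ℓ' y) := by
          rw [← Matrix.mul_assoc, ← map_mul, inv_mul_cancel, map_one, Matrix.one_mul]
      _ = s41l_i M (s41l_rhoA M ℓ hℓM x)⁻¹ *
            (s41l_i (M * ℓ) h * (s41l_rA M ℓ hℓM x' * heckeRepZ ℓ' y')) := by
          rw [s41l_i_rhoA, hx]
      _ = s41l_i M ((s41l_rhoA M ℓ hℓM x)⁻¹ * s41l_incl M ℓ h * s41l_rhoA M ℓ hℓM x') *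
            heckeRepZ ℓ' y' := by
          rw [map_mul, map_mul, s41l_i_incl, s41l_i_rhoA]
          simp only [Matrix.mul_assoc]
  subst hyy
  refine ⟨s41l_rA_inj M ℓ hℓM x x' h ?_, rfl⟩
  refine s29h_mul_right_cancel (M := heckeRepZ ℓ' y) (s29h_det_heckeRepZ_ne_zero y) ?_
  rw [hx, Matrix.mul_assoc]

include hℓ'M in
/-- **(v) `cor_A ∘ T_ℓ' = T_ℓ' ∘ cor_A`.** -/
theorem s41l_corA_hecke (ψ : Additive (Gamma0 (M * ℓ)) →+ A) :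
    s41l_corA M ℓ hℓM A (s29h_heckeHom (M * ℓ) ℓ' A ψ) =
      s29h_heckeHom M ℓ' A (s41l_corA M ℓ hℓM A ψ) := by
  have hM := s41l_not_dvd_left M ℓ ℓ' hℓ'M
  have hne := s41l_ne_of_not_dvd M ℓ ℓ' hℓ'M
  have hinj₁ : ∀ (k k' : OnePoint (ZMod ℓ')) (i i' : OnePoint (ZMod ℓ)) (h : Gamma0 (M * ℓ)),
      (s41l_famT (M * ℓ) ℓ' hℓ'M).g k * (s41l_famCorA M ℓ hℓM).g i =
        s41l_i (M * ℓ) h * ((s41l_famT (M * ℓ) ℓ' hℓ'M).g k' * (s41l_famCorA M ℓ hℓM).g i') →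
      k = k' ∧ i = i' := fun k k' i i' h hx => s41l_alpha_rA_inj M ℓ hℓM ℓ' hne k k' i i' h hx
  have hinj₂ : ∀ (i i' : OnePoint (ZMod ℓ)) (k k' : OnePoint (ZMod ℓ')) (h : Gamma0 (M * ℓ)),
      (s41l_famCorA M ℓ hℓM).g i * (s41l_famT M ℓ' hM).g k =
        s41l_i (M * ℓ) h * ((s41l_famCorA M ℓ hℓM).g i' * (s41l_famT M ℓ' hM).g k') →
      i = i' ∧ k = k' := fun i i' k k' h hx => s41l_rA_alpha_inj M ℓ hℓM ℓ' k k' i i' h hx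
  have h1 := s41l_Fam.op_prod (s41l_famT (M * ℓ) ℓ' hℓ'M) (s41l_famCorA M ℓ hℓM) hinj₁ (A := A) ψ
  have h2 := s41l_Fam.op_prod (s41l_famCorA M ℓ hℓM) (s41l_famT M ℓ' hM) hinj₂ (A := A) ψ
  have h3 : ((s41l_famCorA M ℓ hℓM).prod (s41l_famT M ℓ' hM) hinj₂).op A =
      ((s41l_famT (M * ℓ) ℓ' hℓ'M).prod (s41l_famCorA M ℓ hℓM) hinj₁).op A := by
    refine s41l_Fam.op_eq_of_cosets _ _ 1 (fun m => by rw [one_mul, mul_one])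
      (fun a b hab => by rwa [one_mul, one_mul] at hab)
      (by simp [Fintype.card_prod, mul_comm]) ?_
    rintro ⟨y, x⟩
    obtain ⟨y₁, γ₁, h₁⟩ := (s41l_famT M ℓ' hM).stable y (s41l_rhoA M ℓ hℓM x)
    obtain ⟨x₂, h₂, hx₂⟩ := s41l_dec_A M ℓ hℓM (s41l_i M γ₁) (γ₁ : SL(2, ℤ)).det_coe
      (s41l_i_dvd γ₁)
    refine ⟨(x₂, y₁), h₂⁻¹, ?_⟩
    have e1 : heckeRepZ ℓ' y * s41l_rA M ℓ hℓM x =
        s41l_i (M * ℓ) h₂ * s41l_rA M ℓ hℓM x₂ * heckeRepZ ℓ' y₁ := by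
      rw [← s41l_i_rhoA, ← hx₂]
      exact h₁
    show 1 * (s41l_rA M ℓ hℓM x₂ * heckeRepZ ℓ' y₁) =
      s41l_i (M * ℓ) h₂⁻¹ * (heckeRepZ ℓ' y * s41l_rA M ℓ hℓM x)
    rw [e1, Matrix.one_mul, ← Matrix.mul_assoc, ← Matrix.mul_assoc, ← map_mul, inv_mul_cancel,
      map_one, Matrix.one_mul]
  rw [← s41l_famT_op M ℓ' hM A, ← s41l_famT_op (M * ℓ) ℓ' hℓ'M A]
  show (s41l_famCorA M ℓ hℓM).op A ((s41l_famT (M * ℓ) ℓ' hℓ'M).op A ψ) =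
    (s41l_famT M ℓ' hM).op A ((s41l_famCorA M ℓ hℓM).op A ψ)
  rw [← h1, ← h2, h3]

/-! ### `w` -/

/-- `W X = h W X'` implies `X = (γ_W⁻¹ c_W(h) γ_W) X'`. -/
theorem s41l_W_mul_cancel (X X' : Mat2) (h : Gamma0 (M * ℓ))
    (hx : s41l_W M ℓ hℓM * X = s41l_i (M * ℓ) h * (s41l_W M ℓ hℓM * X')) :
    X = s41l_i (M * ℓ) ((s41l_gW M ℓ hℓM)⁻¹ * s41l_cW M ℓ hℓM h * s41l_gW M ℓ hℓM) * X' := by
  have h1 : s41l_W M ℓ hℓM * s41l_W M ℓ hℓM * X =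
      s41l_i (M * ℓ) (s41l_cW M ℓ hℓM h) * (s41l_W M ℓ hℓM * s41l_W M ℓ hℓM) * X' := by
    rw [Matrix.mul_assoc, hx, ← Matrix.mul_assoc, ← Matrix.mul_assoc, s41l_cW_spec]
    simp only [Matrix.mul_assoc]
  rw [s41l_W_sq, Matrix.smul_mul, Matrix.mul_smul, Matrix.smul_mul] at h1
  have h2 := s41l_smul_cancel (s41l_l_ne_zero ℓ) h1
  have h3 : s41l_i (M * ℓ) (s41l_gW M ℓ hℓM)⁻¹ * (s41l_i (M * ℓ) (s41l_gW M ℓ hℓM) * X) = X := by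
    rw [← Matrix.mul_assoc, ← map_mul, inv_mul_cancel, map_one, Matrix.one_mul]
  rw [← h3, h2, map_mul, map_mul]
  simp only [Matrix.mul_assoc]

/-- conjugating an upper triangular matrix by `W`. -/
theorem s41l_W_conj (a b d : ℤ) :
    s41l_W M ℓ hℓM *
      !![a * ℓ * s41l_t M ℓ hℓM + b * ℓ * M + s41l_s M ℓ hℓM * d * M,
        s41l_s M ℓ hℓM * (d - a) + b * ℓ;
        (ℓ : ℤ) * M * (s41l_t M ℓ hℓM * (d - a) - b * M),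
        M * a * s41l_s M ℓ hℓM - M * b * ℓ + s41l_t M ℓ hℓM * d * ℓ] =
    !![a, b; 0, d] * s41l_W M ℓ hℓM := by
  have hst := s41l_st M ℓ hℓM
  rw [s41l_W, Matrix.mul_fin_two, Matrix.mul_fin_two]
  have e00 : (ℓ : ℤ) * s41l_t M ℓ hℓM *
      (a * ℓ * s41l_t M ℓ hℓM + b * ℓ * M + s41l_s M ℓ hℓM * d * M) +
      -s41l_s M ℓ hℓM * ((ℓ : ℤ) * M * (s41l_t M ℓ hℓM * (d - a) - b * M)) =
      a * ((ℓ : ℤ) * s41l_t M ℓ hℓM) + b * ((ℓ : ℤ) * M) := by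
    linear_combination (a * ℓ * s41l_t M ℓ hℓM + b * ℓ * M) * hst
  have e01 : (ℓ : ℤ) * s41l_t M ℓ hℓM * (s41l_s M ℓ hℓM * (d - a) + b * ℓ) +
      -s41l_s M ℓ hℓM * (M * a * s41l_s M ℓ hℓM - M * b * ℓ + s41l_t M ℓ hℓM * d * ℓ) =
      a * -s41l_s M ℓ hℓM + b * (ℓ : ℤ) := by
    linear_combination (-s41l_s M ℓ hℓM * a + b * ℓ) * hst
  have e10 : (ℓ : ℤ) * M * (a * ℓ * s41l_t M ℓ hℓM + b * ℓ * M + s41l_s M ℓ hℓM * d * M) +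
      (ℓ : ℤ) * ((ℓ : ℤ) * M * (s41l_t M ℓ hℓM * (d - a) - b * M)) =
      0 * ((ℓ : ℤ) * s41l_t M ℓ hℓM) + d * ((ℓ : ℤ) * M) := by
    linear_combination ((ℓ : ℤ) * M * d) * hst
  have e11 : (ℓ : ℤ) * M * (s41l_s M ℓ hℓM * (d - a) + b * ℓ) +
      (ℓ : ℤ) * (M * a * s41l_s M ℓ hℓM - M * b * ℓ + s41l_t M ℓ hℓM * d * ℓ) =
      0 * -s41l_s M ℓ hℓM + d * (ℓ : ℤ) := by
    linear_combination ((ℓ : ℤ) * d) * hst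
  rw [e00, e01, e10, e11]

include hℓ'M in
/-- **(v) `w ∘ T_ℓ' = T_ℓ' ∘ w`.** -/
theorem s41l_w_hecke (ψ : Additive (Gamma0 (M * ℓ)) →+ A) :
    s41l_w M ℓ hℓM A (s29h_heckeHom (M * ℓ) ℓ' A ψ) =
      s29h_heckeHom (M * ℓ) ℓ' A (s41l_w M ℓ hℓM A ψ) := by
  have hW : (s41l_W M ℓ hℓM).det ≠ 0 := by rw [s41l_W_det]; exact s41l_l_ne_zero ℓ
  have hinj₁ : ∀ (k k' : OnePoint (ZMod ℓ')) (i i' : Unit) (h : Gamma0 (M * ℓ)),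
      (s41l_famT (M * ℓ) ℓ' hℓ'M).g k * (s41l_famW M ℓ hℓM).g i =
        s41l_i (M * ℓ) h * ((s41l_famT (M * ℓ) ℓ' hℓ'M).g k' * (s41l_famW M ℓ hℓM).g i') →
      k = k' ∧ i = i' := by
    intro k k' _ _ h hx
    refine ⟨s41l_alpha_inj ℓ' k k' h ?_, rfl⟩
    refine s29h_mul_right_cancel hW ?_
    rw [Matrix.mul_assoc]
    exact hx
  have hinj₂ : ∀ (i i' : Unit) (k k' : OnePoint (ZMod ℓ')) (h : Gamma0 (M * ℓ)),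
      (s41l_famW M ℓ hℓM).g i * (s41l_famT (M * ℓ) ℓ' hℓ'M).g k =
        s41l_i (M * ℓ) h * ((s41l_famW M ℓ hℓM).g i' * (s41l_famT (M * ℓ) ℓ' hℓ'M).g k') →
      i = i' ∧ k = k' := by
    intro _ _ k k' h hx
    exact ⟨rfl, s41l_alpha_inj ℓ' k k' _ (s41l_W_mul_cancel M ℓ hℓM _ _ h hx)⟩
  have h1 := s41l_Fam.op_prod (s41l_famT (M * ℓ) ℓ' hℓ'M) (s41l_famW M ℓ hℓM) hinj₁ (A := A) ψ
  have h2 := s41l_Fam.op_prod (s41l_famW M ℓ hℓM) (s41l_famT (M * ℓ) ℓ' hℓ'M) hinj₂ (A := A) ψ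
  have h3 : ((s41l_famW M ℓ hℓM).prod (s41l_famT (M * ℓ) ℓ' hℓ'M) hinj₂).op A =
      ((s41l_famT (M * ℓ) ℓ' hℓ'M).prod (s41l_famW M ℓ hℓM) hinj₁).op A := by
    refine s41l_Fam.op_eq_of_cosets _ _ 1 (fun m => by rw [one_mul, mul_one])
      (fun a b hab => by rwa [one_mul, one_mul] at hab)
      (by simp [Fintype.card_prod, mul_comm]) ?_
    rintro ⟨y, ⟨⟩⟩
    -- `α'_y = [[a, b], [0, d]]`
    have hα : heckeRepZ ℓ' y = !![(heckeRepZ ℓ' y) 0 0, (heckeRepZ ℓ' y) 0 1; 0,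
        (heckeRepZ ℓ' y) 1 1] := by
      conv_lhs => rw [Matrix.eta_fin_two (heckeRepZ ℓ' y), heckeRepZ_apply_one_zero]
    have hconj := s41l_W_conj M ℓ hℓM ((heckeRepZ ℓ' y) 0 0) ((heckeRepZ ℓ' y) 0 1)
      ((heckeRepZ ℓ' y) 1 1)
    rw [← hα] at hconj
    set m₁ : Mat2 := !![(heckeRepZ ℓ' y) 0 0 * ℓ * s41l_t M ℓ hℓM + (heckeRepZ ℓ' y) 0 1 * ℓ * M +
          s41l_s M ℓ hℓM * (heckeRepZ ℓ' y) 1 1 * M,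
        s41l_s M ℓ hℓM * ((heckeRepZ ℓ' y) 1 1 - (heckeRepZ ℓ' y) 0 0) + (heckeRepZ ℓ' y) 0 1 * ℓ;
        (ℓ : ℤ) * M * (s41l_t M ℓ hℓM * ((heckeRepZ ℓ' y) 1 1 - (heckeRepZ ℓ' y) 0 0) -
          (heckeRepZ ℓ' y) 0 1 * M),
        M * (heckeRepZ ℓ' y) 0 0 * s41l_s M ℓ hℓM - M * (heckeRepZ ℓ' y) 0 1 * ℓ +
          s41l_t M ℓ hℓM * (heckeRepZ ℓ' y) 1 1 * ℓ] with hm₁
    have hdet : m₁.det = ℓ' := by
      have h := congrArg Matrix.det hconj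
      rw [Matrix.det_mul, Matrix.det_mul, s41l_W_det, det_heckeRepZ, mul_comm] at h
      exact mul_right_cancel₀ (s41l_l_ne_zero ℓ) h
    have hdvd : ((M * ℓ : ℕ) : ℤ) ∣ m₁ 1 0 := by
      have e : m₁ 1 0 = (ℓ : ℤ) * M * (s41l_t M ℓ hℓM *
          ((heckeRepZ ℓ' y) 1 1 - (heckeRepZ ℓ' y) 0 0) - (heckeRepZ ℓ' y) 0 1 * M) := by
        rw [hm₁]
        rfl
      rw [e, Nat.cast_mul]
      exact ⟨s41l_t M ℓ hℓM * ((heckeRepZ ℓ' y) 1 1 - (heckeRepZ ℓ' y) 0 0) -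
        (heckeRepZ ℓ' y) 0 1 * M, by ring⟩
    obtain ⟨y', h₁, hy'⟩ := s41l_dec_T (M * ℓ) ℓ' hℓ'M m₁ hdet hdvd
    refine ⟨((), y'), (s41l_cW M ℓ hℓM h₁)⁻¹, ?_⟩
    show 1 * (s41l_W M ℓ hℓM * heckeRepZ ℓ' y') =
      s41l_i (M * ℓ) (s41l_cW M ℓ hℓM h₁)⁻¹ * (heckeRepZ ℓ' y * s41l_W M ℓ hℓM)
    rw [← hconj, hy', ← Matrix.mul_assoc (s41l_W M ℓ hℓM), s41l_cW_spec, Matrix.one_mul,
      Matrix.mul_assoc, ← Matrix.mul_assoc (s41l_i (M * ℓ) (s41l_cW M ℓ hℓM h₁)⁻¹), ← map_mul,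
      inv_mul_cancel, map_one, Matrix.one_mul]
  rw [← s41l_famT_op (M * ℓ) ℓ' hℓ'M A]
  show (s41l_famW M ℓ hℓM).op A ((s41l_famT (M * ℓ) ℓ' hℓ'M).op A ψ) =
    (s41l_famT (M * ℓ) ℓ' hℓ'M).op A ((s41l_famW M ℓ hℓM).op A ψ)
  rw [← h1, ← h2, h3]

/-! ### `res_B`, `cor_B`, `U_ℓ` -/

include hℓ'M in
/-- **(v) `res_B ∘ T_ℓ' = T_ℓ' ∘ res_B`.** -/
theorem s41l_resB_hecke (φ : Additive (Gamma0 M) →+ A) :
    s41l_resB M ℓ hℓM A (s29h_heckeHom M ℓ' A φ) =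
      s29h_heckeHom (M * ℓ) ℓ' A (s41l_resB M ℓ hℓM A φ) := by
  rw [s41l_resB_eq, s41l_resB_eq, s41l_resA_hecke M ℓ ℓ' hℓ'M, s41l_w_hecke M ℓ hℓM ℓ' hℓ'M]

include hℓ'M in
/-- **(v) `cor_B ∘ T_ℓ' = T_ℓ' ∘ cor_B`.** -/
theorem s41l_corB_hecke (ψ : Additive (Gamma0 (M * ℓ)) →+ A) :
    s41l_corB M ℓ hℓM A (s29h_heckeHom (M * ℓ) ℓ' A ψ) =
      s29h_heckeHom M ℓ' A (s41l_corB M ℓ hℓM A ψ) := by
  rw [s41l_corB_eq, s41l_corB_eq, s41l_w_hecke M ℓ hℓM ℓ' hℓ'M, s41l_corA_hecke M ℓ hℓM ℓ' hℓ'M]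

include hℓ'M hℓM in
/-- **(v) `U_ℓ ∘ T_ℓ' = T_ℓ' ∘ U_ℓ`.** -/
theorem s41l_U_hecke (ψ : Additive (Gamma0 (M * ℓ)) →+ A) :
    s41l_U M ℓ A (s29h_heckeHom (M * ℓ) ℓ' A ψ) =
      s29h_heckeHom (M * ℓ) ℓ' A (s41l_U M ℓ A ψ) := by
  have hU : ∀ χ : Additive (Gamma0 (M * ℓ)) →+ A, s41l_U M ℓ A χ =
      s41l_resA M ℓ A (s41l_corB M ℓ hℓM A χ) - s41l_w M ℓ hℓM A χ := by
    intro χ
    rw [s41l_resA_corB, add_sub_cancel_right]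
  rw [hU, hU, s41l_corB_hecke M ℓ hℓM ℓ' hℓ'M, s41l_resA_hecke M ℓ ℓ' hℓ'M,
    s41l_w_hecke M ℓ hℓM ℓ' hℓ'M, map_sub]

end Comm

end Fermat.Agent.Lib.S41
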