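/-
S41 project, module [LV], part 8 (helper8): `U_ℓ` on the `ℓ`-new part.
On `ker cor_A ∩ ker cor_B`: `U ψ = - w ψ`, `U (w ψ) = - ψ`, hence **`U (U ψ) = ψ`**.
-/
import Fermat.Agent.Lib.S41.LVIds

set_option autoImplicit false
set_option linter.unusedSectionVars false
set_option linter.style.haveILetI false

noncomputable section

namespace Fermat.Agent.Lib.S41

open CongruenceSubgroup Fermat.Agent.Lib.ES Fermat.Agent.Lib.S29 ModularCurve.Period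
open scoped MatrixGroups

section New

variable (M ℓ : ℕ) [hℓ : Fact ℓ.Prime] (hℓM : ¬ ℓ ∣ M) {A : Type*} [AddCommGroup A]

/-- on `ker cor_B`: `U ψ = - w ψ`. -/
theorem s41l_U_eq_neg_w (ψ : Additive (Gamma0 (M * ℓ)) →+ A)
    (hB : s41l_corB M ℓ hℓM A ψ = 0) : s41l_U M ℓ A ψ = -s41l_w M ℓ hℓM A ψ := by
  have h := s41l_resA_corB M ℓ hℓM ψ
  rw [hB, map_zero] at h
  exact eq_neg_of_add_eq_zero_left h.symm

/-- on `ker cor_A`: `U (w ψ) = - ψ`. -/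
theorem s41l_U_w_eq_neg (ψ : Additive (Gamma0 (M * ℓ)) →+ A)
    (hA : s41l_corA M ℓ hℓM A ψ = 0) :
    s41l_U M ℓ A (s41l_w M ℓ hℓM A ψ) = -ψ := by
  have hB : s41l_corB M ℓ hℓM A (s41l_w M ℓ hℓM A ψ) = 0 := by
    rw [s41l_corB_eq, s41l_w_w, hA]
  have h := s41l_U_eq_neg_w M ℓ hℓM _ hB
  rwa [s41l_w_w] at h

/-- **on `ker cor_A ∩ ker cor_B`: `U (U ψ) = ψ`.** -/
theorem s41l_U_U_of_ker (ψ : Additive (Gamma0 (M * ℓ)) →+ A)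
    (hA : s41l_corA M ℓ hℓM A ψ = 0) (hB : s41l_corB M ℓ hℓM A ψ = 0) :
    s41l_U M ℓ A (s41l_U M ℓ A ψ) = ψ := by
  rw [s41l_U_eq_neg_w M ℓ hℓM ψ hB, map_neg, s41l_U_w_eq_neg M ℓ hℓM ψ hA, neg_neg]

/-- `w` preserves `ker cor_A ∩ ker cor_B` (it swaps the two kernels). -/
theorem s41l_corA_w (ψ : Additive (Gamma0 (M * ℓ)) →+ A) :
    s41l_corA M ℓ hℓM A (s41l_w M ℓ hℓM A ψ) = s41l_corB M ℓ hℓM A ψ :=
  (s41l_corB_eq M ℓ hℓM ψ).symm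

theorem s41l_corB_w (ψ : Additive (Gamma0 (M * ℓ)) →+ A) :
    s41l_corB M ℓ hℓM A (s41l_w M ℓ hℓM A ψ) = s41l_corA M ℓ hℓM A ψ := by
  rw [s41l_corB_eq, s41l_w_w]

/-- `U` preserves `ker cor_A ∩ ker cor_B`. -/
theorem s41l_corA_U_of_ker (ψ : Additive (Gamma0 (M * ℓ)) →+ A)
    (hA : s41l_corA M ℓ hℓM A ψ = 0) (hB : s41l_corB M ℓ hℓM A ψ = 0) :
    s41l_corA M ℓ hℓM A (s41l_U M ℓ A ψ) = 0 ∧ s41l_corB M ℓ hℓM A (s41l_U M ℓ A ψ) = 0 := by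
  rw [s41l_U_eq_neg_w M ℓ hℓM ψ hB, map_neg, map_neg, s41l_corA_w, s41l_corB_w, hA, hB, neg_zero]
  exact ⟨rfl, rfl⟩

end New

end Fermat.Agent.Lib.S41
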