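/-
S41 project, [G] (helper5): set-up for the final glue `s41_Ihara → s41_Coh`.

* `s41g_red M p : s29s_M M →+ s29h_Hp M p` : reduction mod `p`; surjective (`s41b_lift`), kernel inside
  `p · s29s_M M` (saturation);
* the level maps and `T_ℓ` as linear maps on the lattices `H(M, ℤ)` and on `H(M, 𝔽_p)`, and their
  compatibility with the reduction;
* generic base-change lemmas.
-/
import Mathlib
import Fermat.Agent.Lib.S41.GDefs
import Fermat.Agent.Lib.S41.BLift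
import Fermat.Agent.Lib.S41.LVIds
import Fermat.Agent.Lib.S41.LVComm
import Fermat.Agent.Lib.S41.LVNew

set_option autoImplicit false
set_option linter.unusedSectionVars false
set_option linter.style.haveILetI false

open scoped CongruenceSubgroup TensorProduct

namespace Fermat.Agent.Lib.S41

open Fermat.Agent.Lib.S29 CongruenceSubgroup

noncomputable section

/-! ### Reduction mod `p` -/

section Red

variable (M : ℕ) (p : ℕ)

/-- reduction mod `p` : `H(M, ℤ) → H(M, 𝔽_p)`. -/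
def s41g_red : s29s_M M →+ s29h_Hp M p where
  toFun χ := ⟨s29s_cast (ZMod p) (χ : Additive (Gamma0 M) →+ ℤ),
    s29s_cast_mem_Hpar (ZMod p) (ZMod p) χ.2⟩
  map_zero' := by
    apply Subtype.ext
    exact map_zero _
  map_add' χ η := by
    apply Subtype.ext
    exact map_add _ _ _

theorem s41g_red_coe (χ : s29s_M M) :
    ((s41g_red M p χ : s29h_Hp M p) : Additive (Gamma0 M) →+ ZMod p) =
      s29s_cast (ZMod p) (χ : Additive (Gamma0 M) →+ ℤ) := rfl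

variable [NeZero M] [Fact p.Prime]

theorem s41g_red_surjective : Function.Surjective (s41g_red M p) := by
  rintro ⟨x, hx⟩
  obtain ⟨χ, hχ, h⟩ := s41b_lift (Module.Free.chooseBasis ℤ (s29s_M M)) p x hx
  exact ⟨⟨χ, hχ⟩, Subtype.ext h⟩

/-- saturation: the kernel of the reduction is `p · H(M, ℤ)`. -/
theorem s41g_red_ker (χ : s29s_M M) (h : s41g_red M p χ = 0) : ∃ y : s29s_M M, χ = p • y := by
  have hval : ∀ γ : Additive (Gamma0 M), (p : ℤ) ∣ (χ : Additive (Gamma0 M) →+ ℤ) γ := by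
    intro γ
    rw [← ZMod.intCast_zmod_eq_zero_iff_dvd]
    have h1 := congrArg (fun z : s29h_Hp M p => (z : Additive (Gamma0 M) →+ ZMod p) γ) h
    exact h1
  let χ' : Additive (Gamma0 M) →+ ℤ :=
    { toFun := fun γ => (χ : Additive (Gamma0 M) →+ ℤ) γ / p
      map_zero' := by simp
      map_add' := fun γ δ => by
        rw [map_add, Int.add_ediv_of_dvd_left (hval γ)] }
  have hχ'M : χ' ∈ s29s_M M := by
    refine ⟨fun γ hγ => ?_, fun γ hγ => ?_⟩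
    · show (χ : Additive (Gamma0 M) →+ ℤ) (Additive.ofMul γ) / p = 0
      rw [χ.2.1 γ hγ, Int.zero_ediv]
    · show (χ : Additive (Gamma0 M) →+ ℤ) (Additive.ofMul γ) / p = 0
      rw [χ.2.2 γ hγ, Int.zero_ediv]
  refine ⟨⟨χ', hχ'M⟩, ?_⟩
  apply Subtype.ext
  refine AddMonoidHom.ext fun γ => ?_
  rw [Submodule.coe_smul_of_tower, AddMonoidHom.smul_apply, nsmul_eq_mul]
  exact (Int.mul_ediv_cancel' (hval γ)).symm

end Red

/-! ### The level maps on the lattices and mod `p` -/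

section Ops

variable (N q' : ℕ) [hq' : Fact q'.Prime] (hq'N : ¬ q' ∣ N) (p : ℕ)

/-- `cor_A : H(N q', ℤ) → H(N, ℤ)`. -/
def s41g_cAZ : s29s_M (N * q') →ₗ[ℤ] s29s_M N :=
  ((s41l_corA N q' hq'N ℤ).toIntLinearMap.comp (s29s_M (N * q')).subtype).codRestrict
    (s29s_M N) fun x => s41l_corA_mem_Hpar N q' hq'N ℤ x.2

/-- `cor_B : H(N q', ℤ) → H(N, ℤ)`. -/
def s41g_cBZ : s29s_M (N * q') →ₗ[ℤ] s29s_M N :=
  ((s41l_corB N q' hq'N ℤ).toIntLinearMap.comp (s29s_M (N * q')).subtype).codRestrict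
    (s29s_M N) fun x => s41l_corB_mem_Hpar N q' hq'N ℤ x.2

theorem s41g_cAZ_coe (x : s29s_M (N * q')) :
    ((s41g_cAZ N q' hq'N x : s29s_M N) : Additive (Gamma0 N) →+ ℤ) =
      s41l_corA N q' hq'N ℤ (x : Additive (Gamma0 (N * q')) →+ ℤ) := rfl

theorem s41g_cBZ_coe (x : s29s_M (N * q')) :
    ((s41g_cBZ N q' hq'N x : s29s_M N) : Additive (Gamma0 N) →+ ℤ) =
      s41l_corB N q' hq'N ℤ (x : Additive (Gamma0 (N * q')) →+ ℤ) := rfl

/-- `cor_A : H(N q', 𝔽_p) → H(N, 𝔽_p)`. -/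
def s41g_cAp : s29h_Hp (N * q') p →ₗ[ZMod p] s29h_Hp N p :=
  (((s41l_corA N q' hq'N (ZMod p)).toZModLinearMap p).comp
    (s29h_Hp (N * q') p).subtype).codRestrict
    (s29h_Hp N p) fun x => s41l_corA_mem_Hpar N q' hq'N (ZMod p) x.2

/-- `cor_B : H(N q', 𝔽_p) → H(N, 𝔽_p)`. -/
def s41g_cBp : s29h_Hp (N * q') p →ₗ[ZMod p] s29h_Hp N p :=
  (((s41l_corB N q' hq'N (ZMod p)).toZModLinearMap p).comp
    (s29h_Hp (N * q') p).subtype).codRestrict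
    (s29h_Hp N p) fun x => s41l_corB_mem_Hpar N q' hq'N (ZMod p) x.2

theorem s41g_cAp_coe (x : s29h_Hp (N * q') p) :
    ((s41g_cAp N q' hq'N p x : s29h_Hp N p) : Additive (Gamma0 N) →+ ZMod p) =
      s41l_corA N q' hq'N (ZMod p) (x : Additive (Gamma0 (N * q')) →+ ZMod p) := rfl

theorem s41g_cBp_coe (x : s29h_Hp (N * q') p) :
    ((s41g_cBp N q' hq'N p x : s29h_Hp N p) : Additive (Gamma0 N) →+ ZMod p) =
      s41l_corB N q' hq'N (ZMod p) (x : Additive (Gamma0 (N * q')) →+ ZMod p) := rfl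

/-- `res_A : H(N, 𝔽_p) → H(N q', 𝔽_p)`. -/
def s41g_resAp : s29h_Hp N p →ₗ[ZMod p] s29h_Hp (N * q') p :=
  (((s41l_resA N q' (ZMod p)).toZModLinearMap p).comp (s29h_Hp N p).subtype).codRestrict
    (s29h_Hp (N * q') p) fun x => s41l_resA_mem_Hpar N q' (ZMod p) x.2

/-- `res_B : H(N, 𝔽_p) → H(N q', 𝔽_p)`. -/
def s41g_resBp : s29h_Hp N p →ₗ[ZMod p] s29h_Hp (N * q') p :=
  (((s41l_resB N q' hq'N (ZMod p)).toZModLinearMap p).comp (s29h_Hp N p).subtype).codRestrict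
    (s29h_Hp (N * q') p) fun x => s41l_resB_mem_Hpar N q' hq'N (ZMod p) x.2

theorem s41g_resAp_coe (x : s29h_Hp N p) :
    ((s41g_resAp N q' p x : s29h_Hp (N * q') p) : Additive (Gamma0 (N * q')) →+ ZMod p) =
      s41l_resA N q' (ZMod p) (x : Additive (Gamma0 N) →+ ZMod p) := rfl

theorem s41g_resBp_coe (x : s29h_Hp N p) :
    ((s41g_resBp N q' hq'N p x : s29h_Hp (N * q') p) : Additive (Gamma0 (N * q')) →+ ZMod p) =
      s41l_resB N q' hq'N (ZMod p) (x : Additive (Gamma0 N) →+ ZMod p) := rfl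

/-- compatibility of `cor_A` with the reductions. -/
theorem s41g_cAp_red (x : s29s_M (N * q')) :
    s41g_cAp N q' hq'N p (s41g_red (N * q') p x) = s41g_red N p (s41g_cAZ N q' hq'N x) :=
  Subtype.ext ((s41l_famCorA N q' hq'N).op_natural (Int.castAddHom (ZMod p)) _)

/-- compatibility of `cor_B` with the reductions. -/
theorem s41g_cBp_red (x : s29s_M (N * q')) :
    s41g_cBp N q' hq'N p (s41g_red (N * q') p x) = s41g_red N p (s41g_cBZ N q' hq'N x) :=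
  Subtype.ext ((s41l_famCorB N q' hq'N).op_natural (Int.castAddHom (ZMod p)) _)

end Ops

/-! ### Hecke operators -/

section Hecke

variable (M : ℕ) (p : ℕ)

/-- `T_ℓ` on the lattice `H(M, ℤ)`. -/
def s41g_TZ (ℓ : Nat.Primes) : s29s_M M →ₗ[ℤ] s29s_M M :=
  haveI : Fact (ℓ : ℕ).Prime := ⟨ℓ.2⟩
  s29h_heckeHpar M (ℓ : ℕ) ℤ ℤ

theorem s41g_TZ_coe (ℓ : Nat.Primes) (χ : s29s_M M) :
    ((s41g_TZ M ℓ χ : s29s_M M) : Additive (Gamma0 M) →+ ℤ) =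
      (haveI : Fact (ℓ : ℕ).Prime := ⟨ℓ.2⟩
       s29h_heckeHom M (ℓ : ℕ) ℤ (χ : Additive (Gamma0 M) →+ ℤ)) := rfl

theorem s41g_Tl_red (ℓ : Nat.Primes) (χ : s29s_M M) :
    s29h_Tl M p ℓ (s41g_red M p χ) = s41g_red M p (s41g_TZ M ℓ χ) := by
  haveI : Fact (ℓ : ℕ).Prime := ⟨ℓ.2⟩
  exact Subtype.ext (s29s_heckeHom_cast (ZMod p) (ℓ : ℕ) χ.1)

theorem s41g_TZ_of_dvd (ℓ : Nat.Primes) (h : (ℓ : ℕ) ∣ M) (χ : s29s_M M) : s41g_TZ M ℓ χ = 0 := by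
  haveI : Fact (ℓ : ℕ).Prime := ⟨ℓ.2⟩
  apply Subtype.ext
  rw [s41g_TZ_coe, s29h_heckeHom_of_dvd h]
  rfl

end Hecke

section Ids

variable (N q' : ℕ) [hq' : Fact q'.Prime] (hq'N : ¬ q' ∣ N) (p : ℕ)

/-- `q'` as an element of `Nat.Primes`. -/
def s41g_qP : Nat.Primes := ⟨q', hq'.out⟩

theorem s41g_qP_coe : ((s41g_qP q' : Nat.Primes) : ℕ) = q' := rfl

theorem s41g_natCast_smul_coe (n : ℕ) (x : s29h_Hp N p) :
    (((n : ZMod p) • x : s29h_Hp N p) : Additive (Gamma0 N) →+ ZMod p) =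
      n • (x : Additive (Gamma0 N) →+ ZMod p) := by
  rw [Submodule.coe_smul, Nat.cast_smul_eq_nsmul]

/-- (i) `cor_A ∘ res_A = q' + 1`. -/
theorem s41g_cAp_resAp (x : s29h_Hp N p) :
    s41g_cAp N q' hq'N p (s41g_resAp N q' p x) = (((q' + 1 : ℕ) : ZMod p)) • x := by
  apply Subtype.ext
  rw [s41g_cAp_coe, s41g_resAp_coe, s41l_corA_resA, s41g_natCast_smul_coe]

/-- (ii) `cor_B ∘ res_A = T_q'`. -/
theorem s41g_cBp_resAp (x : s29h_Hp N p) :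
    s41g_cBp N q' hq'N p (s41g_resAp N q' p x) = s29h_Tl N p (s41g_qP q') x := by
  apply Subtype.ext
  rw [s41g_cBp_coe, s41g_resAp_coe, s41l_corB_resA]
  rfl

/-- (ii) `cor_A ∘ res_B = T_q'`. -/
theorem s41g_cAp_resBp (x : s29h_Hp N p) :
    s41g_cAp N q' hq'N p (s41g_resBp N q' hq'N p x) = s29h_Tl N p (s41g_qP q') x := by
  apply Subtype.ext
  rw [s41g_cAp_coe, s41g_resBp_coe, s41l_corA_resB]
  rfl

/-- (i) `cor_B ∘ res_B = q' + 1`. -/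
theorem s41g_cBp_resBp (x : s29h_Hp N p) :
    s41g_cBp N q' hq'N p (s41g_resBp N q' hq'N p x) = (((q' + 1 : ℕ) : ZMod p)) • x := by
  apply Subtype.ext
  rw [s41g_cBp_coe, s41g_resBp_coe, s41l_corB_resB, s41g_natCast_smul_coe]

/-- (v) mod `p` for `res_A`. -/
theorem s41g_Tl_resAp (ℓ : Nat.Primes) (hℓ : ¬ (ℓ : ℕ) ∣ N * q') (x : s29h_Hp N p) :
    s29h_Tl (N * q') p ℓ (s41g_resAp N q' p x) = s41g_resAp N q' p (s29h_Tl N p ℓ x) := by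
  haveI : Fact (ℓ : ℕ).Prime := ⟨ℓ.2⟩
  apply Subtype.ext
  rw [s29h_Tl_coe, s41g_resAp_coe, s41g_resAp_coe, s29h_Tl_coe]
  exact (s41l_resA_hecke N q' (ℓ : ℕ) hℓ _).symm

/-- (v) mod `p` for `res_B`. -/
theorem s41g_Tl_resBp (ℓ : Nat.Primes) (hℓ : ¬ (ℓ : ℕ) ∣ N * q') (x : s29h_Hp N p) :
    s29h_Tl (N * q') p ℓ (s41g_resBp N q' hq'N p x) =
      s41g_resBp N q' hq'N p (s29h_Tl N p ℓ x) := by
  haveI : Fact (ℓ : ℕ).Prime := ⟨ℓ.2⟩
  apply Subtype.ext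
  rw [s29h_Tl_coe, s41g_resBp_coe, s41g_resBp_coe, s29h_Tl_coe]
  exact (s41l_resB_hecke N q' hq'N (ℓ : ℕ) hℓ _).symm

/-- (v) on the lattices: `cor_A` commutes with `T_ℓ`, `ℓ ∤ N q'`. -/
theorem s41g_cAZ_TZ (ℓ : Nat.Primes) (hℓ : ¬ (ℓ : ℕ) ∣ N * q') (x : s29s_M (N * q')) :
    s41g_cAZ N q' hq'N (s41g_TZ (N * q') ℓ x) = s41g_TZ N ℓ (s41g_cAZ N q' hq'N x) := by
  haveI : Fact (ℓ : ℕ).Prime := ⟨ℓ.2⟩
  apply Subtype.ext
  rw [s41g_cAZ_coe, s41g_TZ_coe, s41g_TZ_coe, s41g_cAZ_coe]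
  exact s41l_corA_hecke N q' hq'N (ℓ : ℕ) hℓ _

/-- (v) on the lattices: `cor_B` commutes with `T_ℓ`, `ℓ ∤ N q'`. -/
theorem s41g_cBZ_TZ (ℓ : Nat.Primes) (hℓ : ¬ (ℓ : ℕ) ∣ N * q') (x : s29s_M (N * q')) :
    s41g_cBZ N q' hq'N (s41g_TZ (N * q') ℓ x) = s41g_TZ N ℓ (s41g_cBZ N q' hq'N x) := by
  haveI : Fact (ℓ : ℕ).Prime := ⟨ℓ.2⟩
  apply Subtype.ext
  rw [s41g_cBZ_coe, s41g_TZ_coe, s41g_TZ_coe, s41g_cBZ_coe]
  exact s41l_corB_hecke N q' hq'N (ℓ : ℕ) hℓ _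

/-- `ker cor_A ∩ ker cor_B` is stable under all `T_ℓ`. -/
theorem s41g_TZ_ker (ℓ : Nat.Primes) (x : s29s_M (N * q'))
    (hA : s41g_cAZ N q' hq'N x = 0) (hB : s41g_cBZ N q' hq'N x = 0) :
    s41g_cAZ N q' hq'N (s41g_TZ (N * q') ℓ x) = 0 ∧
      s41g_cBZ N q' hq'N (s41g_TZ (N * q') ℓ x) = 0 := by
  by_cases hℓ : (ℓ : ℕ) ∣ N * q'
  · rw [s41g_TZ_of_dvd (N * q') ℓ hℓ, map_zero, map_zero]
    exact ⟨rfl, rfl⟩
  · rw [s41g_cAZ_TZ N q' hq'N ℓ hℓ, s41g_cBZ_TZ N q' hq'N ℓ hℓ, hA, hB, map_zero]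
    exact ⟨rfl, rfl⟩

end Ids

end

end Fermat.Agent.Lib.S41
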