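/-
S41 project, package [G] (glue), part Q2 (helper2): **PD + Ihara ⇒ the hypothesis `hθ` of `s41g_alg`.**

`s41g_theta`: for the auxiliary prime `ℓ₀ ∤ N` and the Ihara hypothesis for `(N, q', p, ℓ₀)`, the
operator `θ = T_ℓ₀ - c (ℓ₀ + 1)` (`c = ±1` the sign of the `T_ℓ₀`-adjointness) maps the lattice
`H(N, ℤ)²` into `(cor_A, cor_B)(H(N q', ℤ)) + p · H(N, ℤ)²`.

Ingredients: nondegeneracy `s41b_nondeg` and the lifting `s41b_lift` (helper5), the adjointness package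
`GAdj` (helper9), the level maps `LV*` (helper8), the duality lemma `GDual` (mine).
-/
import Mathlib
import Fermat.Agent.Lib.S41.BNondeg
import Fermat.Agent.Lib.S41.GDual
import Fermat.Agent.Lib.S41.GAdj

set_option autoImplicit false
set_option linter.unusedSectionVars false
set_option linter.style.haveILetI false

open Matrix MatrixGroups OnePoint ModularCurve.Period CongruenceSubgroup

namespace Fermat.Agent.Lib.S41

open Fermat.Agent.Lib.S29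

/-! ### Saturation of the lattice -/

/-- **The lattice `H(N, ℤ)` is saturated**: a class whose reduction mod `p` vanishes is `p` times a
class of the lattice. -/
theorem s41g_saturated {N : ℕ} (p : ℕ) [Fact p.Prime] (χ : Additive (Gamma0 N) →+ ℤ)
    (hχ : χ ∈ s29h_Hpar ℤ N ℤ) (h0 : s29s_cast (ZMod p) χ = 0) :
    ∃ χ' ∈ s29h_Hpar ℤ N ℤ, χ = (p : ℤ) • χ' := by
  have hχval : ∀ γ : Additive (Gamma0 N), (p : ℤ) ∣ χ γ := by
    intro γ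
    rw [← ZMod.intCast_zmod_eq_zero_iff_dvd]
    have h1 := DFunLike.congr_fun h0 γ
    rwa [s29s_cast_apply] at h1
  let χ' : Additive (Gamma0 N) →+ ℤ :=
    { toFun := fun γ => χ γ / p
      map_zero' := by simp
      map_add' := fun γ δ => by
        rw [map_add, Int.add_ediv_of_dvd_left (hχval γ)] }
  refine ⟨χ', ⟨fun γ hγ => ?_, fun γ hγ => ?_⟩, ?_⟩
  · show χ (Additive.ofMul γ) / p = 0
    rw [hχ.1 γ hγ, Int.zero_ediv]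
  · show χ (Additive.ofMul γ) / p = 0
    rw [hχ.2 γ hγ, Int.zero_ediv]
  · refine AddMonoidHom.ext fun γ => ?_
    rw [AddMonoidHom.smul_apply, smul_eq_mul]
    exact (Int.mul_ediv_cancel' (hχval γ)).symm

/-! ### The pairing as a bilinear form on `H(N, 𝔽_p)` -/

section Form

variable (N : ℕ) [NeZero N] (p : ℕ) [hp : Fact p.Prime] (hp2 : p ≠ 2)

include hp2 in
theorem s41g_pairing_add_left {φ φ' ψ : Additive (Gamma0 N) →+ ZMod p} (hφ : φ ∈ s29h_Hp N p)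
    (hφ' : φ' ∈ s29h_Hp N p) (hψ : ψ ∈ s29h_Hp N p) :
    s41c_pairing (Gamma0 N) (φ + φ') ψ =
      s41c_pairing (Gamma0 N) φ ψ + s41c_pairing (Gamma0 N) φ' ψ := by
  have hsum : φ + φ' ∈ s29h_Hp N p := (s29h_Hp N p).add_mem hφ hφ'
  rw [s41k_pairing_eq (s41g_neg_one_mem N) (s41g_two_regular p hp2)
    (s41k_IsPotential_add (s41c_potential_spec hφ.1) (s41c_potential_spec hφ'.1))
    (s41c_potential_spec hψ.1) hsum.1 hψ.1 hsum.2 hψ.2, s41k_pairP_add_left]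
  rfl

include hp2 in
theorem s41g_pairing_smul_left (r : ZMod p) {φ ψ : Additive (Gamma0 N) →+ ZMod p}
    (hφ : φ ∈ s29h_Hp N p) (hψ : ψ ∈ s29h_Hp N p) :
    s41c_pairing (Gamma0 N) (r • φ) ψ = r * s41c_pairing (Gamma0 N) φ ψ := by
  have hsm : r • φ ∈ s29h_Hp N p := (s29h_Hp N p).smul_mem r hφ
  rw [s41k_pairing_eq (s41g_neg_one_mem N) (s41g_two_regular p hp2)
    (s41k_IsPotential_smul r (s41c_potential_spec hφ.1))
    (s41c_potential_spec hψ.1) hsm.1 hψ.1 hsm.2 hψ.2, s41k_pairP_smul_left]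
  rfl

include hp2 in
theorem s41g_pairing_add_right {φ ψ ψ' : Additive (Gamma0 N) →+ ZMod p} (hφ : φ ∈ s29h_Hp N p)
    (hψ : ψ ∈ s29h_Hp N p) (hψ' : ψ' ∈ s29h_Hp N p) :
    s41c_pairing (Gamma0 N) φ (ψ + ψ') =
      s41c_pairing (Gamma0 N) φ ψ + s41c_pairing (Gamma0 N) φ ψ' := by
  rw [s41g_skew (ψ + ψ') φ, s41g_pairing_add_left N p hp2 hψ hψ' hφ, s41g_skew ψ φ,
    s41g_skew ψ' φ]
  ring

include hp2 in
theorem s41g_pairing_smul_right (r : ZMod p) {φ ψ : Additive (Gamma0 N) →+ ZMod p}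
    (hφ : φ ∈ s29h_Hp N p) (hψ : ψ ∈ s29h_Hp N p) :
    s41c_pairing (Gamma0 N) φ (r • ψ) = r * s41c_pairing (Gamma0 N) φ ψ := by
  rw [s41g_skew (r • ψ) φ, s41g_pairing_smul_left N p hp2 r hψ hφ, s41g_skew ψ φ]
  ring

/-- **`B_N`**: the pairing `s41c_pairing (Gamma0 N)` as a bilinear form on `H(N, 𝔽_p)`. -/
noncomputable def s41g_B : s29h_Hp N p →ₗ[ZMod p] s29h_Hp N p →ₗ[ZMod p] ZMod p :=
  LinearMap.mk₂ (ZMod p)
    (fun x y => s41c_pairing (Gamma0 N) (x : Additive (Gamma0 N) →+ ZMod p)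
      (y : Additive (Gamma0 N) →+ ZMod p))
    (fun x x' y => s41g_pairing_add_left N p hp2 x.2 x'.2 y.2)
    (fun r x y => by
      rw [smul_eq_mul]
      exact s41g_pairing_smul_left N p hp2 r x.2 y.2)
    (fun x y y' => s41g_pairing_add_right N p hp2 x.2 y.2 y'.2)
    (fun r x y => by
      rw [smul_eq_mul]
      exact s41g_pairing_smul_right N p hp2 r x.2 y.2)

theorem s41g_B_apply (x y : s29h_Hp N p) :
    s41g_B N p hp2 x y = s41c_pairing (Gamma0 N) (x : Additive (Gamma0 N) →+ ZMod p)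
      (y : Additive (Gamma0 N) →+ ZMod p) := rfl

theorem s41g_B_nondeg (x : s29h_Hp N p) (h : ∀ y, s41g_B N p hp2 x y = 0) : x = 0 := by
  apply Subtype.ext
  exact s41b_nondeg N p hp2 x.1 x.2 fun ψ hψ => h ⟨ψ, hψ⟩

end Form

/-! ### The level maps and `T_ℓ₀` as linear maps on `H(·, 𝔽_p)` -/

section Lin

variable (M ℓ : ℕ) [hℓ : Fact ℓ.Prime] (hℓM : ¬ ℓ ∣ M) (p : ℕ) [hp : Fact p.Prime]

noncomputable def s41g_corAL : s29h_Hp (M * ℓ) p →ₗ[ZMod p] s29h_Hp M p :=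
  ((s41l_corA M ℓ hℓM (ZMod p)).toZModLinearMap p).restrict
    (fun _ hx => s41l_corA_mem_Hpar M ℓ hℓM (ZMod p) hx)

noncomputable def s41g_corBL : s29h_Hp (M * ℓ) p →ₗ[ZMod p] s29h_Hp M p :=
  ((s41l_corB M ℓ hℓM (ZMod p)).toZModLinearMap p).restrict
    (fun _ hx => s41l_corB_mem_Hpar M ℓ hℓM (ZMod p) hx)

noncomputable def s41g_resAL : s29h_Hp M p →ₗ[ZMod p] s29h_Hp (M * ℓ) p :=
  ((s41l_resA M ℓ (ZMod p)).toZModLinearMap p).restrict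
    (fun _ hx => s41l_resA_mem_Hpar M ℓ (ZMod p) hx)

noncomputable def s41g_resBL : s29h_Hp M p →ₗ[ZMod p] s29h_Hp (M * ℓ) p :=
  ((s41l_resB M ℓ hℓM (ZMod p)).toZModLinearMap p).restrict
    (fun _ hx => s41l_resB_mem_Hpar M ℓ hℓM (ZMod p) hx)

theorem s41g_corAL_coe (z : s29h_Hp (M * ℓ) p) :
    ((s41g_corAL M ℓ hℓM p z : s29h_Hp M p) : Additive (Gamma0 M) →+ ZMod p) =
      s41l_corA M ℓ hℓM (ZMod p) (z : Additive (Gamma0 (M * ℓ)) →+ ZMod p) := rfl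

theorem s41g_corBL_coe (z : s29h_Hp (M * ℓ) p) :
    ((s41g_corBL M ℓ hℓM p z : s29h_Hp M p) : Additive (Gamma0 M) →+ ZMod p) =
      s41l_corB M ℓ hℓM (ZMod p) (z : Additive (Gamma0 (M * ℓ)) →+ ZMod p) := rfl

theorem s41g_resAL_coe (x : s29h_Hp M p) :
    ((s41g_resAL M ℓ p x : s29h_Hp (M * ℓ) p) : Additive (Gamma0 (M * ℓ)) →+ ZMod p) =
      s41l_resA M ℓ (ZMod p) (x : Additive (Gamma0 M) →+ ZMod p) := rfl

theorem s41g_resBL_coe (x : s29h_Hp M p) :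
    ((s41g_resBL M ℓ hℓM p x : s29h_Hp (M * ℓ) p) : Additive (Gamma0 (M * ℓ)) →+ ZMod p) =
      s41l_resB M ℓ hℓM (ZMod p) (x : Additive (Gamma0 M) →+ ZMod p) := rfl

theorem s41g_corB_cast (η : Additive (Gamma0 (M * ℓ)) →+ ℤ) :
    s41l_corB M ℓ hℓM (ZMod p) (s29s_cast (ZMod p) η) =
      s29s_cast (ZMod p) (s41l_corB M ℓ hℓM ℤ η) :=
  (s41l_famCorB M ℓ hℓM).op_natural (Int.castAddHom (ZMod p)) η

end Lin

/-! ### The statement modulo `p` -/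

section ThetaModP

variable (N q' p ℓ₀ : ℕ) [NeZero N] [hq' : Fact q'.Prime] [hp : Fact p.Prime]
  [hℓ₀ : Fact ℓ₀.Prime] (hq'N : ¬ q' ∣ N) (hℓ₀N : ¬ ℓ₀ ∣ N) (hp2 : p ≠ 2)

include hp2 in
/-- **PD + Ihara, modulo `p`**: `T_ℓ₀ - c (ℓ₀ + 1)` maps `H(N, 𝔽_p)²` into the range of
`(cor_A, cor_B)`. -/
theorem s41g_theta_modp
    (hI : ∀ x ∈ s29h_Hp N p, ∀ y ∈ s29h_Hp N p,
      s41l_resA N q' (ZMod p) x + s41l_resB N q' hq'N (ZMod p) y = 0 →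
      s29h_heckeHom N ℓ₀ (ZMod p) x = ((ℓ₀ : ZMod p) + 1) • x)
    (a₁ a₂ : Additive (Gamma0 N) →+ ZMod p) (ha₁ : a₁ ∈ s29h_Hp N p) (ha₂ : a₂ ∈ s29h_Hp N p) :
    ∃ z ∈ s29h_Hp (N * q') p,
      s29h_heckeHom N ℓ₀ (ZMod p) a₁ -
          (((s41g_sign N ℓ₀ hℓ₀N : ℤ) : ZMod p) * ((ℓ₀ : ZMod p) + 1)) • a₁ =
        s41l_corA N q' hq'N (ZMod p) z ∧
      s29h_heckeHom N ℓ₀ (ZMod p) a₂ -
          (((s41g_sign N ℓ₀ hℓ₀N : ℤ) : ZMod p) * ((ℓ₀ : ZMod p) + 1)) • a₂ =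
        s41l_corB N q' hq'N (ZMod p) z := by
  classical
  haveI : NeZero (N * q') := s41g_neZero_mul N q'
  haveI : NeZero (N * ℓ₀) := s41g_neZero_mul N ℓ₀
  -- lifting hypotheses
  have hLN : s41g_Lift N p := fun x hx =>
    s41b_lift (Module.Free.chooseBasis ℤ (s29s_M N)) p x hx
  have hLNq : s41g_Lift (N * q') p := fun x hx =>
    s41b_lift (Module.Free.chooseBasis ℤ (s29s_M (N * q'))) p x hx
  have hLNl : s41g_Lift (N * ℓ₀) p := fun x hx =>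
    s41b_lift (Module.Free.chooseBasis ℤ (s29s_M (N * ℓ₀))) p x hx
  haveI : FiniteDimensional (ZMod p) (s29h_Hp N p) :=
    (s41b_finrank_Hp (Module.Free.chooseBasis ℤ (s29s_M N)) p).1
  haveI : FiniteDimensional (ZMod p) (s29h_Hp (N * q') p) :=
    (s41b_finrank_Hp (Module.Free.chooseBasis ℤ (s29s_M (N * q'))) p).1
  -- the signs
  set cB : ZMod p := ((s41g_sign N q' hq'N : ℤ) : ZMod p) with hcB
  set cT : ZMod p := ((s41g_sign N ℓ₀ hℓ₀N : ℤ) : ZMod p) with hcT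
  have hcB2 : cB * cB = 1 := s41g_sign_mul_self N q' hq'N (ZMod p)
  -- the forms
  let BN := s41g_B N p hp2
  let B' := s41g_B (N * q') p hp2
  let V := s29h_Hp N p × s29h_Hp N p
  let BV : V →ₗ[ZMod p] V →ₗ[ZMod p] ZMod p :=
    BN.compl₁₂ (LinearMap.fst _ _ _) (LinearMap.fst _ _ _) +
      BN.compl₁₂ (LinearMap.snd _ _ _) (LinearMap.snd _ _ _)
  have hBV : ∀ x y : V, BV x y = BN x.1 y.1 + BN x.2 y.2 := fun x y => rfl
  have hBVnd : ∀ v : V, (∀ x, BV v x = 0) → v = 0 := by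
    intro v hv
    have h1 : v.1 = 0 := s41g_B_nondeg N p hp2 v.1 fun y => by
      have := hv (y, 0)
      rw [hBV] at this
      simpa using this
    have h2 : v.2 = 0 := s41g_B_nondeg N p hp2 v.2 fun y => by
      have := hv (0, y)
      rw [hBV] at this
      simpa using this
    exact Prod.ext h1 h2
  have hB'nd : ∀ z, (∀ y, B' z y = 0) → z = 0 := s41g_B_nondeg (N * q') p hp2
  -- the maps
  let f : s29h_Hp (N * q') p →ₗ[ZMod p] V :=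
    (s41g_corAL N q' hq'N p).prod (s41g_corBL N q' hq'N p)
  let g : V →ₗ[ZMod p] s29h_Hp (N * q') p :=
    (s41g_resAL N q' p).comp (LinearMap.fst _ _ _) +
      cB • (s41g_resBL N q' hq'N p).comp (LinearMap.snd _ _ _)
  let Tl : s29h_Hp N p →ₗ[ZMod p] s29h_Hp N p := s29h_heckeHpar N ℓ₀ (ZMod p) (ZMod p)
  let T : V →ₗ[ZMod p] V := Tl.prodMap Tl
  -- adjointness of `f`, `g`
  have hadj : ∀ z x, BV (f z) x = B' z (g x) := by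
    intro z x
    have e1 : BN (s41g_corAL N q' hq'N p z) x.1 = B' z (s41g_resAL N q' p x.1) := by
      show s41c_pairing (Gamma0 N) (s41l_corA N q' hq'N (ZMod p) z.1) x.1.1 =
        s41c_pairing (Gamma0 (N * q')) z.1 (s41l_resA N q' (ZMod p) x.1.1)
      rw [s41g_skew (s41l_resA N q' (ZMod p) x.1.1) z.1,
        s41g_adjA N q' hq'N p hp2 hLN hLNq x.1.1 x.1.2 z.1 z.2,
        s41g_skew x.1.1 (s41l_corA N q' hq'N (ZMod p) z.1)]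
    have e2 : BN (s41g_corBL N q' hq'N p z) x.2 = cB * B' z (s41g_resBL N q' hq'N p x.2) := by
      show s41c_pairing (Gamma0 N) (s41l_corB N q' hq'N (ZMod p) z.1) x.2.1 =
        cB * s41c_pairing (Gamma0 (N * q')) z.1 (s41l_resB N q' hq'N (ZMod p) x.2.1)
      rw [s41g_skew (s41l_resB N q' hq'N (ZMod p) x.2.1) z.1,
        s41g_adjB N q' hq'N p hp2 hLN hLNq x.2.1 x.2.2 z.1 z.2,
        s41g_skew x.2.1 (s41l_corB N q' hq'N (ZMod p) z.1)]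
      linear_combination (s41c_pairing (Gamma0 N) x.2.1 (s41l_corB N q' hq'N (ZMod p) z.1)) *
        hcB2
    have hg : g x = s41g_resAL N q' p x.1 + cB • s41g_resBL N q' hq'N p x.2 := rfl
    have hf : f z = (s41g_corAL N q' hq'N p z, s41g_corBL N q' hq'N p z) := rfl
    rw [hBV, hf, hg, map_add, _root_.map_smul, smul_eq_mul, e1, e2]
  -- adjointness of `T`
  have hT : ∀ a x, BV (T a) x = cT * BV a (T x) := by
    intro a x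
    have e : ∀ u v : s29h_Hp N p, BN (Tl u) v = cT * BN u (Tl v) := fun u v =>
      s41g_adjT N ℓ₀ hℓ₀N p hp2 hLN hLNl u.1 u.2 v.1 v.2
    have hTa : T a = (Tl a.1, Tl a.2) := rfl
    have hTx : T x = (Tl x.1, Tl x.2) := rfl
    rw [hBV, hBV, hTa, hTx, e, e]
    ring
  -- Ihara on `ker g`
  have hs : ∀ n, g n = 0 → T n = ((ℓ₀ : ZMod p) + 1) • n := by
    intro n hn
    have hn' : s41l_resA N q' (ZMod p) n.1.1 + cB • s41l_resB N q' hq'N (ZMod p) n.2.1 = 0 :=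
      congrArg Subtype.val hn
    have hsm : ∀ (c : ZMod p) (y : Additive (Gamma0 N) →+ ZMod p),
        s41l_resB N q' hq'N (ZMod p) (c • y) = c • s41l_resB N q' hq'N (ZMod p) y :=
      fun c y => ZMod.map_smul (s41l_resB N q' hq'N (ZMod p)) c y
    have hsmA : ∀ (c : ZMod p) (y : Additive (Gamma0 N) →+ ZMod p),
        s41l_resA N q' (ZMod p) (c • y) = c • s41l_resA N q' (ZMod p) y :=
      fun c y => ZMod.map_smul (s41l_resA N q' (ZMod p)) c y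
    have hsmW : ∀ (c : ZMod p) (y : Additive (Gamma0 (N * q')) →+ ZMod p),
        s41l_w N q' hq'N (ZMod p) (c • y) = c • s41l_w N q' hq'N (ZMod p) y :=
      fun c y => ZMod.map_smul (s41l_w N q' hq'N (ZMod p)) c y
    have hsmT : ∀ (c : ZMod p) (y : Additive (Gamma0 N) →+ ZMod p),
        s29h_heckeHom N ℓ₀ (ZMod p) (c • y) = c • s29h_heckeHom N ℓ₀ (ZMod p) y :=
      fun c y => ZMod.map_smul (s29h_heckeHom N ℓ₀ (ZMod p)) c y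
    have h1 : s29h_heckeHom N ℓ₀ (ZMod p) n.1.1 = ((ℓ₀ : ZMod p) + 1) • n.1.1 := by
      refine hI n.1.1 n.1.2 (cB • n.2.1) ((s29h_Hp N p).smul_mem cB n.2.2) ?_
      rw [hsm]
      exact hn'
    have h2 : s29h_heckeHom N ℓ₀ (ZMod p) n.2.1 = ((ℓ₀ : ZMod p) + 1) • n.2.1 := by
      have hw := congrArg (s41l_w N q' hq'N (ZMod p)) hn'
      rw [map_add, hsmW, map_zero, ← s41l_resB_eq, s41l_resB_eq N q' hq'N n.2.1, s41l_w_w] at hw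
      have h3 : s29h_heckeHom N ℓ₀ (ZMod p) (cB • n.2.1) = ((ℓ₀ : ZMod p) + 1) • (cB • n.2.1) := by
        refine hI (cB • n.2.1) ((s29h_Hp N p).smul_mem cB n.2.2) n.1.1 n.1.2 ?_
        rw [hsmA, add_comm]
        exact hw
      rw [hsmT] at h3
      have h4 : cB • (cB • s29h_heckeHom N ℓ₀ (ZMod p) n.2.1) =
          cB • (((ℓ₀ : ZMod p) + 1) • (cB • n.2.1)) := congrArg (fun y => cB • y) h3
      have e5 : cB * ((ℓ₀ : ZMod p) + 1) * cB = (ℓ₀ : ZMod p) + 1 := by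
        linear_combination ((ℓ₀ : ZMod p) + 1) * hcB2
      rw [smul_smul, smul_smul, smul_smul, hcB2, one_smul, e5] at h4
      exact h4
    have hTn : T n = (Tl n.1, Tl n.2) := rfl
    rw [hTn]
    refine Prod.ext (Subtype.ext ?_) (Subtype.ext ?_)
    · exact h1
    · exact h2
  -- conclusion
  have hmem := s41g_sub_smul_mem_range' (V := V) (V' := s29h_Hp (N * q') p) BV B' hBVnd hB'nd f g
    hadj T T cT ((ℓ₀ : ZMod p) + 1) hT hs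
    (((⟨a₁, ha₁⟩ : s29h_Hp N p), (⟨a₂, ha₂⟩ : s29h_Hp N p)) : V)
  obtain ⟨z, hz⟩ := hmem
  refine ⟨z.1, z.2, ?_, ?_⟩
  · have := congrArg (fun v : V => (v.1 : Additive (Gamma0 N) →+ ZMod p)) hz
    exact this.symm
  · have := congrArg (fun v : V => (v.2 : Additive (Gamma0 N) →+ ZMod p)) hz
    exact this.symm

end ThetaModP

/-! ### The integral statement: hypothesis `hθ` of `s41g_alg` -/

section Theta

variable (N q' p ℓ₀ : ℕ) [NeZero N] [hq' : Fact q'.Prime] [hp : Fact p.Prime]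
  [hℓ₀ : Fact ℓ₀.Prime] (hq'N : ¬ q' ∣ N) (hℓ₀N : ¬ ℓ₀ ∣ N) (hp2 : p ≠ 2)

include hp2 in
/-- **Q2: PD + Ihara ⇒ `hθ`.** With `c = s41g_sign N ℓ₀ hℓ₀N = ±1`: for `y₁, y₂` in the lattice
`H(N, ℤ)` there is `z ∈ H(N q', ℤ)` with
`T_ℓ₀ y₁ - c (ℓ₀+1) y₁ ∈ cor_A z + p H(N, ℤ)` and `T_ℓ₀ y₂ - c (ℓ₀+1) y₂ ∈ cor_B z + p H(N, ℤ)`. -/
theorem s41g_theta_sign
    (hI : ∀ x ∈ s29h_Hp N p, ∀ y ∈ s29h_Hp N p,
      s41l_resA N q' (ZMod p) x + s41l_resB N q' hq'N (ZMod p) y = 0 →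
      s29h_heckeHom N ℓ₀ (ZMod p) x = ((ℓ₀ : ZMod p) + 1) • x)
    (y₁ : Additive (Gamma0 N) →+ ℤ) (hy₁ : y₁ ∈ s29h_Hpar ℤ N ℤ)
    (y₂ : Additive (Gamma0 N) →+ ℤ) (hy₂ : y₂ ∈ s29h_Hpar ℤ N ℤ) :
    ∃ z ∈ s29h_Hpar ℤ (N * q') ℤ, ∃ y₁' ∈ s29h_Hpar ℤ N ℤ, ∃ y₂' ∈ s29h_Hpar ℤ N ℤ,
      s29h_heckeHom N ℓ₀ ℤ y₁ - (s41g_sign N ℓ₀ hℓ₀N * ((ℓ₀ : ℤ) + 1)) • y₁ =
        s41l_corA N q' hq'N ℤ z + (p : ℤ) • y₁' ∧
      s29h_heckeHom N ℓ₀ ℤ y₂ - (s41g_sign N ℓ₀ hℓ₀N * ((ℓ₀ : ℤ) + 1)) • y₂ =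
        s41l_corB N q' hq'N ℤ z + (p : ℤ) • y₂' := by
  classical
  haveI : NeZero (N * q') := s41g_neZero_mul N q'
  set c : ℤ := s41g_sign N ℓ₀ hℓ₀N with hc
  have ha₁ : s29s_cast (ZMod p) y₁ ∈ s29h_Hp N p := s29s_cast_mem_Hpar (ZMod p) (ZMod p) hy₁
  have ha₂ : s29s_cast (ZMod p) y₂ ∈ s29h_Hp N p := s29s_cast_mem_Hpar (ZMod p) (ZMod p) hy₂
  obtain ⟨zb, hzb, e1, e2⟩ := s41g_theta_modp N q' p ℓ₀ hq'N hℓ₀N hp2 hI _ _ ha₁ ha₂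
  obtain ⟨z, hz, rfl⟩ := s41b_lift (Module.Free.chooseBasis ℤ (s29s_M (N * q'))) p zb hzb
  have hcoef : (((c * ((ℓ₀ : ℤ) + 1) : ℤ)) : ZMod p) = ((c : ℤ) : ZMod p) * ((ℓ₀ : ZMod p) + 1) := by
    push_cast
    ring
  -- first component
  have hχ₁ : s29h_heckeHom N ℓ₀ ℤ y₁ - (c * ((ℓ₀ : ℤ) + 1)) • y₁ - s41l_corA N q' hq'N ℤ z ∈
      s29h_Hpar ℤ N ℤ :=
    (s29h_Hpar ℤ N ℤ).sub_mem
      ((s29h_Hpar ℤ N ℤ).sub_mem (s29h_heckeHom_mem_Hpar ℤ hy₁)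
        ((s29h_Hpar ℤ N ℤ).smul_mem _ hy₁))
      (s41l_corA_mem_Hpar N q' hq'N ℤ hz)
  have h0₁ : s29s_cast (ZMod p)
      (s29h_heckeHom N ℓ₀ ℤ y₁ - (c * ((ℓ₀ : ℤ) + 1)) • y₁ - s41l_corA N q' hq'N ℤ z) = 0 := by
    rw [map_sub, map_sub, s29s_cast_zsmul, ← s29s_heckeHom_cast, ← s41g_corA_cast, hcoef, e1,
      sub_self]
  obtain ⟨y₁', hy₁', h₁⟩ := s41g_saturated p _ hχ₁ h0₁
  -- second component
  have hχ₂ : s29h_heckeHom N ℓ₀ ℤ y₂ - (c * ((ℓ₀ : ℤ) + 1)) • y₂ - s41l_corB N q' hq'N ℤ z ∈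
      s29h_Hpar ℤ N ℤ :=
    (s29h_Hpar ℤ N ℤ).sub_mem
      ((s29h_Hpar ℤ N ℤ).sub_mem (s29h_heckeHom_mem_Hpar ℤ hy₂)
        ((s29h_Hpar ℤ N ℤ).smul_mem _ hy₂))
      (s41l_corB_mem_Hpar N q' hq'N ℤ hz)
  have h0₂ : s29s_cast (ZMod p)
      (s29h_heckeHom N ℓ₀ ℤ y₂ - (c * ((ℓ₀ : ℤ) + 1)) • y₂ - s41l_corB N q' hq'N ℤ z) = 0 := by
    rw [map_sub, map_sub, s29s_cast_zsmul, ← s29s_heckeHom_cast, ← s41g_corB_cast, hcoef, e2,
      sub_self]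
  obtain ⟨y₂', hy₂', h₂⟩ := s41g_saturated p _ hχ₂ h0₂
  refine ⟨z, hz, y₁', hy₁', y₂', hy₂', ?_, ?_⟩
  · rw [← h₁]; abel
  · rw [← h₂]; abel

include hp2 hℓ₀N in
/-- **Q2**, in the shape of the work order: one sign `c = ±1`. -/
theorem s41g_theta
    (hI : ∀ x ∈ s29h_Hp N p, ∀ y ∈ s29h_Hp N p,
      s41l_resA N q' (ZMod p) x + s41l_resB N q' hq'N (ZMod p) y = 0 →
      s29h_heckeHom N ℓ₀ (ZMod p) x = ((ℓ₀ : ZMod p) + 1) • x) :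
    ∃ c : ℤ, (c = 1 ∨ c = -1) ∧ ∀ y₁ ∈ s29h_Hpar ℤ N ℤ, ∀ y₂ ∈ s29h_Hpar ℤ N ℤ,
      ∃ z ∈ s29h_Hpar ℤ (N * q') ℤ, ∃ y₁' ∈ s29h_Hpar ℤ N ℤ, ∃ y₂' ∈ s29h_Hpar ℤ N ℤ,
        s29h_heckeHom N ℓ₀ ℤ y₁ - (c * ((ℓ₀ : ℤ) + 1)) • y₁ =
          s41l_corA N q' hq'N ℤ z + (p : ℤ) • y₁' ∧
        s29h_heckeHom N ℓ₀ ℤ y₂ - (c * ((ℓ₀ : ℤ) + 1)) • y₂ =
          s41l_corB N q' hq'N ℤ z + (p : ℤ) • y₂' :=
  ⟨s41g_sign N ℓ₀ hℓ₀N, s41g_sign_eq N ℓ₀ hℓ₀N, fun y₁ hy₁ y₂ hy₂ =>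
    s41g_theta_sign N q' p ℓ₀ hq'N hℓ₀N hp2 hI y₁ hy₁ y₂ hy₂⟩

end Theta

end Fermat.Agent.Lib.S41
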