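/-
S41, `s41_NewClass` delivery (helper3, Route Y): the period pairing intertwines the Prelude's
`U_q = CuspForm.heckeULin 2 _` on `S₂(Γ₀(M q)) × S₂(Γ₀(M q))` with helper8's `U_q^H = s41l_U M q ℂ` on
`Hom(Γ₀(M q), ℂ)`; hence a class `χ ∈ Hom(Γ₀(M q), ℤ)` with `U_q^H (U_q^H χ) = χ` is `q`-new in the
sense of `s41_NewClass` (Lib/S41/Top).

* `s41n_periodHomPair_U` : `periodHomPair (U f, U g) = U^H (periodHomPair (f, g))`;
* `s41n_U_cast`          : `U^H_ℂ (cast χ) = cast (U^H_ℤ χ)` (naturality);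
* `s41n_newClass_of_U_U` : `U^H_ℤ (U^H_ℤ χ) = χ → s41_NewClass (M * q) _ χ`.
-/
import Fermat.Agent.Lib.S41.Top
import Fermat.Agent.Lib.S41.LVFam
import Fermat.Agent.Lib.S30.EigLattice
import Fermat.Agent.Lib.Integral.HeckeStable

set_option autoImplicit false
set_option linter.unusedSectionVars false
set_option linter.style.haveILetI false

namespace Fermat.Agent.Lib.S41

open Fermat.Agent.Lib.S29 Fermat.Agent.Lib.S30 Fermat.Agent.Lib.ES Fermat.Agent.Lib.Integral
  Fermat.Agent.Lib.Period CongruenceSubgroup ModularCurve ModularCurve.Period ModularFormClass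
open scoped MatrixGroups
open ModularForm
open P2MW.S_ModularForm_heckeT_slash_eq_self_of_mem_Gamma0.ModularForm.HeckeSlashInvariance

noncomputable section

variable (M q : ℕ) [hq : Fact q.Prime] [NeZero (M * q)]

/-- The period compatibility of `U_q` with an EXPLICIT coset system (the proof of `intHk_heckeU`,
keeping the relation). -/
theorem s41n_heckeU_family (γ : Gamma0 (M * q)) :
    ∃ (σ : ZMod q → ZMod q) (γ' : ZMod q → Gamma0 (M * q)),
      (∀ j : ZMod q, heckeMatZ q j.val *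
          (((γ : Gamma0 (M * q)) : SL(2, ℤ)) : Matrix (Fin 2) (Fin 2) ℤ) =
        (((γ' j : Gamma0 (M * q)) : SL(2, ℤ)) : Matrix (Fin 2) (Fin 2) ℤ) *
          heckeMatZ q (σ j).val) ∧
      ∀ f : CuspForm (Gamma0 (M * q)) 2,
        periodMap (M * q) (CuspForm.heckeULin 2 (Dvd.intro_left M rfl) f) (Additive.ofMul γ) =
          ∑ x, periodMap (M * q) f (Additive.ofMul (γ' x)) ∧
        periodMap (M * q) (CuspForm.heckeULin 2 (Dvd.intro_left M rfl) f)
            (Additive.ofMul (jConjGamma0 (M * q) γ)) =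
          ∑ x, periodMap (M * q) f (Additive.ofMul (jConjGamma0 (M * q) (γ' x))) := by
  have : NeZero q := ⟨hq.out.ne_zero⟩
  have hqN : q ∣ M * q := Dvd.intro_left M rfl
  obtain ⟨σ, γ', h1, h2⟩ := exists_family_heckeMatZ hqN (γ : SL(2, ℤ)) γ.2
  refine ⟨σ, fun x => ⟨γ' x, h1 x⟩, h2, fun f => ?_⟩
  have hdet : ∀ x : ZMod q, 0 < (heckeMatZ q x.val).det := by
    intro x
    rw [det_heckeMatZ]
    exact_mod_cast hq.out.pos
  have hf' := coe_heckeULin_eq_sum (N := M * q) 2 hqN f
  exact ⟨intHk_periodMap_of_sum_slash (fun x : ZMod q => heckeMatZ q x.val)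
      (fun x : ZMod q => heckeMatrix q x.val) (fun x => coe_heckeMatrix_eq_map hq.out.ne_zero x.val)
      hdet (fun x => heckeMatZ_apply_one_zero q x.val) f _ hf' γ (fun x => ⟨γ' x, h1 x⟩) σ h2,
    intHk_periodMap_jConj_of_sum_slash (fun x : ZMod q => heckeMatZ q x.val)
      (fun x : ZMod q => heckeMatrix q x.val) (fun x => coe_heckeMatrix_eq_map hq.out.ne_zero x.val)
      hdet (fun x => heckeMatZ_apply_one_zero q x.val) f _ hf' γ (fun x => ⟨γ' x, h1 x⟩) σ h2
      (Equiv.neg (ZMod q)) (fun j => if j = 0 then 0 else 1) (fun x => neg_neg x)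
      (fun j => intHk_heckeMatZ_neg q j)⟩

/-- **Period equivariance of `U_q`.** -/
theorem s41n_periodHomPair_U (f g : CuspForm (Gamma0 (M * q)) 2) :
    periodHomPair (M * q) (CuspForm.heckeULin 2 (Dvd.intro_left M rfl) f,
        CuspForm.heckeULin 2 (Dvd.intro_left M rfl) g) =
      s41l_U M q ℂ (periodHomPair (M * q) (f, g)) := by
  refine AddMonoidHom.ext fun γ => ?_
  obtain ⟨γ, rfl⟩ := Additive.ofMul.surjective γ
  obtain ⟨σ, γ', hrel, hper⟩ := s41n_heckeU_family M q γ
  rw [s41l_U_apply_of_family M q (periodHomPair (M * q) (f, g)) γ σ γ' hrel]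
  exact intHk_periodHomPair_of_family
    (CuspForm.heckeULin 2 (Dvd.intro_left M rfl : q ∣ M * q)) γ γ' hper f g

/-- Naturality: `U^H` commutes with the coefficient extension `ℤ → R`. -/
theorem s41n_U_cast (R : Type*) [Ring R] (χ : Additive (Gamma0 (M * q)) →+ ℤ) :
    s41l_U M q R (s29s_cast R χ) = s29s_cast R (s41l_U M q ℤ χ) :=
  (s41l_famU M q).op_natural (Int.castAddHom R) χ

/-- **`s41_NewClass` from `(U_q^H)² χ = χ`.** -/
theorem s41n_newClass_of_U_U (χ : Additive (Gamma0 (M * q)) →+ ℤ)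
    (hχ : s41l_U M q ℤ (s41l_U M q ℤ χ) = χ) :
    s41_NewClass (M * q) (Dvd.intro_left M rfl) χ := by
  intro g₁ g₂ h
  have h1 : periodHomPair (M * q)
      (CuspForm.heckeULin 2 (Dvd.intro_left M rfl) (CuspForm.heckeULin 2 (Dvd.intro_left M rfl) g₁),
       CuspForm.heckeULin 2 (Dvd.intro_left M rfl) (CuspForm.heckeULin 2 (Dvd.intro_left M rfl) g₂)) =
      periodHomPair (M * q) (g₁, g₂) := by
    rw [s41n_periodHomPair_U, s41n_periodHomPair_U, h, s41n_U_cast, s41n_U_cast, hχ]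
  have hinj : Function.Injective (periodHomPair (M * q)) := by
    intro x y hxy
    apply (s30e_Phi (M * q)).injective
    exact Subtype.ext hxy
  have h3 := hinj h1
  exact ⟨congrArg Prod.fst h3, congrArg Prod.snd h3⟩

end

end Fermat.Agent.Lib.S41
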