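/-
S41 project, [G] (helper5): **the final glue** `s41_coh_of_ihara : s41_Ihara → s41_Coh`.

Given a non-zero eigenclass `w ∈ k ⊗ H(N, 𝔽_p)` with `e(q') = ε (q' + 1)`, `ε = ±1`, the class
`u = res_A w - ε res_B w ∈ k ⊗ H(N q', 𝔽_p)` is a non-zero eigenclass (Ihara) killed by
`(cor_A, cor_B)`; by `s41g_theta` + `s41g_alg` it lies in `k ⊗ span (red (ker (cor_A, cor_B)))`, and
`s41g_coord` gives the coordinates in the `q'`-new lattice `ker (cor_A, cor_B) ⊆ H(N q', ℤ)`, which is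
`q'`-new in the sense `s41_NewClass` because `U_q'^2 = 1` there (`s41l_U_U_of_ker`).
All the algebra is in `s41g_abs_main` (GAbs.lean); this file instantiates it.
-/
import Mathlib
import Fermat.Agent.Lib.S41.Top
import Fermat.Agent.Lib.S41.GSetup
import Fermat.Agent.Lib.S41.GAbs
import Fermat.Agent.Lib.S41.GTheta
import Fermat.Agent.Lib.S41.NewClass

set_option autoImplicit false
set_option linter.unusedSectionVars false
set_option linter.style.haveILetI false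

open scoped CongruenceSubgroup TensorProduct

namespace Fermat.Agent.Lib.S41

open Fermat.Agent.Lib.S29 CongruenceSubgroup

noncomputable section

/-- the sign `ε` with `e = ε (q' + 1)`. -/
theorem s41g_exists_eps {p : ℕ} {k : Type} [Field k] [Algebra (ZMod p) k] (a : k) (c : ZMod p)
    (h : a ^ 2 = (algebraMap (ZMod p) k c) ^ 2) :
    ∃ ε : ZMod p, ε * ε = 1 ∧ a = algebraMap (ZMod p) k (ε * c) := by
  rcases sq_eq_sq_iff_eq_or_eq_neg.mp h with h1 | h1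
  · exact ⟨1, one_mul 1, by rw [one_mul, h1]⟩
  · exact ⟨-1, by ring, by rw [neg_one_mul, map_neg, h1]⟩

theorem s41g_algebraMap_succ {p : ℕ} {k : Type} [Field k] [Algebra (ZMod p) k] (n : ℕ) :
    algebraMap (ZMod p) k (((n + 1 : ℕ)) : ZMod p) = (n : k) + 1 := by
  rw [map_natCast]
  push_cast
  rfl

/-- **The final glue.** -/
theorem s41_coh_of_ihara (hI : s41_Ihara) : s41_Coh := by
  intro N _ q' hq' hq'N p _ hp2 hq'p k _ _ e w hw0 heig hLR hne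
  obtain ⟨ℓ₀, hℓ₀, hne⟩ := hne
  haveI : Fact q'.Prime := ⟨hq'⟩
  haveI : Fact (ℓ₀ : ℕ).Prime := ⟨ℓ₀.2⟩
  haveI hNZ : NeZero (N * q') := ⟨Nat.mul_ne_zero (NeZero.ne N) hq'.ne_zero⟩
  have hp0 : (p : ℤ) ≠ 0 := by exact_mod_cast (Fact.out : p.Prime).ne_zero
  -- divisibility bookkeeping
  have hJq : ∀ ℓ : Nat.Primes, ¬ (ℓ : ℕ) ∣ N * q' * p → ¬ (ℓ : ℕ) ∣ N * q' :=
    fun ℓ h h' => h (Dvd.dvd.mul_right h' p)
  have hJp : ∀ ℓ : Nat.Primes, ¬ (ℓ : ℕ) ∣ N * q' * p → ¬ (ℓ : ℕ) ∣ N * p := by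
    intro ℓ h h'
    apply h
    have : N * p ∣ N * q' * p := ⟨q', by ring⟩
    exact h'.trans this
  have hqNp : ¬ ((s41g_qP q' : Nat.Primes) : ℕ) ∣ N * p := by
    show ¬ q' ∣ N * p
    intro h
    rcases (Nat.Prime.dvd_mul hq').mp h with h1 | h1
    · exact hq'N h1
    · exact hq'p ((Nat.prime_dvd_prime_iff_eq hq' (Fact.out : p.Prime)).mp h1)
  -- the sign `ε`
  have hLR' : e (s41g_qP q') ^ 2 =
      (algebraMap (ZMod p) k (((q' + 1 : ℕ)) : ZMod p)) ^ 2 := by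
    rw [s41g_algebraMap_succ]
    exact hLR
  obtain ⟨ε, hε, heq⟩ := s41g_exists_eps _ _ hLR'
  -- Ihara at `ℓ₀`
  have hIh := hI N q' hq'N p hp2 hq'p (ℓ₀ : ℕ) hℓ₀
  -- `θ`
  have hℓ₀N : ¬ (ℓ₀ : ℕ) ∣ N := fun h => hℓ₀ ((h.mul_right q').mul_right p)
  obtain ⟨c, hc, hθ⟩ := s41g_theta N q' p (ℓ₀ : ℕ) hq'N hℓ₀N hp2 hIh
  -- eigenvalue inequalities
  have hne1 : e ℓ₀ ≠ algebraMap (ZMod p) k ((((ℓ₀ : ℕ) + 1 : ℕ)) : ZMod p) := by
    rw [s41g_algebraMap_succ]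
    intro h
    exact hne (by rw [h])
  have hne2 : e ℓ₀ ≠ algebraMap (ZMod p) k (((c * (((ℓ₀ : ℕ) : ℤ) + 1) : ℤ)) : ZMod p) := by
    rw [map_intCast]
    intro h
    apply hne
    rw [h]
    rcases hc with rfl | rfl
    · push_cast; ring
    · push_cast; ring
  -- hypotheses of the abstract glue
  have htf : ∀ x : s29s_M N, (p : ℤ) • x = 0 → x = 0 := by
    intro x hx
    rcases smul_eq_zero.mp hx with h | h
    · exact absurd h hp0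
    · exact h
  have hIh' : ∀ x y : s29h_Hp N p, s41g_resAp N q' p x + s41g_resBp N q' hq'N p y = 0 →
      s29h_Tl N p ℓ₀ x = ((((ℓ₀ : ℕ) + 1 : ℕ)) : ZMod p) • x := by
    intro x y hxy
    have h1 : s41l_resA N q' (ZMod p) (x : Additive (Gamma0 N) →+ ZMod p) +
        s41l_resB N q' hq'N (ZMod p) (y : Additive (Gamma0 N) →+ ZMod p) = 0 :=
      congrArg (fun z : s29h_Hp (N * q') p => (z : Additive (Gamma0 (N * q')) →+ ZMod p)) hxy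
    have h2 := hIh _ x.2 _ y.2 h1
    apply Subtype.ext
    rw [s29h_Tl_coe, h2, Submodule.coe_smul]
    push_cast
    rfl
  have hθ' : ∀ y₁ y₂ : s29s_M N, ∃ (z : s29s_M (N * q')) (y₁' y₂' : s29s_M N),
      s41g_TZ N ℓ₀ y₁ - (c * (((ℓ₀ : ℕ) : ℤ) + 1)) • y₁ = s41g_cAZ N q' hq'N z + p • y₁' ∧
      s41g_TZ N ℓ₀ y₂ - (c * (((ℓ₀ : ℕ) : ℤ) + 1)) • y₂ = s41g_cBZ N q' hq'N z + p • y₂' := by
    intro y₁ y₂
    obtain ⟨z, hz, y₁', hy₁', y₂', hy₂', h1, h2⟩ := hθ y₁.1 y₁.2 y₂.1 y₂.2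
    refine ⟨⟨z, hz⟩, ⟨y₁', hy₁'⟩, ⟨y₂', hy₂'⟩, Subtype.ext ?_, Subtype.ext ?_⟩
    · rw [← natCast_zsmul]
      exact h1
    · rw [← natCast_zsmul]
      exact h2
  have main := s41g_abs_main (p := p) (k := k) (L := s29s_M N) (L' := s29s_M (N * q'))
    (V := s29h_Hp N p) (V' := s29h_Hp (N * q') p)
    (s41g_red N p) (s41g_red (N * q') p) (s41g_red_surjective (N * q') p)
    (s41g_red_ker N p) (s41g_red_ker (N * q') p) htf
    (s41g_cAZ N q' hq'N) (s41g_cBZ N q' hq'N) (s41g_cAp N q' hq'N p) (s41g_cBp N q' hq'N p)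
    (s41g_cAp_red N q' hq'N p) (s41g_cBp_red N q' hq'N p)
    (s41g_resAp N q' p) (s41g_resBp N q' hq'N p)
    (I := Nat.Primes) (fun ℓ => ¬ (ℓ : ℕ) ∣ N * q' * p)
    (s41g_TZ (N * q')) (s41g_TZ N) (s29h_Tl (N * q') p) (s29h_Tl N p)
    (s41g_Tl_red (N * q') p)
    (fun ℓ x hA hB => s41g_TZ_ker N q' hq'N ℓ x hA hB)
    ℓ₀ (s41g_qP q') hℓ₀
    (s41g_cAZ_TZ N q' hq'N ℓ₀ (hJq ℓ₀ hℓ₀)) (s41g_cBZ_TZ N q' hq'N ℓ₀ (hJq ℓ₀ hℓ₀))
    (((q' + 1 : ℕ)) : ZMod p)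
    (s41g_cAp_resAp N q' hq'N p) (s41g_cBp_resAp N q' hq'N p)
    (s41g_cAp_resBp N q' hq'N p) (s41g_cBp_resBp N q' hq'N p)
    (fun ℓ hℓ => s41g_Tl_resAp N q' p ℓ (hJq ℓ hℓ))
    (fun ℓ hℓ => s41g_Tl_resBp N q' hq'N p ℓ (hJq ℓ hℓ))
    e w hw0 (fun ℓ hℓ => heig ℓ (hJp ℓ hℓ)) (heig (s41g_qP q') hqNp)
    ε hε heq
    ((((ℓ₀ : ℕ) + 1 : ℕ)) : ZMod p) hIh' hne1
    (c * (((ℓ₀ : ℕ) : ℤ) + 1)) hθ' hne2
  obtain ⟨n, b, t, hb, hbK, hT, v, hv, hvT⟩ := main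
  refine ⟨n, fun j => ((b j : s29s_M (N * q')) : Additive (Gamma0 (N * q')) →+ ℤ), t, ?_,
    fun j => (b j).2, ?_, ?_, v, hv, hvT⟩
  · exact hb.map' (s29s_M (N * q')).subtype (Submodule.ker_subtype _)
  · intro ℓ _ j
    have h1 := congrArg (fun z : s29s_M (N * q') => (z : Additive (Gamma0 (N * q')) →+ ℤ)) (hT ℓ j)
    simp only [Submodule.coe_sum, Submodule.coe_smul] at h1
    exact h1
  · intro j
    have hA : s41l_corA N q' hq'N ℤ ((b j : s29s_M (N * q')) : Additive (Gamma0 (N * q')) →+ ℤ) =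
        0 := congrArg (fun z : s29s_M N => (z : Additive (Gamma0 N) →+ ℤ)) (hbK j).1
    have hB : s41l_corB N q' hq'N ℤ ((b j : s29s_M (N * q')) : Additive (Gamma0 (N * q')) →+ ℤ) =
        0 := congrArg (fun z : s29s_M N => (z : Additive (Gamma0 N) →+ ℤ)) (hbK j).2
    exact s41n_newClass_of_U_U N q' _ (s41l_U_U_of_ker N q' hq'N _ hA hB)

end

end Fermat.Agent.Lib.S41
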