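/-
S41 project, [G] (helper5): **the final glue, [K] route** `s41_coh_of_ihara2 : s41_Ihara2 → s41_Coh`.

Same argument as `GMain.lean` with the operator `θ = (T_ℓ₀² - (ℓ₀+1)²)²` (even in `T_ℓ₀`, so no
adjointness sign), consuming `s41g_theta2` (helper2) and `s41g_abs_main2`.
-/
import Mathlib
import Fermat.Agent.Lib.S41.Top
import Fermat.Agent.Lib.S41.GSetup
import Fermat.Agent.Lib.S41.GAbs2
import Fermat.Agent.Lib.S41.GTheta2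
import Fermat.Agent.Lib.S41.GMain
import Fermat.Agent.Lib.S41.NewClass

set_option autoImplicit false
set_option linter.unusedSectionVars false
set_option linter.style.haveILetI false

open scoped CongruenceSubgroup TensorProduct

namespace Fermat.Agent.Lib.S41

open Fermat.Agent.Lib.S29 CongruenceSubgroup

noncomputable section

/-- from coordinates in `ker (cor_A, cor_B) ⊆ H(N q', ℤ)` to the conclusion of `s41_Coh`. -/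
theorem s41g_coh_finish (N q' : ℕ) [Fact q'.Prime] (hq'N : ¬ q' ∣ N) [NeZero (N * q')]
    {k : Type} [Field k] (p : ℕ) (e : Nat.Primes → k)
    (main : ∃ (n : ℕ) (b : Fin n → s29s_M (N * q')) (t : Nat.Primes → Matrix (Fin n) (Fin n) ℤ),
      LinearIndependent ℤ b ∧
      (∀ j, s41g_cAZ N q' hq'N (b j) = 0 ∧ s41g_cBZ N q' hq'N (b j) = 0) ∧
      (∀ i j, s41g_TZ (N * q') i (b j) = ∑ i', t i i' j • b i') ∧
      ∃ v : Fin n → k, v ≠ 0 ∧ ∀ i : Nat.Primes, ¬ (i : ℕ) ∣ N * q' * p →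
        ((t i).map (Int.cast : ℤ → k)).mulVec v = e i • v) :
    ∃ (r : ℕ) (b : Fin r → (Additive (Gamma0 (N * q')) →+ ℤ))
      (t : Nat.Primes → Matrix (Fin r) (Fin r) ℤ),
      LinearIndependent ℤ b ∧ (∀ j, b j ∈ s29s_M (N * q')) ∧
      (∀ ℓ : Nat.Primes, ¬ (ℓ : ℕ) ∣ N * q' → ∀ j, s41_TlZ (N * q') ℓ (b j) = ∑ i, t ℓ i j • b i) ∧
      (∀ j, s41_NewClass (N * q') (Dvd.intro_left N rfl) (b j)) ∧
      ∃ v : Fin r → k, v ≠ 0 ∧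
        ∀ ℓ : Nat.Primes, ¬ (ℓ : ℕ) ∣ N * q' * p →
          ((t ℓ).map (Int.cast : ℤ → k)).mulVec v = e ℓ • v := by
  obtain ⟨n, b, t, hb, hbK, hT, v, hv, hvT⟩ := main
  refine ⟨n, fun j => ((b j : s29s_M (N * q')) : Additive (Gamma0 (N * q')) →+ ℤ), t, ?_,
    fun j => (b j).2, ?_, ?_, v, hv, hvT⟩
  · exact hb.map' (s29s_M (N * q')).subtype (Submodule.ker_subtype _)
  · intro ℓ _ j
    have h1 := congrArg (fun z : s29s_M (N * q') => (z : Additive (Gamma0 (N * q')) →+ ℤ)) (hT ℓ j)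
    simp only [Submodule.coe_sum, Submodule.coe_smul] at h1
    exact h1
  · intro j
    have hA : s41l_corA N q' hq'N ℤ ((b j : s29s_M (N * q')) : Additive (Gamma0 (N * q')) →+ ℤ) =
        0 := congrArg (fun z : s29s_M N => (z : Additive (Gamma0 N) →+ ℤ)) (hbK j).1
    have hB : s41l_corB N q' hq'N ℤ ((b j : s29s_M (N * q')) : Additive (Gamma0 (N * q')) →+ ℤ) =
        0 := congrArg (fun z : s29s_M N => (z : Additive (Gamma0 N) →+ ℤ)) (hbK j).2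
    exact s41n_newClass_of_U_U N q' _ (s41l_U_U_of_ker N q' hq'N _ hA hB)

/-- **The final glue, [K] route.** -/
theorem s41_coh_of_ihara2 (hI : s41_Ihara2) : s41_Coh := by
  intro N _ q' hq' hq'N p _ hp2 hq'p k _ _ e w hw0 heig hLR hne
  obtain ⟨ℓ₀, hℓ₀, hne⟩ := hne
  haveI : Fact q'.Prime := ⟨hq'⟩
  haveI : Fact (ℓ₀ : ℕ).Prime := ⟨ℓ₀.2⟩
  haveI hNZ : NeZero (N * q') := ⟨Nat.mul_ne_zero (NeZero.ne N) hq'.ne_zero⟩
  have hp0 : (p : ℤ) ≠ 0 := by exact_mod_cast (Fact.out : p.Prime).ne_zero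
  -- divisibility bookkeeping
  have hJq : ∀ ℓ : Nat.Primes, ¬ (ℓ : ℕ) ∣ N * q' * p → ¬ (ℓ : ℕ) ∣ N * q' :=
    fun ℓ h h' => h (Dvd.dvd.mul_right h' p)
  have hJp : ∀ ℓ : Nat.Primes, ¬ (ℓ : ℕ) ∣ N * q' * p → ¬ (ℓ : ℕ) ∣ N * p := by
    intro ℓ h h'
    apply h
    have : N * p ∣ N * q' * p := ⟨q', by ring⟩
    exact h'.trans this
  have hqNp : ¬ ((s41g_qP q' : Nat.Primes) : ℕ) ∣ N * p := by
    show ¬ q' ∣ N * p
    intro h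
    rcases (Nat.Prime.dvd_mul hq').mp h with h1 | h1
    · exact hq'N h1
    · exact hq'p ((Nat.prime_dvd_prime_iff_eq hq' (Fact.out : p.Prime)).mp h1)
  -- the sign `ε`
  have hLR' : e (s41g_qP q') ^ 2 =
      (algebraMap (ZMod p) k (((q' + 1 : ℕ)) : ZMod p)) ^ 2 := by
    rw [s41g_algebraMap_succ]
    exact hLR
  obtain ⟨ε, hε, heq⟩ := s41g_exists_eps _ _ hLR'
  -- Ihara (weak form) at `ℓ₀`, and `θ`
  have hIh := hI N q' hq'N p hp2 hq'p (ℓ₀ : ℕ) hℓ₀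
  have hℓ₀N : ¬ (ℓ₀ : ℕ) ∣ N := fun h => hℓ₀ ((h.mul_right q').mul_right p)
  have hθ := s41g_theta2 N q' p (ℓ₀ : ℕ) hq'N hℓ₀N hp2 hIh
  -- the scalar `a = (ℓ₀ + 1)²` and the eigenvalue `lam = (e ℓ₀² - a)²`
  set a : ℤ := (((ℓ₀ : ℕ) : ℤ) + 1) ^ 2 with ha
  obtain ⟨aP, haP⟩ : ∃ aP : ZMod p, aP = ((a : ℤ) : ZMod p) := ⟨_, rfl⟩
  have haZ : aP = (((ℓ₀ : ℕ) : ZMod p) + 1) ^ 2 := by
    rw [haP, ha]
    push_cast
    rfl
  have hak : algebraMap (ZMod p) k aP = (((ℓ₀ : ℕ) : k) + 1) ^ 2 := by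
    rw [haP, map_intCast, ha]
    push_cast
    rfl
  have hμ : e ℓ₀ * e ℓ₀ - algebraMap (ZMod p) k aP ≠ 0 := by
    rw [hak, ← sq]
    exact sub_ne_zero.mpr hne
  obtain ⟨lam, hlamdef⟩ : ∃ lam : k, lam = (e ℓ₀ * e ℓ₀ - algebraMap (ZMod p) k aP) *
      (e ℓ₀ * e ℓ₀ - algebraMap (ZMod p) k aP) := ⟨_, rfl⟩
  have hlam : lam ≠ 0 := by
    rw [hlamdef]
    exact mul_ne_zero hμ hμ
  -- hypotheses of the abstract glue
  have htf : ∀ x : s29s_M N, (p : ℤ) • x = 0 → x = 0 := by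
    intro x hx
    rcases smul_eq_zero.mp hx with h | h
    · exact absurd h hp0
    · exact h
  have hIh' : ∀ x y : s29h_Hp N p, s41g_resAp N q' p x + s41g_resBp N q' hq'N p y = 0 →
      s41g_P (s29h_Tl N p ℓ₀) aP x = 0 := by
    intro x y hxy
    have h1 : s41l_resA N q' (ZMod p) (x : Additive (Gamma0 N) →+ ZMod p) +
        s41l_resB N q' hq'N (ZMod p) (y : Additive (Gamma0 N) →+ ZMod p) = 0 :=
      congrArg (fun z : s29h_Hp (N * q') p => (z : Additive (Gamma0 (N * q')) →+ ZMod p)) hxy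
    have h2 := hIh _ x.2 _ y.2 h1
    rw [s41g_P_expand]
    apply Subtype.ext
    have h3 : (((ℓ₀ : ℕ) : ZMod p) + 1) ^ 2 * (((ℓ₀ : ℕ) : ZMod p) + 1) ^ 2 =
        (((ℓ₀ : ℕ) : ZMod p) + 1) ^ 4 := by ring
    rw [haZ, h3]
    exact h2
  have hθ' : ∀ y₁ y₂ : s29s_M N, ∃ (z : s29s_M (N * q')) (y₁' y₂' : s29s_M N),
      s41g_P (s41g_TZ N ℓ₀) a y₁ = s41g_cAZ N q' hq'N z + p • y₁' ∧
      s41g_P (s41g_TZ N ℓ₀) a y₂ = s41g_cBZ N q' hq'N z + p • y₂' := by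
    intro y₁ y₂
    obtain ⟨z, hz, y₁', hy₁', y₂', hy₂', h1, h2⟩ := hθ y₁.1 y₁.2 y₂.1 y₂.2
    have h3 : a * a = (((ℓ₀ : ℕ) : ℤ) + 1) ^ 4 := by rw [ha]; ring
    refine ⟨⟨z, hz⟩, ⟨y₁', hy₁'⟩, ⟨y₂', hy₂'⟩, ?_, ?_⟩
    · rw [s41g_P_expand, h3, ← natCast_zsmul]
      exact Subtype.ext h1
    · rw [s41g_P_expand, h3, ← natCast_zsmul]
      exact Subtype.ext h2
  have hcAθ : ∀ x : s29s_M (N * q'),
      s41g_cAZ N q' hq'N (s41g_P (s41g_TZ (N * q') ℓ₀) a x) =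
        s41g_P (s41g_TZ N ℓ₀) a (s41g_cAZ N q' hq'N x) :=
    s41g_P_comm (s41g_cAZ N q' hq'N) (s41g_TZ (N * q') ℓ₀) (s41g_TZ N ℓ₀)
      (s41g_cAZ_TZ N q' hq'N ℓ₀ (hJq ℓ₀ hℓ₀)) a
  have hcBθ : ∀ x : s29s_M (N * q'),
      s41g_cBZ N q' hq'N (s41g_P (s41g_TZ (N * q') ℓ₀) a x) =
        s41g_P (s41g_TZ N ℓ₀) a (s41g_cBZ N q' hq'N x) :=
    s41g_P_comm (s41g_cBZ N q' hq'N) (s41g_TZ (N * q') ℓ₀) (s41g_TZ N ℓ₀)
      (s41g_cBZ_TZ N q' hq'N ℓ₀ (hJq ℓ₀ hℓ₀)) a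
  have hθbr : ∀ x : s29s_M (N * q'),
      s41g_P (s29h_Tl (N * q') p ℓ₀) aP (s41g_red (N * q') p x) =
        s41g_red (N * q') p (s41g_P (s41g_TZ (N * q') ℓ₀) a x) :=
    fun x => by
      rw [haP]
      exact s41g_P_red (s41g_red (N * q') p) (s41g_TZ (N * q') ℓ₀) (s29h_Tl (N * q') p ℓ₀)
        (s41g_Tl_red (N * q') p ℓ₀) a x
  have hθpw : (s41g_P (s29h_Tl N p ℓ₀) aP).baseChange k w = lam • w := by
    rw [hlamdef]
    exact s41g_bc_P (s29h_Tl N p ℓ₀) aP w (e ℓ₀) (heig ℓ₀ (hJp ℓ₀ hℓ₀))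
  have hθbu : ∀ u : k ⊗[ZMod p] s29h_Hp (N * q') p,
      (∀ ℓ : Nat.Primes, ¬ (ℓ : ℕ) ∣ N * q' * p →
        (s29h_Tl (N * q') p ℓ).baseChange k u = e ℓ • u) →
      (s41g_P (s29h_Tl (N * q') p ℓ₀) aP).baseChange k u = lam • u :=
    fun u hu => by
      rw [hlamdef]
      exact s41g_bc_P (s29h_Tl (N * q') p ℓ₀) aP u (e ℓ₀) (hu ℓ₀ hℓ₀)
  have main := s41g_abs_main2 (p := p) (k := k) (L := s29s_M N) (L' := s29s_M (N * q'))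
    (V := s29h_Hp N p) (V' := s29h_Hp (N * q') p)
    (s41g_red N p) (s41g_red (N * q') p) (s41g_red_surjective (N * q') p)
    (s41g_red_ker N p) (s41g_red_ker (N * q') p) htf
    (s41g_cAZ N q' hq'N) (s41g_cBZ N q' hq'N) (s41g_cAp N q' hq'N p) (s41g_cBp N q' hq'N p)
    (s41g_cAp_red N q' hq'N p) (s41g_cBp_red N q' hq'N p)
    (s41g_resAp N q' p) (s41g_resBp N q' hq'N p)
    (I := Nat.Primes) (fun ℓ => ¬ (ℓ : ℕ) ∣ N * q' * p)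
    (s41g_TZ (N * q')) (s29h_Tl (N * q') p) (s29h_Tl N p)
    (s41g_Tl_red (N * q') p)
    (fun ℓ x hA hB => s41g_TZ_ker N q' hq'N ℓ x hA hB)
    (s41g_qP q')
    (((q' + 1 : ℕ)) : ZMod p)
    (s41g_cAp_resAp N q' hq'N p) (s41g_cBp_resAp N q' hq'N p)
    (s41g_cAp_resBp N q' hq'N p) (s41g_cBp_resBp N q' hq'N p)
    (fun ℓ hℓ => s41g_Tl_resAp N q' p ℓ (hJq ℓ hℓ))
    (fun ℓ hℓ => s41g_Tl_resBp N q' hq'N p ℓ (hJq ℓ hℓ))
    e w hw0 (fun ℓ hℓ => heig ℓ (hJp ℓ hℓ)) (heig (s41g_qP q') hqNp)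
    ε hε heq
    (s41g_P (s41g_TZ (N * q') ℓ₀) a) (s41g_P (s41g_TZ N ℓ₀) a)
    (s41g_P (s29h_Tl (N * q') p ℓ₀) aP)
    (s41g_P (s29h_Tl N p ℓ₀) aP)
    lam hlam hcAθ hcBθ hθbr hθpw hθbu hIh' hθ'
  exact s41g_coh_finish N q' hq'N p e main

end

end Fermat.Agent.Lib.S41
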