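/-
S41 project, package [G] (glue), part Q2' (helper2): **PD + weak Ihara ⇒ the hypothesis `hθ` of
`s41g_alg` for the operator `P(T_ℓ₀)`, `P(X) = X⁴ - 2 s² X² + s⁴ = (X² - s²)²`, `s = ℓ₀ + 1`.**

`s41g_theta2`: for the auxiliary prime `ℓ₀ ∤ N` and the weak Ihara hypothesis (`s41_Ihara2`) for
`(N, q', p, ℓ₀)`, the operator `P(T_ℓ₀)` maps the lattice `H(N, ℤ)²` into
`(cor_A, cor_B)(H(N q', ℤ)) + p · H(N, ℤ)²`.  No sign appears: `T_ℓ₀` is a similitude of factor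
`c = ±1` for the pairing, so `T_ℓ₀²`, hence `P(T_ℓ₀)`, is self-adjoint.
-/
import Mathlib
import Fermat.Agent.Lib.S41.GTheta

set_option autoImplicit false
set_option linter.unusedSectionVars false
set_option linter.style.haveILetI false

open Matrix MatrixGroups OnePoint ModularCurve.Period CongruenceSubgroup

namespace Fermat.Agent.Lib.S41

open Fermat.Agent.Lib.S29

/-! ### The statement modulo `p` -/

section Theta2ModP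

variable (N q' p ℓ₀ : ℕ) [NeZero N] [hq' : Fact q'.Prime] [hp : Fact p.Prime]
  [hℓ₀ : Fact ℓ₀.Prime] (hq'N : ¬ q' ∣ N) (hℓ₀N : ¬ ℓ₀ ∣ N) (hp2 : p ≠ 2)

/-- the operator `P(T_ℓ₀) = T⁴ - 2 s² T² + s⁴` on `H(N, 𝔽_p)`. -/
noncomputable def s41g_PT : s29h_Hp N p →ₗ[ZMod p] s29h_Hp N p :=
  (s29h_heckeHpar N ℓ₀ (ZMod p) (ZMod p)) ∘ₗ (s29h_heckeHpar N ℓ₀ (ZMod p) (ZMod p)) ∘ₗ
      (s29h_heckeHpar N ℓ₀ (ZMod p) (ZMod p)) ∘ₗ (s29h_heckeHpar N ℓ₀ (ZMod p) (ZMod p)) -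
    (2 * ((ℓ₀ : ZMod p) + 1) ^ 2) •
      ((s29h_heckeHpar N ℓ₀ (ZMod p) (ZMod p)) ∘ₗ (s29h_heckeHpar N ℓ₀ (ZMod p) (ZMod p))) +
    (((ℓ₀ : ZMod p) + 1) ^ 4) • LinearMap.id

theorem s41g_PT_coe (x : s29h_Hp N p) :
    ((s41g_PT N p ℓ₀ x : s29h_Hp N p) : Additive (Gamma0 N) →+ ZMod p) =
      s29h_heckeHom N ℓ₀ (ZMod p) (s29h_heckeHom N ℓ₀ (ZMod p)
          (s29h_heckeHom N ℓ₀ (ZMod p) (s29h_heckeHom N ℓ₀ (ZMod p) x.1))) -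
        (2 * ((ℓ₀ : ZMod p) + 1) ^ 2) •
          s29h_heckeHom N ℓ₀ (ZMod p) (s29h_heckeHom N ℓ₀ (ZMod p) x.1) +
        (((ℓ₀ : ZMod p) + 1) ^ 4) • x.1 := rfl

include hp2 hℓ₀N in
/-- `P(T_ℓ₀)` is self-adjoint for the pairing on `H(N, 𝔽_p)`. -/
theorem s41g_PT_adj (u v : s29h_Hp N p) :
    s41g_B N p hp2 (s41g_PT N p ℓ₀ u) v = s41g_B N p hp2 u (s41g_PT N p ℓ₀ v) := by
  classical
  haveI : NeZero (N * ℓ₀) := s41g_neZero_mul N ℓ₀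
  have hLN : s41g_Lift N p := fun x hx =>
    s41b_lift (Module.Free.chooseBasis ℤ (s29s_M N)) p x hx
  have hLNl : s41g_Lift (N * ℓ₀) p := fun x hx =>
    s41b_lift (Module.Free.chooseBasis ℤ (s29s_M (N * ℓ₀))) p x hx
  set cT : ZMod p := ((s41g_sign N ℓ₀ hℓ₀N : ℤ) : ZMod p) with hcT
  have hcT2 : cT * cT = 1 := s41g_sign_mul_self N ℓ₀ hℓ₀N (ZMod p)
  set BN := s41g_B N p hp2 with hBN
  set Tl : s29h_Hp N p →ₗ[ZMod p] s29h_Hp N p := s29h_heckeHpar N ℓ₀ (ZMod p) (ZMod p) with hTl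
  have e : ∀ u v : s29h_Hp N p, BN (Tl u) v = cT * BN u (Tl v) := fun u v =>
    s41g_adjT N ℓ₀ hℓ₀N p hp2 hLN hLNl u.1 u.2 v.1 v.2
  have e2 : ∀ u v : s29h_Hp N p, BN (Tl (Tl u)) v = BN u (Tl (Tl v)) := fun u v => by
    rw [e, e]
    linear_combination (BN u (Tl (Tl v))) * hcT2
  have e4 : ∀ u v : s29h_Hp N p, BN (Tl (Tl (Tl (Tl u)))) v = BN u (Tl (Tl (Tl (Tl v)))) :=
    fun u v => by rw [e2, e2]
  have hP : ∀ x : s29h_Hp N p, s41g_PT N p ℓ₀ x =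
      Tl (Tl (Tl (Tl x))) - (2 * ((ℓ₀ : ZMod p) + 1) ^ 2) • Tl (Tl x) +
        (((ℓ₀ : ZMod p) + 1) ^ 4) • x := fun x => rfl
  have l1 : ∀ (a b c w : s29h_Hp N p) (s t : ZMod p),
      BN (a - s • b + t • c) w = BN a w - s * BN b w + t * BN c w := by
    intro a b c w s t
    rw [LinearMap.map_add₂, LinearMap.map_sub₂, LinearMap.map_smul₂, LinearMap.map_smul₂,
      smul_eq_mul, smul_eq_mul]
  have l2 : ∀ (w a b c : s29h_Hp N p) (s t : ZMod p),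
      BN w (a - s • b + t • c) = BN w a - s * BN w b + t * BN w c := by
    intro w a b c s t
    rw [(BN w).map_add, (BN w).map_sub, (BN w).map_smul, (BN w).map_smul, smul_eq_mul,
      smul_eq_mul]
  rw [hP u, hP v, l1, l2, e4, e2]

include hp2 hℓ₀N in
/-- **PD + weak Ihara, modulo `p`**: `P(T_ℓ₀)` maps `H(N, 𝔽_p)²` into the range of
`(cor_A, cor_B)`. -/
theorem s41g_theta2_modp
    (hI2 : ∀ x ∈ s29h_Hp N p, ∀ y ∈ s29h_Hp N p,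
      s41l_resA N q' (ZMod p) x + s41l_resB N q' hq'N (ZMod p) y = 0 →
      s29h_heckeHom N ℓ₀ (ZMod p) (s29h_heckeHom N ℓ₀ (ZMod p)
          (s29h_heckeHom N ℓ₀ (ZMod p) (s29h_heckeHom N ℓ₀ (ZMod p) x))) -
        (2 * ((ℓ₀ : ZMod p) + 1) ^ 2) •
          s29h_heckeHom N ℓ₀ (ZMod p) (s29h_heckeHom N ℓ₀ (ZMod p) x) +
        (((ℓ₀ : ZMod p) + 1) ^ 4) • x = 0)
    (a₁ a₂ : Additive (Gamma0 N) →+ ZMod p) (ha₁ : a₁ ∈ s29h_Hp N p) (ha₂ : a₂ ∈ s29h_Hp N p) :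
    ∃ z ∈ s29h_Hp (N * q') p,
      s29h_heckeHom N ℓ₀ (ZMod p) (s29h_heckeHom N ℓ₀ (ZMod p)
          (s29h_heckeHom N ℓ₀ (ZMod p) (s29h_heckeHom N ℓ₀ (ZMod p) a₁))) -
        (2 * ((ℓ₀ : ZMod p) + 1) ^ 2) •
          s29h_heckeHom N ℓ₀ (ZMod p) (s29h_heckeHom N ℓ₀ (ZMod p) a₁) +
        (((ℓ₀ : ZMod p) + 1) ^ 4) • a₁ = s41l_corA N q' hq'N (ZMod p) z ∧
      s29h_heckeHom N ℓ₀ (ZMod p) (s29h_heckeHom N ℓ₀ (ZMod p)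
          (s29h_heckeHom N ℓ₀ (ZMod p) (s29h_heckeHom N ℓ₀ (ZMod p) a₂))) -
        (2 * ((ℓ₀ : ZMod p) + 1) ^ 2) •
          s29h_heckeHom N ℓ₀ (ZMod p) (s29h_heckeHom N ℓ₀ (ZMod p) a₂) +
        (((ℓ₀ : ZMod p) + 1) ^ 4) • a₂ = s41l_corB N q' hq'N (ZMod p) z := by
  classical
  haveI : NeZero (N * q') := s41g_neZero_mul N q'
  -- lifting hypotheses
  have hLN : s41g_Lift N p := fun x hx =>
    s41b_lift (Module.Free.chooseBasis ℤ (s29s_M N)) p x hx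
  have hLNq : s41g_Lift (N * q') p := fun x hx =>
    s41b_lift (Module.Free.chooseBasis ℤ (s29s_M (N * q'))) p x hx
  haveI : FiniteDimensional (ZMod p) (s29h_Hp N p) :=
    (s41b_finrank_Hp (Module.Free.chooseBasis ℤ (s29s_M N)) p).1
  haveI : FiniteDimensional (ZMod p) (s29h_Hp (N * q') p) :=
    (s41b_finrank_Hp (Module.Free.chooseBasis ℤ (s29s_M (N * q'))) p).1
  -- the sign of `w`
  set cB : ZMod p := ((s41g_sign N q' hq'N : ℤ) : ZMod p) with hcB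
  have hcB2 : cB * cB = 1 := s41g_sign_mul_self N q' hq'N (ZMod p)
  -- the forms
  let BN := s41g_B N p hp2
  let B' := s41g_B (N * q') p hp2
  let V := s29h_Hp N p × s29h_Hp N p
  let BV : V →ₗ[ZMod p] V →ₗ[ZMod p] ZMod p :=
    BN.compl₁₂ (LinearMap.fst _ _ _) (LinearMap.fst _ _ _) +
      BN.compl₁₂ (LinearMap.snd _ _ _) (LinearMap.snd _ _ _)
  have hBV : ∀ x y : V, BV x y = BN x.1 y.1 + BN x.2 y.2 := fun x y => rfl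
  have hBVnd : ∀ v : V, (∀ x, BV v x = 0) → v = 0 := by
    intro v hv
    have h1 : v.1 = 0 := s41g_B_nondeg N p hp2 v.1 fun y => by
      have := hv (y, 0)
      rw [hBV] at this
      simpa using this
    have h2 : v.2 = 0 := s41g_B_nondeg N p hp2 v.2 fun y => by
      have := hv (0, y)
      rw [hBV] at this
      simpa using this
    exact Prod.ext h1 h2
  have hB'nd : ∀ z, (∀ y, B' z y = 0) → z = 0 := s41g_B_nondeg (N * q') p hp2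
  -- the maps
  let f : s29h_Hp (N * q') p →ₗ[ZMod p] V :=
    (s41g_corAL N q' hq'N p).prod (s41g_corBL N q' hq'N p)
  let g : V →ₗ[ZMod p] s29h_Hp (N * q') p :=
    (s41g_resAL N q' p).comp (LinearMap.fst _ _ _) +
      cB • (s41g_resBL N q' hq'N p).comp (LinearMap.snd _ _ _)
  let Pl : s29h_Hp N p →ₗ[ZMod p] s29h_Hp N p := s41g_PT N p ℓ₀
  -- adjointness of `f`, `g`
  have hadj : ∀ z x, BV (f z) x = B' z (g x) := by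
    intro z x
    have e1 : BN (s41g_corAL N q' hq'N p z) x.1 = B' z (s41g_resAL N q' p x.1) := by
      show s41c_pairing (Gamma0 N) (s41l_corA N q' hq'N (ZMod p) z.1) x.1.1 =
        s41c_pairing (Gamma0 (N * q')) z.1 (s41l_resA N q' (ZMod p) x.1.1)
      rw [s41g_skew (s41l_resA N q' (ZMod p) x.1.1) z.1,
        s41g_adjA N q' hq'N p hp2 hLN hLNq x.1.1 x.1.2 z.1 z.2,
        s41g_skew x.1.1 (s41l_corA N q' hq'N (ZMod p) z.1)]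
    have e2 : BN (s41g_corBL N q' hq'N p z) x.2 = cB * B' z (s41g_resBL N q' hq'N p x.2) := by
      show s41c_pairing (Gamma0 N) (s41l_corB N q' hq'N (ZMod p) z.1) x.2.1 =
        cB * s41c_pairing (Gamma0 (N * q')) z.1 (s41l_resB N q' hq'N (ZMod p) x.2.1)
      rw [s41g_skew (s41l_resB N q' hq'N (ZMod p) x.2.1) z.1,
        s41g_adjB N q' hq'N p hp2 hLN hLNq x.2.1 x.2.2 z.1 z.2,
        s41g_skew x.2.1 (s41l_corB N q' hq'N (ZMod p) z.1)]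
      linear_combination (s41c_pairing (Gamma0 N) x.2.1 (s41l_corB N q' hq'N (ZMod p) z.1)) *
        hcB2
    have hg : g x = s41g_resAL N q' p x.1 + cB • s41g_resBL N q' hq'N p x.2 := rfl
    have hf : f z = (s41g_corAL N q' hq'N p z, s41g_corBL N q' hq'N p z) := rfl
    rw [hBV, hf, hg, map_add, _root_.map_smul, smul_eq_mul, e1, e2]
  -- weak Ihara on `ker g`
  have hs : ∀ n, g n = 0 → Pl n.1 = 0 ∧ Pl n.2 = 0 := by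
    intro n hn
    have hn' : s41l_resA N q' (ZMod p) n.1.1 + cB • s41l_resB N q' hq'N (ZMod p) n.2.1 = 0 :=
      congrArg Subtype.val hn
    have hsm : ∀ (c : ZMod p) (y : Additive (Gamma0 N) →+ ZMod p),
        s41l_resB N q' hq'N (ZMod p) (c • y) = c • s41l_resB N q' hq'N (ZMod p) y :=
      fun c y => ZMod.map_smul (s41l_resB N q' hq'N (ZMod p)) c y
    have hsmA : ∀ (c : ZMod p) (y : Additive (Gamma0 N) →+ ZMod p),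
        s41l_resA N q' (ZMod p) (c • y) = c • s41l_resA N q' (ZMod p) y :=
      fun c y => ZMod.map_smul (s41l_resA N q' (ZMod p)) c y
    have hsmW : ∀ (c : ZMod p) (y : Additive (Gamma0 (N * q')) →+ ZMod p),
        s41l_w N q' hq'N (ZMod p) (c • y) = c • s41l_w N q' hq'N (ZMod p) y :=
      fun c y => ZMod.map_smul (s41l_w N q' hq'N (ZMod p)) c y
    have h1 : Pl n.1 = 0 := by
      apply Subtype.ext
      rw [show Pl = s41g_PT N p ℓ₀ from rfl, s41g_PT_coe]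
      refine hI2 n.1.1 n.1.2 (cB • n.2.1) ((s29h_Hp N p).smul_mem cB n.2.2) ?_
      rw [hsm]
      exact hn'
    have h2 : Pl n.2 = 0 := by
      have hw := congrArg (s41l_w N q' hq'N (ZMod p)) hn'
      rw [map_add, hsmW, map_zero, ← s41l_resB_eq, s41l_resB_eq N q' hq'N n.2.1, s41l_w_w] at hw
      have h3 : Pl (cB • n.2) = 0 := by
        apply Subtype.ext
        rw [show Pl = s41g_PT N p ℓ₀ from rfl, s41g_PT_coe]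
        refine hI2 (cB • n.2.1) ((s29h_Hp N p).smul_mem cB n.2.2) n.1.1 n.1.2 ?_
        rw [hsmA, add_comm]
        exact hw
      rw [_root_.map_smul] at h3
      have h4 : cB • (cB • Pl n.2) = 0 := by rw [h3, smul_zero]
      rwa [smul_smul, hcB2, one_smul] at h4
    exact ⟨h1, h2⟩
  -- conclusion
  let a : V := ((⟨a₁, ha₁⟩ : s29h_Hp N p), (⟨a₂, ha₂⟩ : s29h_Hp N p))
  have hmem : ((Pl a.1, Pl a.2) : V) ∈ LinearMap.range f := by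
    refine s41g_range_of_orth (V := V) (V' := s29h_Hp (N * q') p) BV B' hBVnd hB'nd f g hadj
      ((Pl a.1, Pl a.2) : V) ?_
    intro n hn
    obtain ⟨h1, h2⟩ := hs n hn
    rw [hBV]
    show BN (Pl a.1) n.1 + BN (Pl a.2) n.2 = 0
    rw [s41g_PT_adj N p ℓ₀ hℓ₀N hp2 a.1 n.1, s41g_PT_adj N p ℓ₀ hℓ₀N hp2 a.2 n.2]
    show BN a.1 (Pl n.1) + BN a.2 (Pl n.2) = 0
    rw [h1, h2, map_zero, map_zero, add_zero]
  obtain ⟨z, hz⟩ := hmem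
  refine ⟨z.1, z.2, ?_, ?_⟩
  · have := congrArg (fun v : V => (v.1 : Additive (Gamma0 N) →+ ZMod p)) hz
    exact this.symm
  · have := congrArg (fun v : V => (v.2 : Additive (Gamma0 N) →+ ZMod p)) hz
    exact this.symm

end Theta2ModP

/-! ### The integral statement: hypothesis `hθ` of `s41g_alg` for `θ = P(T_ℓ₀)` -/

section Theta2

variable (N q' p ℓ₀ : ℕ) [NeZero N] [hq' : Fact q'.Prime] [hp : Fact p.Prime]
  [hℓ₀ : Fact ℓ₀.Prime] (hq'N : ¬ q' ∣ N) (hℓ₀N : ¬ ℓ₀ ∣ N) (hp2 : p ≠ 2)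

/-- reduction mod `p` of `P(T_ℓ₀) y` for an integral class `y`. -/
theorem s41g_PT_cast (y : Additive (Gamma0 N) →+ ℤ) :
    s29s_cast (ZMod p)
        (s29h_heckeHom N ℓ₀ ℤ (s29h_heckeHom N ℓ₀ ℤ (s29h_heckeHom N ℓ₀ ℤ (s29h_heckeHom N ℓ₀ ℤ y))) -
          (2 * ((ℓ₀ : ℤ) + 1) ^ 2) • s29h_heckeHom N ℓ₀ ℤ (s29h_heckeHom N ℓ₀ ℤ y) +
          (((ℓ₀ : ℤ) + 1) ^ 4) • y) =
      s29h_heckeHom N ℓ₀ (ZMod p) (s29h_heckeHom N ℓ₀ (ZMod p)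
          (s29h_heckeHom N ℓ₀ (ZMod p) (s29h_heckeHom N ℓ₀ (ZMod p) (s29s_cast (ZMod p) y)))) -
        (2 * ((ℓ₀ : ZMod p) + 1) ^ 2) •
          s29h_heckeHom N ℓ₀ (ZMod p) (s29h_heckeHom N ℓ₀ (ZMod p) (s29s_cast (ZMod p) y)) +
        (((ℓ₀ : ZMod p) + 1) ^ 4) • s29s_cast (ZMod p) y := by
  rw [map_add, map_sub, s29s_cast_zsmul, s29s_cast_zsmul]
  simp only [← s29s_heckeHom_cast]
  push_cast
  rfl

include hp2 hℓ₀N in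
/-- **Q2': PD + weak Ihara ⇒ `hθ` for `θ = P(T_ℓ₀)`.** For `y₁, y₂` in the lattice `H(N, ℤ)` there
is `z ∈ H(N q', ℤ)` with `P(T_ℓ₀) y₁ ∈ cor_A z + p H(N, ℤ)` and `P(T_ℓ₀) y₂ ∈ cor_B z + p H(N, ℤ)`,
`P(X) = X⁴ - 2 (ℓ₀+1)² X² + (ℓ₀+1)⁴`. -/
theorem s41g_theta2
    (hI2 : ∀ x ∈ s29h_Hp N p, ∀ y ∈ s29h_Hp N p,
      s41l_resA N q' (ZMod p) x + s41l_resB N q' hq'N (ZMod p) y = 0 →
      s29h_heckeHom N ℓ₀ (ZMod p) (s29h_heckeHom N ℓ₀ (ZMod p)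
          (s29h_heckeHom N ℓ₀ (ZMod p) (s29h_heckeHom N ℓ₀ (ZMod p) x))) -
        (2 * ((ℓ₀ : ZMod p) + 1) ^ 2) •
          s29h_heckeHom N ℓ₀ (ZMod p) (s29h_heckeHom N ℓ₀ (ZMod p) x) +
        (((ℓ₀ : ZMod p) + 1) ^ 4) • x = 0) :
    ∀ y₁ ∈ s29h_Hpar ℤ N ℤ, ∀ y₂ ∈ s29h_Hpar ℤ N ℤ,
      ∃ z ∈ s29h_Hpar ℤ (N * q') ℤ, ∃ y₁' ∈ s29h_Hpar ℤ N ℤ, ∃ y₂' ∈ s29h_Hpar ℤ N ℤ,
        s29h_heckeHom N ℓ₀ ℤ (s29h_heckeHom N ℓ₀ ℤ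
              (s29h_heckeHom N ℓ₀ ℤ (s29h_heckeHom N ℓ₀ ℤ y₁))) -
            (2 * ((ℓ₀ : ℤ) + 1) ^ 2) • s29h_heckeHom N ℓ₀ ℤ (s29h_heckeHom N ℓ₀ ℤ y₁) +
            (((ℓ₀ : ℤ) + 1) ^ 4) • y₁ =
          s41l_corA N q' hq'N ℤ z + (p : ℤ) • y₁' ∧
        s29h_heckeHom N ℓ₀ ℤ (s29h_heckeHom N ℓ₀ ℤ
              (s29h_heckeHom N ℓ₀ ℤ (s29h_heckeHom N ℓ₀ ℤ y₂))) -
            (2 * ((ℓ₀ : ℤ) + 1) ^ 2) • s29h_heckeHom N ℓ₀ ℤ (s29h_heckeHom N ℓ₀ ℤ y₂) +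
            (((ℓ₀ : ℤ) + 1) ^ 4) • y₂ =
          s41l_corB N q' hq'N ℤ z + (p : ℤ) • y₂' := by
  classical
  intro y₁ hy₁ y₂ hy₂
  haveI : NeZero (N * q') := s41g_neZero_mul N q'
  have ha₁ : s29s_cast (ZMod p) y₁ ∈ s29h_Hp N p := s29s_cast_mem_Hpar (ZMod p) (ZMod p) hy₁
  have ha₂ : s29s_cast (ZMod p) y₂ ∈ s29h_Hp N p := s29s_cast_mem_Hpar (ZMod p) (ZMod p) hy₂
  obtain ⟨zb, hzb, e1, e2⟩ := s41g_theta2_modp N q' p ℓ₀ hq'N hℓ₀N hp2 hI2 _ _ ha₁ ha₂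
  obtain ⟨z, hz, rfl⟩ := s41b_lift (Module.Free.chooseBasis ℤ (s29s_M (N * q'))) p zb hzb
  have hT : ∀ {y : Additive (Gamma0 N) →+ ℤ}, y ∈ s29h_Hpar ℤ N ℤ →
      s29h_heckeHom N ℓ₀ ℤ y ∈ s29h_Hpar ℤ N ℤ := fun hy => s29h_heckeHom_mem_Hpar ℤ hy
  have hP : ∀ {y : Additive (Gamma0 N) →+ ℤ}, y ∈ s29h_Hpar ℤ N ℤ →
      s29h_heckeHom N ℓ₀ ℤ (s29h_heckeHom N ℓ₀ ℤ
            (s29h_heckeHom N ℓ₀ ℤ (s29h_heckeHom N ℓ₀ ℤ y))) -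
          (2 * ((ℓ₀ : ℤ) + 1) ^ 2) • s29h_heckeHom N ℓ₀ ℤ (s29h_heckeHom N ℓ₀ ℤ y) +
          (((ℓ₀ : ℤ) + 1) ^ 4) • y ∈ s29h_Hpar ℤ N ℤ := fun hy =>
    (s29h_Hpar ℤ N ℤ).add_mem
      ((s29h_Hpar ℤ N ℤ).sub_mem (hT (hT (hT (hT hy))))
        ((s29h_Hpar ℤ N ℤ).smul_mem _ (hT (hT hy))))
      ((s29h_Hpar ℤ N ℤ).smul_mem _ hy)
  -- first component
  have hχ₁ := (s29h_Hpar ℤ N ℤ).sub_mem (hP hy₁) (s41l_corA_mem_Hpar N q' hq'N ℤ hz)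
  have h0₁ : s29s_cast (ZMod p)
      (s29h_heckeHom N ℓ₀ ℤ (s29h_heckeHom N ℓ₀ ℤ
            (s29h_heckeHom N ℓ₀ ℤ (s29h_heckeHom N ℓ₀ ℤ y₁))) -
          (2 * ((ℓ₀ : ℤ) + 1) ^ 2) • s29h_heckeHom N ℓ₀ ℤ (s29h_heckeHom N ℓ₀ ℤ y₁) +
          (((ℓ₀ : ℤ) + 1) ^ 4) • y₁ - s41l_corA N q' hq'N ℤ z) = 0 := by
    rw [map_sub, s41g_PT_cast, ← s41g_corA_cast, e1, sub_self]
  obtain ⟨y₁', hy₁', h₁⟩ := s41g_saturated p _ hχ₁ h0₁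
  -- second component
  have hχ₂ := (s29h_Hpar ℤ N ℤ).sub_mem (hP hy₂) (s41l_corB_mem_Hpar N q' hq'N ℤ hz)
  have h0₂ : s29s_cast (ZMod p)
      (s29h_heckeHom N ℓ₀ ℤ (s29h_heckeHom N ℓ₀ ℤ
            (s29h_heckeHom N ℓ₀ ℤ (s29h_heckeHom N ℓ₀ ℤ y₂))) -
          (2 * ((ℓ₀ : ℤ) + 1) ^ 2) • s29h_heckeHom N ℓ₀ ℤ (s29h_heckeHom N ℓ₀ ℤ y₂) +
          (((ℓ₀ : ℤ) + 1) ^ 4) • y₂ - s41l_corB N q' hq'N ℤ z) = 0 := by
    rw [map_sub, s41g_PT_cast, ← s41g_corB_cast, e2, sub_self]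
  obtain ⟨y₂', hy₂', h₂⟩ := s41g_saturated p _ hχ₂ h0₂
  refine ⟨z, hz, y₁', hy₁', y₂', hy₂', ?_, ?_⟩
  · rw [← h₁]; abel
  · rw [← h₂]; abel

end Theta2

end Fermat.Agent.Lib.S41
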