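/-
S41 project, module [K], file KArith (helper3): the elementary arithmetic behind Theorem C.

* `s41ka_good_exists`   : every level prime to `q` divides a GOOD level;
* `s41ka_good_coprime`, `s41ka_good_ne_zero`, `s41ka_good_eight_dvd`, `s41ka_good_four_dvd`;
* `s41ka_unit_exists`   : for `ℓ ≡ -1` modulo a good `L`, `ℓ` an odd prime `≠ q`, there is `k > 0` with
                          `q^(2k) = 1 + L ℓ m'`, `m'` prime to `L`;
* `s41ka_exists_int`    : every element of `ℤ[1/q]` is congruent to an integer modulo `L ℤ[1/q]`;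
* `s41ka_mu`            : the number `μ` of Theorem C: `μ (u L ℓ) = w - w⁻¹` with `w = q^k`, `μ ∈ ℤ[1/q]`
                          a unit modulo `L` (`j μ ≡ 1` for an integer `j`).
-/
import Mathlib
import Fermat.Agent.Lib.S41.KDefs

set_option autoImplicit false

namespace Fermat.Agent.Lib.S41

/-- (a) every level prime to `q` divides a good level. -/
theorem s41ka_good_exists {q : ℕ} (hq : q.Prime) {L₀ : ℕ} (hL₀ : L₀ ≠ 0)
    (hc : Nat.Coprime L₀ q) : ∃ L, s41k_Good q L ∧ L₀ ∣ L := by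
  have hφ : 0 < Nat.totient L₀ := Nat.totient_pos.mpr (Nat.pos_of_ne_zero hL₀)
  have h1 : q ^ Nat.totient L₀ ≡ 1 [MOD L₀] := Nat.ModEq.pow_totient hc.symm
  have h2 : q ^ (2 * Nat.totient L₀) ≡ 1 [MOD L₀] := by
    rw [mul_comm, pow_mul]
    simpa using h1.pow 2
  have hpos : 1 ≤ q ^ (2 * Nat.totient L₀) := Nat.one_le_pow _ _ hq.pos
  refine ⟨q ^ (2 * Nat.totient L₀) - 1,
    ⟨Nat.totient L₀, 1, hφ, by omega, Nat.coprime_one_left _⟩, ?_⟩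
  exact (Nat.modEq_iff_dvd' hpos).mp h2.symm

/-- (b1) a good level is prime to `q`. -/
theorem s41ka_good_coprime {q L : ℕ} (hG : s41k_Good q L) : Nat.Coprime L q := by
  obtain ⟨e, m, he, hqe, _⟩ := hG
  have h1 : Nat.gcd L q ∣ q ^ (2 * e) :=
    dvd_trans (Nat.gcd_dvd_right L q) (dvd_pow_self q (by omega))
  have h2 : Nat.gcd L q ∣ L * m := dvd_trans (Nat.gcd_dvd_left L q) (dvd_mul_right L m)
  rw [hqe] at h1
  have h3 : Nat.gcd L q ∣ 1 := (Nat.dvd_add_iff_left h2).mpr h1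
  exact Nat.eq_one_of_dvd_one h3

/-- (b2) a good level is nonzero. -/
theorem s41ka_good_ne_zero {q L : ℕ} (hq : q.Prime) (hG : s41k_Good q L) : L ≠ 0 := by
  rintro rfl
  obtain ⟨e, m, he, hqe, _⟩ := hG
  have h2 : 2 ≤ q ^ (2 * e) :=
    le_trans hq.two_le (Nat.le_self_pow (by omega) q)
  rw [zero_mul, add_zero] at hqe
  omega

/-- (b3) an even good level is divisible by `8`. -/
theorem s41ka_good_eight_dvd {q L : ℕ} (hG : s41k_Good q L) (h2 : 2 ∣ L) : 8 ∣ L := by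
  have hc := s41ka_good_coprime hG
  obtain ⟨e, m, he, hqe, hm⟩ := hG
  have hqodd : ¬ 2 ∣ q := fun h => by
    have h3 := Nat.dvd_gcd h2 h
    rw [hc] at h3
    omega
  have hq8 : q ^ 2 % 8 = 1 := by
    have h4 : q % 8 = 1 ∨ q % 8 = 3 ∨ q % 8 = 5 ∨ q % 8 = 7 := by omega
    rcases h4 with h | h | h | h <;> simp [pow_two, Nat.mul_mod, h]
  have hq8e : q ^ (2 * e) % 8 = 1 := by
    rw [pow_mul, Nat.pow_mod, hq8]
    simp
  have h8 : 8 ∣ L * m := by omega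
  have hmodd : Nat.Coprime 8 m := by
    have h5 : Nat.Coprime 2 m := (Nat.Coprime.coprime_dvd_right h2 hm).symm
    have h6 : Nat.Coprime (2 ^ 3) m := Nat.Coprime.pow_left 3 h5
    simpa using h6
  exact Nat.Coprime.dvd_of_dvd_mul_right hmodd h8

/-- (b3') an even good level is divisible by `4`. -/
theorem s41ka_good_four_dvd {q L : ℕ} (hG : s41k_Good q L) (h2 : 2 ∣ L) : 4 ∣ L :=
  dvd_trans (by norm_num) (s41ka_good_eight_dvd hG h2)

/-- powers of `1 + L m`. -/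
theorem s41ka_pow_one_add (L m : ℕ) (h : ℕ) :
    ∃ S : ℕ, (1 + L * m) ^ h = 1 + L * m * S ∧ S ≡ h [MOD L] := by
  induction h with
  | zero => exact ⟨0, by simp, Nat.ModEq.refl _⟩
  | succ h ih =>
    obtain ⟨S, hS, hSh⟩ := ih
    refine ⟨1 + S + L * m * S, ?_, ?_⟩
    · rw [pow_succ, hS]; ring
    · have h1 : L * m * S ≡ 0 [MOD L] := by
        rw [Nat.modEq_zero_iff_dvd]
        exact Dvd.intro (m * S) (by ring)
      have h2 : 1 + S + L * m * S ≡ 1 + h + 0 [MOD L] :=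
        Nat.ModEq.add (Nat.ModEq.add (Nat.ModEq.refl 1) hSh) h1
      have h3 : 1 + h + 0 = h + 1 := by ring
      rwa [h3] at h2

/-- (c) the unit `q^k` of Theorem C. -/
theorem s41ka_unit_exists {q L : ℕ} (hq : q.Prime) (hG : s41k_Good q L) {ℓ : ℕ} (hℓ : ℓ.Prime)
    (hℓq : ℓ ≠ q) (hℓ2 : ℓ ≠ 2) (hL : L ∣ ℓ + 1) :
    ∃ k m' : ℕ, 0 < k ∧ q ^ (2 * k) = 1 + L * ℓ * m' ∧ Nat.Coprime m' L := by
  have hG' := hG
  obtain ⟨e, m, he, hqe, hm⟩ := hG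
  -- `ℓ = 2 h + 1`
  have hodd : ℓ % 2 = 1 := by
    rcases hℓ.eq_two_or_odd with h | h
    · exact absurd h hℓ2
    · exact h
  obtain ⟨h, hh⟩ : ∃ h, ℓ = 2 * h + 1 := ⟨ℓ / 2, by omega⟩
  have hh0 : 0 < h := by
    have := hℓ.two_le
    omega
  obtain ⟨S, hS, hSh⟩ := s41ka_pow_one_add L m h
  have hk : q ^ (2 * (e * h)) = 1 + L * m * S := by
    rw [← mul_assoc, pow_mul, hqe, hS]
  -- `ℓ ∣ q^(2 e h) - 1`
  have hqℓ : Nat.Coprime q ℓ := (Nat.coprime_primes hq hℓ).mpr (Ne.symm hℓq)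
  have hfer : q ^ (2 * (e * h)) ≡ 1 [MOD ℓ] := by
    have h1 : q ^ (ℓ - 1) ≡ 1 [MOD ℓ] := by
      have := Nat.ModEq.pow_totient hqℓ
      rwa [Nat.totient_prime hℓ] at this
    have h2 : 2 * (e * h) = (ℓ - 1) * e := by
      rw [hh]; simp; ring
    rw [h2, pow_mul]
    simpa using h1.pow e
  have hℓdvd : ℓ ∣ L * m * S := by
    have h1 : 1 ≤ q ^ (2 * (e * h)) := Nat.one_le_pow _ _ hq.pos
    have h2 := (Nat.modEq_iff_dvd' h1).mp hfer.symm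
    rw [hk] at h2
    simpa using h2
  -- `gcd(ℓ, L) = 1`
  have hℓL : Nat.Coprime ℓ L := by
    have h1 : Nat.Coprime ℓ (ℓ + 1) := by simp
    exact Nat.Coprime.coprime_dvd_right hL h1
  have hℓmS : ℓ ∣ m * S := by
    have h1 : ℓ ∣ L * (m * S) := by rwa [← mul_assoc]
    exact Nat.Coprime.dvd_of_dvd_mul_left hℓL h1
  obtain ⟨m', hm'⟩ := hℓmS
  -- `gcd(h, L) = 1`
  have hhL : Nat.Coprime h L := by
    rw [Nat.coprime_comm]
    apply Nat.Coprime.symm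
    apply Nat.coprime_of_dvd
    intro s hs hsh hsL
    -- `s ∣ 2 (h + 1)` and `s ∣ h`, so `s ∣ 2`
    have h1 : s ∣ 2 * (h + 1) := by
      have : ℓ + 1 = 2 * (h + 1) := by omega
      rw [← this]
      exact dvd_trans hsL hL
    have h2 : s ∣ 2 * h := Dvd.dvd.mul_left hsh 2
    have h3 : s ∣ 2 := by
      have h4 : 2 * (h + 1) = 2 * h + 2 := by ring
      rw [h4] at h1
      exact (Nat.dvd_add_iff_right h2).mpr h1
    have hs2 : s = 2 := (Nat.prime_dvd_prime_iff_eq hs Nat.prime_two).mp h3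
    subst hs2
    -- then `8 ∣ L ∣ 2 (h + 1)`, so `h` is odd
    have h8 : 8 ∣ L := s41ka_good_eight_dvd hG' hsL
    have h5 : 8 ∣ ℓ + 1 := dvd_trans h8 hL
    omega
  have hSL : Nat.Coprime S L := by
    have h1 : Nat.gcd S L = Nat.gcd h L := Nat.ModEq.gcd_eq hSh
    exact h1.trans hhL
  have hmSL : Nat.Coprime (m * S) L := Nat.Coprime.mul_left hm hSL
  refine ⟨e * h, m', Nat.mul_pos he hh0, ?_, ?_⟩
  · rw [hk, mul_assoc L m S, hm']; ring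
  · exact Nat.Coprime.coprime_dvd_left (Dvd.intro_left ℓ hm'.symm) hmSL

/-- (d1) every element of `ℤ[1/q]` is congruent to an integer modulo `L ℤ[1/q]` (`L` prime to `q`). -/
theorem s41ka_exists_int {q L : ℕ} (hLq : Nat.Coprime L q) {x : ℚ} (hx : x ∈ s41e_R q) :
    ∃ j : ℤ, s41k_LR q L (x - (j : ℚ)) := by
  obtain ⟨k, n, hn⟩ := s41e_mem_R.mp hx
  have hcop : IsCoprime ((q ^ k : ℕ) : ℤ) ((L : ℕ) : ℤ) :=
    Nat.isCoprime_iff_coprime.mpr (Nat.Coprime.pow_left k hLq.symm)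
  obtain ⟨a, b, hab⟩ := hcop
  have habQ : (a : ℚ) * (q : ℚ) ^ k + (b : ℚ) * (L : ℚ) = 1 := by
    have := congrArg (fun z : ℤ => (z : ℚ)) hab
    simpa using this
  refine ⟨a * n, (b : ℚ) * x, (s41e_R q).mul_mem (s41e_int_mem_R q b) hx, ?_⟩
  push_cast
  rw [← hn]
  linear_combination (-x) * habQ

/-- (d2) an integer inverse modulo `L`. -/
theorem s41ka_exists_inv_int {m' L : ℕ} (h : Nat.Coprime m' L) :
    ∃ c d : ℤ, c * (m' : ℤ) + d * (L : ℤ) = 1 :=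
  Nat.isCoprime_iff_coprime.mpr h

/-- (d) the number `μ` of Theorem C: for a unit `u` of `ℤ[1/q]`, a good level `L` and an odd prime
`ℓ ≠ q`, `ℓ ≡ -1` modulo `L`, there are `w = q^k`, `w' = w⁻¹` and `μ ∈ ℤ[1/q]` with
`μ (u L ℓ) = w - w'`, and `μ` is a unit modulo `L`: `j μ ≡ 1` modulo `L ℤ[1/q]` for an integer `j`. -/
theorem s41ka_mu {q L : ℕ} (hq : q.Prime) (hG : s41k_Good q L) {ℓ : ℕ} (hℓ : ℓ.Prime)
    (hℓq : ℓ ≠ q) (hℓ2 : ℓ ≠ 2) (hL : L ∣ ℓ + 1) {u u' : ℚ} (hu : u ∈ s41e_R q)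
    (hu' : u' ∈ s41e_R q) (huu' : u * u' = 1) :
    ∃ μ w w' : ℚ, μ ∈ s41e_R q ∧ w ∈ s41e_R q ∧ w' ∈ s41e_R q ∧ w * w' = 1 ∧
      μ * (u * (L : ℚ) * (ℓ : ℚ)) = w - w' ∧ ∃ j : ℤ, s41k_LR q L ((j : ℚ) * μ - 1) := by
  have hLq := s41ka_good_coprime hG
  obtain ⟨k, m', _, hk, hm'⟩ := s41ka_unit_exists hq hG hℓ hℓq hℓ2 hL
  have hq0 : (q : ℚ) ≠ 0 := by exact_mod_cast hq.ne_zero
  have hqR : (q : ℚ) ∈ s41e_R q := s41e_nat_mem_R q q
  have hqiR : ((q : ℚ))⁻¹ ∈ s41e_R q := s41e_inv_mem_R hq.ne_zero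
  set w : ℚ := (q : ℚ) ^ k with hw
  set w' : ℚ := ((q : ℚ))⁻¹ ^ k with hw'
  have hwR : w ∈ s41e_R q := (s41e_R q).pow_mem hqR k
  have hw'R : w' ∈ s41e_R q := (s41e_R q).pow_mem hqiR k
  have hww' : w * w' = 1 := by
    rw [hw, hw', ← mul_pow, mul_inv_cancel₀ hq0, one_pow]
  have hkQ : w * w = 1 + (L : ℚ) * (ℓ : ℚ) * (m' : ℚ) := by
    have h1 : ((q ^ (2 * k) : ℕ) : ℚ) = ((1 + L * ℓ * m' : ℕ) : ℚ) := by rw [hk]
    push_cast at h1
    rw [hw, ← pow_two, ← pow_mul, mul_comm k 2]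
    exact h1
  set μ : ℚ := (m' : ℚ) * w' * u' with hμ
  have hμR : μ ∈ s41e_R q :=
    (s41e_R q).mul_mem ((s41e_R q).mul_mem (s41e_nat_mem_R q m') hw'R) hu'
  refine ⟨μ, w, w', hμR, hwR, hw'R, hww', ?_, ?_⟩
  · -- `μ u L ℓ = m' L ℓ w' = (w² - 1) w' = w - w'`
    rw [hμ]
    linear_combination ((m' : ℚ) * w' * (L : ℚ) * (ℓ : ℚ)) * huu' + (-w') * hkQ + w * hww'
  · obtain ⟨a, r, hr, har⟩ := s41ka_exists_int hLq ((s41e_R q).mul_mem hwR hu)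
    obtain ⟨c, d, hcd⟩ := s41ka_exists_inv_int hm'
    have hcdQ : (c : ℚ) * (m' : ℚ) + (d : ℚ) * (L : ℚ) = 1 := by
      have := congrArg (fun z : ℤ => (z : ℚ)) hcd
      simpa using this
    refine ⟨c * a, -((d : ℚ) + r * w' * u' - (d : ℚ) * (L : ℚ) * r * w' * u'), ?_, ?_⟩
    · refine (s41e_R q).neg_mem ((s41e_R q).sub_mem ((s41e_R q).add_mem (s41e_int_mem_R q d)
        ((s41e_R q).mul_mem ((s41e_R q).mul_mem hr hw'R) hu')) ?_)
      exact (s41e_R q).mul_mem ((s41e_R q).mul_mem ((s41e_R q).mul_mem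
        ((s41e_R q).mul_mem (s41e_int_mem_R q d) (s41e_nat_mem_R q L)) hr) hw'R) hu'
    · -- `a = w u - L r`, `c m' = 1 - d L`
      have ha : (a : ℚ) = w * u - (L : ℚ) * r := by linarith
      push_cast
      rw [hμ, ha]
      have hcm : (c : ℚ) * (m' : ℚ) = 1 - (d : ℚ) * (L : ℚ) := by linarith
      have h1 : (c : ℚ) * (w * u - (L : ℚ) * r) * ((m' : ℚ) * w' * u') - 1 =
          ((c : ℚ) * (m' : ℚ)) * ((w * w') * (u * u') - (L : ℚ) * r * w' * u') - 1 := by ring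
      rw [h1, hcm, hww', huu']
      ring

/-- (d'), the shape consumed by `KCent3` (`u = 1`). -/
theorem s41ka_unit_mu {q L : ℕ} (hq : q.Prime) (hG : s41k_Good q L) {ℓ : ℕ} (hℓ : ℓ.Prime)
    (hℓq : ℓ ≠ q) (hℓ2 : ℓ ≠ 2) (hLℓ : L ∣ ℓ + 1) :
    ∃ μ ∈ s41e_R q, ∃ w ∈ s41e_R q, ∃ w' ∈ s41e_R q, w * w' = 1 ∧
      μ * ((L : ℚ) * (ℓ : ℚ)) = w - w' ∧ ∃ j : ℤ, s41k_LR q L ((j : ℚ) * μ - 1) := by
  obtain ⟨μ, w, w', hμ, hw, hw', hww', h1, hj⟩ :=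
    s41ka_mu hq hG hℓ hℓq hℓ2 hLℓ (s41e_R q).one_mem (s41e_R q).one_mem (one_mul 1)
  refine ⟨μ, hμ, w, hw, w', hw', hww', ?_, hj⟩
  rw [← h1]; ring

/-- (b1), argument order of `KCent3`. -/
theorem s41ka_good_coprime' {q L : ℕ} (hG : s41k_Good q L) (_hq : q.Prime) : Nat.Coprime L q :=
  s41ka_good_coprime hG

/-- (b2), argument order of `KCent3`. -/
theorem s41ka_good_ne_zero' {q L : ℕ} (hG : s41k_Good q L) (hq : q.Prime) : L ≠ 0 :=
  s41ka_good_ne_zero hq hG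

/-- (a), the shape consumed by `KMain`. -/
theorem s41ka_hgood : ∀ q L₀ : ℕ, q.Prime → L₀ ≠ 0 → Nat.Coprime L₀ q →
    ∃ L, s41k_Good q L ∧ L₀ ∣ L :=
  fun _ _ hq h0 hc => s41ka_good_exists hq h0 hc

end Fermat.Agent.Lib.S41
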