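import Mathlib
import Fermat.Agent.Lib.S41.KDefs
import Fermat.Agent.Lib.S41.DArith
import Fermat.Agent.Lib.S41.DCong
import Fermat.Agent.Lib.S41.DKills

set_option autoImplicit false

open Matrix MatrixGroups

namespace Fermat.Agent.Lib.S41

/-- **Dirichlet's theorem in `ℤ[1/q]`, variant with `ℓ ≡ -1 mod L`.** -/
theorem s41kc_dirichlet {q : ℕ} (hq : q.Prime) {L : ℕ} (hL : L ≠ 0) (k : ℕ)
    (C₁ D : ℤ) (hD : D ≠ 0)
    (hcop : ∀ r : ℕ, r.Prime → (r : ℤ) ∣ C₁ → (r : ℤ) ∣ D → r = q)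
    (hLD : ∀ r : ℕ, r.Prime → r ∣ L → ¬ (r : ℤ) ∣ D) (B : ℕ) :
    ∃ ℓ : ℕ, B < ℓ ∧ ℓ.Prime ∧ L ∣ ℓ + 1 ∧
      ∃ t ∈ s41e_R q, t * (D : ℚ) = (q : ℚ) ^ k * (ℓ : ℚ) - C₁ := by
  have hq0 : (q : ℚ) ≠ 0 := by exact_mod_cast hq.ne_zero
  have hDn : D.natAbs ≠ 0 := by simpa using hD
  obtain ⟨e, D'', hqD'', hDeq⟩ := Nat.exists_eq_pow_mul_and_not_dvd hDn q hq.ne_one
  have hD''0 : D'' ≠ 0 := by
    rintro rfl
    exact hqD'' (dvd_zero _)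
  have hD''D : (D'' : ℤ) ∣ D := by
    have : D'' ∣ D.natAbs := ⟨q ^ e, by rw [hDeq]; ring⟩
    exact Int.natCast_dvd.mpr this
  have hcop1 : Nat.Coprime D'' L := by
    rw [Nat.coprime_iff_gcd_eq_one]
    by_contra hne
    obtain ⟨r, hr, hrd⟩ := Nat.exists_prime_and_dvd hne
    have h1 : r ∣ D'' := hrd.trans (Nat.gcd_dvd_left _ _)
    have h2 : r ∣ L := hrd.trans (Nat.gcd_dvd_right _ _)
    exact hLD r hr h2 ((Int.natCast_dvd_natCast.mpr h1).trans hD''D)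
  have hcopq : Nat.Coprime q D'' := (Nat.Prime.coprime_iff_not_dvd hq).mpr hqD''
  have hcopC : IsCoprime (C₁ : ℤ) (D'' : ℤ) := by
    rw [Int.isCoprime_iff_gcd_eq_one]
    by_contra hne
    obtain ⟨r, hr, hrd⟩ := Nat.exists_prime_and_dvd hne
    have hrC : (r : ℤ) ∣ C₁ := (Int.natCast_dvd_natCast.mpr hrd).trans (Int.gcd_dvd_left _ _)
    have hrD'' : (r : ℤ) ∣ (D'' : ℤ) :=
      (Int.natCast_dvd_natCast.mpr hrd).trans (Int.gcd_dvd_right _ _)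
    have hrq := hcop r hr hrC (hrD''.trans hD''D)
    subst hrq
    exact hqD'' (by exact_mod_cast hrD'')
  have : NeZero (D'' * L) := ⟨Nat.mul_ne_zero hD''0 hL⟩
  have : NeZero D'' := ⟨hD''0⟩
  have : NeZero L := ⟨hL⟩
  have hu1 : IsUnit ((C₁ : ZMod D'')) := by
    rw [ZMod.coe_int_isUnit_iff_isCoprime]
    exact hcopC.symm
  have hu2 : IsUnit (((q : ℕ) : ZMod D'') ^ k) :=
    ((ZMod.isUnit_iff_coprime q D'').mpr hcopq).pow k
  have hu3 : IsUnit ((-1 : ZMod L)) := isUnit_one.neg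
  obtain ⟨u2, hu2'⟩ := hu2
  let a₁ : ZMod D'' := (C₁ : ZMod D'') * ((u2⁻¹ : (ZMod D'')ˣ) : ZMod D'')
  have ha₁ : IsUnit a₁ := hu1.mul (Units.isUnit _)
  let eqv := ZMod.chineseRemainder hcop1
  let a : ZMod (D'' * L) := eqv.symm (a₁, (-1 : ZMod L))
  have ha : IsUnit a := by
    have : IsUnit ((a₁, (-1 : ZMod L)) : ZMod D'' × ZMod L) :=
      Prod.isUnit_iff.mpr ⟨ha₁, hu3⟩
    exact this.map eqv.symm
  obtain ⟨ℓ, hBℓ, hℓ, hℓa⟩ := Nat.forall_exists_prime_gt_and_eq_mod ha B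
  have hℓe : eqv (ℓ : ZMod (D'' * L)) = (a₁, (-1 : ZMod L)) := by
    rw [hℓa]; exact eqv.apply_symm_apply _
  rw [map_natCast] at hℓe
  have hℓ1 : ((ℓ : ℕ) : ZMod D'') = a₁ := by
    have := congrArg Prod.fst hℓe
    simpa using this
  have hℓ2 : ((ℓ : ℕ) : ZMod L) = (-1 : ZMod L) := by
    have := congrArg Prod.snd hℓe
    simpa using this
  refine ⟨ℓ, hBℓ, hℓ, ?_, ?_⟩
  · rw [← ZMod.natCast_eq_zero_iff]
    push_cast
    rw [hℓ2]; ring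
  · have h3 : (((q : ℤ) ^ k * (ℓ : ℤ) - C₁ : ℤ) : ZMod D'') = 0 := by
      push_cast
      rw [hℓ1]
      show ((q : ℕ) : ZMod D'') ^ k * ((C₁ : ZMod D'') * ((u2⁻¹ : (ZMod D'')ˣ) : ZMod D'')) - _ = 0
      rw [← hu2']
      rw [mul_comm (C₁ : ZMod D''), ← mul_assoc, Units.mul_inv, one_mul, sub_self]
    rw [ZMod.intCast_zmod_eq_zero_iff_dvd] at h3
    obtain ⟨w, hw⟩ := h3
    have hw' : (q : ℚ) ^ k * (ℓ : ℚ) - C₁ = (D'' : ℚ) * w := by exact_mod_cast hw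
    have hDabs : ((D.natAbs : ℕ) : ℚ) = (q : ℚ) ^ e * (D'' : ℚ) := by
      rw [hDeq]; push_cast; ring
    have hqe : (q : ℚ) ^ e ≠ 0 := pow_ne_zero _ hq0
    rcases Int.natAbs_eq D with hs | hs
    · refine ⟨(w : ℚ) * ((q : ℚ) ^ e)⁻¹,
        (s41e_R q).mul_mem (s41e_int_mem_R q w) (s41d_qpow_inv_mem' hq.ne_zero e), ?_⟩
      have hDq : (D : ℚ) = (q : ℚ) ^ e * (D'' : ℚ) := by
        rw [← hDabs]
        have : (D : ℚ) = ((D.natAbs : ℤ) : ℚ) := by rw [← hs]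
        rw [this]; simp
      rw [hw', hDq]
      field_simp
    · refine ⟨-(w : ℚ) * ((q : ℚ) ^ e)⁻¹,
        (s41e_R q).mul_mem ((s41e_R q).neg_mem (s41e_int_mem_R q w))
          (s41d_qpow_inv_mem' hq.ne_zero e), ?_⟩
      have hDq : (D : ℚ) = -((q : ℚ) ^ e * (D'' : ℚ)) := by
        rw [← hDabs]
        have : (D : ℚ) = ((-(D.natAbs : ℤ) : ℤ) : ℚ) := by rw [← hs]
        rw [this]; simp
      rw [hw', hDq]
      field_simp

end Fermat.Agent.Lib.S41
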