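import Mathlib
import Fermat.Agent.Lib.S41.KCent1

set_option autoImplicit false

open Matrix MatrixGroups

namespace Fermat.Agent.Lib.S41

section basic

variable {q L : ℕ} {A : Type*} [AddCommGroup A] {ψ : SL(2, ℚ) → A}

theorem s41kc_Gam_le (q L : ℕ) : s41k_Gam q L ≤ s41e_G 1 q :=
  s41k_Gam_le_G (one_dvd L)

theorem s41kc_psi_one (hψ : s41k_Adm q L ψ) : ψ 1 = 0 := by
  have h := hψ.1 1 (s41k_Gam q L).one_mem 1 (s41k_Gam q L).one_mem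
  rw [mul_one] at h
  have : ψ 1 + 0 = ψ 1 + ψ 1 := by rw [add_zero]; exact h
  exact (add_left_cancel this).symm

theorem s41kc_psi_inv (hψ : s41k_Adm q L ψ) {g : SL(2, ℚ)} (hg : g ∈ s41k_Gam q L) :
    ψ g⁻¹ = - ψ g := by
  have h := hψ.1 g hg g⁻¹ ((s41k_Gam q L).inv_mem hg)
  rw [mul_inv_cancel, s41kc_psi_one hψ] at h
  exact eq_neg_of_add_eq_zero_right h.symm

/-- the trace is invariant under conjugation. -/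
theorem s41kc_trace_conj (τ e : SL(2, ℚ)) :
    (τ * e * τ⁻¹).1 0 0 + (τ * e * τ⁻¹).1 1 1 = e.1 0 0 + e.1 1 1 := by
  have hdet := s41d_det τ
  rw [s41d_mul_00, s41d_mul_11, s41d_mul_00, s41d_mul_01, s41d_mul_10, s41d_mul_11,
    s41d_inv_00, s41d_inv_01, s41d_inv_10, s41d_inv_11]
  linear_combination (e.1 0 0 + e.1 1 1) * hdet

/-- `ψ` kills every `Γ`-conjugate of a trace-2 element of `Γ_L`. -/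
theorem s41kc_psi_conj_unip (hψ : s41k_Adm q L ψ) {τ e : SL(2, ℚ)} (hτ : τ ∈ s41e_G 1 q)
    (he : e ∈ s41k_Gam q L) (htr : e.1 0 0 + e.1 1 1 = 2) : ψ (τ * e * τ⁻¹) = 0 :=
  hψ.2 _ (s41k_Gam_conj hτ he) (by rw [s41kc_trace_conj, htr])

/-- `F(e g) = F(g)` for `e` of trace `2` in `Γ_L`. -/
theorem s41kc_F_mul_left (hψ : s41k_Adm q L ψ) {τ e g : SL(2, ℚ)} (hτ : τ ∈ s41e_G 1 q)
    (he : e ∈ s41k_Gam q L) (htr : e.1 0 0 + e.1 1 1 = 2) (hg : g ∈ s41k_Gam q L) :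
    ψ (τ * (e * g) * τ⁻¹) = ψ (τ * g * τ⁻¹) := by
  have h1 : τ * (e * g) * τ⁻¹ = (τ * e * τ⁻¹) * (τ * g * τ⁻¹) := by group
  rw [h1, hψ.1 _ (s41k_Gam_conj hτ he) _ (s41k_Gam_conj hτ hg), s41kc_psi_conj_unip hψ hτ he htr,
    zero_add]

/-- `F(g e) = F(g)` for `e` of trace `2` in `Γ_L`. -/
theorem s41kc_F_mul_right (hψ : s41k_Adm q L ψ) {τ e g : SL(2, ℚ)} (hτ : τ ∈ s41e_G 1 q)
    (he : e ∈ s41k_Gam q L) (htr : e.1 0 0 + e.1 1 1 = 2) (hg : g ∈ s41k_Gam q L) :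
    ψ (τ * (g * e) * τ⁻¹) = ψ (τ * g * τ⁻¹) := by
  have h1 : τ * (g * e) * τ⁻¹ = (τ * g * τ⁻¹) * (τ * e * τ⁻¹) := by group
  rw [h1, hψ.1 _ (s41k_Gam_conj hτ hg) _ (s41k_Gam_conj hτ he), s41kc_psi_conj_unip hψ hτ he htr,
    add_zero]

end basic

/-- the stabiliser `Inv(g)` of the function `τ ↦ ψ(τ g τ⁻¹)` under right translation. -/
def s41kc_Inv (q : ℕ) {A : Type*} [AddCommGroup A] (ψ : SL(2, ℚ) → A) (g : SL(2, ℚ)) :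
    Subgroup SL(2, ℚ) where
  carrier := {σ | σ ∈ s41e_G 1 q ∧
    ∀ τ ∈ s41e_G 1 q, ψ (τ * σ * g * σ⁻¹ * τ⁻¹) = ψ (τ * g * τ⁻¹)}
  mul_mem' := by
    rintro σ₁ σ₂ ⟨h₁, k₁⟩ ⟨h₂, k₂⟩
    refine ⟨(s41e_G 1 q).mul_mem h₁ h₂, fun τ hτ => ?_⟩
    have e1 : τ * (σ₁ * σ₂) * g * (σ₁ * σ₂)⁻¹ * τ⁻¹ =
        (τ * σ₁) * σ₂ * g * σ₂⁻¹ * (τ * σ₁)⁻¹ := by group
    rw [e1, k₂ _ ((s41e_G 1 q).mul_mem hτ h₁)]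
    have e2 : τ * σ₁ * g * (τ * σ₁)⁻¹ = τ * σ₁ * g * σ₁⁻¹ * τ⁻¹ := by group
    rw [e2, k₁ τ hτ]
  one_mem' := by
    refine ⟨(s41e_G 1 q).one_mem, fun τ _ => ?_⟩
    simp
  inv_mem' := by
    rintro σ ⟨h, k⟩
    refine ⟨(s41e_G 1 q).inv_mem h, fun τ hτ => ?_⟩
    have h' := k (τ * σ⁻¹) ((s41e_G 1 q).mul_mem hτ ((s41e_G 1 q).inv_mem h))
    have e1 : τ * σ⁻¹ * σ * g * σ⁻¹ * (τ * σ⁻¹)⁻¹ = τ * g * τ⁻¹ := by group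
    have e2 : τ * σ⁻¹ * g * (τ * σ⁻¹)⁻¹ = τ * σ⁻¹ * g * σ⁻¹⁻¹ * τ⁻¹ := by group
    rw [e1, e2] at h'
    exact h'.symm

theorem s41kc_mem_Inv {q : ℕ} {A : Type*} [AddCommGroup A] {ψ : SL(2, ℚ) → A} {g σ : SL(2, ℚ)} :
    σ ∈ s41kc_Inv q ψ g ↔ σ ∈ s41e_G 1 q ∧
      ∀ τ ∈ s41e_G 1 q, ψ (τ * σ * g * σ⁻¹ * τ⁻¹) = ψ (τ * g * τ⁻¹) := Iff.rfl

section inv

variable {q L : ℕ} {A : Type*} [AddCommGroup A] {ψ : SL(2, ℚ) → A}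

/-- `Γ_L ⊂ Inv(g)`. -/
theorem s41kc_Gam_le_Inv (hψ : s41k_Adm q L ψ) {g : SL(2, ℚ)} (hg : g ∈ s41k_Gam q L) :
    s41k_Gam q L ≤ s41kc_Inv q ψ g := by
  intro σ hσ
  refine ⟨s41kc_Gam_le q L hσ, fun τ hτ => ?_⟩
  have hσ' := s41k_Gam_conj hτ hσ
  have hg' := s41k_Gam_conj hτ hg
  have e1 : τ * σ * g * σ⁻¹ * τ⁻¹ = (τ * σ * τ⁻¹) * (τ * g * τ⁻¹) * (τ * σ * τ⁻¹)⁻¹ := by group
  rw [e1, hψ.1 _ ((s41k_Gam q L).mul_mem hσ' hg') _ ((s41k_Gam q L).inv_mem hσ'),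
    hψ.1 _ hσ' _ hg', s41kc_psi_inv hψ hσ']
  abel

/-- `Inv(e g) ⊂ Inv(g)` for `e` of trace 2 in `Γ_L`. -/
theorem s41kc_Inv_mul_left (hψ : s41k_Adm q L ψ) {e g : SL(2, ℚ)}
    (he : e ∈ s41k_Gam q L) (htr : e.1 0 0 + e.1 1 1 = 2) (hg : g ∈ s41k_Gam q L) :
    s41kc_Inv q ψ (e * g) ≤ s41kc_Inv q ψ g := by
  rintro σ ⟨hσ, k⟩
  refine ⟨hσ, fun τ hτ => ?_⟩
  have h1 := k τ hτ
  have e1 : τ * σ * (e * g) * σ⁻¹ * τ⁻¹ = (τ * σ) * (e * g) * (τ * σ)⁻¹ := by group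
  have e2 : τ * σ * g * σ⁻¹ * τ⁻¹ = (τ * σ) * g * (τ * σ)⁻¹ := by group
  rw [e1, s41kc_F_mul_left hψ ((s41e_G 1 q).mul_mem hτ hσ) he htr hg,
    s41kc_F_mul_left hψ hτ he htr hg] at h1
  rw [e2]
  exact h1

/-- `Inv(g e) ⊂ Inv(g)` for `e` of trace 2 in `Γ_L`. -/
theorem s41kc_Inv_mul_right (hψ : s41k_Adm q L ψ) {e g : SL(2, ℚ)}
    (he : e ∈ s41k_Gam q L) (htr : e.1 0 0 + e.1 1 1 = 2) (hg : g ∈ s41k_Gam q L) :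
    s41kc_Inv q ψ (g * e) ≤ s41kc_Inv q ψ g := by
  rintro σ ⟨hσ, k⟩
  refine ⟨hσ, fun τ hτ => ?_⟩
  have h1 := k τ hτ
  have e1 : τ * σ * (g * e) * σ⁻¹ * τ⁻¹ = (τ * σ) * (g * e) * (τ * σ)⁻¹ := by group
  have e2 : τ * σ * g * σ⁻¹ * τ⁻¹ = (τ * σ) * g * (τ * σ)⁻¹ := by group
  rw [e1, s41kc_F_mul_right hψ ((s41e_G 1 q).mul_mem hτ hσ) he htr hg,
    s41kc_F_mul_right hψ hτ he htr hg] at h1
  rw [e2]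
  exact h1

end inv

end Fermat.Agent.Lib.S41
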