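/-
S41 project, module [K], Theorem C (centrality), middle step (helper1):
`lo(1) ∈ Inv(g)` for every `g ∈ Γ_L`, from (K3) (taken as a hypothesis `hK3`, proved in `KEigen`),
the Dirichlet move `s41kc_dirichlet` and the arithmetic `s41ka_unit_mu`.
-/
import Mathlib
import Fermat.Agent.Lib.S41.KCent2
import Fermat.Agent.Lib.S41.KArith

set_option autoImplicit false

open Matrix MatrixGroups

namespace Fermat.Agent.Lib.S41

theorem s41kc_lo_zero : s41d_lo 0 = 1 := by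
  refine s41d_ext ?_ ?_ ?_ ?_ <;> simp

theorem s41kc_lo_neg (x : ℚ) : s41d_lo (-x) = (s41d_lo x)⁻¹ := by
  rw [eq_inv_iff_mul_eq_one, ← s41d_lo_add, neg_add_cancel, s41kc_lo_zero]

theorem s41kc_lo_npow (x : ℚ) (n : ℕ) : s41d_lo x ^ n = s41d_lo ((n : ℚ) * x) := by
  induction n with
  | zero => simp [s41kc_lo_zero]
  | succ n ih =>
    rw [pow_succ, ih, ← s41d_lo_add]
    congr 1
    push_cast
    ring

theorem s41kc_lo_zpow (x : ℚ) (j : ℤ) : s41d_lo x ^ j = s41d_lo ((j : ℚ) * x) := by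
  cases j with
  | ofNat n =>
    rw [Int.ofNat_eq_natCast, zpow_natCast, s41kc_lo_npow]
    congr 1
  | negSucc n =>
    rw [zpow_negSucc, s41kc_lo_npow, ← s41kc_lo_neg]
    congr 1
    rw [Int.cast_negSucc]
    push_cast
    ring

theorem s41kc_lo_mem_Gam {q L : ℕ} {x : ℚ} (hx : s41k_LR q L x) : s41d_lo x ∈ s41k_Gam q L := by
  refine ⟨?_, ?_, ?_, ?_⟩
  · simpa using s41k_LR_zero q L
  · simpa using s41k_LR_zero q L
  · simpa using hx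
  · simpa using s41k_LR_zero q L

theorem s41kc_up_mem_Gam {q L : ℕ} {x : ℚ} (hx : s41k_LR q L x) : s41d_up x ∈ s41k_Gam q L := by
  refine ⟨?_, ?_, ?_, ?_⟩
  · simpa using s41k_LR_zero q L
  · simpa using hx
  · simpa using s41k_LR_zero q L
  · simpa using s41k_LR_zero q L

theorem s41kc_lo_mem_G {q : ℕ} {x : ℚ} (hx : x ∈ s41e_R q) : s41d_lo x ∈ s41e_G 1 q :=
  s41d_mk_mem _ (s41e_R q).one_mem (s41e_R q).zero_mem (s41e_R q).one_mem hx (by simp)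

/-- the denominator-cleared `d ≡ 1 mod L` is prime to `L`. -/
theorem s41kc_not_dvd {q L : ℕ} (hq : q.Prime) (hLq : Nat.Coprime L q) {d : ℚ}
    (hd : s41k_LR q L (d - 1)) {k : ℕ} {D : ℤ} (hD : d * (q : ℚ) ^ k = D) (r : ℕ) (hr : r.Prime)
    (hrL : r ∣ L) : ¬ (r : ℤ) ∣ D := by
  obtain ⟨d₁, ⟨k₁, D₁, hD₁⟩, hd1⟩ := hd
  intro hrD
  have key : D * (q : ℤ) ^ k₁ = (q : ℤ) ^ (k + k₁) + (L : ℤ) * D₁ * (q : ℤ) ^ k := by
    have h : ((D * (q : ℤ) ^ k₁ : ℤ) : ℚ) =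
        (((q : ℤ) ^ (k + k₁) + (L : ℤ) * D₁ * (q : ℤ) ^ k : ℤ) : ℚ) := by
      push_cast
      rw [← hD, ← hD₁]
      have : d = 1 + (L : ℚ) * d₁ := by linarith
      rw [this]
      ring
    exact_mod_cast h
  have h1 : (r : ℤ) ∣ D * (q : ℤ) ^ k₁ := Dvd.dvd.mul_right hrD _
  have h2 : (r : ℤ) ∣ (L : ℤ) * D₁ * (q : ℤ) ^ k :=
    ((Int.natCast_dvd_natCast.mpr hrL).mul_right _).mul_right _
  rw [key] at h1
  have h3 : (r : ℤ) ∣ (q : ℤ) ^ (k + k₁) := (dvd_add_left h2).mp h1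
  have h4 : r ∣ q ^ (k + k₁) := by exact_mod_cast h3
  have h5 : r ∣ q := hr.dvd_of_dvd_pow h4
  have h6 : r = q := (Nat.prime_dvd_prime_iff_eq hr hq).mp h5
  subst h6
  exact hr.ne_one (Nat.Coprime.eq_one_of_dvd hLq.symm hrL)

section main

variable {q L : ℕ} {A : Type*} [AddCommGroup A] {ψ : SL(2, ℚ) → A}

/-- `lo(1) ∈ Inv(g)`, case `g₁₁ ≠ 0`. -/
theorem s41kc_lo_one_mem_aux (hq : q.Prime) (hG : s41k_Good q L) (hψ : s41k_Adm q L ψ)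
    (hK3 : ∀ g ∈ s41k_Gam q L, ∀ μ ∈ s41e_R q, ∀ w ∈ s41e_R q, ∀ w' ∈ s41e_R q, w * w' = 1 →
      μ * g.1 0 1 = w - w' → ∀ τ ∈ s41e_G 1 q,
        ψ (τ * s41d_lo μ * g * s41d_lo (-μ) * τ⁻¹) = ψ (τ * g * τ⁻¹))
    {g : SL(2, ℚ)} (hg : g ∈ s41k_Gam q L) (hd0 : g.1 1 1 ≠ 0) :
    s41d_lo 1 ∈ s41kc_Inv q ψ g := by
  have hLq : Nat.Coprime L q := s41ka_good_coprime hG
  have hL0 : L ≠ 0 := s41ka_good_ne_zero hq hG
  have hq0 : (q : ℚ) ≠ 0 := by exact_mod_cast hq.ne_zero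
  have hLQ : (L : ℚ) ≠ 0 := by exact_mod_cast hL0
  obtain ⟨g00, ⟨b₁, hb₁, hb⟩, g10, g11⟩ := hg
  have hg' : g ∈ s41k_Gam q L := ⟨g00, ⟨b₁, hb₁, hb⟩, g10, g11⟩
  have hdR : g.1 1 1 ∈ s41e_R q := s41k_mem_R_of_sub_one g11
  have haR : g.1 0 0 ∈ s41e_R q := s41k_mem_R_of_sub_one g00
  have hcR : g.1 1 0 ∈ s41e_R q := s41k_LR_mem_R g10
  obtain ⟨k, C, D, hC, hD⟩ := s41d_common_den hb₁ hdR
  have hqk : (q : ℚ) ^ k ≠ 0 := pow_ne_zero _ hq0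
  have hD0 : D ≠ 0 := by
    intro h
    rw [h] at hD
    have : g.1 1 1 * (q : ℚ) ^ k = 0 := by simpa using hD
    rcases mul_eq_zero.mp this with h' | h'
    · exact hd0 h'
    · exact hqk h'
  have hdet := s41d_det g
  have hxR : -((L : ℚ) * g.1 1 0) ∈ s41e_R q :=
    (s41e_R q).neg_mem ((s41e_R q).mul_mem (s41e_nat_mem_R q L) hcR)
  have hxy : -((L : ℚ) * g.1 1 0) * b₁ + g.1 0 0 * g.1 1 1 = 1 := by
    rw [hb] at hdet
    linear_combination hdet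
  have hcop : ∀ r : ℕ, r.Prime → (r : ℤ) ∣ C → (r : ℤ) ∣ D → r = q :=
    fun r hr hrC hrD => s41d_prime_of_unimodular hq hxR haR hxy hC hD r hr hrC hrD
  have hLD : ∀ r : ℕ, r.Prime → r ∣ L → ¬ (r : ℤ) ∣ D :=
    fun r hr hrL => s41kc_not_dvd hq hLq g11 hD r hr hrL
  obtain ⟨ℓ, hBℓ, hℓ, hLℓ, t, ht, htD⟩ := s41kc_dirichlet hq hL0 k C D hD0 hcop hLD (max q 2)
  have hℓq : ℓ ≠ q := by
    have : q < ℓ := lt_of_le_of_lt (le_max_left _ _) hBℓ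
    omega
  have hℓ2 : ℓ ≠ 2 := by
    have : 2 < ℓ := lt_of_le_of_lt (le_max_right _ _) hBℓ
    omega
  -- `t d = ℓ - b₁`
  have htd : t * g.1 1 1 = (ℓ : ℚ) - b₁ := by
    have h1 : (t * g.1 1 1) * (q : ℚ) ^ k = ((ℓ : ℚ) - b₁) * (q : ℚ) ^ k := by
      rw [mul_assoc, hD, sub_mul, hC, htD]
      ring
    exact mul_right_cancel₀ hqk h1
  -- the unipotent `e` and `g' = e g`
  have heLR : s41k_LR q L ((L : ℚ) * t) := ⟨t, ht, rfl⟩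
  have he : s41d_up ((L : ℚ) * t) ∈ s41k_Gam q L := s41kc_up_mem_Gam heLR
  have htr : (s41d_up ((L : ℚ) * t)).1 0 0 + (s41d_up ((L : ℚ) * t)).1 1 1 = 2 := by
    simp; norm_num
  have hg2 : s41d_up ((L : ℚ) * t) * g ∈ s41k_Gam q L := (s41k_Gam q L).mul_mem he hg'
  have hb2 : (s41d_up ((L : ℚ) * t) * g).1 0 1 = (L : ℚ) * (ℓ : ℚ) := by
    rw [s41d_mul_01]
    simp only [s41d_up_00, s41d_up_01]
    rw [hb, one_mul, mul_assoc, htd]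
    ring
  obtain ⟨μ, hμ, w, hw, w', hw', hww, hμw, j, hj⟩ := s41ka_unit_mu hq hG hℓ hℓq hℓ2 hLℓ
  have hK := hK3 _ hg2 μ hμ w hw w' hw' hww (by rw [hb2]; exact hμw)
  have hloμ : s41d_lo μ ∈ s41kc_Inv q ψ (s41d_up ((L : ℚ) * t) * g) := by
    refine ⟨s41kc_lo_mem_G hμ, fun τ hτ => ?_⟩
    rw [← s41kc_lo_neg]
    exact hK τ hτ
  have hlo2 : s41d_lo (1 - (j : ℚ) * μ) ∈ s41kc_Inv q ψ (s41d_up ((L : ℚ) * t) * g) := by
    refine s41kc_Gam_le_Inv hψ hg2 (s41kc_lo_mem_Gam ?_)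
    have := s41k_LR_neg hj
    rwa [neg_sub] at this
  have h1 : s41d_lo 1 = s41d_lo μ ^ j * s41d_lo (1 - (j : ℚ) * μ) := by
    rw [s41kc_lo_zpow, ← s41d_lo_add]
    congr 1
    ring
  have h2 : s41d_lo 1 ∈ s41kc_Inv q ψ (s41d_up ((L : ℚ) * t) * g) := by
    rw [h1]
    exact (s41kc_Inv q ψ _).mul_mem ((s41kc_Inv q ψ _).zpow_mem hloμ j) hlo2
  exact s41kc_Inv_mul_left hψ he htr hg' h2

/-- **`lo(1) ∈ Inv(g)` for every `g ∈ Γ_L`.** -/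
theorem s41kc_lo_one_mem (hq : q.Prime) (hG : s41k_Good q L) (hψ : s41k_Adm q L ψ)
    (hK3 : ∀ g ∈ s41k_Gam q L, ∀ μ ∈ s41e_R q, ∀ w ∈ s41e_R q, ∀ w' ∈ s41e_R q, w * w' = 1 →
      μ * g.1 0 1 = w - w' → ∀ τ ∈ s41e_G 1 q,
        ψ (τ * s41d_lo μ * g * s41d_lo (-μ) * τ⁻¹) = ψ (τ * g * τ⁻¹))
    {g : SL(2, ℚ)} (hg : g ∈ s41k_Gam q L) :
    s41d_lo 1 ∈ s41kc_Inv q ψ g := by
  by_cases hd0 : g.1 1 1 = 0
  · have hL0 : L ≠ 0 := s41ka_good_ne_zero hq hG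
    have hLQ : (L : ℚ) ≠ 0 := by exact_mod_cast hL0
    have hdet := s41d_det g
    have hc0 : g.1 1 0 ≠ 0 := by
      intro h
      rw [hd0, h] at hdet
      simp at hdet
    have heLR : s41k_LR q L (L : ℚ) := ⟨1, (s41e_R q).one_mem, by ring⟩
    have he : s41d_up (L : ℚ) ∈ s41k_Gam q L := s41kc_up_mem_Gam heLR
    have htr : (s41d_up (L : ℚ)).1 0 0 + (s41d_up (L : ℚ)).1 1 1 = 2 := by
      simp; norm_num
    have hg2 : g * s41d_up (L : ℚ) ∈ s41k_Gam q L := (s41k_Gam q L).mul_mem hg he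
    have hd2 : (g * s41d_up (L : ℚ)).1 1 1 ≠ 0 := by
      rw [s41d_mul_11]
      simp only [s41d_up_01, s41d_up_11]
      rw [hd0]
      simpa using mul_ne_zero hc0 hLQ
    exact s41kc_Inv_mul_right hψ he htr hg (s41kc_lo_one_mem_aux hq hG hψ hK3 hg2 hd2)
  · exact s41kc_lo_one_mem_aux hq hG hψ hK3 hg hd0

end main

end Fermat.Agent.Lib.S41
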