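/-
S41 project, module [K] (helper7): **the END of Theorem C (centrality)**.

If `lo 1 ∈ Inv(g)` for every admissible `ψ` and every `g ∈ Γ_L`, then (conjugating by the Weyl
element) `up (-1) ∈ Inv(g)`, hence `w = up(-1) lo(1) up(-1)` and `up 1` are in `Inv(g)`; since
`SL(2, ℤ) = ⟨S, T⟩`, all of `ι SL(2, ℤ)` is in `Inv(g)`, and `τ = 1` gives
`ψ (ι σ · g · (ι σ)⁻¹) = ψ g`.
-/
import Mathlib
import Fermat.Agent.Lib.S41.KCent2

set_option autoImplicit false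

open Matrix MatrixGroups

namespace Fermat.Agent.Lib.S41

theorem s41kd_w_eq_iota : s41k_w = s41e_iota ModularGroup.S := by
  refine s41d_ext ?_ ?_ ?_ ?_ <;> rw [s41e_iota_apply] <;> simp [ModularGroup.S]

theorem s41kd_up_eq_iota : s41d_up 1 = s41e_iota ModularGroup.T := by
  refine s41d_ext ?_ ?_ ?_ ?_ <;> rw [s41e_iota_apply] <;> simp [ModularGroup.T]

/-- `w · lo 1 · w⁻¹ = up (-1)`. -/
theorem s41kd_w_lo_w : s41k_w * s41d_lo 1 * s41k_w⁻¹ = s41d_up (-1) := by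
  refine s41d_ext ?_ ?_ ?_ ?_ <;>
    simp [s41d_mul_00, s41d_mul_01, s41d_mul_10, s41d_mul_11, s41d_inv_00, s41d_inv_01,
      s41d_inv_10, s41d_inv_11]

/-- `up (-1)⁻¹ = up 1`. -/
theorem s41kd_up_neg_inv : (s41d_up (-1))⁻¹ = s41d_up 1 := by
  refine s41d_ext ?_ ?_ ?_ ?_ <;>
    simp [s41d_inv_00, s41d_inv_01, s41d_inv_10, s41d_inv_11]

section

variable {q L : ℕ} {A : Type*} [AddCommGroup A]

/-- admissibility is preserved by conjugation with the Weyl element. -/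
theorem s41kd_adm_w {ψ : SL(2, ℚ) → A} (hψ : s41k_Adm q L ψ) :
    s41k_Adm q L (fun g => ψ (s41k_w * g * s41k_w⁻¹)) := by
  have hw := s41k_w_mem q
  refine ⟨fun g hg h hh => ?_, fun u hu htr => ?_⟩
  · have e1 : s41k_w * (g * h) * s41k_w⁻¹ = (s41k_w * g * s41k_w⁻¹) * (s41k_w * h * s41k_w⁻¹) := by
      group
    show ψ (s41k_w * (g * h) * s41k_w⁻¹) = _
    rw [e1]
    exact hψ.1 _ (s41k_Gam_conj hw hg) _ (s41k_Gam_conj hw hh)
  · exact hψ.2 _ (s41k_Gam_conj hw hu) (by rw [s41kc_trace_conj, htr])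

/-- **End of Theorem C**: from `lo 1 ∈ Inv(g)` (for all admissible `ψ`, all `g ∈ Γ_L`) to the
invariance of `ψ` under conjugation by `SL(2, ℤ)`. -/
theorem s41kd_central_of_lo
    (hlo : ∀ ψ : SL(2, ℚ) → A, s41k_Adm q L ψ → ∀ g ∈ s41k_Gam q L, s41d_lo 1 ∈ s41kc_Inv q ψ g)
    {ψ : SL(2, ℚ) → A} (hψ : s41k_Adm q L ψ) (σ : SL(2, ℤ)) {g : SL(2, ℚ)}
    (hg : g ∈ s41k_Gam q L) :
    ψ (s41e_iota σ * g * (s41e_iota σ)⁻¹) = ψ g := by
  have hw := s41k_w_mem q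
  have hwi : s41k_w⁻¹ ∈ s41e_G 1 q := (s41e_G 1 q).inv_mem hw
  -- (i) `up (-1) ∈ Inv(g)`
  have hupneg : s41d_up (-1) ∈ s41kc_Inv q ψ g := by
    have hg' : s41k_w⁻¹ * g * s41k_w ∈ s41k_Gam q L := by
      have := s41k_Gam_conj hwi hg
      rwa [inv_inv] at this
    obtain ⟨_, h2⟩ := hlo _ (s41kd_adm_w hψ) _ hg'
    refine ⟨s41d_up_mem ((s41e_R q).neg_mem (s41e_R q).one_mem), fun τ' hτ' => ?_⟩
    have hτ : s41k_w⁻¹ * τ' * s41k_w ∈ s41e_G 1 q :=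
      (s41e_G 1 q).mul_mem ((s41e_G 1 q).mul_mem hwi hτ') hw
    have h3 := h2 _ hτ
    have e1 : s41k_w * ((s41k_w⁻¹ * τ' * s41k_w) * s41d_lo 1 * (s41k_w⁻¹ * g * s41k_w) *
        (s41d_lo 1)⁻¹ * (s41k_w⁻¹ * τ' * s41k_w)⁻¹) * s41k_w⁻¹ =
        τ' * (s41k_w * s41d_lo 1 * s41k_w⁻¹) * g * (s41k_w * s41d_lo 1 * s41k_w⁻¹)⁻¹ * τ'⁻¹ := by
      group
    have e2 : s41k_w * ((s41k_w⁻¹ * τ' * s41k_w) * (s41k_w⁻¹ * g * s41k_w) *
        (s41k_w⁻¹ * τ' * s41k_w)⁻¹) * s41k_w⁻¹ = τ' * g * τ'⁻¹ := by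
      group
    beta_reduce at h3
    rw [e1, e2, s41kd_w_lo_w] at h3
    exact h3
  -- (ii) `up 1`, `lo 1`, `w` are in `Inv(g)`
  have hlo1 : s41d_lo 1 ∈ s41kc_Inv q ψ g := hlo ψ hψ g hg
  have hup1 : s41d_up 1 ∈ s41kc_Inv q ψ g := by
    rw [← s41kd_up_neg_inv]
    exact (s41kc_Inv q ψ g).inv_mem hupneg
  have hwInv : s41k_w ∈ s41kc_Inv q ψ g := by
    rw [s41k_w_eq]
    exact (s41kc_Inv q ψ g).mul_mem ((s41kc_Inv q ψ g).mul_mem hupneg hlo1) hupneg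
  -- (iii) `SL(2, ℤ) = ⟨S, T⟩`
  have htop : (s41kc_Inv q ψ g).comap s41e_iota = ⊤ := by
    rw [eq_top_iff, ← SpecialLinearGroup.SL2Z_generators, Subgroup.closure_le]
    rintro x (rfl | rfl)
    · show s41e_iota ModularGroup.S ∈ s41kc_Inv q ψ g
      rw [← s41kd_w_eq_iota]
      exact hwInv
    · show s41e_iota ModularGroup.T ∈ s41kc_Inv q ψ g
      rw [← s41kd_up_eq_iota]
      exact hup1
  have hσ : s41e_iota σ ∈ s41kc_Inv q ψ g := by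
    have : σ ∈ (s41kc_Inv q ψ g).comap s41e_iota := by rw [htop]; exact Subgroup.mem_top σ
    exact this
  -- (iv) `τ = 1`
  have := hσ.2 1 (s41e_G 1 q).one_mem
  simpa using this

end

end Fermat.Agent.Lib.S41
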