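/-
S41 project, module [K], part KB (helper6): the eigenvector lemma (K2) and the commutator-trace
trick (K3) for admissible functions on the principal congruence subgroup `Γ_L = s41k_Gam q L` of
`SL₂(ℤ[1/q])`.

* `s41kb_trace_conj`       : the trace is invariant under conjugation;
* `s41kb_kills_upper`      : an admissible `ψ` kills every conjugate (by `SL₂(ℤ[1/q])`) of an upper
                             triangular element of `Γ_L`;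
* `s41kb_kills_eigen_conj` : (K2) `ψ` kills every conjugate of an element of `Γ_L` which has a
                             rational eigenvector;
* `s41kb_comm_killed`      : (K3) if `μ · g₀₁ = w - w⁻¹`, the commutator `[lo μ, g]` has the rational
                             eigenvector `(g₀₁, g₁₁ + w)`, hence `ψ (τ lo(μ) g lo(-μ) τ⁻¹) = ψ (τ g τ⁻¹)`.
-/
import Mathlib
import Fermat.Agent.Lib.S41.KDefs

set_option autoImplicit false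
set_option linter.unusedSimpArgs false
set_option linter.unusedVariables false

open Matrix MatrixGroups

namespace Fermat.Agent.Lib.S41

/-- the trace is invariant under conjugation. -/
theorem s41kb_trace_conj (τ u : SL(2, ℚ)) :
    (τ * u * τ⁻¹).1 0 0 + (τ * u * τ⁻¹).1 1 1 = u.1 0 0 + u.1 1 1 := by
  rw [s41d_mul_00, s41d_mul_11, s41d_mul_00, s41d_mul_01, s41d_mul_10, s41d_mul_11, s41d_inv_00,
    s41d_inv_10, s41d_inv_01, s41d_inv_11]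
  linear_combination (u.1 0 0 + u.1 1 1) * s41d_det τ

theorem s41kb_lo_mem_Gam {q L : ℕ} {t : ℚ} (ht : s41k_LR q L t) : s41d_lo t ∈ s41k_Gam q L := by
  refine ⟨?_, ?_, ?_, ?_⟩ <;> simp [s41k_LR_zero, ht]

theorem s41kb_up_mem_Gam {q L : ℕ} {t : ℚ} (ht : s41k_LR q L t) : s41d_up t ∈ s41k_Gam q L := by
  refine ⟨?_, ?_, ?_, ?_⟩ <;> simp [s41k_LR_zero, ht]

theorem s41kb_lo_neg (μ : ℚ) : s41d_lo (-μ) = (s41d_lo μ)⁻¹ := by
  refine s41d_ext ?_ ?_ ?_ ?_ <;> simp [s41d_inv_00, s41d_inv_01, s41d_inv_10, s41d_inv_11]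

theorem s41kb_up_neg (μ : ℚ) : s41d_up (-μ) = (s41d_up μ)⁻¹ := by
  refine s41d_ext ?_ ?_ ?_ ?_ <;> simp [s41d_inv_00, s41d_inv_01, s41d_inv_10, s41d_inv_11]

section

variable {q L : ℕ} {A : Type*} [AddCommGroup A] {ψ : SL(2, ℚ) → A}

/-- `ψ` kills the conjugates of the lower unipotents of `Γ_L`. -/
theorem s41kb_psi_conj_lo (hψ : s41k_Adm q L ψ) {t : ℚ} (ht : s41k_LR q L t) {τ : SL(2, ℚ)}
    (hτ : τ ∈ s41e_G 1 q) : ψ (τ * s41d_lo t * τ⁻¹) = 0 := by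
  refine hψ.2 _ (s41k_Gam_conj hτ (s41kb_lo_mem_Gam ht)) ?_
  rw [s41kb_trace_conj]
  simp
  norm_num

/-- `ψ` kills the conjugates of the upper unipotents of `Γ_L`. -/
theorem s41kb_psi_conj_up (hψ : s41k_Adm q L ψ) {t : ℚ} (ht : s41k_LR q L t) {τ : SL(2, ℚ)}
    (hτ : τ ∈ s41e_G 1 q) : ψ (τ * s41d_up t * τ⁻¹) = 0 := by
  refine hψ.2 _ (s41k_Gam_conj hτ (s41kb_up_mem_Gam ht)) ?_
  rw [s41kb_trace_conj]
  simp
  norm_num

/-- an upper triangular element of `SL(2, ℚ)` is a product of three conjugates of unipotents. -/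
theorem s41kb_upper_decomp (z : SL(2, ℚ)) (h10 : z.1 1 0 = 0) :
    z = s41d_lo (z.1 1 1 - 1) * (s41d_up 1 * s41d_lo (z.1 0 0 - 1) * (s41d_up 1)⁻¹) *
      s41d_up (1 - z.1 1 1 + z.1 0 1 * z.1 1 1) := by
  have hdet := s41d_det z
  rw [h10] at hdet
  refine s41d_ext ?_ ?_ ?_ ?_
  · simp [s41d_mul_00, s41d_mul_01, s41d_mul_10, s41d_mul_11, s41d_inv_00, s41d_inv_01,
      s41d_inv_10, s41d_inv_11]
  · simp [s41d_mul_00, s41d_mul_01, s41d_mul_10, s41d_mul_11, s41d_inv_00, s41d_inv_01,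
      s41d_inv_10, s41d_inv_11]
    linear_combination (1 - z.1 0 1) * hdet
  · simp [s41d_mul_00, s41d_mul_01, s41d_mul_10, s41d_mul_11, s41d_inv_00, s41d_inv_01,
      s41d_inv_10, s41d_inv_11]
    linear_combination h10 - hdet
  · simp [s41d_mul_00, s41d_mul_01, s41d_mul_10, s41d_mul_11, s41d_inv_00, s41d_inv_01,
      s41d_inv_10, s41d_inv_11]
    linear_combination (z.1 1 1 * (1 - z.1 0 1)) * hdet

/-- an admissible `ψ` kills every `SL₂(ℤ[1/q])`-conjugate of an upper triangular element of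
`Γ_L`. -/
theorem s41kb_kills_upper (hψ : s41k_Adm q L ψ) {z : SL(2, ℚ)} (hz : z ∈ s41k_Gam q L)
    (h10 : z.1 1 0 = 0) {ρ : SL(2, ℚ)} (hρ : ρ ∈ s41e_G 1 q) : ψ (ρ * z * ρ⁻¹) = 0 := by
  obtain ⟨z00, z01, -, z11⟩ := hz
  have hz11 : z.1 1 1 ∈ s41e_R q := s41k_mem_R_of_sub_one z11
  have hu1 : s41d_up 1 ∈ s41e_G 1 q := s41d_up_mem (s41e_R q).one_mem
  have hρ1 : ρ * s41d_up 1 ∈ s41e_G 1 q := (s41e_G 1 q).mul_mem hρ hu1
  have hγ : s41k_LR q L (1 - z.1 1 1 + z.1 0 1 * z.1 1 1) := by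
    have : 1 - z.1 1 1 + z.1 0 1 * z.1 1 1 = -(z.1 1 1 - 1) + z.1 0 1 * z.1 1 1 := by ring
    rw [this]
    exact s41k_LR_add (s41k_LR_neg z11) (s41k_LR_mul_right z01 hz11)
  have key : ρ * z * ρ⁻¹ = (ρ * s41d_lo (z.1 1 1 - 1) * ρ⁻¹) *
      ((ρ * s41d_up 1) * s41d_lo (z.1 0 0 - 1) * (ρ * s41d_up 1)⁻¹) *
      (ρ * s41d_up (1 - z.1 1 1 + z.1 0 1 * z.1 1 1) * ρ⁻¹) := by
    conv_lhs => rw [s41kb_upper_decomp z h10]
    group
  have m1 : ρ * s41d_lo (z.1 1 1 - 1) * ρ⁻¹ ∈ s41k_Gam q L :=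
    s41k_Gam_conj hρ (s41kb_lo_mem_Gam z11)
  have m2 : (ρ * s41d_up 1) * s41d_lo (z.1 0 0 - 1) * (ρ * s41d_up 1)⁻¹ ∈ s41k_Gam q L :=
    s41k_Gam_conj hρ1 (s41kb_lo_mem_Gam z00)
  have m3 : ρ * s41d_up (1 - z.1 1 1 + z.1 0 1 * z.1 1 1) * ρ⁻¹ ∈ s41k_Gam q L :=
    s41k_Gam_conj hρ (s41kb_up_mem_Gam hγ)
  rw [key, hψ.1 _ ((s41k_Gam q L).mul_mem m1 m2) _ m3, hψ.1 _ m1 _ m2,
    s41kb_psi_conj_lo hψ z11 hρ, s41kb_psi_conj_lo hψ z00 hρ1, s41kb_psi_conj_up hψ hγ hρ]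
  simp

end

/-- a nonzero rational vector is a rational multiple of a primitive integral vector. -/
theorem s41kb_primitive (x y : ℚ) (hxy : x ≠ 0 ∨ y ≠ 0) :
    ∃ (v₁ v₂ : ℤ) (c : ℚ), c ≠ 0 ∧ IsCoprime v₁ v₂ ∧ x = c * v₁ ∧ y = c * v₂ := by
  set a : ℤ := x.num * y.den with ha
  set b : ℤ := y.num * x.den with hb
  have hxd : (x.den : ℚ) ≠ 0 := by exact_mod_cast x.den_nz
  have hyd : (y.den : ℚ) ≠ 0 := by exact_mod_cast y.den_nz
  have hx : x = (a : ℚ) / ((x.den : ℚ) * (y.den : ℚ)) := by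
    rw [ha]
    push_cast
    rw [mul_div_mul_right _ _ hyd]
    exact (Rat.num_div_den x).symm
  have hy : y = (b : ℚ) / ((x.den : ℚ) * (y.den : ℚ)) := by
    rw [hb]
    push_cast
    rw [mul_comm (x.den : ℚ), mul_div_mul_right _ _ hxd]
    exact (Rat.num_div_den y).symm
  have hab : 0 < Int.gcd a b := by
    rw [Int.gcd_pos_iff]
    rcases hxy with h | h
    · left
      rw [ha]
      exact mul_ne_zero (Rat.num_ne_zero.mpr h) (by exact_mod_cast y.den_nz)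
    · right
      rw [hb]
      exact mul_ne_zero (Rat.num_ne_zero.mpr h) (by exact_mod_cast x.den_nz)
  obtain ⟨a', b', hcop, ha', hb'⟩ := Int.exists_gcd_one hab
  have hd : ((Int.gcd a b : ℤ) : ℚ) ≠ 0 := by
    have : (Int.gcd a b : ℤ) ≠ 0 := by exact_mod_cast hab.ne'
    exact_mod_cast this
  refine ⟨a', b', ((Int.gcd a b : ℤ) : ℚ) / ((x.den : ℚ) * (y.den : ℚ)),
    div_ne_zero hd (mul_ne_zero hxd hyd), Int.isCoprime_iff_gcd_eq_one.mpr hcop, ?_, ?_⟩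
  · have haq : (a : ℚ) = (a' : ℚ) * ((Int.gcd a b : ℤ) : ℚ) := by exact_mod_cast ha'
    calc x = (a : ℚ) / ((x.den : ℚ) * (y.den : ℚ)) := hx
      _ = _ := by rw [haq]; ring
  · have hbq : (b : ℚ) = (b' : ℚ) * ((Int.gcd a b : ℤ) : ℚ) := by exact_mod_cast hb'
    calc y = (b : ℚ) / ((x.den : ℚ) * (y.den : ℚ)) := hy
      _ = _ := by rw [hbq]; ring

section

variable {q L : ℕ} {A : Type*} [AddCommGroup A] {ψ : SL(2, ℚ) → A}

/-- **(K2), conjugated form**: an admissible `ψ` kills every `SL₂(ℤ[1/q])`-conjugate of an element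
of `Γ_L` with a rational eigenvector. -/
theorem s41kb_kills_eigen_conj (hψ : s41k_Adm q L ψ) {g : SL(2, ℚ)} (hg : g ∈ s41k_Gam q L)
    (x y lam : ℚ) (hxy : x ≠ 0 ∨ y ≠ 0) (h1 : g.1 0 0 * x + g.1 0 1 * y = lam * x)
    (h2 : g.1 1 0 * x + g.1 1 1 * y = lam * y) {τ : SL(2, ℚ)} (hτ : τ ∈ s41e_G 1 q) :
    ψ (τ * g * τ⁻¹) = 0 := by
  obtain ⟨v₁, v₂, c, hc, hcop, rfl, rfl⟩ := s41kb_primitive x y hxy
  have h1' : g.1 0 0 * (v₁ : ℚ) + g.1 0 1 * (v₂ : ℚ) = lam * (v₁ : ℚ) :=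
    mul_left_cancel₀ hc (by linear_combination h1)
  have h2' : g.1 1 0 * (v₁ : ℚ) + g.1 1 1 * (v₂ : ℚ) = lam * (v₂ : ℚ) :=
    mul_left_cancel₀ hc (by linear_combination h2)
  obtain ⟨s, t, hst⟩ := hcop
  have hst' : (s : ℚ) * (v₁ : ℚ) + (t : ℚ) * (v₂ : ℚ) = 1 := by exact_mod_cast hst
  set σ : SL(2, ℚ) := s41d_mk (v₁ : ℚ) (-(t : ℚ)) (v₂ : ℚ) (s : ℚ) (by linear_combination hst')
    with hσ
  have hσm : σ ∈ s41e_G 1 q :=
    s41d_mk_mem _ (s41e_int_mem_R q _) ((s41e_R q).neg_mem (s41e_int_mem_R q _))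
      (s41e_int_mem_R q _) (s41e_int_mem_R q v₂) (by simp)
  have hz : σ⁻¹ * g * σ ∈ s41k_Gam q L := by
    have := s41k_Gam_conj ((s41e_G 1 q).inv_mem hσm) hg
    rwa [inv_inv] at this
  have h10 : (σ⁻¹ * g * σ).1 1 0 = 0 := by
    rw [s41d_mul_10, s41d_mul_10, s41d_mul_11, s41d_inv_10, s41d_inv_11]
    simp only [hσ, s41d_mk_00, s41d_mk_10]
    linear_combination (-(v₂ : ℚ)) * h1' + (v₁ : ℚ) * h2'
  have key : τ * g * τ⁻¹ = (τ * σ) * (σ⁻¹ * g * σ) * (τ * σ)⁻¹ := by group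
  rw [key]
  exact s41kb_kills_upper hψ hz h10 ((s41e_G 1 q).mul_mem hτ hσm)

/-- **(K2)**: an admissible `ψ` kills every element of `Γ_L` with a rational eigenvector. -/
theorem s41kb_kills_eigen (hψ : s41k_Adm q L ψ) {g : SL(2, ℚ)} (hg : g ∈ s41k_Gam q L)
    (x y lam : ℚ) (hxy : x ≠ 0 ∨ y ≠ 0) (h1 : g.1 0 0 * x + g.1 0 1 * y = lam * x)
    (h2 : g.1 1 0 * x + g.1 1 1 * y = lam * y) : ψ g = 0 := by
  have := s41kb_kills_eigen_conj hψ hg x y lam hxy h1 h2 (s41e_G 1 q).one_mem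
  simpa using this

/-- entries of the commutator `lo(μ) g lo(μ)⁻¹ g⁻¹`. -/
theorem s41kb_comm_entries (g : SL(2, ℚ)) (μ : ℚ) :
    (s41d_lo μ * g * (s41d_lo μ)⁻¹ * g⁻¹).1 0 0 = 1 - μ * g.1 0 1 * g.1 1 1 ∧
    (s41d_lo μ * g * (s41d_lo μ)⁻¹ * g⁻¹).1 0 1 = μ * g.1 0 1 ^ 2 ∧
    (s41d_lo μ * g * (s41d_lo μ)⁻¹ * g⁻¹).1 1 0 =
      μ * (1 - g.1 1 1 ^ 2) - μ ^ 2 * g.1 0 1 * g.1 1 1 ∧
    (s41d_lo μ * g * (s41d_lo μ)⁻¹ * g⁻¹).1 1 1 =
      1 + μ * g.1 0 1 * g.1 1 1 + μ ^ 2 * g.1 0 1 ^ 2 := by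
  have hdet := s41d_det g
  refine ⟨?_, ?_, ?_, ?_⟩
  · simp [s41d_mul_00, s41d_mul_01, s41d_mul_10, s41d_mul_11, s41d_inv_00, s41d_inv_01,
      s41d_inv_10, s41d_inv_11]
    linear_combination hdet
  · simp [s41d_mul_00, s41d_mul_01, s41d_mul_10, s41d_mul_11, s41d_inv_00, s41d_inv_01,
      s41d_inv_10, s41d_inv_11]
    ring
  · simp [s41d_mul_00, s41d_mul_01, s41d_mul_10, s41d_mul_11, s41d_inv_00, s41d_inv_01,
      s41d_inv_10, s41d_inv_11]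
    linear_combination μ * hdet
  · simp [s41d_mul_00, s41d_mul_01, s41d_mul_10, s41d_mul_11, s41d_inv_00, s41d_inv_01,
      s41d_inv_10, s41d_inv_11]
    linear_combination hdet

/-- **(K3)**: if `μ · g₀₁ = w - w⁻¹`, the commutator `[lo μ, g]` has the rational eigenvector
`(g₀₁, g₁₁ + w)` (eigenvalue `w²`), hence it is killed by `ψ`, and
`ψ (τ lo(μ) g lo(-μ) τ⁻¹) = ψ (τ g τ⁻¹)`. -/
theorem s41kb_comm_killed (hψ : s41k_Adm q L ψ) {g : SL(2, ℚ)} (hg : g ∈ s41k_Gam q L)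
    {μ w w' : ℚ} (hμ : μ ∈ s41e_R q) (hw : w ∈ s41e_R q) (hw' : w' ∈ s41e_R q)
    (hww : w * w' = 1) (h : μ * g.1 0 1 = w - w') :
    ∀ τ ∈ s41e_G 1 q, ψ (τ * s41d_lo μ * g * s41d_lo (-μ) * τ⁻¹) = ψ (τ * g * τ⁻¹) := by
  intro τ hτ
  have hlo : s41d_lo μ ∈ s41e_G 1 q := by
    have := s41d_lo_mem (N := 1) (q := q) hμ
    simpa using this
  set z : SL(2, ℚ) := s41d_lo μ * g * (s41d_lo μ)⁻¹ * g⁻¹ with hz
  have hzm : z ∈ s41k_Gam q L :=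
    (s41k_Gam q L).mul_mem (s41k_Gam_conj hlo hg) ((s41k_Gam q L).inv_mem hg)
  obtain ⟨e00, e01, e10, e11⟩ := s41kb_comm_entries g μ
  rw [← hz] at e00 e01 e10 e11
  have hkill : ψ (τ * z * τ⁻¹) = 0 := by
    by_cases hb : g.1 0 1 = 0
    · refine hψ.2 _ (s41k_Gam_conj hτ hzm) ?_
      rw [s41kb_trace_conj, e00, e11, hb]
      ring
    · refine s41kb_kills_eigen_conj hψ hzm (g.1 0 1) (g.1 1 1 + w) (w ^ 2) (Or.inl hb) ?_ ?_ hτ
      · rw [e00, e01]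
        linear_combination (g.1 0 1 * w) * h - g.1 0 1 * hww
      · rw [e10, e11]
        linear_combination (1 + g.1 1 1 * w + w * (w - w') + w * μ * g.1 0 1) * h +
          (-g.1 1 1 - 2 * w + w') * hww
  have key : τ * s41d_lo μ * g * s41d_lo (-μ) * τ⁻¹ = (τ * z * τ⁻¹) * (τ * g * τ⁻¹) := by
    rw [s41kb_lo_neg, hz]
    group
  rw [key, hψ.1 _ (s41k_Gam_conj hτ hzm) _ (s41k_Gam_conj hτ hg), hkill, zero_add]

end

end Fermat.Agent.Lib.S41
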