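/-
S41 project, module [K]: **Theorem C (centrality)**, final assembly (helper1).

`s41kc_central : s41k_Central` — for a prime `q`, a good level `L` and an admissible function
`ψ : SL(2, ℚ) → A` (additive on `Γ_L ⊂ SL₂(ℤ[1/q])`, killing its trace-2 elements), one has
`ψ (σ g σ⁻¹) = ψ g` for all `σ ∈ SL₂(ℤ)`, `g ∈ Γ_L`.

Ingredients: `KEigen` ((K2), (K3): `s41kb_comm_killed`, helper6), `KArith` (`s41ka_unit_mu`, helper3),
`KCent1`–`KCent3` (Dirichlet move, the stabiliser `Inv(g)`, `lo(1) ∈ Inv(g)`, helper1),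
`KCent4` (`s41kd_central_of_lo`: transport by `w` and `SL₂(ℤ) = ⟨S, T⟩`, helper7).
-/
import Mathlib
import Fermat.Agent.Lib.S41.KCent3
import Fermat.Agent.Lib.S41.KCent4
import Fermat.Agent.Lib.S41.KEigen

set_option autoImplicit false

open Matrix MatrixGroups

namespace Fermat.Agent.Lib.S41

/-- **Theorem C (centrality).** -/
theorem s41kc_central : s41k_Central := by
  intro q L A _ ψ hq hG hψ σ g hg
  exact s41kd_central_of_lo
    (fun ψ' hψ' g' hg' => s41kc_lo_one_mem hq hG hψ'
      (fun g'' hg'' μ hμ w hw w' hw' hww h => s41kb_comm_killed hψ' hg'' hμ hw hw' hww h) hg')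
    hψ σ hg

end Fermat.Agent.Lib.S41
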