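/-
S41 project, module [K], work order KH (helper4): **from a principal congruence level to
`Γ₁(N)`, over `ℤ`**.

If `χ : Γ₀(N) → A` is a PARABOLIC homomorphism (it kills every element of trace `±2`) which kills
`Γ₀(N) ∩ Γ(M)` for ONE `M ≠ 0` with `N ∣ M`, then `χ` kills every `γ ∈ Γ₀(N)` with `d ≡ 1` modulo
`N`, i.e. `χ` only depends on `d mod N` (`s41kh_cong`; the hypothesis consumed by
`s41d_hecke_eisenstein`).

Proof: multiplying `γ` by unipotents of `Γ₀(N)` we may assume `d` prime to `M`, then `c ≡ 0`, then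
`b ≡ 0` modulo `M`; finally
`[[1,0],[a-1,1]] · [[d,1-d],[d-1,2-d]] · [[1,1-a],[0,1]] = [[d, 1-ad],[ad-1, a(2-ad)]]`
is a product of trace-`2` elements of `Γ₀(N)` (as `a ≡ d ≡ 1` modulo `N`) and is `≡ diag(d, a)`
modulo `M`.
-/
import Mathlib
import Fermat.Prelude.Def_ModularCurve_PeriodMap
import Fermat.Agent.Lib.RR.CosetsBasic

set_option autoImplicit false
set_option linter.unusedSimpArgs false

open Matrix MatrixGroups CongruenceSubgroup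

namespace Fermat.Agent.Lib.S41

/-- `[[a, b], [c, d]] ∈ SL₂(ℤ)`. -/
def s41kh_mk (a b c d : ℤ) (h : a * d - b * c = 1) : SL(2, ℤ) :=
  ⟨!![a, b; c, d], by rw [Matrix.det_fin_two_of]; exact h⟩

@[simp] theorem s41kh_mk_00 (a b c d : ℤ) (h : a * d - b * c = 1) :
    (s41kh_mk a b c d h).1 0 0 = a := rfl
@[simp] theorem s41kh_mk_01 (a b c d : ℤ) (h : a * d - b * c = 1) :
    (s41kh_mk a b c d h).1 0 1 = b := rfl
@[simp] theorem s41kh_mk_10 (a b c d : ℤ) (h : a * d - b * c = 1) :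
    (s41kh_mk a b c d h).1 1 0 = c := rfl
@[simp] theorem s41kh_mk_11 (a b c d : ℤ) (h : a * d - b * c = 1) :
    (s41kh_mk a b c d h).1 1 1 = d := rfl

/-- `[[1, x], [0, 1]]`. -/
def s41kh_up (x : ℤ) : SL(2, ℤ) := s41kh_mk 1 x 0 1 (by ring)

/-- `[[1, 0], [x, 1]]`. -/
def s41kh_lo (x : ℤ) : SL(2, ℤ) := s41kh_mk 1 0 x 1 (by ring)

/-- `[[1,1],[0,1]] [[1,0],[x,1]] [[1,-1],[0,1]] = [[1+x, -x], [x, 1-x]]`. -/
def s41kh_mid (x : ℤ) : SL(2, ℤ) := s41kh_mk (1 + x) (-x) x (1 - x) (by ring)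

@[simp] theorem s41kh_up_00 (x : ℤ) : (s41kh_up x).1 0 0 = 1 := rfl
@[simp] theorem s41kh_up_01 (x : ℤ) : (s41kh_up x).1 0 1 = x := rfl
@[simp] theorem s41kh_up_10 (x : ℤ) : (s41kh_up x).1 1 0 = 0 := rfl
@[simp] theorem s41kh_up_11 (x : ℤ) : (s41kh_up x).1 1 1 = 1 := rfl
@[simp] theorem s41kh_lo_00 (x : ℤ) : (s41kh_lo x).1 0 0 = 1 := rfl
@[simp] theorem s41kh_lo_01 (x : ℤ) : (s41kh_lo x).1 0 1 = 0 := rfl
@[simp] theorem s41kh_lo_10 (x : ℤ) : (s41kh_lo x).1 1 0 = x := rfl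
@[simp] theorem s41kh_lo_11 (x : ℤ) : (s41kh_lo x).1 1 1 = 1 := rfl
@[simp] theorem s41kh_mid_00 (x : ℤ) : (s41kh_mid x).1 0 0 = 1 + x := rfl
@[simp] theorem s41kh_mid_01 (x : ℤ) : (s41kh_mid x).1 0 1 = -x := rfl
@[simp] theorem s41kh_mid_10 (x : ℤ) : (s41kh_mid x).1 1 0 = x := rfl
@[simp] theorem s41kh_mid_11 (x : ℤ) : (s41kh_mid x).1 1 1 = 1 - x := rfl

theorem s41kh_mul_00 (g h : SL(2, ℤ)) :
    (g * h).1 0 0 = g.1 0 0 * h.1 0 0 + g.1 0 1 * h.1 1 0 := by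
  rw [Matrix.SpecialLinearGroup.coe_mul, Matrix.mul_apply, Fin.sum_univ_two]

theorem s41kh_mul_01 (g h : SL(2, ℤ)) :
    (g * h).1 0 1 = g.1 0 0 * h.1 0 1 + g.1 0 1 * h.1 1 1 := by
  rw [Matrix.SpecialLinearGroup.coe_mul, Matrix.mul_apply, Fin.sum_univ_two]

theorem s41kh_mul_10 (g h : SL(2, ℤ)) :
    (g * h).1 1 0 = g.1 1 0 * h.1 0 0 + g.1 1 1 * h.1 1 0 := by
  rw [Matrix.SpecialLinearGroup.coe_mul, Matrix.mul_apply, Fin.sum_univ_two]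

theorem s41kh_mul_11 (g h : SL(2, ℤ)) :
    (g * h).1 1 1 = g.1 1 0 * h.1 0 1 + g.1 1 1 * h.1 1 1 := by
  rw [Matrix.SpecialLinearGroup.coe_mul, Matrix.mul_apply, Fin.sum_univ_two]

theorem s41kh_det (g : SL(2, ℤ)) : g.1 0 0 * g.1 1 1 - g.1 0 1 * g.1 1 0 = 1 := by
  have := g.2
  rwa [Matrix.det_fin_two] at this

theorem s41kh_mem_Gamma0 {N : ℕ} {g : SL(2, ℤ)} : g ∈ Gamma0 N ↔ (N : ℤ) ∣ g.1 1 0 := by
  rw [Gamma0_mem, ZMod.intCast_zmod_eq_zero_iff_dvd]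

theorem s41kh_mem_Gamma {M : ℕ} {g : SL(2, ℤ)} (h00 : (M : ℤ) ∣ g.1 0 0 - 1)
    (h01 : (M : ℤ) ∣ g.1 0 1) (h10 : (M : ℤ) ∣ g.1 1 0) (h11 : (M : ℤ) ∣ g.1 1 1 - 1) :
    g ∈ Gamma M := by
  rw [Gamma_mem]
  refine ⟨?_, ?_, ?_, ?_⟩
  · have := (ZMod.intCast_eq_intCast_iff_dvd_sub 1 (g.1 0 0) M).mpr h00
    rw [Int.cast_one] at this
    exact this.symm
  · exact (ZMod.intCast_zmod_eq_zero_iff_dvd _ _).mpr h01
  · exact (ZMod.intCast_zmod_eq_zero_iff_dvd _ _).mpr h10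
  · have := (ZMod.intCast_eq_intCast_iff_dvd_sub 1 (g.1 1 1) M).mpr h11
    rw [Int.cast_one] at this
    exact this.symm

theorem s41kh_up_mem (N : ℕ) (x : ℤ) : s41kh_up x ∈ Gamma0 N := by
  rw [s41kh_mem_Gamma0]; simp

theorem s41kh_lo_mem {N : ℕ} {x : ℤ} (h : (N : ℤ) ∣ x) : s41kh_lo x ∈ Gamma0 N := by
  rw [s41kh_mem_Gamma0]; simpa using h

theorem s41kh_mid_mem {N : ℕ} {x : ℤ} (h : (N : ℤ) ∣ x) : s41kh_mid x ∈ Gamma0 N := by
  rw [s41kh_mem_Gamma0]; simpa using h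

section

variable {N : ℕ} {A : Type*} [AddCommGroup A] (χ : Additive (Gamma0 N) →+ A)

open Classical in
/-- extension by zero of `χ : Γ₀(N) → A` to a function on `SL₂(ℤ)`. -/
noncomputable def s41kh_ext (g : SL(2, ℤ)) : A :=
  if h : g ∈ Gamma0 N then χ (Additive.ofMul (⟨g, h⟩ : Gamma0 N)) else 0

theorem s41kh_ext_of_mem {g : SL(2, ℤ)} (h : g ∈ Gamma0 N) :
    s41kh_ext χ g = χ (Additive.ofMul (⟨g, h⟩ : Gamma0 N)) := by
  rw [s41kh_ext, dif_pos h]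

theorem s41kh_ext_mul {g h : SL(2, ℤ)} (hg : g ∈ Gamma0 N) (hh : h ∈ Gamma0 N) :
    s41kh_ext χ (g * h) = s41kh_ext χ g + s41kh_ext χ h := by
  rw [s41kh_ext_of_mem χ hg, s41kh_ext_of_mem χ hh,
    s41kh_ext_of_mem χ ((Gamma0 N).mul_mem hg hh), ← map_add]
  rfl

variable {χ}

theorem s41kh_ext_par (hpar : ModularCurve.Period.IsParabolicHom (Gamma0 N) χ) {u : SL(2, ℤ)}
    (hu : u ∈ Gamma0 N) (htr : u.1 0 0 + u.1 1 1 = 2) : s41kh_ext χ u = 0 := by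
  rw [s41kh_ext_of_mem χ hu]
  apply hpar
  show (u.1).trace ^ 2 = 4
  rw [Matrix.trace_fin_two, htr]
  norm_num

theorem s41kh_ext_mul_right (hpar : ModularCurve.Period.IsParabolicHom (Gamma0 N) χ)
    {g u : SL(2, ℤ)} (hg : g ∈ Gamma0 N) (hu : u ∈ Gamma0 N) (htr : u.1 0 0 + u.1 1 1 = 2) :
    s41kh_ext χ (g * u) = s41kh_ext χ g := by
  rw [s41kh_ext_mul χ hg hu, s41kh_ext_par hpar hu htr, add_zero]

theorem s41kh_ext_mul_left (hpar : ModularCurve.Period.IsParabolicHom (Gamma0 N) χ)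
    {g u : SL(2, ℤ)} (hg : g ∈ Gamma0 N) (hu : u ∈ Gamma0 N) (htr : u.1 0 0 + u.1 1 1 = 2) :
    s41kh_ext χ (u * g) = s41kh_ext χ g := by
  rw [s41kh_ext_mul χ hu hg, s41kh_ext_par hpar hu htr, zero_add]

/-- **the diagonal step**: an element of `Γ₀(N)` with `b ≡ c ≡ 0` modulo `M` and `a ≡ d ≡ 1`
modulo `N` is killed. -/
theorem s41kh_diag (hpar : ModularCurve.Period.IsParabolicHom (Gamma0 N) χ) {M : ℕ}
    (hkill : ∀ g : SL(2, ℤ), g ∈ Gamma0 N → g ∈ Gamma M → s41kh_ext χ g = 0)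
    {g : SL(2, ℤ)} (hg : g ∈ Gamma0 N) (hd : (N : ℤ) ∣ g.1 1 1 - 1)
    (hb : (M : ℤ) ∣ g.1 0 1) (hc : (M : ℤ) ∣ g.1 1 0) : s41kh_ext χ g = 0 := by
  have hgc : (N : ℤ) ∣ g.1 1 0 := s41kh_mem_Gamma0.mp hg
  set a := g.1 0 0 with ha'
  set b := g.1 0 1 with hb'
  set c := g.1 1 0 with hc'
  set d := g.1 1 1 with hd'
  have hdet : a * d - b * c = 1 := s41kh_det g
  have ha : (N : ℤ) ∣ a - 1 := by
    have : a - 1 = -a * (d - 1) + b * c := by linear_combination hdet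
    rw [this]
    exact dvd_add (Dvd.dvd.mul_left hd _) (Dvd.dvd.mul_left hgc _)
  have h1 : s41kh_lo (a - 1) ∈ Gamma0 N := s41kh_lo_mem ha
  have h2 : s41kh_mid (d - 1) ∈ Gamma0 N := s41kh_mid_mem hd
  have h3 : s41kh_up (1 - a) ∈ Gamma0 N := s41kh_up_mem N _
  have e1 : s41kh_ext χ (g * s41kh_lo (a - 1)) = s41kh_ext χ g :=
    s41kh_ext_mul_right hpar hg h1 (by simp)
  have hg1 := (Gamma0 N).mul_mem hg h1
  have e2 : s41kh_ext χ (g * s41kh_lo (a - 1) * s41kh_mid (d - 1)) =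
      s41kh_ext χ (g * s41kh_lo (a - 1)) :=
    s41kh_ext_mul_right hpar hg1 h2 (by simp only [s41kh_mid_00, s41kh_mid_11]; ring)
  have hg2 := (Gamma0 N).mul_mem hg1 h2
  have e3 : s41kh_ext χ (g * s41kh_lo (a - 1) * s41kh_mid (d - 1) * s41kh_up (1 - a)) =
      s41kh_ext χ (g * s41kh_lo (a - 1) * s41kh_mid (d - 1)) :=
    s41kh_ext_mul_right hpar hg2 h3 (by simp)
  have hg3 := (Gamma0 N).mul_mem hg2 h3
  rw [← e1, ← e2, ← e3]
  refine hkill _ hg3 (s41kh_mem_Gamma ?_ ?_ ?_ ?_)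
  · obtain ⟨b', hb''⟩ := hb
    refine ⟨b' * c + b' * b * c, ?_⟩
    simp only [s41kh_mul_00, s41kh_mul_01, s41kh_mul_10, s41kh_mul_11, s41kh_lo_00, s41kh_lo_01,
      s41kh_lo_10, s41kh_lo_11, s41kh_mid_00, s41kh_mid_01, s41kh_mid_10, s41kh_mid_11,
      s41kh_up_00, s41kh_up_01, s41kh_up_10, s41kh_up_11, ← ha', ← hb', ← hc', ← hd']
    linear_combination (1 + b) * hdet + (c + b * c) * hb''
  · obtain ⟨b', hb''⟩ := hb
    refine ⟨b' * a * (2 - a * d) - a * b' * c, ?_⟩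
    simp only [s41kh_mul_00, s41kh_mul_01, s41kh_mul_10, s41kh_mul_11, s41kh_lo_00, s41kh_lo_01,
      s41kh_lo_10, s41kh_lo_11, s41kh_mid_00, s41kh_mid_01, s41kh_mid_10, s41kh_mid_11,
      s41kh_up_00, s41kh_up_01, s41kh_up_10, s41kh_up_11, ← ha', ← hb', ← hc', ← hd']
    linear_combination (-a) * hdet + (a * (2 - a * d) - a * c) * hb''
  · obtain ⟨c', hc''⟩ := hc
    refine ⟨c' * d + d * b * c', ?_⟩
    simp only [s41kh_mul_00, s41kh_mul_01, s41kh_mul_10, s41kh_mul_11, s41kh_lo_00, s41kh_lo_01,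
      s41kh_lo_10, s41kh_lo_11, s41kh_mid_00, s41kh_mid_01, s41kh_mid_10, s41kh_mid_11,
      s41kh_up_00, s41kh_up_01, s41kh_up_10, s41kh_up_11, ← ha', ← hb', ← hc', ← hd']
    linear_combination (d) * hdet + (d + d * b) * hc''
  · obtain ⟨c', hc''⟩ := hc
    refine ⟨-(b * c * c') - b * b * c * c', ?_⟩
    simp only [s41kh_mul_00, s41kh_mul_01, s41kh_mul_10, s41kh_mul_11, s41kh_lo_00, s41kh_lo_01,
      s41kh_lo_10, s41kh_lo_11, s41kh_mid_00, s41kh_mid_01, s41kh_mid_10, s41kh_mid_11,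
      s41kh_up_00, s41kh_up_01, s41kh_up_10, s41kh_up_11, ← ha', ← hb', ← hc', ← hd']
    linear_combination (-a * d - b * c + 1 - c) * hdet + (-c * b - c * b ^ 2) * hc''

/-- **KH**, for the extension by zero. -/
theorem s41kh_cong_ext (hpar : ModularCurve.Period.IsParabolicHom (Gamma0 N) χ) {M : ℕ}
    (hM : M ≠ 0) (hkill : ∀ g : SL(2, ℤ), g ∈ Gamma0 N → g ∈ Gamma M → s41kh_ext χ g = 0)
    {g : SL(2, ℤ)} (hg : g ∈ Gamma0 N) (hd : (N : ℤ) ∣ g.1 1 1 - 1) : s41kh_ext χ g = 0 := by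
  obtain ⟨c', hc''⟩ := s41kh_mem_Gamma0.mp hg
  obtain ⟨d', hd''⟩ := hd
  set a := g.1 0 0 with ha'
  set b := g.1 0 1 with hb'
  set c := g.1 1 0 with hc'
  set d := g.1 1 1 with hd'
  have hdet : a * d - b * c = 1 := s41kh_det g
  have hM' : (M : ℤ) ≠ 0 := by exact_mod_cast hM
  -- step 1: make `d` prime to `M`
  have hprime : ∀ p : ℕ, p.Prime → (p : ℤ) ∣ d → (p : ℤ) ∣ (M : ℤ) → ¬ p ∣ c.natAbs := by
    intro p pp hpd _ hpc
    have hpc' : (p : ℤ) ∣ c := Int.natCast_dvd.mpr hpc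
    have h1 : (p : ℤ) ∣ 1 := by
      rw [← hdet]
      exact dvd_sub (Dvd.dvd.mul_left hpd _) (Dvd.dvd.mul_left hpc' _)
    have h2 : p ∣ 1 := by exact_mod_cast h1
    exact pp.one_lt.ne' (Nat.dvd_one.mp h2)
  obtain ⟨k₀, hk₀⟩ := Fermat.Agent.Lib.RR.Cosets.exists_isCoprime_add_mul
    (a := d) (c := (M : ℤ)) (N := c.natAbs) hM' hprime
  obtain ⟨t, ht⟩ : ∃ t : ℤ, d + k₀ * (c.natAbs : ℤ) = d + t * c := by
    rcases Int.natAbs_eq c with hC | hC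
    · exact ⟨k₀, by rw [← hC]⟩
    · refine ⟨-k₀, ?_⟩
      have : (c.natAbs : ℤ) = -c := by linarith
      rw [this]; ring
  rw [ht] at hk₀
  obtain ⟨e, v, hev⟩ := hk₀
  -- the three moves
  set s : ℤ := -(c' * e) with hs
  set t₃ : ℤ := -((a * t + b) * e) with ht₃
  have h1 : s41kh_up t ∈ Gamma0 N := s41kh_up_mem N _
  have h2 : s41kh_lo ((N : ℤ) * s) ∈ Gamma0 N := s41kh_lo_mem (Dvd.intro _ rfl)
  have h3 : s41kh_up t₃ ∈ Gamma0 N := s41kh_up_mem N _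
  have e1 : s41kh_ext χ (g * s41kh_up t) = s41kh_ext χ g :=
    s41kh_ext_mul_right hpar hg h1 (by simp)
  have hg1 := (Gamma0 N).mul_mem hg h1
  have e2 : s41kh_ext χ (g * s41kh_up t * s41kh_lo ((N : ℤ) * s)) =
      s41kh_ext χ (g * s41kh_up t) :=
    s41kh_ext_mul_right hpar hg1 h2 (by simp)
  have hg2 := (Gamma0 N).mul_mem hg1 h2
  have e3 : s41kh_ext χ (s41kh_up t₃ * (g * s41kh_up t * s41kh_lo ((N : ℤ) * s))) =
      s41kh_ext χ (g * s41kh_up t * s41kh_lo ((N : ℤ) * s)) :=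
    s41kh_ext_mul_left hpar hg2 h3 (by simp)
  have hg3 := (Gamma0 N).mul_mem h3 hg2
  rw [← e1, ← e2, ← e3]
  refine s41kh_diag hpar hkill hg3 ?_ ?_ ?_
  · refine ⟨d' + t * c', ?_⟩
    simp only [s41kh_mul_00, s41kh_mul_01, s41kh_mul_10, s41kh_mul_11, s41kh_lo_00, s41kh_lo_01,
      s41kh_lo_10, s41kh_lo_11, s41kh_up_00, s41kh_up_01, s41kh_up_10, s41kh_up_11,
      ← ha', ← hb', ← hc', ← hd']
    linear_combination hd'' + t * hc''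
  · refine ⟨(a * t + b) * v, ?_⟩
    simp only [s41kh_mul_00, s41kh_mul_01, s41kh_mul_10, s41kh_mul_11, s41kh_lo_00, s41kh_lo_01,
      s41kh_lo_10, s41kh_lo_11, s41kh_up_00, s41kh_up_01, s41kh_up_10, s41kh_up_11,
      ← ha', ← hb', ← hc', ← hd']
    linear_combination (-(a * t + b)) * hev
  · refine ⟨(N : ℤ) * c' * v, ?_⟩
    simp only [s41kh_mul_00, s41kh_mul_01, s41kh_mul_10, s41kh_mul_11, s41kh_lo_00, s41kh_lo_01,
      s41kh_lo_10, s41kh_lo_11, s41kh_up_00, s41kh_up_01, s41kh_up_10, s41kh_up_11,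
      ← ha', ← hb', ← hc', ← hd']
    linear_combination (-((N : ℤ) * c')) * hev + hc''

end

/-- **KH**: a PARABOLIC homomorphism `χ : Γ₀(N) → A` which kills `Γ₀(N) ∩ Γ(M)` for one `M ≠ 0`
kills every `γ ∈ Γ₀(N)` with `d ≡ 1` modulo `N` (so `s41d_hecke_eisenstein` applies to it). -/
theorem s41kh_cong {N M : ℕ} {A : Type*} [AddCommGroup A] (χ : Additive (Gamma0 N) →+ A)
    (hpar : ModularCurve.Period.IsParabolicHom (Gamma0 N) χ) (hM : M ≠ 0)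
    (hkill : ∀ γ : Gamma0 N, (γ : SL(2, ℤ)) ∈ Gamma M → χ (Additive.ofMul γ) = 0)
    (γ : Gamma0 N) (hγ : Gamma0Map N γ = 1) : χ (Additive.ofMul γ) = 0 := by
  have hkill' : ∀ g : SL(2, ℤ), g ∈ Gamma0 N → g ∈ Gamma M → s41kh_ext χ g = 0 := by
    intro g hg hgM
    rw [s41kh_ext_of_mem χ hg]
    exact hkill ⟨g, hg⟩ hgM
  have hd : (N : ℤ) ∣ (γ : SL(2, ℤ)).1 1 1 - 1 := by
    have h1 : (((γ : SL(2, ℤ)).1 1 1 : ℤ) : ZMod N) = ((1 : ℤ) : ZMod N) := by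
      rw [Int.cast_one]
      exact hγ
    exact (ZMod.intCast_eq_intCast_iff_dvd_sub _ _ _).mp h1.symm
  have := s41kh_cong_ext hpar hM hkill' γ.2 hd
  rw [s41kh_ext_of_mem χ γ.2] at this
  exact this

end Fermat.Agent.Lib.S41
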