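/-
S41 project, module [K], file KDeep (lead): **evaluation of `T_r` and `T_r²` on deep elements**.

Given the explicit description of the coset family `s29h_fam` on `Γ₀(N) ∩ Γ(r)` (hypotheses `hinf`,
`hcoe`; proved in `KHecke.lean`) and the centrality property (Theorem C) for the three functions
`φx`, `φx ∘ κ_r`, `φx ∘ κ_r ∘ κ_r` at levels `L ∣ L₁ ∣ L₂`, we get

* `s41kg_stepA` : `(T_r φ₁)(γ) = (r + 1) • φx (κ_r (ι γ))` for `γ ∈ Γ(L₁)`;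
* `s41kg_stepB` : `(T_r (T_r φ₁))(γ) = (r + 1) • (r + 1) • φ₁ γ` for `γ ∈ Γ(L₂)`.
-/
import Mathlib
import Fermat.Agent.Lib.S41.KDefs
import Fermat.Agent.Lib.S29.HDefs

set_option autoImplicit false

open Matrix MatrixGroups CongruenceSubgroup

namespace Fermat.Agent.Lib.S41

open Fermat.Agent.Lib.S29 Fermat.Agent.Lib.ES

/-- the conclusion of Theorem C for the function `ψ` at level `L`. -/
def s41kg_Inv (q L : ℕ) {A : Type*} (ψ : SL(2, ℚ) → A) : Prop :=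
  ∀ σ : SL(2, ℤ), ∀ g ∈ s41k_Gam q L, ψ (s41e_iota σ * g * (s41e_iota σ)⁻¹) = ψ g

theorem s41kg_w_eq_iota : s41k_w = s41e_iota ModularGroup.S := by
  refine s41d_ext ?_ ?_ ?_ ?_ <;> simp [s41e_iota_apply, ModularGroup.S]

theorem s41kg_up_eq_iota (j : ℤ) : s41d_up (j : ℚ) = s41e_iota (ModularGroup.T ^ j) := by
  refine s41d_ext ?_ ?_ ?_ ?_ <;> rw [s41e_iota_apply, ModularGroup.coe_T_zpow] <;> simp

/-- `Γ(M) ≤ Γ(L)` for `L ∣ M`. -/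
theorem s41kg_Gamma_mono {L M : ℕ} (h : L ∣ M) {σ : SL(2, ℤ)} (hσ : σ ∈ Gamma M) : σ ∈ Gamma L := by
  rw [Gamma_mem] at hσ ⊢
  obtain ⟨h00, h01, h10, h11⟩ := hσ
  have key : ∀ x : ℤ, ((x : ZMod M) = 0) → ((x : ZMod L) = 0) := by
    intro x hx
    rw [ZMod.intCast_zmod_eq_zero_iff_dvd] at hx ⊢
    exact (Int.natCast_dvd_natCast.mpr h).trans hx
  refine ⟨?_, key _ h01, key _ h10, ?_⟩
  · have := key (σ.1 0 0 - 1) (by push_cast; rw [h00]; ring)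
    push_cast at this
    exact sub_eq_zero.mp this
  · have := key (σ.1 1 1 - 1) (by push_cast; rw [h11]; ring)
    push_cast at this
    exact sub_eq_zero.mp this

/-- `Γ(L) ⊂ SL₂(ℤ)` maps into `Γ_L`. -/
theorem s41kg_iota_mem_Gam (q : ℕ) {L : ℕ} {σ : SL(2, ℤ)} (hσ : σ ∈ Gamma L) :
    s41e_iota σ ∈ s41k_Gam q L := by
  rw [Gamma_mem] at hσ
  obtain ⟨h00, h01, h10, h11⟩ := hσ
  have key : ∀ x : ℤ, ((x : ZMod L) = 0) → s41k_LR q L (x : ℚ) := by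
    intro x hx
    obtain ⟨c, hc⟩ := (ZMod.intCast_zmod_eq_zero_iff_dvd _ _).mp hx
    exact ⟨(c : ℚ), s41e_int_mem_R q c, by rw [hc]; push_cast; ring⟩
  refine ⟨?_, ?_, ?_, ?_⟩
  · rw [s41e_iota_apply]
    have := key (σ.1 0 0 - 1) (by push_cast; rw [h00]; ring)
    simpa using this
  · rw [s41e_iota_apply]; exact key _ h01
  · rw [s41e_iota_apply]; exact key _ h10
  · rw [s41e_iota_apply]
    have := key (σ.1 1 1 - 1) (by push_cast; rw [h11]; ring)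
    simpa using this

/-- an integer lying in `L · ℤ[1/q]` is divisible by `L` (`L` prime to `q`). -/
theorem s41kg_dvd_of_LR {q L : ℕ} (hLq : Nat.Coprime L q) {x : ℤ} (hx : s41k_LR q L (x : ℚ)) :
    (L : ℤ) ∣ x := by
  obtain ⟨s, ⟨k, m, hm⟩, hs⟩ := hx
  -- `x q^k = L m`
  have h1 : x * (q : ℤ) ^ k = (L : ℤ) * m := by
    have : ((x * (q : ℤ) ^ k : ℤ) : ℚ) = (((L : ℤ) * m : ℤ) : ℚ) := by
      push_cast
      rw [← hm, hs]
      ring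
    exact_mod_cast this
  have hcop : IsCoprime (L : ℤ) ((q : ℤ) ^ k) := by
    have : Nat.Coprime L (q ^ k) := Nat.Coprime.pow_right k hLq
    exact_mod_cast Nat.isCoprime_iff_coprime.mpr this
  exact hcop.dvd_of_dvd_mul_right ⟨m, h1⟩

/-- converse: an integral matrix lying in `Γ_L` lies in `Γ(L)` (`L` prime to `q`). -/
theorem s41kg_mem_Gamma_of_iota {q L : ℕ} (hLq : Nat.Coprime L q) {σ : SL(2, ℤ)}
    (hσ : s41e_iota σ ∈ s41k_Gam q L) : σ ∈ Gamma L := by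
  obtain ⟨h00, h01, h10, h11⟩ := hσ
  rw [s41e_iota_apply] at h00 h01 h10 h11
  rw [Gamma_mem]
  have key : ∀ x : ℤ, s41k_LR q L (x : ℚ) → ((x : ZMod L) = 0) := fun x hx =>
    (ZMod.intCast_zmod_eq_zero_iff_dvd _ _).mpr (s41kg_dvd_of_LR hLq hx)
  refine ⟨?_, key _ h01, key _ h10, ?_⟩
  · have := key (σ.1 0 0 - 1) (by push_cast; exact h00)
    push_cast at this
    exact sub_eq_zero.mp this
  · have := key (σ.1 1 1 - 1) (by push_cast; exact h11)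
    push_cast at this
    exact sub_eq_zero.mp this

section

variable {N r : ℕ} [Fact r.Prime] {A : Type*} [AddCommGroup A]

/-- splitting the Hecke sum into the `∞`-term and the finite terms. -/
theorem s41kg_sum (hrN : ¬ r ∣ N) (χ : Additive (Gamma0 N) →+ A) (γ : Gamma0 N) :
    s29h_heckeHom N r A χ (Additive.ofMul γ) =
      χ (Additive.ofMul (s29h_fam hrN γ (OnePoint.infty : OnePoint (ZMod r)))) +
        ∑ j : ZMod r, χ (Additive.ofMul (s29h_fam hrN γ ((j : ZMod r) : OnePoint (ZMod r)))) := by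
  rw [s29h_heckeHom_apply hrN]
  exact Fintype.sum_option (fun x : Option (ZMod r) => χ (Additive.ofMul (s29h_fam hrN γ x)))

end

section Deep

variable {N q r : ℕ} [Fact r.Prime] {A : Type*} [AddCommGroup A]

/-- the hypotheses on the coset family (proved in `KHecke.lean`). -/
def s41kg_FamHyp (N r : ℕ) [Fact r.Prime] (hrN : ¬ r ∣ N) (hr0 : r ≠ 0) : Prop :=
  (∀ γ : Gamma0 N, (γ : SL(2, ℤ)) ∈ Gamma r →
    s41e_iota ((s29h_fam hrN γ (OnePoint.infty : OnePoint (ZMod r)) : Gamma0 N) : SL(2, ℤ)) =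
      s41e_conj r hr0 (s41e_iota (γ : SL(2, ℤ)))) ∧
  (∀ γ : Gamma0 N, (γ : SL(2, ℤ)) ∈ Gamma r → ∀ j : ZMod r,
    s41e_iota ((s29h_fam hrN γ ((j : ZMod r) : OnePoint (ZMod r)) : Gamma0 N) : SL(2, ℤ)) =
      s41k_w * s41e_conj r hr0 (s41k_w⁻¹ * s41d_up ((j.val : ℕ) : ℚ) *
        s41e_iota (γ : SL(2, ℤ)) * s41d_up (-((j.val : ℕ) : ℚ)) * s41k_w) * s41k_w⁻¹)

variable {hrN : ¬ r ∣ N} {hr0 : r ≠ 0}

/-- `γ_j = w⁻¹ up(j) ι(γ) up(-j) w` is a conjugate of `ι γ` by an element of `ι(SL₂(ℤ))`. -/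
theorem s41kg_gamma_j (g : SL(2, ℚ)) (j : ℕ) :
    s41k_w⁻¹ * s41d_up (j : ℚ) * g * s41d_up (-(j : ℚ)) * s41k_w =
      s41e_iota (ModularGroup.S⁻¹ * ModularGroup.T ^ (j : ℤ)) * g *
        (s41e_iota (ModularGroup.S⁻¹ * ModularGroup.T ^ (j : ℤ)))⁻¹ := by
  have h1 : s41d_up (-(j : ℚ)) = (s41d_up (j : ℚ))⁻¹ := by
    refine s41d_ext ?_ ?_ ?_ ?_ <;> simp [s41d_inv_00, s41d_inv_01, s41d_inv_10, s41d_inv_11]
  have h2 : s41d_up ((j : ℕ) : ℚ) = s41e_iota (ModularGroup.T ^ (j : ℤ)) := by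
    have := s41kg_up_eq_iota (j : ℤ)
    simpa using this
  rw [h1, h2, map_mul, map_inv, ← s41kg_w_eq_iota, _root_.mul_inv_rev, inv_inv]
  group

theorem s41kg_stepA (hF : s41kg_FamHyp N r hrN hr0) (φx : SL(2, ℚ) → A)
    (φ₁ : Additive (Gamma0 N) →+ A)
    (hφ : ∀ γ : Gamma0 N, φx (s41e_iota (γ : SL(2, ℤ))) = φ₁ (Additive.ofMul γ))
    {L L₁ : ℕ} (h1 : r * L ∣ L₁)
    (hI0 : s41kg_Inv q L φx) (hI1 : s41kg_Inv q L₁ (fun g => φx (s41e_conj r hr0 g)))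
    (γ : Gamma0 N) (hγ : (γ : SL(2, ℤ)) ∈ Gamma L₁) :
    s29h_heckeHom N r A φ₁ (Additive.ofMul γ) =
      (r + 1) • φx (s41e_conj r hr0 (s41e_iota (γ : SL(2, ℤ)))) := by
  have hrL₁ : r ∣ L₁ := (Dvd.intro _ rfl).trans h1
  have hγr : (γ : SL(2, ℤ)) ∈ Gamma r := s41kg_Gamma_mono hrL₁ hγ
  have hγG : s41e_iota (γ : SL(2, ℤ)) ∈ s41k_Gam q L₁ := s41kg_iota_mem_Gam q hγ
  rw [s41kg_sum hrN, ← hφ, hF.1 γ hγr]
  have hj : ∀ j : ZMod r, φ₁ (Additive.ofMul (s29h_fam hrN γ ((j : ZMod r) : OnePoint (ZMod r)))) =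
      φx (s41e_conj r hr0 (s41e_iota (γ : SL(2, ℤ)))) := by
    intro j
    rw [← hφ, hF.2 γ hγr j]
    set γj := s41k_w⁻¹ * s41d_up ((j.val : ℕ) : ℚ) * s41e_iota (γ : SL(2, ℤ)) *
      s41d_up (-((j.val : ℕ) : ℚ)) * s41k_w with hγj
    have hγjG : γj ∈ s41k_Gam q L₁ := by
      rw [hγj, s41kg_gamma_j]
      exact s41k_Gam_conj (s41k_iota_mem q _) hγG
    have hκ : s41e_conj r hr0 γj ∈ s41k_Gam q L := s41k_conj_mem_Gam hr0 h1 hγjG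
    have e1 := hI0 ModularGroup.S _ hκ
    rw [← s41kg_w_eq_iota] at e1
    rw [e1]
    have e2 := hI1 (ModularGroup.S⁻¹ * ModularGroup.T ^ ((j.val : ℕ) : ℤ)) _ hγG
    rw [← s41kg_gamma_j] at e2
    exact e2
  rw [Finset.sum_congr rfl (fun j _ => hj j), Finset.sum_const, Finset.card_univ, ZMod.card,
    add_comm, add_smul, one_smul]

theorem s41kg_stepB (hF : s41kg_FamHyp N r hrN hr0) (φx : SL(2, ℚ) → A)
    (φ₁ : Additive (Gamma0 N) →+ A)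
    (hφ : ∀ γ : Gamma0 N, φx (s41e_iota (γ : SL(2, ℤ))) = φ₁ (Additive.ofMul γ))
    {L L₁ L₂ : ℕ} (h1 : r * L ∣ L₁) (h2 : r * L₁ ∣ L₂) (hL₁q : Nat.Coprime L₁ q)
    (hI0 : s41kg_Inv q L φx) (hI1 : s41kg_Inv q L₁ (fun g => φx (s41e_conj r hr0 g)))
    (hI2 : s41kg_Inv q L₂ (fun g => φx (s41e_conj r hr0 (s41e_conj r hr0 g))))
    (γ : Gamma0 N) (hγ : (γ : SL(2, ℤ)) ∈ Gamma L₂) :
    s29h_heckeHom N r A (s29h_heckeHom N r A φ₁) (Additive.ofMul γ) =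
      (r + 1) • (r + 1) • φ₁ (Additive.ofMul γ) := by
  have hrL₂ : r ∣ L₂ := (Dvd.intro _ rfl).trans h2
  have hL₁L₂ : L₁ ∣ L₂ := (Dvd.intro_left _ rfl).trans h2
  have hLL₁ : L ∣ L₁ := (Dvd.intro_left _ rfl).trans h1
  have hγr : (γ : SL(2, ℤ)) ∈ Gamma r := s41kg_Gamma_mono hrL₂ hγ
  have hγG₂ : s41e_iota (γ : SL(2, ℤ)) ∈ s41k_Gam q L₂ := s41kg_iota_mem_Gam q hγ
  have hγG₁ : s41e_iota (γ : SL(2, ℤ)) ∈ s41k_Gam q L₁ := s41k_Gam_mono hL₁L₂ hγG₂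
  have hγG₀ : s41e_iota (γ : SL(2, ℤ)) ∈ s41k_Gam q L := s41k_Gam_mono hLL₁ hγG₁
  have hwinv : s41e_iota ModularGroup.S⁻¹ = s41k_w⁻¹ := by rw [map_inv, ← s41kg_w_eq_iota]
  -- `ψ₂ (ι γ) = φ₁ γ`
  have hψ₂ : φx (s41e_conj r hr0 (s41e_conj r hr0 (s41e_iota (γ : SL(2, ℤ))))) =
      φ₁ (Additive.ofMul γ) := by
    have hκ : s41e_conj r hr0 (s41e_iota (γ : SL(2, ℤ))) ∈ s41k_Gam q L₁ :=
      s41k_conj_mem_Gam hr0 h2 hγG₂
    have e1 := hI1 ModularGroup.S⁻¹ _ hκ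
    simp only [hwinv, inv_inv] at e1
    rw [s41k_conj_w_conj] at e1
    have e0 := hI0 ModularGroup.S⁻¹ _ hγG₀
    simp only [hwinv, inv_inv] at e0
    rw [← e1, e0, hφ]
  rw [s41kg_sum hrN]
  -- the `∞`-term
  have hinf : s29h_heckeHom N r A φ₁
      (Additive.ofMul (s29h_fam hrN γ (OnePoint.infty : OnePoint (ZMod r)))) =
      (r + 1) • φ₁ (Additive.ofMul γ) := by
    have hι := hF.1 γ hγr
    have hmem : ((s29h_fam hrN γ (OnePoint.infty : OnePoint (ZMod r)) : Gamma0 N) : SL(2, ℤ)) ∈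
        Gamma L₁ := by
      refine s41kg_mem_Gamma_of_iota hL₁q ?_
      rw [hι]
      exact s41k_conj_mem_Gam hr0 h2 hγG₂
    rw [s41kg_stepA hF φx φ₁ hφ h1 hI0 hI1 _ hmem, hι, hψ₂]
  have hj : ∀ j : ZMod r, s29h_heckeHom N r A φ₁
      (Additive.ofMul (s29h_fam hrN γ ((j : ZMod r) : OnePoint (ZMod r)))) =
      (r + 1) • φ₁ (Additive.ofMul γ) := by
    intro j
    have hι := hF.2 γ hγr j
    set γj := s41k_w⁻¹ * s41d_up ((j.val : ℕ) : ℚ) * s41e_iota (γ : SL(2, ℤ)) *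
      s41d_up (-((j.val : ℕ) : ℚ)) * s41k_w with hγj
    have hγjG : γj ∈ s41k_Gam q L₂ := by
      rw [hγj, s41kg_gamma_j]
      exact s41k_Gam_conj (s41k_iota_mem q _) hγG₂
    have hκ : s41e_conj r hr0 γj ∈ s41k_Gam q L₁ := s41k_conj_mem_Gam hr0 h2 hγjG
    have hmem : ((s29h_fam hrN γ ((j : ZMod r) : OnePoint (ZMod r)) : Gamma0 N) : SL(2, ℤ)) ∈
        Gamma L₁ := by
      refine s41kg_mem_Gamma_of_iota hL₁q ?_
      rw [hι]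
      exact s41k_Gam_conj (s41k_w_mem q) hκ
    rw [s41kg_stepA hF φx φ₁ hφ h1 hI0 hI1 _ hmem, hι]
    have e1 := hI1 ModularGroup.S _ hκ
    rw [← s41kg_w_eq_iota] at e1
    beta_reduce at e1
    rw [e1]
    have e2 := hI2 (ModularGroup.S⁻¹ * ModularGroup.T ^ ((j.val : ℕ) : ℤ)) _ hγG₂
    rw [← s41kg_gamma_j] at e2
    beta_reduce at e2
    rw [e2, hψ₂]
  rw [hinf, Finset.sum_congr rfl (fun j _ => hj j), Finset.sum_const, Finset.card_univ, ZMod.card]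
  conv_rhs => rw [add_smul, one_smul, add_comm]

/-- `χ = T_r² φ₁ - (r + 1)² φ₁` kills `Γ(L₂)`. -/
theorem s41kg_kills_deep (hF : s41kg_FamHyp N r hrN hr0) (φx : SL(2, ℚ) → A)
    (φ₁ : Additive (Gamma0 N) →+ A)
    (hφ : ∀ γ : Gamma0 N, φx (s41e_iota (γ : SL(2, ℤ))) = φ₁ (Additive.ofMul γ))
    {L L₁ L₂ : ℕ} (h1 : r * L ∣ L₁) (h2 : r * L₁ ∣ L₂) (hL₁q : Nat.Coprime L₁ q)
    (hI0 : s41kg_Inv q L φx) (hI1 : s41kg_Inv q L₁ (fun g => φx (s41e_conj r hr0 g)))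
    (hI2 : s41kg_Inv q L₂ (fun g => φx (s41e_conj r hr0 (s41e_conj r hr0 g))))
    (γ : Gamma0 N) (hγ : (γ : SL(2, ℤ)) ∈ Gamma L₂) :
    (s29h_heckeHom N r A (s29h_heckeHom N r A φ₁) - (r + 1) • (r + 1) • φ₁)
      (Additive.ofMul γ) = 0 := by
  rw [AddMonoidHom.sub_apply, s41kg_stepB hF φx φ₁ hφ h1 h2 hL₁q hI0 hI1 hI2 γ hγ]
  simp

end Deep

end Fermat.Agent.Lib.S41
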