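/-
S41 project, module [K] (helper8): **(K3) the commutator–trace trick**, stated relative to the
eigenvector lemma (K2) as an explicit hypothesis `hK2` (so that it can be plugged into
`KEigen.lean`'s `s41kb_kills_eigen_conj`).

For `g = [[a, b], [c, d]] ∈ Γ_L`, `μ ∈ ℤ[1/q]`, `w w' = 1`, `μ b = w - w'`: the element
`z = lo(μ) g lo(-μ) g⁻¹ ∈ Γ_L` has the eigenvector `(b, d + w)` with eigenvalue `w²`; hence (K2)
`ψ (τ z τ⁻¹) = 0` and `ψ (τ lo(μ) g lo(-μ) τ⁻¹) = ψ (τ g τ⁻¹)` for all `τ ∈ SL₂(ℤ[1/q])`.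
-/
import Mathlib
import Fermat.Agent.Lib.S41.KDefs

set_option autoImplicit false
set_option linter.unusedSimpArgs false

open Matrix MatrixGroups

namespace Fermat.Agent.Lib.S41

/-- `lo(μ) ∈ SL₂(ℤ[1/q])` for `μ ∈ ℤ[1/q]`. -/
theorem s41kbb_lo_mem {q : ℕ} {μ : ℚ} (hμ : μ ∈ s41e_R q) : s41d_lo μ ∈ s41e_G 1 q := by
  have := s41d_lo_mem (N := 1) (q := q) hμ
  simpa using this

theorem s41kbb_lo_inv (μ : ℚ) : (s41d_lo μ)⁻¹ = s41d_lo (-μ) := by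
  refine s41d_ext ?_ ?_ ?_ ?_ <;> simp [s41d_inv_00, s41d_inv_01, s41d_inv_10, s41d_inv_11]

/-- the eigenvector `(b, d + w)` of `z = lo(μ) g lo(-μ) g⁻¹`, eigenvalue `w²`: first coordinate. -/
theorem s41kbb_eigen_fst (g : SL(2, ℚ)) {μ w w' : ℚ} (hww : w * w' = 1)
    (h : μ * g.1 0 1 = w - w') :
    (s41d_lo μ * g * s41d_lo (-μ) * g⁻¹).1 0 0 * g.1 0 1 +
      (s41d_lo μ * g * s41d_lo (-μ) * g⁻¹).1 0 1 * (g.1 1 1 + w) = (w * w) * g.1 0 1 := by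
  have hdet := s41d_det g
  simp only [s41d_mul_00, s41d_mul_01, s41d_mul_10, s41d_mul_11, s41d_inv_00, s41d_inv_01,
    s41d_inv_10, s41d_inv_11, s41d_lo_00, s41d_lo_01, s41d_lo_10, s41d_lo_11]
  linear_combination g.1 0 1 * hdet + g.1 0 1 * w * h - g.1 0 1 * hww

/-- second coordinate. -/
theorem s41kbb_eigen_snd (g : SL(2, ℚ)) {μ w w' : ℚ} (hww : w * w' = 1)
    (h : μ * g.1 0 1 = w - w') :
    (s41d_lo μ * g * s41d_lo (-μ) * g⁻¹).1 1 0 * g.1 0 1 +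
      (s41d_lo μ * g * s41d_lo (-μ) * g⁻¹).1 1 1 * (g.1 1 1 + w) = (w * w) * (g.1 1 1 + w) := by
  have hdet := s41d_det g
  simp only [s41d_mul_00, s41d_mul_01, s41d_mul_10, s41d_mul_11, s41d_inv_00, s41d_inv_01,
    s41d_inv_10, s41d_inv_11, s41d_lo_00, s41d_lo_01, s41d_lo_10, s41d_lo_11]
  linear_combination (μ * g.1 0 1 + g.1 1 1 + w) * hdet +
    (1 + g.1 1 1 * w + (μ * g.1 0 1 + w - w') * w) * h - (g.1 1 1 + 2 * w - w') * hww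

/-- the case `b = 0`: then `z` is lower unipotent. -/
theorem s41kbb_trace_of_b_zero (g : SL(2, ℚ)) (μ : ℚ) (hb : g.1 0 1 = 0) :
    (s41d_lo μ * g * s41d_lo (-μ) * g⁻¹).1 0 0 + (s41d_lo μ * g * s41d_lo (-μ) * g⁻¹).1 1 1 = 2 := by
  have hdet := s41d_det g
  simp only [s41d_mul_00, s41d_mul_01, s41d_mul_10, s41d_mul_11, s41d_inv_00, s41d_inv_01,
    s41d_inv_10, s41d_inv_11, s41d_lo_00, s41d_lo_01, s41d_lo_10, s41d_lo_11, hb]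
  rw [hb] at hdet
  linear_combination 2 * hdet

/-- the trace is invariant under conjugation. -/
theorem s41kbb_trace_conj (τ e : SL(2, ℚ)) :
    (τ * e * τ⁻¹).1 0 0 + (τ * e * τ⁻¹).1 1 1 = e.1 0 0 + e.1 1 1 := by
  have hdet := s41d_det τ
  rw [s41d_mul_00, s41d_mul_11, s41d_mul_00, s41d_mul_01, s41d_mul_10, s41d_mul_11,
    s41d_inv_00, s41d_inv_01, s41d_inv_10, s41d_inv_11]
  linear_combination (e.1 0 0 + e.1 1 1) * hdet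

section

variable {q L : ℕ} {A : Type*} [AddCommGroup A] {ψ : SL(2, ℚ) → A}

/-- `z = lo(μ) g lo(-μ) g⁻¹ ∈ Γ_L`. -/
theorem s41kbb_z_mem {g : SL(2, ℚ)} (hg : g ∈ s41k_Gam q L) {μ : ℚ} (hμ : μ ∈ s41e_R q) :
    s41d_lo μ * g * s41d_lo (-μ) * g⁻¹ ∈ s41k_Gam q L := by
  have h1 : s41d_lo μ * g * s41d_lo (-μ) = s41d_lo μ * g * (s41d_lo μ)⁻¹ := by
    rw [s41kbb_lo_inv]
  rw [h1]
  exact (s41k_Gam q L).mul_mem (s41k_Gam_conj (s41kbb_lo_mem hμ) hg) ((s41k_Gam q L).inv_mem hg)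

/-- **(K3)** relative to (K2). -/
theorem s41kbb_comm_killed_of
    (hK2 : ∀ z ∈ s41k_Gam q L, ∀ x y lam : ℚ, (x ≠ 0 ∨ y ≠ 0) →
      z.1 0 0 * x + z.1 0 1 * y = lam * x → z.1 1 0 * x + z.1 1 1 * y = lam * y →
      ∀ τ ∈ s41e_G 1 q, ψ (τ * z * τ⁻¹) = 0)
    (hψ : s41k_Adm q L ψ) {g : SL(2, ℚ)} (hg : g ∈ s41k_Gam q L) {μ w w' : ℚ}
    (hμ : μ ∈ s41e_R q) (hww : w * w' = 1) (h : μ * g.1 0 1 = w - w') :
    ∀ τ ∈ s41e_G 1 q, ψ (τ * s41d_lo μ * g * s41d_lo (-μ) * τ⁻¹) = ψ (τ * g * τ⁻¹) := by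
  intro τ hτ
  set z := s41d_lo μ * g * s41d_lo (-μ) * g⁻¹ with hz
  have hzmem : z ∈ s41k_Gam q L := s41kbb_z_mem hg hμ
  have hzero : ψ (τ * z * τ⁻¹) = 0 := by
    by_cases hb : g.1 0 1 = 0
    · refine hψ.2 _ (s41k_Gam_conj hτ hzmem) ?_
      rw [s41kbb_trace_conj]
      exact s41kbb_trace_of_b_zero g μ hb
    · exact hK2 z hzmem (g.1 0 1) (g.1 1 1 + w) (w * w) (Or.inl hb)
        (s41kbb_eigen_fst g hww h) (s41kbb_eigen_snd g hww h) τ hτ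
  have e1 : τ * s41d_lo μ * g * s41d_lo (-μ) * τ⁻¹ = (τ * z * τ⁻¹) * (τ * g * τ⁻¹) := by
    rw [hz]; group
  rw [e1, hψ.1 _ (s41k_Gam_conj hτ hzmem) _ (s41k_Gam_conj hτ hg), hzero, zero_add]

end

end Fermat.Agent.Lib.S41
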