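/-
S41 project, module [K], file KF (helper8): **the Hecke operator `T_r^H` evaluated on `Γ(r)`** (H2).

For `γ ∈ Γ₀(N)` with `γ ∈ Γ(r)` (`r` prime, `r ∤ N`) the coset permutation `heckePermT r γ` is the
identity, and the coset family `s29h_fam hrN γ x` is `α_x γ α_x⁻¹`:
* `x = ∞`  : `ι (γ'_∞) = κ_r (ι γ)`                                   (`s41kf_fam_infty`);
* `x = j`  : `ι (γ'_j) = ι S * κ_r (ι σ_j * ι γ * (ι σ_j)⁻¹) * (ι S)⁻¹`   (`s41kf_fam_coe`),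
  with `S = [[0, -1], [1, 0]]`, `σ_j = S⁻¹ T^j = [[0, 1], [-1, -j]]` in `SL(2, ℤ)`, `κ_r = s41e_conj r`.
Hence (H2) `s41kf_hecke_eval_fam` (any `χ`), `s41kf_hecke_eval` (for `φ₁ = φ ∘ ι`), and the depth
statement `s41kf_fam_mem_Gamma`: `γ ∈ Γ(L')`, `r L ∣ L'` ⇒ `γ'_x ∈ Γ(L)`.
-/
import Mathlib
import Fermat.Agent.Lib.S29.HDefs
import Fermat.Agent.Lib.S41.KDefs

set_option autoImplicit false
set_option linter.unusedSimpArgs false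

open Matrix MatrixGroups CongruenceSubgroup

namespace Fermat.Agent.Lib.S41

open Fermat.Agent.Lib.S29 Fermat.Agent.Lib.ES
open P2MW.S_ModularForm_heckeT_slash_eq_self_of_mem_Gamma0.ModularForm.HeckeSlashInvariance
open scoped OnePoint

/-! ### Generalities -/

/-- `Γ(L)` in terms of divisibility. -/
theorem s41kf_Gamma_mem_iff (L : ℕ) (g : SL(2, ℤ)) :
    g ∈ Gamma L ↔ (L : ℤ) ∣ g.1 0 0 - 1 ∧ (L : ℤ) ∣ g.1 0 1 ∧ (L : ℤ) ∣ g.1 1 0 ∧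
      (L : ℤ) ∣ g.1 1 1 - 1 := by
  rw [Gamma_mem]
  have h1 : ∀ a : ℤ, ((a : ℤ) : ZMod L) = 1 ↔ (L : ℤ) ∣ a - 1 := by
    intro a
    rw [← ZMod.intCast_zmod_eq_zero_iff_dvd]
    push_cast
    exact sub_eq_zero.symm
  rw [h1, h1, ZMod.intCast_zmod_eq_zero_iff_dvd, ZMod.intCast_zmod_eq_zero_iff_dvd]

/-- `ι (Γ(L)) ⊂ Γ_L`. -/
theorem s41kf_iota_mem_Gam (q : ℕ) {L : ℕ} {σ : SL(2, ℤ)} (hσ : σ ∈ Gamma L) :
    s41e_iota σ ∈ s41k_Gam q L := by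
  rw [s41kf_Gamma_mem_iff] at hσ
  obtain ⟨⟨k00, h00⟩, ⟨k01, h01⟩, ⟨k10, h10⟩, ⟨k11, h11⟩⟩ := hσ
  refine ⟨⟨k00, s41e_int_mem_R q _, ?_⟩, ⟨k01, s41e_int_mem_R q _, ?_⟩,
    ⟨k10, s41e_int_mem_R q _, ?_⟩, ⟨k11, s41e_int_mem_R q _, ?_⟩⟩
  · rw [s41e_iota_apply]; exact_mod_cast h00
  · rw [s41e_iota_apply]; exact_mod_cast h01
  · rw [s41e_iota_apply]; exact_mod_cast h10
  · rw [s41e_iota_apply]; exact_mod_cast h11

/-- sums over the projective line. -/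
theorem s41kf_sum_onePoint {α M : Type*} [Fintype α] [AddCommMonoid M] (f : OnePoint α → M) :
    ∑ x : OnePoint α, f x = f ∞ + ∑ a : α, f (a : OnePoint α) :=
  Fintype.sum_option f

/-- `S = [[0, -1], [1, 0]]`. -/
def s41kf_S : SL(2, ℤ) := ⟨!![0, -1; 1, 0], by rw [Matrix.det_fin_two_of]; ring⟩

/-- `σ_j = S⁻¹ T^j = [[0, 1], [-1, -j]]`. -/
def s41kf_sig (j : ℤ) : SL(2, ℤ) := ⟨!![0, 1; -1, -j], by rw [Matrix.det_fin_two_of]; ring⟩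

@[simp] theorem s41kf_S_00 : s41kf_S.1 0 0 = 0 := rfl
@[simp] theorem s41kf_S_01 : s41kf_S.1 0 1 = -1 := rfl
@[simp] theorem s41kf_S_10 : s41kf_S.1 1 0 = 1 := rfl
@[simp] theorem s41kf_S_11 : s41kf_S.1 1 1 = 0 := rfl
@[simp] theorem s41kf_sig_00 (j : ℤ) : (s41kf_sig j).1 0 0 = 0 := rfl
@[simp] theorem s41kf_sig_01 (j : ℤ) : (s41kf_sig j).1 0 1 = 1 := rfl
@[simp] theorem s41kf_sig_10 (j : ℤ) : (s41kf_sig j).1 1 0 = -1 := rfl
@[simp] theorem s41kf_sig_11 (j : ℤ) : (s41kf_sig j).1 1 1 = -j := rfl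

theorem s41kf_S_eq : s41kf_S = ModularGroup.S := by
  ext i j
  fin_cases i <;> fin_cases j <;> simp [ModularGroup.S]

theorem s41kf_sig_eq (j : ℤ) : s41kf_sig j = ModularGroup.S⁻¹ * ModularGroup.T ^ j := by
  ext i k
  rw [Matrix.SpecialLinearGroup.coe_mul, ModularGroup.coe_T_zpow,
    Matrix.SpecialLinearGroup.coe_inv, Matrix.adjugate_fin_two]
  fin_cases i <;> fin_cases k <;> simp [ModularGroup.S, Matrix.mul_apply, Fin.sum_univ_two]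

/-- `ι S = w`. -/
theorem s41kf_iota_S : s41e_iota s41kf_S = s41k_w := by
  refine s41d_ext ?_ ?_ ?_ ?_ <;> simp [s41e_iota_apply]

theorem s41kf_conj_00 (r : ℕ) (hr : r ≠ 0) (g : SL(2, ℚ)) :
    (s41e_conj r hr g).1 0 0 = g.1 0 0 := rfl
theorem s41kf_conj_01 (r : ℕ) (hr : r ≠ 0) (g : SL(2, ℚ)) :
    (s41e_conj r hr g).1 0 1 = (r : ℚ) * g.1 0 1 := rfl
theorem s41kf_conj_10 (r : ℕ) (hr : r ≠ 0) (g : SL(2, ℚ)) :
    (s41e_conj r hr g).1 1 0 = g.1 1 0 / (r : ℚ) := rfl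
theorem s41kf_conj_11 (r : ℕ) (hr : r ≠ 0) (g : SL(2, ℚ)) :
    (s41e_conj r hr g).1 1 1 = g.1 1 1 := rfl

/-! ### The permutation is trivial on `Γ(r)` -/

section

variable {r : ℕ} [Fact r.Prime]

theorem s41kf_redMatrix_eq_one {γ : SL(2, ℤ)} (hγ : γ ∈ Gamma r) : redMatrix r γ = 1 := by
  rw [Gamma_mem] at hγ
  obtain ⟨h00, h01, h10, h11⟩ := hγ
  apply Matrix.GeneralLinearGroup.ext
  intro i j
  fin_cases i <;> fin_cases j <;>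
    simp [redMatrix_apply_zero_zero, redMatrix_apply_zero_one, redMatrix_apply_one_zero,
      redMatrix_apply_one_one, h00, h01, h10, h11]

theorem s41kf_permT_eq {γ : SL(2, ℤ)} (hγ : γ ∈ Gamma r) (x : OnePoint (ZMod r)) :
    heckePermT r γ x = x := by
  rw [heckePermT_apply, s41kf_redMatrix_eq_one hγ, one_smul]

end

/-! ### The entries of the coset family -/

section Fam

variable {N r : ℕ} [Fact r.Prime] (hrN : ¬ r ∣ N) (γ : Gamma0 N)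

/-- entries of `γ'_∞`. -/
theorem s41kf_fam_infty_entries (hγ : (γ : SL(2, ℤ)) ∈ Gamma r) :
    ((s29h_fam hrN γ ∞ : Gamma0 N) : SL(2, ℤ)).1 0 0 = (γ : SL(2, ℤ)).1 0 0 ∧
    ((s29h_fam hrN γ ∞ : Gamma0 N) : SL(2, ℤ)).1 0 1 = (r : ℤ) * (γ : SL(2, ℤ)).1 0 1 ∧
    (r : ℤ) * ((s29h_fam hrN γ ∞ : Gamma0 N) : SL(2, ℤ)).1 1 0 = (γ : SL(2, ℤ)).1 1 0 ∧
    ((s29h_fam hrN γ ∞ : Gamma0 N) : SL(2, ℤ)).1 1 1 = (γ : SL(2, ℤ)).1 1 1 := by
  have hr0 : (r : ℤ) ≠ 0 := by exact_mod_cast (Fact.out : r.Prime).ne_zero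
  have h := s29h_fam_spec hrN γ ∞
  rw [s41kf_permT_eq hγ] at h
  have e00 := congrFun (congrFun h 0) 0
  have e01 := congrFun (congrFun h 0) 1
  have e10 := congrFun (congrFun h 1) 0
  have e11 := congrFun (congrFun h 1) 1
  simp only [heckeRepZ, OnePoint.elim_infty, heckeDiagZ, Matrix.mul_apply, Fin.sum_univ_two,
    Matrix.of_apply, Matrix.cons_val', Matrix.cons_val_zero, Matrix.cons_val_one,
    Matrix.empty_val', Matrix.cons_val_fin_one, mul_zero, zero_mul, add_zero, zero_add, mul_one,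
    one_mul] at e00 e01 e10 e11
  refine ⟨?_, ?_, ?_, ?_⟩
  · exact (mul_left_cancel₀ hr0 (by linarith)).symm
  · linarith
  · linarith
  · linarith

/-- entries of `γ'_j`. -/
theorem s41kf_fam_coe_entries (hγ : (γ : SL(2, ℤ)) ∈ Gamma r) (j : ZMod r) :
    ((s29h_fam hrN γ (j : OnePoint (ZMod r)) : Gamma0 N) : SL(2, ℤ)).1 0 0 =
      (γ : SL(2, ℤ)).1 0 0 + (j.val : ℤ) * (γ : SL(2, ℤ)).1 1 0 ∧
    (r : ℤ) * ((s29h_fam hrN γ (j : OnePoint (ZMod r)) : Gamma0 N) : SL(2, ℤ)).1 0 1 =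
      (γ : SL(2, ℤ)).1 0 1 + (j.val : ℤ) * ((γ : SL(2, ℤ)).1 1 1 - (γ : SL(2, ℤ)).1 0 0) -
        (j.val : ℤ) * (j.val : ℤ) * (γ : SL(2, ℤ)).1 1 0 ∧
    ((s29h_fam hrN γ (j : OnePoint (ZMod r)) : Gamma0 N) : SL(2, ℤ)).1 1 0 =
      (r : ℤ) * (γ : SL(2, ℤ)).1 1 0 ∧
    ((s29h_fam hrN γ (j : OnePoint (ZMod r)) : Gamma0 N) : SL(2, ℤ)).1 1 1 =
      (γ : SL(2, ℤ)).1 1 1 - (j.val : ℤ) * (γ : SL(2, ℤ)).1 1 0 := by
  have hr0 : (r : ℤ) ≠ 0 := by exact_mod_cast (Fact.out : r.Prime).ne_zero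
  have h := s29h_fam_spec hrN γ (j : OnePoint (ZMod r))
  rw [s41kf_permT_eq hγ] at h
  have e00 := congrFun (congrFun h 0) 0
  have e01 := congrFun (congrFun h 0) 1
  have e10 := congrFun (congrFun h 1) 0
  have e11 := congrFun (congrFun h 1) 1
  simp only [heckeRepZ, OnePoint.elim_some, heckeMatZ, Matrix.mul_apply, Fin.sum_univ_two,
    Matrix.of_apply, Matrix.cons_val', Matrix.cons_val_zero, Matrix.cons_val_one,
    Matrix.empty_val', Matrix.cons_val_fin_one, mul_zero, zero_mul, add_zero, zero_add, mul_one,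
    one_mul] at e00 e01 e10 e11
  set g' := ((s29h_fam hrN γ (j : OnePoint (ZMod r)) : Gamma0 N) : SL(2, ℤ)) with hg'
  have h00 : g'.1 0 0 = (γ : SL(2, ℤ)).1 0 0 + (j.val : ℤ) * (γ : SL(2, ℤ)).1 1 0 := by
    linarith
  have h10 : g'.1 1 0 = (r : ℤ) * (γ : SL(2, ℤ)).1 1 0 := by linarith
  refine ⟨h00, ?_, h10, ?_⟩
  · have : g'.1 0 1 * (r : ℤ) = (γ : SL(2, ℤ)).1 0 1 + (j.val : ℤ) * (γ : SL(2, ℤ)).1 1 1 -
        g'.1 0 0 * (j.val : ℤ) := by linarith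
    rw [mul_comm, this, h00]
    ring
  · have : g'.1 1 1 * (r : ℤ) = (r : ℤ) * (γ : SL(2, ℤ)).1 1 1 - g'.1 1 0 * (j.val : ℤ) := by
      linarith
    rw [h10] at this
    apply mul_right_cancel₀ hr0
    rw [this]
    ring

/-- `ι (γ'_∞) = κ_r (ι γ)`. -/
theorem s41kf_fam_infty (hγ : (γ : SL(2, ℤ)) ∈ Gamma r) :
    s41e_iota ((s29h_fam hrN γ ∞ : Gamma0 N) : SL(2, ℤ)) =
      s41e_conj r (Fact.out : r.Prime).ne_zero (s41e_iota (γ : SL(2, ℤ))) := by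
  have hr0 : (r : ℚ) ≠ 0 := by exact_mod_cast (Fact.out : r.Prime).ne_zero
  obtain ⟨h00, h01, h10, h11⟩ := s41kf_fam_infty_entries hrN γ hγ
  refine s41d_ext ?_ ?_ ?_ ?_
  · rw [s41kf_conj_00, s41e_iota_apply, s41e_iota_apply, h00]
  · rw [s41kf_conj_01, s41e_iota_apply, s41e_iota_apply, h01]; push_cast; ring
  · rw [s41kf_conj_10, s41e_iota_apply, s41e_iota_apply, ← h10]; push_cast; field_simp
  · rw [s41kf_conj_11, s41e_iota_apply, s41e_iota_apply, h11]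

/-- `ι (γ'_j) = ι S * κ_r (ι σ_j * ι γ * (ι σ_j)⁻¹) * (ι S)⁻¹`. -/
theorem s41kf_fam_coe (hγ : (γ : SL(2, ℤ)) ∈ Gamma r) (j : ZMod r) :
    s41e_iota ((s29h_fam hrN γ (j : OnePoint (ZMod r)) : Gamma0 N) : SL(2, ℤ)) =
      s41e_iota s41kf_S * s41e_conj r (Fact.out : r.Prime).ne_zero
        (s41e_iota (s41kf_sig (j.val : ℤ)) * s41e_iota (γ : SL(2, ℤ)) *
          (s41e_iota (s41kf_sig (j.val : ℤ)))⁻¹) * (s41e_iota s41kf_S)⁻¹ := by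
  have hr0 : (r : ℚ) ≠ 0 := by exact_mod_cast (Fact.out : r.Prime).ne_zero
  obtain ⟨h00, h01, h10, h11⟩ := s41kf_fam_coe_entries hrN γ hγ j
  have h01' : (r : ℚ) *
      ((((s29h_fam hrN γ (j : OnePoint (ZMod r)) : Gamma0 N) : SL(2, ℤ)).1 0 1 : ℤ) : ℚ) =
      (((γ : SL(2, ℤ)).1 0 1 : ℤ) : ℚ) + (j.val : ℚ) * ((((γ : SL(2, ℤ)).1 1 1 : ℤ) : ℚ) -
        (((γ : SL(2, ℤ)).1 0 0 : ℤ) : ℚ)) -
        (j.val : ℚ) * (j.val : ℚ) * (((γ : SL(2, ℤ)).1 1 0 : ℤ) : ℚ) := by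
    exact_mod_cast h01
  refine s41d_ext ?_ ?_ ?_ ?_
  · simp only [s41d_mul_00, s41d_mul_01, s41d_mul_10, s41d_mul_11, s41d_inv_00, s41d_inv_01,
      s41d_inv_10, s41d_inv_11, s41kf_conj_00, s41kf_conj_01, s41kf_conj_10, s41kf_conj_11,
      s41e_iota_apply, s41kf_S_00, s41kf_S_01, s41kf_S_10, s41kf_S_11, s41kf_sig_00, s41kf_sig_01,
      s41kf_sig_10, s41kf_sig_11, h00]
    push_cast
    ring
  · simp only [s41d_mul_00, s41d_mul_01, s41d_mul_10, s41d_mul_11, s41d_inv_00, s41d_inv_01,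
      s41d_inv_10, s41d_inv_11, s41kf_conj_00, s41kf_conj_01, s41kf_conj_10, s41kf_conj_11,
      s41e_iota_apply, s41kf_S_00, s41kf_S_01, s41kf_S_10, s41kf_S_11, s41kf_sig_00, s41kf_sig_01,
      s41kf_sig_10, s41kf_sig_11]
    push_cast
    field_simp
    linear_combination h01'
  · simp only [s41d_mul_00, s41d_mul_01, s41d_mul_10, s41d_mul_11, s41d_inv_00, s41d_inv_01,
      s41d_inv_10, s41d_inv_11, s41kf_conj_00, s41kf_conj_01, s41kf_conj_10, s41kf_conj_11,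
      s41e_iota_apply, s41kf_S_00, s41kf_S_01, s41kf_S_10, s41kf_S_11, s41kf_sig_00, s41kf_sig_01,
      s41kf_sig_10, s41kf_sig_11, h10]
    push_cast
    ring
  · simp only [s41d_mul_00, s41d_mul_01, s41d_mul_10, s41d_mul_11, s41d_inv_00, s41d_inv_01,
      s41d_inv_10, s41d_inv_11, s41kf_conj_00, s41kf_conj_01, s41kf_conj_10, s41kf_conj_11,
      s41e_iota_apply, s41kf_S_00, s41kf_S_01, s41kf_S_10, s41kf_S_11, s41kf_sig_00, s41kf_sig_01,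
      s41kf_sig_10, s41kf_sig_11, h11]
    push_cast
    ring

/-- **depth**: `γ ∈ Γ(L')`, `r L ∣ L'` ⇒ `γ'_x ∈ Γ(L)`. -/
theorem s41kf_fam_mem_Gamma (hγ : (γ : SL(2, ℤ)) ∈ Gamma r) {L L' : ℕ} (h : r * L ∣ L')
    (hγ' : (γ : SL(2, ℤ)) ∈ Gamma L') (x : OnePoint (ZMod r)) :
    ((s29h_fam hrN γ x : Gamma0 N) : SL(2, ℤ)) ∈ Gamma L := by
  have hr0 : (r : ℤ) ≠ 0 := by exact_mod_cast (Fact.out : r.Prime).ne_zero
  rw [s41kf_Gamma_mem_iff] at hγ' ⊢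
  have hrL : ((r : ℤ) * (L : ℤ)) ∣ (L' : ℤ) := by exact_mod_cast h
  have hL : (L : ℤ) ∣ (L' : ℤ) := (Dvd.intro_left _ rfl).trans hrL
  obtain ⟨g00, g01, g10, g11⟩ := hγ'
  induction x using OnePoint.rec with
  | infty =>
    obtain ⟨h00, h01, h10, h11⟩ := s41kf_fam_infty_entries hrN γ hγ
    refine ⟨?_, ?_, ?_, ?_⟩
    · rw [h00]; exact hL.trans g00
    · rw [h01]; exact Dvd.dvd.mul_left (hL.trans g01) _
    · have : (r : ℤ) * (L : ℤ) ∣ (r : ℤ) *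
          ((s29h_fam hrN γ ∞ : Gamma0 N) : SL(2, ℤ)).1 1 0 := by
        rw [h10]; exact hrL.trans g10
      exact (mul_dvd_mul_iff_left hr0).mp this
    · rw [h11]; exact hL.trans g11
  | coe j =>
    obtain ⟨h00, h01, h10, h11⟩ := s41kf_fam_coe_entries hrN γ hγ j
    refine ⟨?_, ?_, ?_, ?_⟩
    · rw [h00]
      have : (γ : SL(2, ℤ)).1 0 0 + (j.val : ℤ) * (γ : SL(2, ℤ)).1 1 0 - 1 =
          ((γ : SL(2, ℤ)).1 0 0 - 1) + (j.val : ℤ) * (γ : SL(2, ℤ)).1 1 0 := by ring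
      rw [this]
      exact dvd_add (hL.trans g00) (Dvd.dvd.mul_left (hL.trans g10) _)
    · have : (r : ℤ) * (L : ℤ) ∣ (r : ℤ) *
          ((s29h_fam hrN γ (j : OnePoint (ZMod r)) : Gamma0 N) : SL(2, ℤ)).1 0 1 := by
        rw [h01]
        have e : (γ : SL(2, ℤ)).1 0 1 + (j.val : ℤ) * ((γ : SL(2, ℤ)).1 1 1 -
            (γ : SL(2, ℤ)).1 0 0) - (j.val : ℤ) * (j.val : ℤ) * (γ : SL(2, ℤ)).1 1 0 =
            (γ : SL(2, ℤ)).1 0 1 + ((j.val : ℤ) * ((γ : SL(2, ℤ)).1 1 1 - 1) -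
              (j.val : ℤ) * ((γ : SL(2, ℤ)).1 0 0 - 1)) -
              (j.val : ℤ) * (j.val : ℤ) * (γ : SL(2, ℤ)).1 1 0 := by ring
        rw [e]
        exact dvd_sub (dvd_add (hrL.trans g01) (dvd_sub (Dvd.dvd.mul_left (hrL.trans g11) _)
          (Dvd.dvd.mul_left (hrL.trans g00) _))) (Dvd.dvd.mul_left (hrL.trans g10) _)
      exact (mul_dvd_mul_iff_left hr0).mp this
    · rw [h10]; exact Dvd.dvd.mul_left (hL.trans g10) _
    · rw [h11]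
      have : (γ : SL(2, ℤ)).1 1 1 - (j.val : ℤ) * (γ : SL(2, ℤ)).1 1 0 - 1 =
          ((γ : SL(2, ℤ)).1 1 1 - 1) - (j.val : ℤ) * (γ : SL(2, ℤ)).1 1 0 := by ring
      rw [this]
      exact dvd_sub (hL.trans g11) (Dvd.dvd.mul_left (hL.trans g10) _)

/-! ### (H2) -/

variable {A : Type*} [AddCommGroup A]

/-- **(H2) for a general `χ`**: on `Γ(r)` the Hecke operator is the sum over the (trivially permuted)
coset family. -/
theorem s41kf_hecke_eval_fam (χ : Additive (Gamma0 N) →+ A) :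
    s29h_heckeHom N r A χ (Additive.ofMul γ) =
      χ (Additive.ofMul (s29h_fam hrN γ ∞)) +
        ∑ j : ZMod r, χ (Additive.ofMul (s29h_fam hrN γ (j : OnePoint (ZMod r)))) := by
  rw [s29h_heckeHom_apply hrN, s41kf_sum_onePoint]

include hrN in
/-- **(H2)**: `(T_r φ₁)(γ) = φ(κ_r(ι γ)) + ∑_j φ(ι S · κ_r(ι σ_j · ι γ · (ι σ_j)⁻¹) · (ι S)⁻¹)` for
`γ ∈ Γ₀(N) ∩ Γ(r)`. -/
theorem s41kf_hecke_eval {q : ℕ} (φ : Additive ↥(s41e_G N q) →+ A)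
    (φ₁ : Additive (Gamma0 N) →+ A)
    (h1 : ∀ γ : Gamma0 N, φ (Additive.ofMul
      (⟨s41e_iota γ, s41e_iota_mem_G q γ.2⟩ : ↥(s41e_G N q))) = φ₁ (Additive.ofMul γ))
    (hγ : (γ : SL(2, ℤ)) ∈ Gamma r) :
    s29h_heckeHom N r A φ₁ (Additive.ofMul γ) =
      s41k_ext φ (s41e_conj r (Fact.out : r.Prime).ne_zero (s41e_iota (γ : SL(2, ℤ)))) +
        ∑ j : ZMod r, s41k_ext φ (s41e_iota s41kf_S * s41e_conj r (Fact.out : r.Prime).ne_zero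
          (s41e_iota (s41kf_sig (j.val : ℤ)) * s41e_iota (γ : SL(2, ℤ)) *
            (s41e_iota (s41kf_sig (j.val : ℤ)))⁻¹) * (s41e_iota s41kf_S)⁻¹) := by
  have key : ∀ δ : Gamma0 N, φ₁ (Additive.ofMul δ) = s41k_ext φ (s41e_iota (δ : SL(2, ℤ))) := by
    intro δ
    rw [s41k_ext_of_mem φ (s41e_iota_mem_G q δ.2), h1]
  rw [s41kf_hecke_eval_fam hrN γ φ₁, key, s41kf_fam_infty hrN γ hγ]
  congr 1
  refine Finset.sum_congr rfl fun j _ => ?_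
  rw [key, s41kf_fam_coe hrN γ hγ j]

end Fam

end Fermat.Agent.Lib.S41
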