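/-
S41 project, module [K] (helper8): bridge from `KHecke.lean` to the hypothesis `s41kg_FamHyp` of
`KDeep.lean`.
-/
import Mathlib
import Fermat.Agent.Lib.S41.KHecke
import Fermat.Agent.Lib.S41.KDeep

set_option autoImplicit false
set_option linter.unusedSimpArgs false

open Matrix MatrixGroups CongruenceSubgroup

namespace Fermat.Agent.Lib.S41

open Fermat.Agent.Lib.S29

/-- `ι σ_j = w⁻¹ · up(j)`. -/
theorem s41kf_iota_sig (j : ℕ) :
    s41e_iota (s41kf_sig (j : ℤ)) = s41k_w⁻¹ * s41d_up (j : ℚ) := by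
  refine s41d_ext ?_ ?_ ?_ ?_ <;>
    simp [s41e_iota_apply, s41d_mul_00, s41d_mul_01, s41d_mul_10, s41d_mul_11, s41d_inv_00,
      s41d_inv_01, s41d_inv_10, s41d_inv_11]

/-- `(ι σ_j)⁻¹ = up(-j) · w`. -/
theorem s41kf_iota_sig_inv (j : ℕ) :
    (s41e_iota (s41kf_sig (j : ℤ)))⁻¹ = s41d_up (-(j : ℚ)) * s41k_w := by
  refine s41d_ext ?_ ?_ ?_ ?_ <;>
    simp [s41e_iota_apply, s41d_mul_00, s41d_mul_01, s41d_mul_10, s41d_mul_11, s41d_inv_00,
      s41d_inv_01, s41d_inv_10, s41d_inv_11]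

/-- **the hypothesis `s41kg_FamHyp` of `KDeep.lean` holds.** -/
theorem s41kf_famHyp (N r : ℕ) [Fact r.Prime] (hrN : ¬ r ∣ N) (hr0 : r ≠ 0) :
    s41kg_FamHyp N r hrN hr0 := by
  refine ⟨fun γ hγ => s41kf_fam_infty hrN γ hγ, fun γ hγ j => ?_⟩
  have h := s41kf_fam_coe hrN γ hγ j
  rw [s41kf_iota_S, s41kf_iota_sig_inv, s41kf_iota_sig] at h
  rw [h]
  simp only [mul_assoc]

end Fermat.Agent.Lib.S41
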