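/-
S41 project, module [K], file KUnip (helper9, work order KE of the [K] plan).

(H1) `s41ke_kills_trace_two`: a homomorphism `φ : Γ₀(N)[1/q] → A` into a group killed by a prime
`p ≠ q`, whose restriction `φ₁` to `Γ₀(N)` is a parabolic homomorphism, kills EVERY element of trace
`2` of `Γ₀(N)[1/q]` (a trace-`2` element `u` satisfies `u^m = 1 + m (u - 1)`, so `u^(q^k)` lies in
`ι(Γ₀(N))` for `k` large, and has trace `2`; hence `q^k • φ u = 0`).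

Packaging: the extension by zero `s41k_ext φ` is admissible (`s41k_Adm`) of every level `L` divisible
by `N`, and so are its composites with `κ_r = s41e_conj r` on deeper levels
(`s41ke_adm_ext`, `s41ke_adm_ext_conj`, `s41ke_adm_ext_conj2`).
-/
import Mathlib
import Fermat.Prelude.Def_ModularCurve_PeriodMap
import Fermat.Agent.Lib.S41.KDefs

set_option autoImplicit false

open Matrix MatrixGroups CongruenceSubgroup

namespace Fermat.Agent.Lib.S41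

open ModularCurve.Period

/-- powers of a trace-`2` element: `u^m = 1 + m (u - 1)`, entrywise. -/
theorem s41ke_pow_of_trace_two (u : SL(2, ℚ)) (htr : u.1 0 0 + u.1 1 1 = 2) (m : ℕ) :
    (u ^ m).1 0 0 = 1 + (m : ℚ) * (u.1 0 0 - 1) ∧ (u ^ m).1 0 1 = (m : ℚ) * u.1 0 1 ∧
      (u ^ m).1 1 0 = (m : ℚ) * u.1 1 0 ∧ (u ^ m).1 1 1 = 1 + (m : ℚ) * (u.1 1 1 - 1) := by
  have hdet := s41d_det u
  induction m with
  | zero => simp
  | succ m ih =>
    obtain ⟨h00, h01, h10, h11⟩ := ih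
    rw [pow_succ]
    refine ⟨?_, ?_, ?_, ?_⟩
    · rw [s41d_mul_00, h00, h01]
      push_cast
      linear_combination (-(m : ℚ)) * hdet + (m : ℚ) * u.1 0 0 * htr
    · rw [s41d_mul_01, h00, h01]
      push_cast
      linear_combination (m : ℚ) * u.1 0 1 * htr
    · rw [s41d_mul_10, h10, h11]
      push_cast
      linear_combination (m : ℚ) * u.1 1 0 * htr
    · rw [s41d_mul_11, h10, h11]
      push_cast
      linear_combination (-(m : ℚ)) * hdet + (m : ℚ) * u.1 1 1 * htr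

/-- an element of `ℤ[1/q]` becomes an integer after multiplication by every large power of `q`. -/
theorem s41ke_clear_denominator {q : ℕ} {x : ℚ} (hx : x ∈ s41e_R q) :
    ∃ k : ℕ, ∀ k' : ℕ, k ≤ k' → ∃ m : ℤ, (q : ℚ) ^ k' * x = m := by
  obtain ⟨k, m, hkm⟩ := hx
  refine ⟨k, fun k' hk' => ⟨m * (q : ℤ) ^ (k' - k), ?_⟩⟩
  obtain ⟨j, rfl⟩ := Nat.exists_eq_add_of_le hk'
  rw [Nat.add_sub_cancel_left]
  push_cast
  rw [← hkm]
  ring

section

variable {N q : ℕ} {A : Type*} [AddCommGroup A]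

theorem s41ke_phi_pow (φ : Additive ↥(s41e_G N q) →+ A) (g : ↥(s41e_G N q)) (m : ℕ) :
    φ (Additive.ofMul (g ^ m)) = m • φ (Additive.ofMul g) := by
  rw [ofMul_pow, map_nsmul]

/-- **(H1)** `φ` kills every trace-`2` element of `Γ₀(N)[1/q]`. -/
theorem s41ke_kills_trace_two (hq : q.Prime) {p : ℕ} (hp : p.Prime) (hpq : p ≠ q)
    (hA : ∀ a : A, p • a = 0) (φ : Additive ↥(s41e_G N q) →+ A)
    (φ₁ : Additive (Gamma0 N) →+ A)
    (h1 : ∀ γ : Gamma0 N, φ (Additive.ofMul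
      (⟨s41e_iota γ, s41e_iota_mem_G q γ.2⟩ : ↥(s41e_G N q))) = φ₁ (Additive.ofMul γ))
    (hpar : IsParabolicHom (Gamma0 N) φ₁) (u : ↥(s41e_G N q))
    (htr : u.1.1 0 0 + u.1.1 1 1 = 2) : φ (Additive.ofMul u) = 0 := by
  obtain ⟨hent, r, hr, hur⟩ := u.2
  have h00 : u.1.1 0 0 - 1 ∈ s41e_R q := (s41e_R q).sub_mem (hent 0 0) (s41e_R q).one_mem
  have h11 : u.1.1 1 1 - 1 ∈ s41e_R q := (s41e_R q).sub_mem (hent 1 1) (s41e_R q).one_mem
  obtain ⟨k0, hk0⟩ := s41ke_clear_denominator h00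
  obtain ⟨k1, hk1⟩ := s41ke_clear_denominator (hent 0 1)
  obtain ⟨k2, hk2⟩ := s41ke_clear_denominator hr
  obtain ⟨k3, hk3⟩ := s41ke_clear_denominator h11
  set k := k0 + k1 + k2 + k3 with hk
  obtain ⟨a, ha⟩ := hk0 k (by omega)
  obtain ⟨b, hb⟩ := hk1 k (by omega)
  obtain ⟨c, hc⟩ := hk2 k (by omega)
  obtain ⟨d, hd⟩ := hk3 k (by omega)
  obtain ⟨p00, p01, p10, p11⟩ := s41ke_pow_of_trace_two u.1 htr (q ^ k)
  push_cast at p00 p01 p10 p11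
  rw [ha] at p00
  rw [hb] at p01
  rw [hur, ← mul_assoc, mul_comm _ (N : ℚ), mul_assoc, hc] at p10
  rw [hd] at p11
  -- the integral matrix
  have hdetQ := s41d_det (u.1 ^ (q ^ k))
  rw [p00, p01, p10, p11] at hdetQ
  have hdetZ : (1 + a) * (1 + d) - b * ((N : ℤ) * c) = 1 := by exact_mod_cast hdetQ
  let γ : SL(2, ℤ) := ⟨!![1 + a, b; (N : ℤ) * c, 1 + d], by
    rw [Matrix.det_fin_two_of]; exact hdetZ⟩
  have hγ0 : γ ∈ Gamma0 N := by
    rw [Gamma0_mem]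
    show (((N : ℤ) * c : ℤ) : ZMod N) = 0
    push_cast
    simp
  have hγu : s41e_iota γ = u.1 ^ (q ^ k) := by
    refine s41d_ext ?_ ?_ ?_ ?_
    · rw [s41e_iota_apply, p00]; show (((1 + a : ℤ)) : ℚ) = _; push_cast; ring
    · rw [s41e_iota_apply, p01]; rfl
    · rw [s41e_iota_apply, p10]; show ((((N : ℤ) * c : ℤ)) : ℚ) = _; push_cast; ring
    · rw [s41e_iota_apply, p11]; show (((1 + d : ℤ)) : ℚ) = _; push_cast; ring
  have htrZ : (((⟨γ, hγ0⟩ : Gamma0 N) : SL(2, ℤ)) : Matrix (Fin 2) (Fin 2) ℤ).trace ^ 2 = 4 := by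
    rw [Matrix.trace_fin_two]
    show ((1 + a) + (1 + d)) ^ 2 = 4
    have : ((a : ℚ)) + (d : ℚ) = 0 := by
      rw [← ha, ← hd]
      linear_combination (q : ℚ) ^ k * htr
    have had : a + d = 0 := by exact_mod_cast this
    have : (1 + a) + (1 + d) = 2 := by linarith
    rw [this]; norm_num
  have hzero := hpar ⟨γ, hγ0⟩ htrZ
  rw [← h1] at hzero
  have hpow : (⟨s41e_iota γ, s41e_iota_mem_G q hγ0⟩ : ↥(s41e_G N q)) = u ^ (q ^ k) :=
    Subtype.ext (by show s41e_iota γ = _; rw [hγu]; rfl)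
  rw [hpow, s41ke_phi_pow] at hzero
  -- coprimality
  have hcop : Nat.Coprime (q ^ k) p :=
    Nat.Coprime.pow_left k ((Nat.coprime_primes hq hp).mpr (Ne.symm hpq))
  have hbez := Nat.gcd_eq_gcd_ab (q ^ k) p
  rw [hcop] at hbez
  have : φ (Additive.ofMul u) = ((1 : ℕ) : ℤ) • φ (Additive.ofMul u) := by simp
  rw [this, hbez, add_smul, mul_comm, mul_smul, mul_comm, mul_smul, natCast_zsmul, natCast_zsmul,
    hzero, hA, smul_zero, smul_zero, add_zero]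

/-- `s41k_ext φ` is admissible of every level divisible by `N`. -/
theorem s41ke_adm_ext (hq : q.Prime) {p : ℕ} (hp : p.Prime) (hpq : p ≠ q)
    (hA : ∀ a : A, p • a = 0) (φ : Additive ↥(s41e_G N q) →+ A)
    (φ₁ : Additive (Gamma0 N) →+ A)
    (h1 : ∀ γ : Gamma0 N, φ (Additive.ofMul
      (⟨s41e_iota γ, s41e_iota_mem_G q γ.2⟩ : ↥(s41e_G N q))) = φ₁ (Additive.ofMul γ))
    (hpar : IsParabolicHom (Gamma0 N) φ₁) {L : ℕ} (hNL : N ∣ L) :
    s41k_Adm q L (s41k_ext φ) := by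
  refine ⟨fun g hg h hh => s41k_ext_mul φ (s41k_Gam_le_G hNL hg) (s41k_Gam_le_G hNL hh),
    fun u hu htr => ?_⟩
  rw [s41k_ext_of_mem φ (s41k_Gam_le_G hNL hu)]
  exact s41ke_kills_trace_two hq hp hpq hA φ φ₁ h1 hpar ⟨u, s41k_Gam_le_G hNL hu⟩ htr

/-- `s41k_ext φ ∘ κ_r` is admissible of level `L₁` when `N ∣ L` and `r L ∣ L₁`. -/
theorem s41ke_adm_ext_conj (hq : q.Prime) {p : ℕ} (hp : p.Prime) (hpq : p ≠ q)
    (hA : ∀ a : A, p • a = 0) (φ : Additive ↥(s41e_G N q) →+ A)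
    (φ₁ : Additive (Gamma0 N) →+ A)
    (h1 : ∀ γ : Gamma0 N, φ (Additive.ofMul
      (⟨s41e_iota γ, s41e_iota_mem_G q γ.2⟩ : ↥(s41e_G N q))) = φ₁ (Additive.ofMul γ))
    (hpar : IsParabolicHom (Gamma0 N) φ₁) {L L₁ r : ℕ} (hNL : N ∣ L) (hr : r ≠ 0)
    (hL₁ : r * L ∣ L₁) :
    s41k_Adm q L₁ (fun g => s41k_ext φ (s41e_conj r hr g)) :=
  s41k_Adm_conj hr hL₁ (s41ke_adm_ext hq hp hpq hA φ φ₁ h1 hpar hNL)

/-- `s41k_ext φ ∘ κ_r ∘ κ_r` is admissible of level `L₂` when `N ∣ L`, `r L ∣ L₁`, `r L₁ ∣ L₂`. -/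
theorem s41ke_adm_ext_conj2 (hq : q.Prime) {p : ℕ} (hp : p.Prime) (hpq : p ≠ q)
    (hA : ∀ a : A, p • a = 0) (φ : Additive ↥(s41e_G N q) →+ A)
    (φ₁ : Additive (Gamma0 N) →+ A)
    (h1 : ∀ γ : Gamma0 N, φ (Additive.ofMul
      (⟨s41e_iota γ, s41e_iota_mem_G q γ.2⟩ : ↥(s41e_G N q))) = φ₁ (Additive.ofMul γ))
    (hpar : IsParabolicHom (Gamma0 N) φ₁) {L L₁ L₂ r : ℕ} (hNL : N ∣ L) (hr : r ≠ 0)
    (hL₁ : r * L ∣ L₁) (hL₂ : r * L₁ ∣ L₂) :
    s41k_Adm q L₂ (fun g => s41k_ext φ (s41e_conj r hr (s41e_conj r hr g))) :=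
  s41k_Adm_conj hr hL₂ (s41ke_adm_ext_conj hq hp hpq hA φ φ₁ h1 hpar hNL hr hL₁)

end

end Fermat.Agent.Lib.S41
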