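/-
S41 project, module [K], file KMain (helper4): **K-MAIN**.

For `φ : Γ₀(N)[1/q] → A` (`p • A = 0`, `p ≠ q`) restricting to a parabolic `φ₁` on `Γ₀(N)`, and primes
`ℓ ∤ N`, `r ∤ N q`:  `χ := T_r (T_r φ₁) - (r + 1)² φ₁` satisfies `T_ℓ χ = (ℓ + 1) χ`.

Ingredients: three good levels `N r ∣ L`, `r L ∣ L₁`, `r L₁ ∣ L₂` (`KArith`); the three germs
`ψ₀ = φ`, `ψ₁ = φ ∘ κ_r`, `ψ₂ = φ ∘ κ_r ∘ κ_r` are admissible (`KUnip`), hence central (Theorem C,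
`hC`); so `χ` kills `Γ(L₂)` (`KDeep`); `χ` is parabolic (`HStab`), hence kills `Γ₁(N)` (`KCongZ`), hence
is Eisenstein (`DHecke`).
-/
import Mathlib
import Fermat.Agent.Lib.S41.KDefs
import Fermat.Agent.Lib.S41.KMainDef
import Fermat.Agent.Lib.S41.KArith
import Fermat.Agent.Lib.S41.KUnip
import Fermat.Agent.Lib.S41.KDeep
import Fermat.Agent.Lib.S41.KFam
import Fermat.Agent.Lib.S41.KCongZ
import Fermat.Agent.Lib.S41.DHecke
import Fermat.Agent.Lib.S29.HStab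

set_option autoImplicit false

open Matrix MatrixGroups CongruenceSubgroup

namespace Fermat.Agent.Lib.S41

open Fermat.Agent.Lib.S29 Fermat.Agent.Lib.ES ModularCurve.Period

theorem s41ki_parabolic_smul {N : ℕ} {A : Type*} [AddCommGroup A] {χ : Additive (Gamma0 N) →+ A}
    (hχ : IsParabolicHom (Gamma0 N) χ) (n : ℕ) : IsParabolicHom (Gamma0 N) (n • χ) := by
  intro γ hγ
  rw [AddMonoidHom.smul_apply, hχ γ hγ, smul_zero]

theorem s41ki_parabolic_sub {N : ℕ} {A : Type*} [AddCommGroup A] {χ ψ : Additive (Gamma0 N) →+ A}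
    (hχ : IsParabolicHom (Gamma0 N) χ) (hψ : IsParabolicHom (Gamma0 N) ψ) :
    IsParabolicHom (Gamma0 N) (χ - ψ) := by
  intro γ hγ
  rw [AddMonoidHom.sub_apply, hχ γ hγ, hψ γ hγ, sub_zero]

/-- **K-MAIN**, from Theorem C (`hC`) and the description of the coset family (`hF`). -/
theorem s41ki_kmain_of (hC : s41k_Central)
    (hF : ∀ (N r : ℕ) [Fact r.Prime] (hrN : ¬ r ∣ N) (hr0 : r ≠ 0), s41kg_FamHyp N r hrN hr0) :
    s41ki_KMain := by
  intro N q _ hq hNq p hp hpq A _ hA φ φ₁ h1 hpar ℓ r _ hrF hℓN hrN hrq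
  have hr : r.Prime := hrF.out
  have hr0 : r ≠ 0 := hr.ne_zero
  have hN0 : N ≠ 0 := NeZero.ne N
  have hrq' : Nat.Coprime r q := (Nat.coprime_primes hr hq).mpr hrq
  -- the three levels
  obtain ⟨L, hL, hNrL⟩ := s41ka_good_exists hq (Nat.mul_ne_zero hN0 hr0)
    (Nat.Coprime.mul_left hNq hrq')
  have hLq : Nat.Coprime L q := s41ka_good_coprime hL
  have hL0 : L ≠ 0 := s41ka_good_ne_zero hq hL
  obtain ⟨L₁, hL₁, h1L⟩ := s41ka_good_exists hq (Nat.mul_ne_zero hr0 hL0)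
    (Nat.Coprime.mul_left hrq' hLq)
  have hL₁q : Nat.Coprime L₁ q := s41ka_good_coprime hL₁
  have hL₁0 : L₁ ≠ 0 := s41ka_good_ne_zero hq hL₁
  obtain ⟨L₂, hL₂, h2L⟩ := s41ka_good_exists hq (Nat.mul_ne_zero hr0 hL₁0)
    (Nat.Coprime.mul_left hrq' hL₁q)
  have hL₂0 : L₂ ≠ 0 := s41ka_good_ne_zero hq hL₂
  have hNL : N ∣ L := (Dvd.intro _ rfl).trans hNrL
  -- the three germs are central
  have hI0 : s41kg_Inv q L (s41k_ext φ) :=
    hC q L A _ hq hL (s41ke_adm_ext hq hp hpq hA φ φ₁ h1 hpar hNL)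
  have hI1 : s41kg_Inv q L₁ (fun g => s41k_ext φ (s41e_conj r hr0 g)) :=
    hC q L₁ A _ hq hL₁ (s41ke_adm_ext_conj hq hp hpq hA φ φ₁ h1 hpar hNL hr0 h1L)
  have hI2 : s41kg_Inv q L₂ (fun g => s41k_ext φ (s41e_conj r hr0 (s41e_conj r hr0 g))) :=
    hC q L₂ A _ hq hL₂ (s41ke_adm_ext_conj2 hq hp hpq hA φ φ₁ h1 hpar hNL hr0 h1L h2L)
  have hφ : ∀ γ : Gamma0 N, s41k_ext φ (s41e_iota (γ : SL(2, ℤ))) = φ₁ (Additive.ofMul γ) := by
    intro γ
    rw [s41k_ext_of_mem φ (s41e_iota_mem_G q γ.2), h1]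
  -- `χ` kills `Γ(L₂)`
  set χ : Additive (Gamma0 N) →+ A :=
    s29h_heckeHom N r A (s29h_heckeHom N r A φ₁) - (r + 1) • (r + 1) • φ₁ with hχ
  have hkill : ∀ γ : Gamma0 N, (γ : SL(2, ℤ)) ∈ Gamma L₂ → χ (Additive.ofMul γ) = 0 := fun γ hγ =>
    s41kg_kills_deep (hF N r hrN hr0) (s41k_ext φ) φ₁ hφ h1L h2L hL₁q hI0 hI1 hI2 γ hγ
  -- `χ` is parabolic
  have hχpar : IsParabolicHom (Gamma0 N) χ :=
    s41ki_parabolic_sub (s29h_heckeHom_isParabolic (s29h_heckeHom_isParabolic hpar))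
      (s41ki_parabolic_smul (s41ki_parabolic_smul hpar _) _)
  exact s41d_hecke_eisenstein hℓN χ (s41kh_cong χ hχpar hL₂0 hkill)

/-- **K-MAIN**, from Theorem C alone (the description of the coset family is `KFam.lean`). -/
theorem s41ki_kmain_of_central (hC : s41k_Central) : s41ki_KMain :=
  s41ki_kmain_of hC (fun N r _ hrN hr0 => s41kf_famHyp N r hrN hr0)

end Fermat.Agent.Lib.S41
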