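/-
S41 project, module [K], file KFinal (helper4): the unconditional end products of the [K] route.

* `s41ki_kmain : s41ki_KMain`   (K-MAIN: `(T_ℓ - (ℓ + 1)) (T_r² - (r + 1)²) φ₁ = 0`);
* `s41_ihara2 : s41_Ihara2`     (the weak Ihara lemma `(T² - s²)² x = 0` on the kernel of
                                 `res_A + res_B`).
-/
import Mathlib
import Fermat.Agent.Lib.S41.KMain
import Fermat.Agent.Lib.S41.KCentral
import Fermat.Agent.Lib.S41.DIhara2

set_option autoImplicit false

namespace Fermat.Agent.Lib.S41

/-- **K-MAIN**, unconditionally. -/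
theorem s41ki_kmain : s41ki_KMain := s41ki_kmain_of_central s41kc_central

/-- **the weak Ihara lemma**, unconditionally. -/
theorem s41_ihara2 : s41_Ihara2 := s41_ihara2_of_kmain s41ki_kmain

end Fermat.Agent.Lib.S41
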