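/-
S41 project, module [K], file KLoOne (helper3): from `lo μ ∈ Inv(g)` and `j μ ≡ 1` modulo `L ℤ[1/q]` to
`lo 1 ∈ Inv(g)` (the last arithmetic step of Theorem C).
-/
import Mathlib
import Fermat.Agent.Lib.S41.KCent2
import Fermat.Agent.Lib.S41.DKills

set_option autoImplicit false

open Matrix MatrixGroups

namespace Fermat.Agent.Lib.S41

theorem s41ka_lo_zero : s41d_lo 0 = 1 := by
  apply s41d_ext <;> simp

theorem s41ka_lo_neg (x : ℚ) : s41d_lo (-x) = (s41d_lo x)⁻¹ := by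
  rw [eq_inv_iff_mul_eq_one, ← s41d_lo_add, neg_add_cancel, s41ka_lo_zero]

theorem s41ka_lo_nat_mul (n : ℕ) (x : ℚ) : s41d_lo ((n : ℚ) * x) = (s41d_lo x) ^ n := by
  induction n with
  | zero => simp [s41ka_lo_zero]
  | succ n ih =>
    rw [pow_succ, ← ih, ← s41d_lo_add]
    congr 1
    push_cast
    ring

theorem s41ka_lo_int_mul (j : ℤ) (x : ℚ) : s41d_lo ((j : ℚ) * x) = (s41d_lo x) ^ j := by
  cases j with
  | ofNat n =>
    simp only [Int.ofNat_eq_natCast, Int.cast_natCast, zpow_natCast]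
    exact s41ka_lo_nat_mul n x
  | negSucc n =>
    rw [zpow_negSucc, ← s41ka_lo_nat_mul, ← s41ka_lo_neg]
    congr 1
    rw [Int.cast_negSucc]
    push_cast
    ring

/-- `lo x ∈ Γ_L` for `x ∈ L ℤ[1/q]`. -/
theorem s41ka_lo_mem_Gam {q L : ℕ} {x : ℚ} (hx : s41k_LR q L x) : s41d_lo x ∈ s41k_Gam q L := by
  refine ⟨?_, ?_, ?_, ?_⟩
  · simpa using s41k_LR_zero q L
  · simpa using s41k_LR_zero q L
  · simpa using hx
  · simpa using s41k_LR_zero q L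

/-- `up x ∈ Γ_L` for `x ∈ L ℤ[1/q]`. -/
theorem s41ka_up_mem_Gam {q L : ℕ} {x : ℚ} (hx : s41k_LR q L x) : s41d_up x ∈ s41k_Gam q L := by
  refine ⟨?_, ?_, ?_, ?_⟩
  · simpa using s41k_LR_zero q L
  · simpa using hx
  · simpa using s41k_LR_zero q L
  · simpa using s41k_LR_zero q L

/-- **the last arithmetic step of Theorem C**: if `lo μ ∈ Inv(g)` and `j μ ≡ 1` modulo `L ℤ[1/q]`
for an integer `j`, then `lo 1 ∈ Inv(g)`. -/
theorem s41ka_lo_one_mem_Inv {q L : ℕ} {A : Type*} [AddCommGroup A] {ψ : SL(2, ℚ) → A}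
    (hψ : s41k_Adm q L ψ) {g : SL(2, ℚ)} (hg : g ∈ s41k_Gam q L) {μ : ℚ}
    (hμ : s41d_lo μ ∈ s41kc_Inv q ψ g) {j : ℤ} (hj : s41k_LR q L ((j : ℚ) * μ - 1)) :
    s41d_lo 1 ∈ s41kc_Inv q ψ g := by
  have h1 : s41d_lo 1 = (s41d_lo μ) ^ j * s41d_lo (1 - (j : ℚ) * μ) := by
    rw [← s41ka_lo_int_mul, ← s41d_lo_add]
    congr 1
    ring
  rw [h1]
  refine (s41kc_Inv q ψ g).mul_mem ((s41kc_Inv q ψ g).zpow_mem hμ j) ?_
  apply s41kc_Gam_le_Inv hψ hg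
  apply s41ka_lo_mem_Gam
  have h2 : 1 - (j : ℚ) * μ = -((j : ℚ) * μ - 1) := by ring
  rw [h2]
  exact s41k_LR_neg hj

end Fermat.Agent.Lib.S41
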